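import Mathlib

/-!
# A lattice-index computation for `p`-th power classes

Pure group theory.  For a homomorphism `f : A →* D` of commutative groups such that the
`p`-th power map of `D` is injective, a subgroup `T ≤ D`, and `P = f.range` of finite index,

  `[f⁻¹(D^p ⊔ T) : A^p] = [ker f : ker f ⊓ A^p] * [T : T ⊓ D^p] * [D : D^p ⊔ T ⊔ P]`.

This is the count behind the Selmer-group / `S`-unit exact sequence
`1 → O_S^×/p → K(S,p) → Cl_S[p] → 1`.
-/

namespace Fermat.Agent.CFT.Global.IndexLattice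

open Subgroup

variable {A D : Type*} [CommGroup A] [CommGroup D]

/-- The subgroup of `p`-th powers of a commutative group. -/
abbrev powSub (G : Type*) [CommGroup G] (p : ℕ) : Subgroup G :=
  (powMonoidHom p : G →* G).range

theorem mem_powSub {G : Type*} [CommGroup G] {p : ℕ} {x : G} :
    x ∈ powSub G p ↔ ∃ y : G, y ^ p = x := Iff.rfl

theorem pow_mem_powSub {G : Type*} [CommGroup G] (p : ℕ) (y : G) : y ^ p ∈ powSub G p :=
  ⟨y, rfl⟩

theorem map_powSub (f : A →* D) (p : ℕ) :
    (powSub A p).map f = (f.range).map (powMonoidHom p : D →* D) := by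
  ext d
  constructor
  · rintro ⟨_, ⟨a, rfl⟩, rfl⟩
    exact ⟨f a, ⟨a, rfl⟩, by simp⟩
  · rintro ⟨_, ⟨a, rfl⟩, rfl⟩
    exact ⟨a ^ p, ⟨a, rfl⟩, by simp⟩

theorem relIndex_comap_comap (f : A →* D) (X Y : Subgroup D) :
    (X.comap f).relIndex (Y.comap f) = X.relIndex (f.range ⊓ Y) := by
  rw [Subgroup.relIndex_comap, Subgroup.map_comap_eq]

section DSide

variable (p : ℕ) (P T : Subgroup D)

/-- The `p`-torsion of `D ⧸ P`, counted. -/
noncomputable abbrev kappa : ℕ := Nat.card (powMonoidHom p : D ⧸ P →* D ⧸ P).ker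

theorem map_mk_comap_pow :
    ((P.comap (powMonoidHom p : D →* D)).map (QuotientGroup.mk' P)) =
      (powMonoidHom p : D ⧸ P →* D ⧸ P).ker := by
  ext x
  obtain ⟨d, rfl⟩ := QuotientGroup.mk'_surjective P x
  simp only [Subgroup.mem_map, Subgroup.mem_comap, powMonoidHom_apply, MonoidHom.mem_ker]
  constructor
  · rintro ⟨e, he, hed⟩
    rw [← hed, ← map_pow]
    exact (QuotientGroup.eq_one_iff _).mpr he
  · intro h
    refine ⟨d, ?_, rfl⟩
    rw [← map_pow] at h
    exact (QuotientGroup.eq_one_iff _).mp h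

theorem relIndex_comap_pow :
    P.relIndex (P.comap (powMonoidHom p : D →* D)) = kappa p P := by
  have h := Subgroup.relIndex_ker (K := P.comap (powMonoidHom p : D →* D)) (QuotientGroup.mk' P)
  rw [QuotientGroup.ker_mk', map_mk_comap_pow] at h
  exact h

theorem relIndex_map_pow_inf (hinj : Function.Injective (powMonoidHom p : D →* D)) :
    (P.map (powMonoidHom p : D →* D)).relIndex (P ⊓ powSub D p) = kappa p P := by
  have h1 : P ⊓ powSub D p = (P.comap (powMonoidHom p : D →* D)).map (powMonoidHom p) := by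
    rw [Subgroup.map_comap_eq, inf_comm]
  rw [h1, Subgroup.relIndex_map_map_of_injective _ _ hinj, relIndex_comap_pow]

theorem sup_powSub_eq_comap :
    P ⊔ powSub D p = (powSub (D ⧸ P) p).comap (QuotientGroup.mk' P) := by
  have h : (powSub D p).map (QuotientGroup.mk' P) = powSub (D ⧸ P) p := by
    ext x
    constructor
    · rintro ⟨_, ⟨d, rfl⟩, rfl⟩
      exact ⟨QuotientGroup.mk' P d, by simp⟩
    · rintro ⟨y, rfl⟩
      obtain ⟨d, rfl⟩ := QuotientGroup.mk'_surjective P y
      exact ⟨d ^ p, ⟨d, rfl⟩, by simp⟩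
  rw [← h, Subgroup.comap_map_eq, QuotientGroup.ker_mk', sup_comm]

theorem index_sup_powSub [P.FiniteIndex] : (P ⊔ powSub D p).index = kappa p P := by
  rw [sup_powSub_eq_comap, Subgroup.index_comap_of_surjective _ (QuotientGroup.mk'_surjective P)]
  exact Subgroup.index_range

/-- The `D`-side count. -/
theorem relIndex_map_pow_inf_sup [P.FiniteIndex]
    (hinj : Function.Injective (powMonoidHom p : D →* D)) :
    (P.map (powMonoidHom p : D →* D)).relIndex (P ⊓ (powSub D p ⊔ T)) =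
      (powSub D p).relIndex T * (powSub D p ⊔ T ⊔ P).index := by
  set Dp := powSub D p with hDp
  set X := Dp ⊔ T with hX
  set Y := Dp ⊔ T ⊔ P with hY
  have hDpX : Dp ≤ X := le_sup_left
  have hPp : P.map (powMonoidHom p : D →* D) ≤ P ⊓ Dp := by
    rintro _ ⟨d, hd, rfl⟩
    exact ⟨by simpa using P.pow_mem hd p, ⟨d, rfl⟩⟩
  have hα := relIndex_map_pow_inf p P hinj
  -- `β := [P ⊓ X : P ⊓ Dp] = [(P ⊔ Dp) ⊓ X : Dp]`
  have hβ : (P ⊓ Dp).relIndex (P ⊓ X) = Dp.relIndex ((P ⊔ Dp) ⊓ X) := by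
    have e1 : P ⊓ Dp = Dp ⊓ (P ⊓ X) := by
      rw [inf_comm Dp, inf_assoc, inf_eq_right.mpr hDpX]
    have e2 : (P ⊔ Dp) ⊓ X = (P ⊓ X) ⊔ Dp := by
      rw [sup_comm P Dp, sup_inf_assoc_of_le P hDpX, sup_comm]
    rw [e1, Subgroup.inf_relIndex_right, e2, Subgroup.relIndex_sup_right]
  -- `τ = β * ρ`
  have hτ : Dp.relIndex T = Dp.relIndex ((P ⊔ Dp) ⊓ X) * (P ⊔ Dp).relIndex Y := by
    have e3 : Dp.relIndex X = Dp.relIndex T := by
      rw [hX, sup_comm, Subgroup.relIndex_sup_right]
    have e4 : ((P ⊔ Dp) ⊓ X).relIndex X = (P ⊔ Dp).relIndex Y := by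
      rw [Subgroup.inf_relIndex_right]
      have : Y = X ⊔ (P ⊔ Dp) := by
        rw [hY, hX]
        apply le_antisymm
        · exact sup_le (sup_le (le_sup_of_le_left le_sup_left) (le_sup_of_le_left le_sup_right))
            (le_sup_of_le_right le_sup_left)
        · exact sup_le (sup_le (le_sup_of_le_left le_sup_left) (le_sup_of_le_left le_sup_right))
            (sup_le le_sup_right (le_sup_of_le_left le_sup_left))
      rw [this, Subgroup.relIndex_sup_right]
    rw [← e3, ← e4]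
    exact (Subgroup.relIndex_mul_relIndex Dp ((P ⊔ Dp) ⊓ X) X
      (le_inf le_sup_right hDpX) inf_le_right).symm
  -- `κ = ρ * ι`
  have hκ : kappa p P = (P ⊔ Dp).relIndex Y * Y.index := by
    rw [← index_sup_powSub p P]
    refine (Subgroup.relIndex_mul_index ?_).symm
    rw [hY]
    exact sup_le le_sup_right (le_sup_of_le_left le_sup_left)
  calc (P.map (powMonoidHom p : D →* D)).relIndex (P ⊓ X)
      = (P.map (powMonoidHom p : D →* D)).relIndex (P ⊓ Dp) * (P ⊓ Dp).relIndex (P ⊓ X) :=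
        (Subgroup.relIndex_mul_relIndex _ _ _ hPp (inf_le_inf_left P hDpX)).symm
    _ = kappa p P * Dp.relIndex ((P ⊔ Dp) ⊓ X) := by rw [hα, hβ]
    _ = Dp.relIndex T * Y.index := by rw [hκ, hτ]; ring

end DSide

/-- **Lattice-index count.**  `[f⁻¹(D^p ⊔ T) : A^p] = [ker f : A^p ⊓ ker f] * [T : T ⊓ D^p] *
[D : D^p ⊔ T ⊔ range f]`. -/
theorem relIndex_powSub_comap (f : A →* D) (p : ℕ) (T : Subgroup D) [f.range.FiniteIndex]
    (hinj : Function.Injective (powMonoidHom p : D →* D)) :
    (powSub A p).relIndex ((powSub D p ⊔ T).comap f) =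
      (powSub A p).relIndex f.ker * (powSub D p).relIndex T *
        (powSub D p ⊔ T ⊔ f.range).index := by
  have h1 : powSub A p ≤ powSub A p ⊔ f.ker := le_sup_left
  have h2 : powSub A p ⊔ f.ker = ((powSub A p).map f).comap f := (Subgroup.comap_map_eq _ _).symm
  have h3 : powSub A p ⊔ f.ker ≤ (powSub D p ⊔ T).comap f := by
    rw [h2]
    apply Subgroup.comap_mono
    rw [map_powSub]
    rintro _ ⟨d, _, rfl⟩
    exact Subgroup.mem_sup_left ⟨d, rfl⟩
  rw [← Subgroup.relIndex_mul_relIndex _ _ _ h1 h3, Subgroup.relIndex_sup_left,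
    h2, relIndex_comap_comap, map_powSub, relIndex_map_pow_inf_sup p f.range T hinj,
    mul_assoc]

end Fermat.Agent.CFT.Global.IndexLattice
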