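import Mathlib

/-!
# Units of a number field modulo `p`-th powers

`[(𝓞 K)ˣ : ((𝓞 K)ˣ)^p] = p ^ rank K * gcd (torsionOrder K) p` (Dirichlet's unit theorem).
-/

namespace Fermat.Agent.CFT.Global.UnitsModPow

open NumberField NumberField.Units

section Generic

/-- The index of the `p`-th powers is invariant under isomorphism. -/
theorem index_pow_range_mulEquiv {G H : Type*} [CommGroup G] [CommGroup H] (e : G ≃* H) (p : ℕ) :
    (powMonoidHom p : G →* G).range.index = (powMonoidHom p : H →* H).range.index := by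
  have h : (powMonoidHom p : G →* G).range.map (e : G →* H) = (powMonoidHom p : H →* H).range := by
    ext x
    constructor
    · rintro ⟨_, ⟨g, rfl⟩, rfl⟩
      exact ⟨e g, by simp⟩
    · rintro ⟨y, rfl⟩
      exact ⟨e.symm y ^ p, ⟨e.symm y, rfl⟩, by simp⟩
  rw [← h, Subgroup.index_map_equiv]

/-- The index of the `p`-th powers is multiplicative in products. -/
theorem index_pow_range_prod (M N : Type*) [CommGroup M] [CommGroup N] (p : ℕ) :
    (powMonoidHom p : M × N →* M × N).range.index =
      (powMonoidHom p : M →* M).range.index * (powMonoidHom p : N →* N).range.index := by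
  have h : (powMonoidHom p : M × N →* M × N).range =
      ((powMonoidHom p : M →* M).range).prod ((powMonoidHom p : N →* N).range) := by
    ext ⟨m, n⟩
    constructor
    · rintro ⟨⟨a, b⟩, hab⟩
      simp only [powMonoidHom_apply, Prod.pow_mk, Prod.mk.injEq] at hab
      exact ⟨⟨a, hab.1⟩, ⟨b, hab.2⟩⟩
    · rintro ⟨⟨a, ha⟩, ⟨b, hb⟩⟩
      refine ⟨(a, b), ?_⟩
      simp only [powMonoidHom_apply] at ha hb
      simp [ha, hb]
  rw [h, Subgroup.index_prod]

/-- `[ℤ^ι : p ℤ^ι] = p^|ι|`, multiplicatively written. -/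
theorem index_pow_range_int_pi (ι : Type*) [Fintype ι] (p : ℕ) [NeZero p] :
    (powMonoidHom p : Multiplicative (ι → ℤ) →* Multiplicative (ι → ℤ)).range.index =
      p ^ Fintype.card ι := by
  let ψ : (ι → ℤ) →+ (ι → ZMod p) := (Int.castAddHom (ZMod p)).compLeft ι
  let Ψ : Multiplicative (ι → ℤ) →* Multiplicative (ι → ZMod p) :=
    AddMonoidHom.toMultiplicative ψ
  have hsurj : Function.Surjective Ψ := by
    intro y
    refine ⟨Multiplicative.ofAdd fun i => ((Multiplicative.toAdd y i).val : ℤ), ?_⟩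
    apply Multiplicative.toAdd.injective
    funext i
    change (((Multiplicative.toAdd y i).val : ℤ) : ZMod p) = Multiplicative.toAdd y i
    simp
  have hker : (powMonoidHom p : Multiplicative (ι → ℤ) →* Multiplicative (ι → ℤ)).range =
      Ψ.ker := by
    ext x
    constructor
    · rintro ⟨y, rfl⟩
      rw [MonoidHom.mem_ker]
      apply Multiplicative.toAdd.injective
      funext i
      change ((Multiplicative.toAdd (y ^ p) i : ℤ) : ZMod p) = 0
      simp [toAdd_pow]
    · intro hx
      rw [MonoidHom.mem_ker] at hx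
      have hx' : ∀ i, ((Multiplicative.toAdd x i : ℤ) : ZMod p) = 0 := fun i =>
        congrFun (congrArg Multiplicative.toAdd hx) i
      have hdvd : ∀ i, (p : ℤ) ∣ Multiplicative.toAdd x i := fun i =>
        (ZMod.intCast_zmod_eq_zero_iff_dvd _ _).mp (hx' i)
      choose c hc using hdvd
      refine ⟨Multiplicative.ofAdd c, ?_⟩
      apply Multiplicative.toAdd.injective
      funext i
      simp only [powMonoidHom_apply, toAdd_pow, toAdd_ofAdd, Pi.smul_apply, nsmul_eq_mul]
      rw [hc i]
  rw [hker, Subgroup.index_ker, MonoidHom.range_eq_top.mpr hsurj, Subgroup.card_top,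
    Nat.card_congr Multiplicative.toAdd, Nat.card_fun, Nat.card_zmod, Nat.card_eq_fintype_card]

end Generic

variable (K : Type*) [Field K] [NumberField K]

/-- `(ζ, e) ↦ ζ * ∏ i, u_i ^ e_i` for a fundamental system of units `u_i`. -/
noncomputable def unitsHom : torsion K × Multiplicative (Fin (rank K) → ℤ) →* (𝓞 K)ˣ where
  toFun x := (x.1 : (𝓞 K)ˣ) * ∏ i, fundSystem K i ^ (Multiplicative.toAdd x.2 i)
  map_one' := by simp
  map_mul' x y := by
    simp only [Prod.fst_mul, Prod.snd_mul, Subgroup.coe_mul, toAdd_mul, Pi.add_apply, zpow_add,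
      Finset.prod_mul_distrib]
    rw [mul_mul_mul_comm]

theorem unitsHom_bijective : Function.Bijective (unitsHom K) := by
  constructor
  · intro x y h
    obtain ⟨c, -, hc⟩ := exist_unique_eq_mul_prod K (unitsHom K x)
    have hx := hc (x.1, Multiplicative.toAdd x.2) rfl
    have hy := hc (y.1, Multiplicative.toAdd y.2) h
    have hxy := hx.trans hy.symm
    rw [Prod.mk.injEq] at hxy
    exact Prod.ext hxy.1 (Multiplicative.toAdd.injective hxy.2)
  · intro u
    obtain ⟨c, hc, -⟩ := exist_unique_eq_mul_prod K u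
    exact ⟨(c.1, Multiplicative.ofAdd c.2), hc.symm⟩

/-- The units of `𝓞 K` are `torsion × ℤ^rank`. -/
noncomputable def unitsEquiv : torsion K × Multiplicative (Fin (rank K) → ℤ) ≃* (𝓞 K)ˣ :=
  MulEquiv.ofBijective (unitsHom K) (unitsHom_bijective K)

/-- **(U1)** `[(𝓞 K)ˣ : ((𝓞 K)ˣ)^p] = p ^ rank K * gcd (torsionOrder K) p`. -/
theorem index_pow_range_units (p : ℕ) [NeZero p] :
    (powMonoidHom p : (𝓞 K)ˣ →* (𝓞 K)ˣ).range.index = p ^ rank K * (torsionOrder K).gcd p := by
  rw [← index_pow_range_mulEquiv (unitsEquiv K) p, index_pow_range_prod, index_pow_range_int_pi,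
    IsCyclic.index_powMonoidHom_range, mul_comm, Fintype.card_fin]
  rfl

omit [NumberField K] in
/-- If `K` contains a primitive `p`-th root of unity, `p` divides the order of the torsion. -/
theorem dvd_torsionOrder_of_isPrimitiveRoot {p : ℕ} [NeZero p] {ζ : K} (hζ : IsPrimitiveRoot ζ p) :
    p ∣ torsionOrder K := by
  have hint : IsIntegral ℤ ζ := hζ.isIntegral (NeZero.pos p)
  let z : 𝓞 K := ⟨ζ, hint⟩
  have hz : IsPrimitiveRoot z p := by
    have : (algebraMap (𝓞 K) K) z = ζ := rfl
    exact IsPrimitiveRoot.of_map_of_injective (f := algebraMap (𝓞 K) K)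
      (this ▸ hζ) RingOfIntegers.coe_injective
  have hu : IsUnit z := hz.isUnit (NeZero.ne p)
  obtain ⟨u, hu⟩ := hu
  have hu' : IsPrimitiveRoot u p := by
    have : ((u : (𝓞 K)ˣ) : 𝓞 K) = z := hu
    exact IsPrimitiveRoot.coe_units_iff.mp (this ▸ hz)
  have hmem : u ∈ torsion K := by
    rw [torsion, CommGroup.mem_torsion]
    exact isOfFinOrder_iff_pow_eq_one.mpr ⟨p, NeZero.pos p, hu'.pow_eq_one⟩
  have hord : orderOf (⟨u, hmem⟩ : torsion K) = p := by
    rw [Subgroup.orderOf_mk, ← hu'.eq_orderOf]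
  rw [← hord]
  exact orderOf_dvd_natCard _

/-- **(U1')** If `K` contains a primitive `p`-th root of unity (`p` prime), the units modulo
`p`-th powers have order `p ^ (rank K + 1)`. -/
theorem index_pow_range_units_of_isPrimitiveRoot (p : ℕ) [hp : Fact p.Prime] {ζ : K}
    (hζ : IsPrimitiveRoot ζ p) :
    (powMonoidHom p : (𝓞 K)ˣ →* (𝓞 K)ˣ).range.index = p ^ (rank K + 1) := by
  have : NeZero p := ⟨hp.out.ne_zero⟩
  rw [index_pow_range_units, Nat.gcd_eq_right (dvd_torsionOrder_of_isPrimitiveRoot K hζ),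
    pow_succ]

end Fermat.Agent.CFT.Global.UnitsModPow
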