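import Mathlib
import Fermat.Agent.CFT.Global.IndexLattice
import Fermat.Agent.CFT.Global.UnitsModPow

/-!
# Counting the Selmer group `K(S, p)` of a Dedekind domain / number field

`B_S := {a ∈ Kˣ | p ∣ ord_v a for all v ∉ S}`.  Then
`[B_S : (Kˣ)^p] = [Rˣ : (Rˣ)^p] * p ^ |S| * [Cl(R) : Cl(R)^p ⊔ ⟨[v] : v ∈ S⟩]`.
-/

namespace Fermat.Agent.CFT.Global.SelmerCount

open IsDedekindDomain FractionalIdeal Fermat.Agent.CFT.Global.IndexLattice
open scoped nonZeroDivisors

variable {R : Type*} [CommRing R] [IsDedekindDomain R] (K : Type*) [Field K] [Algebra R K]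
  [IsFractionRing R K]

/-! ### Counts on the group of invertible fractional ideals -/

theorem eq_one_of_count_eq_zero (I : (FractionalIdeal R⁰ K)ˣ)
    (h : ∀ v : HeightOneSpectrum R, count K v (I : FractionalIdeal R⁰ K) = 0) : I = 1 := by
  apply Units.ext
  rw [← finprod_heightOneSpectrum_factorization' K I.ne_zero]
  simp [h]

theorem count_units_mul (v : HeightOneSpectrum R) (I J : (FractionalIdeal R⁰ K)ˣ) :
    count K v ((I * J : (FractionalIdeal R⁰ K)ˣ) : FractionalIdeal R⁰ K) =
      count K v (I : FractionalIdeal R⁰ K) + count K v (J : FractionalIdeal R⁰ K) := by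
  rw [Units.val_mul, count_mul K v I.ne_zero J.ne_zero]

theorem count_units_pow (v : HeightOneSpectrum R) (I : (FractionalIdeal R⁰ K)ˣ) (n : ℕ) :
    count K v ((I ^ n : (FractionalIdeal R⁰ K)ˣ) : FractionalIdeal R⁰ K) =
      n * count K v (I : FractionalIdeal R⁰ K) := by
  rw [Units.val_pow_eq_pow_val, count_pow]

theorem count_units_inv (v : HeightOneSpectrum R) (I : (FractionalIdeal R⁰ K)ˣ) :
    count K v ((I⁻¹ : (FractionalIdeal R⁰ K)ˣ) : FractionalIdeal R⁰ K) =
      - count K v (I : FractionalIdeal R⁰ K) := by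
  rw [Units.val_inv_eq_inv_val, count_inv]

theorem count_units_zpow (v : HeightOneSpectrum R) (I : (FractionalIdeal R⁰ K)ˣ) (n : ℤ) :
    count K v ((I ^ n : (FractionalIdeal R⁰ K)ˣ) : FractionalIdeal R⁰ K) =
      n * count K v (I : FractionalIdeal R⁰ K) := by
  rw [Units.val_zpow_eq_zpow_val, count_zpow]

theorem count_units_one (v : HeightOneSpectrum R) :
    count K v ((1 : (FractionalIdeal R⁰ K)ˣ) : FractionalIdeal R⁰ K) = 0 := by
  rw [Units.val_one, count_one]

/-- The `p`-th power map on invertible fractional ideals is injective. -/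
theorem pow_injective (p : ℕ) (hp : p ≠ 0) :
    Function.Injective (powMonoidHom p : (FractionalIdeal R⁰ K)ˣ →* (FractionalIdeal R⁰ K)ˣ) := by
  rw [injective_iff_map_eq_one]
  intro I hI
  apply eq_one_of_count_eq_zero
  intro v
  have h := congrArg (fun J : (FractionalIdeal R⁰ K)ˣ => count K v (J : FractionalIdeal R⁰ K)) hI
  simp only [powMonoidHom_apply, count_units_pow, count_units_one] at h
  exact (mul_eq_zero.mp h).resolve_left (by exact_mod_cast hp)

/-- A prime of `R` as an invertible fractional ideal. -/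
noncomputable def primeUnit (v : HeightOneSpectrum R) : (FractionalIdeal R⁰ K)ˣ :=
  FractionalIdeal.mk0 K ⟨v.asIdeal, mem_nonZeroDivisors_iff_ne_zero.mpr v.ne_bot⟩

theorem coe_primeUnit (v : HeightOneSpectrum R) :
    ((primeUnit K v : (FractionalIdeal R⁰ K)ˣ) : FractionalIdeal R⁰ K) =
      (v.asIdeal : FractionalIdeal R⁰ K) := rfl

open Classical in
theorem count_primeUnit (v w : HeightOneSpectrum R) :
    count K v ((primeUnit K w : (FractionalIdeal R⁰ K)ˣ) : FractionalIdeal R⁰ K) =
      if w = v then 1 else 0 := by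
  rw [coe_primeUnit, count_maximal]

/-- `e ↦ ∏_{v ∈ S} v ^ e_v`. -/
noncomputable def sHom (S : Finset (HeightOneSpectrum R)) :
    Multiplicative (S → ℤ) →* (FractionalIdeal R⁰ K)ˣ where
  toFun e := ∏ v : S, primeUnit K v.1 ^ (Multiplicative.toAdd e v)
  map_one' := by simp
  map_mul' e e' := by simp [zpow_add, Finset.prod_mul_distrib]

theorem count_units_prod {ι : Type*} (s : Finset ι) (I : ι → (FractionalIdeal R⁰ K)ˣ)
    (v : HeightOneSpectrum R) :
    count K v ((∏ i ∈ s, I i : (FractionalIdeal R⁰ K)ˣ) : FractionalIdeal R⁰ K) =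
      ∑ i ∈ s, count K v (I i : FractionalIdeal R⁰ K) := by
  rw [Units.coe_prod, count_prod K v s _ (fun i _ => (I i).ne_zero)]

open Classical in
theorem count_sHom (S : Finset (HeightOneSpectrum R)) (e : Multiplicative (S → ℤ))
    (w : HeightOneSpectrum R) :
    count K w ((sHom K S e : (FractionalIdeal R⁰ K)ˣ) : FractionalIdeal R⁰ K) =
      if h : w ∈ S then Multiplicative.toAdd e ⟨w, h⟩ else 0 := by
  change count K w ((∏ v : S, primeUnit K v.1 ^ (Multiplicative.toAdd e v) :
    (FractionalIdeal R⁰ K)ˣ) : FractionalIdeal R⁰ K) = _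
  rw [count_units_prod]
  simp only [count_units_zpow, count_primeUnit, mul_ite, mul_one, mul_zero]
  split_ifs with h
  · rw [Finset.sum_eq_single ⟨w, h⟩]
    · simp
    · intro v _ hv
      rw [if_neg]
      intro hvw
      exact hv (Subtype.ext hvw)
    · intro hh
      exact absurd (Finset.mem_univ _) hh
  · apply Finset.sum_eq_zero
    intro v _
    rw [if_neg]
    intro hvw
    exact h (hvw ▸ v.2)


/-- An invertible fractional ideal all of whose counts are divisible by `p` is a `p`-th power. -/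
theorem exists_pow_eq_of_dvd_count (p : ℕ) (hp : p ≠ 0) (J : (FractionalIdeal R⁰ K)ˣ)
    (h : ∀ v : HeightOneSpectrum R, (p : ℤ) ∣ count K v (J : FractionalIdeal R⁰ K)) :
    ∃ d : (FractionalIdeal R⁰ K)ˣ, d ^ p = J := by
  choose c hc using h
  have hfin : (Function.mulSupport fun v : HeightOneSpectrum R =>
      (v.asIdeal : FractionalIdeal R⁰ K) ^ c v).Finite := by
    have h0 := finite_factors (J : FractionalIdeal R⁰ K)
    rw [Filter.eventually_cofinite] at h0
    refine Set.Finite.subset h0 ?_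
    intro v hv
    simp only [Function.mem_mulSupport] at hv
    intro h
    apply hv
    have hcv : c v = 0 := by
      have h1 := hc v
      rw [h] at h1
      rcases mul_eq_zero.mp h1.symm with h2 | h2
      · exact absurd (by exact_mod_cast h2) hp
      · exact h2
    rw [hcv, zpow_zero]
  let J' : FractionalIdeal R⁰ K :=
    ∏ᶠ v : HeightOneSpectrum R, (v.asIdeal : FractionalIdeal R⁰ K) ^ c v
  have hJ' : J' ^ p = J := by
    rw [← finprod_heightOneSpectrum_factorization' K J.ne_zero]
    change (∏ᶠ v : HeightOneSpectrum R, (v.asIdeal : FractionalIdeal R⁰ K) ^ c v) ^ p = _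
    rw [finprod_pow hfin]
    apply finprod_congr
    intro v
    rw [hc v, ← zpow_natCast, ← zpow_mul, mul_comm]
  have hJ'0 : J' ≠ 0 := by
    intro h
    rw [h, zero_pow hp] at hJ'
    exact J.ne_zero hJ'.symm
  exact ⟨Units.mk0 J' hJ'0, Units.ext (by simpa using hJ')⟩

/-- `D^p ⊔ T` is cut out by divisibility of the counts outside `S`. -/
theorem mem_powSub_sup_range_sHom_iff (p : ℕ) (hp : p ≠ 0) (S : Finset (HeightOneSpectrum R))
    (I : (FractionalIdeal R⁰ K)ˣ) :
    I ∈ powSub (FractionalIdeal R⁰ K)ˣ p ⊔ (sHom K S).range ↔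
      ∀ v ∉ S, (p : ℤ) ∣ count K v (I : FractionalIdeal R⁰ K) := by
  classical
  constructor
  · intro hI v hv
    obtain ⟨a, ⟨d, rfl⟩, b, ⟨e, rfl⟩, rfl⟩ := Subgroup.mem_sup.mp hI
    rw [count_units_mul, powMonoidHom_apply, count_units_pow, count_sHom, dif_neg hv, add_zero]
    exact dvd_mul_right _ _
  · intro h
    let e : Multiplicative (S → ℤ) :=
      Multiplicative.ofAdd fun v => count K v.1 (I : FractionalIdeal R⁰ K)
    have hJ : ∀ v, (p : ℤ) ∣ count K v
        ((I * (sHom K S e)⁻¹ : (FractionalIdeal R⁰ K)ˣ) : FractionalIdeal R⁰ K) := by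
      intro v
      rw [count_units_mul, count_units_inv, count_sHom]
      by_cases hv : v ∈ S
      · rw [dif_pos hv]
        simp [e]
      · rw [dif_neg hv]
        simpa using h v hv
    obtain ⟨d, hd⟩ := exists_pow_eq_of_dvd_count K p hp _ hJ
    rw [Subgroup.mem_sup]
    exact ⟨d ^ p, ⟨d, rfl⟩, sHom K S e, ⟨e, rfl⟩, by rw [hd, inv_mul_cancel_right]⟩

theorem comap_sHom_powSub (p : ℕ) (S : Finset (HeightOneSpectrum R)) :
    (powSub (FractionalIdeal R⁰ K)ˣ p).comap (sHom K S) = powSub (Multiplicative (S → ℤ)) p := by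
  classical
  ext e
  constructor
  · rintro ⟨d, hd⟩
    refine ⟨Multiplicative.ofAdd fun v => count K v.1 (d : FractionalIdeal R⁰ K), ?_⟩
    apply Multiplicative.toAdd.injective
    funext v
    have h := congrArg
      (fun J : (FractionalIdeal R⁰ K)ˣ => count K v.1 (J : FractionalIdeal R⁰ K)) hd
    simp only [powMonoidHom_apply, count_units_pow, count_sHom, dif_pos v.2] at h
    simp only [powMonoidHom_apply, toAdd_pow, toAdd_ofAdd, Pi.smul_apply, nsmul_eq_mul]
    exact h
  · rintro ⟨c, rfl⟩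
    exact ⟨sHom K S c, by simp⟩

/-- `[T : T ⊓ D^p] = p ^ |S|`. -/
theorem relIndex_powSub_range_sHom (p : ℕ) [NeZero p] (S : Finset (HeightOneSpectrum R)) :
    (powSub (FractionalIdeal R⁰ K)ˣ p).relIndex (sHom K S).range = p ^ S.card := by
  rw [MonoidHom.range_eq_map, ← Subgroup.relIndex_comap, Subgroup.relIndex_top_right,
    comap_sHom_powSub K p, UnitsModPow.index_pow_range_int_pi]
  simp

theorem range_sHom (S : Finset (HeightOneSpectrum R)) :
    (sHom K S).range = Subgroup.closure (primeUnit K '' (S : Set (HeightOneSpectrum R))) := by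
  classical
  apply le_antisymm
  · rintro _ ⟨e, rfl⟩
    exact Subgroup.prod_mem _ fun v _ =>
      Subgroup.zpow_mem _ (Subgroup.subset_closure
        (Set.mem_image_of_mem _ (Finset.mem_coe.mpr v.2))) _
  · rw [Subgroup.closure_le]
    rintro _ ⟨v, hv, rfl⟩
    refine ⟨Multiplicative.ofAdd (Pi.single (⟨v, hv⟩ : S) (1 : ℤ)), ?_⟩
    change ∏ w : S, primeUnit K w.1 ^ ((Pi.single (⟨v, hv⟩ : S) (1 : ℤ) : S → ℤ) w) = _
    rw [Fintype.prod_eq_single (⟨v, hv⟩ : S)]
    · simp
    · intro w hw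
      simp [hw]

/-! ### Units -/

/-- The units of `R` inside `Kˣ`. -/
noncomputable abbrev unitsMap : Rˣ →* Kˣ := Units.map (algebraMap R K : R →* K)

omit [IsDedekindDomain R] in
theorem unitsMap_injective : Function.Injective (unitsMap (R := R) K) :=
  Units.map_injective (FaithfulSMul.algebraMap_injective R K)

theorem ker_toPrincipalIdeal : (toPrincipalIdeal R K).ker = (unitsMap (R := R) K).range := by
  ext x
  rw [MonoidHom.mem_ker]
  constructor
  · intro hx
    have h1 : spanSingleton R⁰ (x : K) = 1 := by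
      have := congrArg Units.val hx
      simpa using this
    have hx1 : (x : K) ∈ (1 : FractionalIdeal R⁰ K) := h1 ▸ mem_spanSingleton_self R⁰ (x : K)
    obtain ⟨r, hr⟩ := (mem_one_iff R⁰).mp hx1
    have h2 : spanSingleton R⁰ ((x⁻¹ : Kˣ) : K) = 1 := by
      have := congrArg Units.val
        (show toPrincipalIdeal R K x⁻¹ = 1 by rw [map_inv, hx, inv_one])
      simpa using this
    have hx2 : ((x⁻¹ : Kˣ) : K) ∈ (1 : FractionalIdeal R⁰ K) :=
      h2 ▸ mem_spanSingleton_self R⁰ _
    obtain ⟨s, hs⟩ := (mem_one_iff R⁰).mp hx2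
    have hrs : r * s = 1 := by
      apply FaithfulSMul.algebraMap_injective R K
      rw [map_mul, hr, hs, map_one]
      simp
    exact ⟨⟨r, s, hrs, by rw [mul_comm]; exact hrs⟩, Units.ext hr⟩
  · rintro ⟨u, rfl⟩
    apply Units.ext
    rw [coe_toPrincipalIdeal, Units.val_one]
    change spanSingleton R⁰ (algebraMap R K (u : R)) = 1
    rw [← coeIdeal_span_singleton, Ideal.span_singleton_eq_top.mpr u.isUnit, coeIdeal_top]

theorem comap_unitsMap_powSub (p : ℕ) (hp : 0 < p) :
    (powSub Kˣ p).comap (unitsMap (R := R) K) = powSub Rˣ p := by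
  ext u
  constructor
  · rintro ⟨a, ha⟩
    have hv : ((a : K)) ^ p = algebraMap R K u := by
      have := congrArg Units.val ha
      simpa using this
    have hi : ((a⁻¹ : Kˣ) : K) ^ p = algebraMap R K ((u⁻¹ : Rˣ) : R) := by
      have := congrArg Units.val
        (show (a⁻¹) ^ p = unitsMap (R := R) K u⁻¹ by
          rw [inv_pow, map_inv]; exact congrArg _ ha)
      simpa using this
    obtain ⟨r, hr⟩ := IsIntegrallyClosed.exists_algebraMap_eq_of_isIntegral_pow (R := R)
      (x := (a : K)) hp (hv ▸ isIntegral_algebraMap)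
    obtain ⟨s, hs⟩ := IsIntegrallyClosed.exists_algebraMap_eq_of_isIntegral_pow (R := R)
      (x := ((a⁻¹ : Kˣ) : K)) hp (hi ▸ isIntegral_algebraMap)
    have hrs : r * s = 1 := by
      apply FaithfulSMul.algebraMap_injective R K
      rw [map_mul, hr, hs, map_one]
      simp
    let w : Rˣ := ⟨r, s, hrs, by rw [mul_comm]; exact hrs⟩
    refine ⟨w, ?_⟩
    apply unitsMap_injective K
    rw [← ha]
    apply Units.ext
    simp [w, hr]
  · rintro ⟨w, rfl⟩
    exact ⟨unitsMap K w, by simp⟩

/-- `[ker : ker ⊓ (Kˣ)^p] = [Rˣ : (Rˣ)^p]`. -/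
theorem relIndex_powSub_ker (p : ℕ) (hp : 0 < p) :
    (powSub Kˣ p).relIndex (toPrincipalIdeal R K).ker = (powSub Rˣ p).index := by
  rw [ker_toPrincipalIdeal, MonoidHom.range_eq_map, ← Subgroup.relIndex_comap,
    Subgroup.relIndex_top_right, comap_unitsMap_powSub K p hp]


/-! ### Class group -/

theorem classGroup_mk_surjective : Function.Surjective (ClassGroup.mk (R := R) K) := by
  intro x
  exact ClassGroup.induction K (P := fun x => ∃ I, ClassGroup.mk K I = x) (fun I => ⟨I, rfl⟩) x

theorem ker_classGroup_mk : (ClassGroup.mk (R := R) K).ker = (toPrincipalIdeal R K).range := by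
  ext I
  rw [MonoidHom.mem_ker, ← (ClassGroup.equiv K).injective.eq_iff]
  simp only [ClassGroup.equiv_mk, canonicalEquiv_self, RingEquiv.coe_mulEquiv_refl,
    QuotientGroup.mk'_apply, map_one, QuotientGroup.eq_one_iff]
  rfl

theorem finiteIndex_range_toPrincipalIdeal [Finite (ClassGroup R)] :
    (toPrincipalIdeal R K).range.FiniteIndex := by
  rw [← ker_classGroup_mk K]
  exact ⟨by rw [Subgroup.index_ker]; exact Nat.card_pos.ne'⟩

variable (R) in
/-- The subgroup of the class group generated by the `p`-th powers and the classes of the primes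
of `S`; its index is `|Cl_S / p| = |Cl_S[p]|`. -/
noncomputable def clS (p : ℕ) (S : Finset (HeightOneSpectrum R)) : Subgroup (ClassGroup R) :=
  powSub (ClassGroup R) p ⊔ Subgroup.closure
    ((fun v : HeightOneSpectrum R =>
      ClassGroup.mk0 ⟨v.asIdeal, mem_nonZeroDivisors_iff_ne_zero.mpr v.ne_bot⟩) ''
        (S : Set (HeightOneSpectrum R)))

theorem map_mk_sup (p : ℕ) (S : Finset (HeightOneSpectrum R)) :
    (powSub (FractionalIdeal R⁰ K)ˣ p ⊔ (sHom K S).range).map (ClassGroup.mk K) = clS R p S := by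
  rw [Subgroup.map_sup, clS, range_sHom, MonoidHom.map_closure, Set.image_image]
  congr 1
  · ext x
    constructor
    · rintro ⟨_, ⟨d, rfl⟩, rfl⟩
      exact ⟨ClassGroup.mk K d, by simp⟩
    · rintro ⟨y, rfl⟩
      obtain ⟨d, rfl⟩ := classGroup_mk_surjective K y
      exact ⟨d ^ p, ⟨d, rfl⟩, by simp⟩
  · congr 1
    apply Set.image_congr
    intro v _
    exact ClassGroup.mk_mk0 K _

theorem index_sup_sup (p : ℕ) (S : Finset (HeightOneSpectrum R)) :
    (powSub (FractionalIdeal R⁰ K)ˣ p ⊔ (sHom K S).range ⊔ (toPrincipalIdeal R K).range).index =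
      (clS R p S).index := by
  rw [← map_mk_sup K p S, ← ker_classGroup_mk K, ← Subgroup.comap_map_eq,
    Subgroup.index_comap_of_surjective _ (classGroup_mk_surjective K)]

/-! ### The main count -/

/-- `B_S = {a ∈ Kˣ | p ∣ ord_v a for all v ∉ S}`. -/
noncomputable def selS (p : ℕ) (S : Finset (HeightOneSpectrum R)) : Subgroup Kˣ :=
  (powSub (FractionalIdeal R⁰ K)ˣ p ⊔ (sHom K S).range).comap (toPrincipalIdeal R K)

theorem mem_selS_iff (p : ℕ) (hp : p ≠ 0) (S : Finset (HeightOneSpectrum R)) (a : Kˣ) :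
    a ∈ selS K p S ↔ ∀ v ∉ S, (p : ℤ) ∣ count K v (spanSingleton R⁰ (a : K)) := by
  rw [selS, Subgroup.mem_comap, mem_powSub_sup_range_sHom_iff K p hp, coe_toPrincipalIdeal]

theorem powSub_le_selS (p : ℕ) (S : Finset (HeightOneSpectrum R)) :
    powSub Kˣ p ≤ selS K p S := by
  rintro _ ⟨a, rfl⟩
  rw [selS, Subgroup.mem_comap]
  exact Subgroup.mem_sup_left ⟨toPrincipalIdeal R K a, by simp⟩

/-- **Selmer-group count for a Dedekind domain with finite class group.**
`[B_S : (Kˣ)^p] = [Rˣ : (Rˣ)^p] * p ^ |S| * [Cl : Cl^p ⊔ ⟨S⟩]`. -/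
theorem relIndex_powSub_selS [Finite (ClassGroup R)] (p : ℕ) [NeZero p]
    (S : Finset (HeightOneSpectrum R)) :
    (powSub Kˣ p).relIndex (selS K p S) =
      (powSub Rˣ p).index * p ^ S.card * (clS R p S).index := by
  have := finiteIndex_range_toPrincipalIdeal (R := R) K
  rw [selS, relIndex_powSub_comap (toPrincipalIdeal R K) p (sHom K S).range
    (pow_injective K p (NeZero.ne p)), relIndex_powSub_ker K p (NeZero.pos p),
    relIndex_powSub_range_sHom, index_sup_sup]

/-! ### Valuation dictionary -/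

/-- `v(x) = exp (-ord_v (x))`, with `ord_v` the count of the principal fractional ideal. -/
theorem valuation_eq_exp_neg_count (v : HeightOneSpectrum R) (x : Kˣ) :
    v.valuation K (x : K) = WithZero.exp (-count K v (spanSingleton R⁰ (x : K))) := by
  obtain ⟨n, d, hnd⟩ := IsLocalization.exists_mk'_eq R⁰ (x : K)
  have hd0 : (d : R) ≠ 0 := nonZeroDivisors.coe_ne_zero d
  have hn0 : n ≠ 0 := by
    rintro rfl
    rw [IsLocalization.mk'_zero] at hnd
    exact x.ne_zero hnd.symm
  have hI : spanSingleton R⁰ (x : K) ≠ 0 := spanSingleton_ne_zero_iff.mpr x.ne_zero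
  have hfac : spanSingleton R⁰ (x : K) =
      spanSingleton R⁰ ((algebraMap R K) (d : R))⁻¹ * ↑(Ideal.span {n} : Ideal R) := by
    rw [coeIdeal_span_singleton, spanSingleton_mul_spanSingleton, ← hnd,
      IsFractionRing.mk'_eq_div, div_eq_inv_mul]
  rw [count_well_defined K v hI hfac, ← hnd, HeightOneSpectrum.valuation_of_mk',
    v.intValuation_if_neg hn0, v.intValuation_if_neg hd0, ← WithZero.exp_sub]
  congr 1
  ring

theorem mem_selS_iff_valuation (p : ℕ) (hp : p ≠ 0) (S : Finset (HeightOneSpectrum R)) (a : Kˣ) :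
    a ∈ selS K p S ↔ ∀ v ∉ S, ∃ m : ℤ, v.valuation K (a : K) = WithZero.exp ((p : ℤ) * m) := by
  rw [mem_selS_iff K p hp]
  refine forall₂_congr fun v _ => ?_
  rw [valuation_eq_exp_neg_count]
  constructor
  · rintro ⟨m, hm⟩
    exact ⟨-m, by rw [hm]; congr 1; ring⟩
  · rintro ⟨m, hm⟩
    refine ⟨-m, ?_⟩
    have := WithZero.exp_injective hm
    linarith


/-! ### Number fields -/

section NumberField

open NumberField

variable (F : Type*) [Field F] [NumberField F]

/-- **(U2) Selmer-group count for a number field.**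
`[B_S : (Fˣ)^p] = p ^ (rank + |S|) * gcd (|μ(F)|, p) * [Cl : Cl^p ⊔ ⟨S⟩]`. -/
theorem relIndex_powSub_selS_numberField (p : ℕ) [NeZero p]
    (S : Finset (HeightOneSpectrum (𝓞 F))) :
    (powSub Fˣ p).relIndex (selS F p S) =
      p ^ (Units.rank F + S.card) * (Units.torsionOrder F).gcd p * (clS (𝓞 F) p S).index := by
  rw [relIndex_powSub_selS, UnitsModPow.index_pow_range_units, pow_add]
  ring

/-- The index `[B_S : (Fˣ)^p]` is finite (nonzero). -/
theorem relIndex_powSub_selS_ne_zero (p : ℕ) [NeZero p] (S : Finset (HeightOneSpectrum (𝓞 F))) :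
    (powSub Fˣ p).relIndex (selS F p S) ≠ 0 := by
  rw [relIndex_powSub_selS_numberField]
  refine mul_ne_zero (mul_ne_zero (pow_ne_zero _ (NeZero.ne p)) ?_) Subgroup.index_ne_zero_of_finite
  exact Nat.gcd_ne_zero_right (NeZero.ne p)

/-- **(U2')** If `F` contains a primitive `p`-th root of unity (`p` prime):
`[B_S : (Fˣ)^p] = p ^ (rank + 1 + |S|) * [Cl : Cl^p ⊔ ⟨S⟩]`. -/
theorem relIndex_powSub_selS_of_isPrimitiveRoot (p : ℕ) [hp : Fact p.Prime] {ζ : F}
    (hζ : IsPrimitiveRoot ζ p) (S : Finset (HeightOneSpectrum (𝓞 F))) :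
    (powSub Fˣ p).relIndex (selS F p S) =
      p ^ (Units.rank F + 1 + S.card) * (clS (𝓞 F) p S).index := by
  have : NeZero p := ⟨hp.out.ne_zero⟩
  rw [relIndex_powSub_selS, UnitsModPow.index_pow_range_units_of_isPrimitiveRoot F p hζ]
  ring

/-- If `F` contains a primitive `p`-th root of unity with `2 < p`, then
`rank + 1 = r₂ = [F : ℚ] / 2`. -/
theorem rank_add_one_eq_nrComplexPlaces {p : ℕ} (hp2 : 2 < p) {ζ : F}
    (hζ : IsPrimitiveRoot ζ p) :
    Units.rank F + 1 = InfinitePlace.nrComplexPlaces F ∧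
      Module.finrank ℚ F = 2 * InfinitePlace.nrComplexPlaces F := by
  have h0 : InfinitePlace.nrRealPlaces F = 0 :=
    InfinitePlace.IsPrimitiveRoot.nrRealPlaces_eq_zero_of_two_lt hp2 hζ
  have h1 := InfinitePlace.card_eq_nrRealPlaces_add_nrComplexPlaces F
  have h2 := InfinitePlace.card_add_two_mul_card_eq_rank F
  rw [h0, zero_add] at h1 h2
  have hpos : 0 < Fintype.card (InfinitePlace F) := Fintype.card_pos
  refine ⟨?_, h2.symm⟩
  rw [Units.rank, h1]
  omega

/-- **(U3)** the count in the shape used by the Lagrangian argument: `μ_p ⊂ F`, `p` odd: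
`[B_S : (Fˣ)^p] = p ^ (r₂ + |S|) * [Cl : Cl^p ⊔ ⟨S⟩]`. -/
theorem relIndex_powSub_selS_of_isPrimitiveRoot_odd (p : ℕ) [hp : Fact p.Prime] (hp2 : p ≠ 2)
    {ζ : F} (hζ : IsPrimitiveRoot ζ p) (S : Finset (HeightOneSpectrum (𝓞 F))) :
    (powSub Fˣ p).relIndex (selS F p S) =
      p ^ (InfinitePlace.nrComplexPlaces F + S.card) * (clS (𝓞 F) p S).index := by
  have h2 : 2 < p := lt_of_le_of_ne hp.out.two_le (Ne.symm hp2)
  rw [relIndex_powSub_selS_of_isPrimitiveRoot F p hζ,
    (rank_add_one_eq_nrComplexPlaces F h2 hζ).1]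

end NumberField

end Fermat.Agent.CFT.Global.SelmerCount
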