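import Mathlib
import Fermat.Agent.CFT.Global.SelmerCount

/-!
# The order of Mathlib's Selmer group `K⟮S, p⟯`, and the `S`-class group modulo `p`

* `card_selmerGroup` : `|K⟮S, p⟯| = [B_S : (Kˣ)^p]` (with `B_S = SelmerCount.selS`);
* `card_selmerGroup_numberField`, `card_selmerGroup_of_isPrimitiveRoot_odd`;
* `index_clS_eq_card_ker` : `[Cl : Cl^p ⊔ ⟨S⟩] = |Cl_S[p]|`, `Cl_S = Cl ⧸ ⟨[v] : v ∈ S⟩`;
* `exists_index_clS_eq_pow` : this index is a power of `p`.
-/

namespace Fermat.Agent.CFT.Global.SelmerGroupCard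

open IsDedekindDomain FractionalIdeal Fermat.Agent.CFT.Global.IndexLattice
  Fermat.Agent.CFT.Global.SelmerCount
open scoped nonZeroDivisors

variable {R : Type*} [CommRing R] [IsDedekindDomain R] (K : Type*) [Field K] [Algebra R K]
  [IsFractionRing R K]

theorem valuationOfNeZeroMod_mk_eq_one_iff (v : HeightOneSpectrum R) (n : ℕ) (a : Kˣ) :
    v.valuationOfNeZeroMod n (QuotientGroup.mk a : Kˣ ⧸ (powMonoidHom n : Kˣ →* Kˣ).range) = 1 ↔
      (n : ℤ) ∣ Multiplicative.toAdd (v.valuationOfNeZero a) := by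
  change (Int.quotientZMultiplesNatEquivZMod n)
    (QuotientAddGroup.mk (Multiplicative.toAdd (v.valuationOfNeZero a))) = 0 ↔ _
  rw [AddEquiv.map_eq_zero_iff, QuotientAddGroup.eq_zero_iff, Int.mem_zmultiples_iff]

theorem toAdd_valuationOfNeZero (v : HeightOneSpectrum R) (a : Kˣ) :
    Multiplicative.toAdd (v.valuationOfNeZero a) = -count K v (spanSingleton R⁰ (a : K)) := by
  have h := v.valuationOfNeZero_eq (K := K) a
  rw [valuation_eq_exp_neg_count] at h
  have h2 : v.valuationOfNeZero a = Multiplicative.ofAdd (-count K v (spanSingleton R⁰ (a : K))) :=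
    WithZero.coe_injective h
  rw [h2, toAdd_ofAdd]

/-- Mathlib's Selmer group `K⟮S, p⟯` pulls back to `selS K p S`. -/
theorem comap_mk_selmerGroup (p : ℕ) (hp : p ≠ 0) (S : Finset (HeightOneSpectrum R)) :
    (selmerGroup (R := R) (K := K) (S := (S : Set (HeightOneSpectrum R))) (n := p)).comap
      (QuotientGroup.mk' (powSub Kˣ p)) = selS K p S := by
  ext a
  rw [Subgroup.mem_comap, mem_selS_iff K p hp]
  change (∀ v, v ∉ (S : Set (HeightOneSpectrum R)) →
    v.valuationOfNeZeroMod p (QuotientGroup.mk a : Kˣ ⧸ (powMonoidHom p : Kˣ →* Kˣ).range) = 1) ↔ _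
  refine forall₂_congr fun v _ => ?_
  rw [valuationOfNeZeroMod_mk_eq_one_iff, toAdd_valuationOfNeZero, dvd_neg]

/-- `|K⟮S, p⟯| = [B_S : (Kˣ)^p]`. -/
theorem card_selmerGroup (p : ℕ) (hp : p ≠ 0) (S : Finset (HeightOneSpectrum R)) :
    Nat.card (selmerGroup (R := R) (K := K) (S := (S : Set (HeightOneSpectrum R))) (n := p)) =
      (powSub Kˣ p).relIndex (selS K p S) := by
  rw [← comap_mk_selmerGroup K p hp S]
  have h := Subgroup.relIndex_ker (K := (selmerGroup (R := R) (K := K)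
    (S := (S : Set (HeightOneSpectrum R))) (n := p)).comap (QuotientGroup.mk' (powSub Kˣ p)))
    (QuotientGroup.mk' (powSub Kˣ p))
  rw [QuotientGroup.ker_mk', Subgroup.map_comap_eq_self_of_surjective
    (QuotientGroup.mk'_surjective _)] at h
  exact h.symm


/-! ### The `S`-class group modulo `p` -/

variable (R) in
/-- The subgroup of the class group generated by the classes of the primes of `S`; the
`S`-class group is `ClassGroup R ⧸ clGen R S`. -/
noncomputable def clGen (S : Finset (HeightOneSpectrum R)) : Subgroup (ClassGroup R) :=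
  Subgroup.closure
    ((fun v : HeightOneSpectrum R =>
      ClassGroup.mk0 ⟨v.asIdeal, mem_nonZeroDivisors_iff_ne_zero.mpr v.ne_bot⟩) ''
        (S : Set (HeightOneSpectrum R)))

theorem clS_eq_clGen_sup (p : ℕ) (S : Finset (HeightOneSpectrum R)) :
    clS R p S = clGen R S ⊔ powSub (ClassGroup R) p := by
  rw [clS, clGen, sup_comm]

/-- `[Cl : Cl^p ⊔ ⟨S⟩] = |Cl_S[p]|`. -/
theorem index_clS_eq_card_ker [Finite (ClassGroup R)] (p : ℕ) (S : Finset (HeightOneSpectrum R)) :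
    (clS R p S).index =
      Nat.card (powMonoidHom p :
        ClassGroup R ⧸ clGen R S →* ClassGroup R ⧸ clGen R S).ker := by
  rw [clS_eq_clGen_sup, index_sup_powSub]

/-- `[Cl : Cl^p ⊔ ⟨S⟩] = |Cl_S / p|`. -/
theorem index_clS_eq_index_range (p : ℕ) (S : Finset (HeightOneSpectrum R)) :
    (clS R p S).index =
      (powMonoidHom p :
        ClassGroup R ⧸ clGen R S →* ClassGroup R ⧸ clGen R S).range.index := by
  rw [clS_eq_clGen_sup, sup_powSub_eq_comap,
    Subgroup.index_comap_of_surjective _ (QuotientGroup.mk'_surjective _)]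

/-- `[Cl : Cl^p ⊔ ⟨S⟩]` is a power of `p`. -/
theorem exists_index_clS_eq_pow [Finite (ClassGroup R)] (p : ℕ) [hp : Fact p.Prime]
    (S : Finset (HeightOneSpectrum R)) : ∃ ρ : ℕ, (clS R p S).index = p ^ ρ := by
  have hP : IsPGroup p (ClassGroup R ⧸ clS R p S) := by
    intro x
    obtain ⟨c, rfl⟩ := QuotientGroup.mk'_surjective _ x
    refine ⟨1, ?_⟩
    rw [pow_one, ← map_pow]
    exact (QuotientGroup.eq_one_iff _).mpr (Subgroup.mem_sup_left ⟨c, rfl⟩)
  obtain ⟨ρ, hρ⟩ := hP.exists_card_eq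
  exact ⟨ρ, by rw [Subgroup.index_eq_card, hρ]⟩

/-! ### Number fields -/

section NumberField

open NumberField

variable (F : Type*) [Field F] [NumberField F]

/-- `|F⟮S, p⟯| = p ^ (rank + |S|) * gcd (|μ(F)|, p) * [Cl : Cl^p ⊔ ⟨S⟩]`. -/
theorem card_selmerGroup_numberField (p : ℕ) [NeZero p]
    (S : Finset (HeightOneSpectrum (𝓞 F))) :
    Nat.card (selmerGroup (R := 𝓞 F) (K := F)
        (S := (S : Set (HeightOneSpectrum (𝓞 F)))) (n := p)) =
      p ^ (Units.rank F + S.card) * (Units.torsionOrder F).gcd p * (clS (𝓞 F) p S).index := by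
  rw [card_selmerGroup F p (NeZero.ne p), relIndex_powSub_selS_numberField]

/-- `μ_p ⊂ F`, `p` odd: `|F⟮S, p⟯| = p ^ (r₂ + |S|) * [Cl : Cl^p ⊔ ⟨S⟩]`. -/
theorem card_selmerGroup_of_isPrimitiveRoot_odd (p : ℕ) [hp : Fact p.Prime] (hp2 : p ≠ 2)
    {ζ : F} (hζ : IsPrimitiveRoot ζ p) (S : Finset (HeightOneSpectrum (𝓞 F))) :
    Nat.card (selmerGroup (R := 𝓞 F) (K := F)
        (S := (S : Set (HeightOneSpectrum (𝓞 F)))) (n := p)) =
      p ^ (InfinitePlace.nrComplexPlaces F + S.card) * (clS (𝓞 F) p S).index := by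
  rw [card_selmerGroup F p hp.out.ne_zero, relIndex_powSub_selS_of_isPrimitiveRoot_odd F p hp2 hζ]

/-- `μ_p ⊂ F`, `p` odd: `|F⟮S, p⟯| = p ^ (r₂ + |S| + ρ)` with `p ^ ρ = |Cl_S / p|`. -/
theorem exists_card_selmerGroup_eq_pow (p : ℕ) [hp : Fact p.Prime] (hp2 : p ≠ 2)
    {ζ : F} (hζ : IsPrimitiveRoot ζ p) (S : Finset (HeightOneSpectrum (𝓞 F))) :
    ∃ ρ : ℕ, (clS (𝓞 F) p S).index = p ^ ρ ∧
      Nat.card (selmerGroup (R := 𝓞 F) (K := F)
        (S := (S : Set (HeightOneSpectrum (𝓞 F)))) (n := p)) =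
      p ^ (InfinitePlace.nrComplexPlaces F + S.card + ρ) := by
  obtain ⟨ρ, hρ⟩ := exists_index_clS_eq_pow (R := 𝓞 F) p S
  refine ⟨ρ, hρ, ?_⟩
  rw [card_selmerGroup_of_isPrimitiveRoot_odd F p hp2 hζ, hρ, ← pow_add]

end NumberField

end Fermat.Agent.CFT.Global.SelmerGroupCard
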