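import Mathlib
import Fermat.Agent.CFT.Kummer.Gen
import Fermat.Agent.CFT.Kummer.Ram
import Fermat.Agent.CFT.Global.SelmerGroupCard

/-!
# COUNT-V: the Kummer group `V_S = H¹(G_{K,S}, μ_p)` and Mathlib's Selmer group `K⟮S_K, p⟯`

`Qb = AlgebraicClosure ℚ`, `K ≤ Qb` a number field containing a primitive `p`-th root of unity
`ζ`, `G_K = K.fixingSubgroup`, `S` a finite set of prime numbers.

* `SK S K`       : the (finite) set of primes of `𝓞 K` above `S`;
* `VS p S K`     : the `𝔽_p`-space of level-`S` characters `G_K → 𝔽_p` (additive functions which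
  are constant modulo `Fix F` for some `F/ℚ` finite unramified outside `S`);
* `kum K ζ hζ a` : the Kummer character of `a ∈ Kˣ` (`σ θ = ζ ^ (kum a σ) * θ` for every `θ` with
  `θ ^ p = a`), with `kum_mul`, `kum_eq_zero_iff` (kernel = `p`-th powers), `exists_kum_eq`
  (every level-constant character is a Kummer character), `kum_mem_VS_iff` (ramification
  dictionary, `p ∈ S`, `K` unramified outside `S`);
* `kumEquiv`     : the bijection `K⟮S_K, p⟯ ≃ V_S`, additive (`kumEquiv_mul`);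
* `card_VS`, `finrank_VS` : `dim_{𝔽_p} V_S = r₂ + |S_K| + ρ`, where `p ^ ρ = [Cl : Cl^p ⊔ ⟨S_K⟩]`
  (`p` odd).
-/

set_option autoImplicit false

open scoped NumberField IntermediateField
open IsDedekindDomain

namespace Fermat.Agent.CFT.Global.CountV

local notation "Qb" => AlgebraicClosure ℚ
local notation "Gq" => (AlgebraicClosure ℚ ≃ₐ[ℚ] AlgebraicClosure ℚ)

open Fermat.Agent.CFT.Kummer Fermat.Agent.CFT.Global.SelmerCount
  Fermat.Agent.CFT.Global.SelmerGroupCard Fermat.Agent.CFT.Global.IndexLattice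

/-! ### The primes of `K` above `S` -/

section Places

variable (S : Finset Nat.Primes) (K : IntermediateField ℚ Qb) [NumberField K]

/-- The primes of `𝓞 K` containing a prime number of `S`, as a set. -/
def SKset : Set (HeightOneSpectrum (𝓞 K)) :=
  {v | ∃ q ∈ S, (((q : Nat.Primes) : ℕ) : 𝓞 K) ∈ v.asIdeal}

theorem finite_SKset : (SKset S K).Finite := by
  have h : SKset S K = ⋃ q ∈ S, {v : HeightOneSpectrum (𝓞 K) |
      v.asIdeal ∣ Ideal.span {(((q : Nat.Primes) : ℕ) : 𝓞 K)}} := by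
    ext v
    simp only [SKset, Set.mem_iUnion, exists_prop, Ideal.dvd_span_singleton]
    rfl
  rw [h]
  refine Set.Finite.biUnion S.finite_toSet fun q _ => ?_
  apply Ideal.finite_factors
  rw [Ne, Ideal.zero_eq_bot, Ideal.span_singleton_eq_bot]
  exact_mod_cast q.2.ne_zero

/-- The primes of `𝓞 K` above `S`, as a finset. -/
noncomputable def SK : Finset (HeightOneSpectrum (𝓞 K)) := (finite_SKset S K).toFinset

theorem mem_SK_iff (v : HeightOneSpectrum (𝓞 K)) :
    v ∈ SK S K ↔ ∃ q ∈ S, (((q : Nat.Primes) : ℕ) : 𝓞 K) ∈ v.asIdeal := by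
  simp [SK, SKset]

theorem not_mem_SK_iff (v : HeightOneSpectrum (𝓞 K)) :
    v ∉ SK S K ↔ ∀ q ∈ S, (((q : Nat.Primes) : ℕ) : 𝓞 K) ∉ v.asIdeal := by
  rw [mem_SK_iff]
  constructor
  · intro h q hq hmem
    exact h ⟨q, hq, hmem⟩
  · rintro h ⟨q, hq, hmem⟩
    exact h q hq hmem

theorem coe_SK : (SK S K : Set (HeightOneSpectrum (𝓞 K))) = SKset S K := by
  simp [SK]

end Places

/-! ### Level-`S` characters of `G_K` -/

/-- The `𝔽_p`-space of level-`S` characters of `G_K = Gal(Qb/K)`: additive functions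
`G_K → 𝔽_p` constant modulo `Fix F` for some `F/ℚ` finite and unramified outside `S`
(`= H¹(G_{K,S}, μ_p)` when `μ_p ⊂ K`). -/
def VS (p : ℕ) [Fact p.Prime] (S : Finset Nat.Primes) (K : IntermediateField ℚ Qb) :
    Submodule (ZMod p) (↥K.fixingSubgroup → ZMod p) where
  carrier := {c | (∀ σ τ, c (σ * τ) = c σ + c τ) ∧
    ∃ F : IntermediateField ℚ Qb, F.IsUnramifiedOutside S ∧
      ∀ g s : ↥K.fixingSubgroup, (s : Gq) ∈ F.fixingSubgroup → c (g * s) = c g}
  add_mem' := by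
    rintro c c' ⟨hc, F, hF, hcF⟩ ⟨hc', F', hF', hcF'⟩
    refine ⟨fun σ τ => ?_, F ⊔ F', hF.sup hF', fun g s hs => ?_⟩
    · simp only [Pi.add_apply, hc, hc']
      ring
    · rw [IntermediateField.fixingSubgroup_sup] at hs
      simp only [Pi.add_apply, hcF g s hs.1, hcF' g s hs.2]
  zero_mem' := ⟨fun _ _ => by simp, ⊥, IntermediateField.isUnramifiedOutside_bot S,
    fun _ _ _ => rfl⟩
  smul_mem' := by
    rintro a c ⟨hc, F, hF, hcF⟩
    refine ⟨fun σ τ => ?_, F, hF, fun g s hs => ?_⟩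
    · simp only [Pi.smul_apply, hc, smul_add]
    · simp only [Pi.smul_apply, hcF g s hs]

theorem mem_VS_iff {p : ℕ} [Fact p.Prime] {S : Finset Nat.Primes} {K : IntermediateField ℚ Qb}
    (c : ↥K.fixingSubgroup → ZMod p) :
    c ∈ VS p S K ↔ (∀ σ τ, c (σ * τ) = c σ + c τ) ∧
      ∃ F : IntermediateField ℚ Qb, F.IsUnramifiedOutside S ∧
        ∀ g s : ↥K.fixingSubgroup, (s : Gq) ∈ F.fixingSubgroup → c (g * s) = c g :=
  Iff.rfl

/-! ### The Kummer character -/

section Kum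

variable {p : ℕ} [Fact p.Prime] (K : IntermediateField ℚ Qb)

/-- A chosen `p`-th root in `Qb` of an element of `Kˣ`. -/
noncomputable def root (p : ℕ) [Fact p.Prime] (K : IntermediateField ℚ Qb) (a : Kˣ) : Qb :=
  Classical.choose (IsAlgClosed.exists_pow_nat_eq (((a : K) : Qb)) (Fact.out : p.Prime).pos)

theorem root_pow (a : Kˣ) : root p K a ^ p = ((a : K) : Qb) :=
  Classical.choose_spec (IsAlgClosed.exists_pow_nat_eq (((a : K) : Qb)) (Fact.out : p.Prime).pos)

theorem root_ne_zero (a : Kˣ) : root p K a ≠ 0 := by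
  intro h
  have h1 := root_pow (p := p) K a
  rw [h, zero_pow (Fact.out : p.Prime).ne_zero] at h1
  have h2 : (a : K) = 0 := by
    have : ((a : K) : Qb) = ((0 : K) : Qb) := by rw [← h1]; rfl
    exact Subtype.ext this
  exact a.ne_zero h2

variable (ζ : K) (hζ : IsPrimitiveRoot ζ p)

/-- The Kummer character of `a ∈ Kˣ` with respect to the primitive `p`-th root of unity `ζ`. -/
noncomputable def kum (a : Kˣ) : ↥K.fixingSubgroup → ZMod p := fun σ =>
  Classical.choose (exists_hom_of_kummer K ζ hζ (root p K a) (a : K) a.ne_zero (root_pow K a))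
    (σ : Gq)

theorem kum_root (a : Kˣ) (σ : ↥K.fixingSubgroup) :
    (σ : Gq) (root p K a) = (ζ : Qb) ^ (kum K ζ hζ a σ).val * root p K a :=
  (Classical.choose_spec
    (exists_hom_of_kummer K ζ hζ (root p K a) (a : K) a.ne_zero (root_pow K a))).1 σ σ.2

/-- Additivity of the Kummer character on `G_K`. -/
theorem kum_map_mul (a : Kˣ) (σ τ : ↥K.fixingSubgroup) :
    kum K ζ hζ a (σ * τ) = kum K ζ hζ a σ + kum K ζ hζ a τ :=
  (Classical.choose_spec
    (exists_hom_of_kummer K ζ hζ (root p K a) (a : K) a.ne_zero (root_pow K a))).2.1 σ σ.2 τ τ.2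

theorem kum_map_one (a : Kˣ) : kum K ζ hζ a 1 = 0 := by
  have h := kum_map_mul K ζ hζ a 1 1
  rw [mul_one] at h
  exact left_eq_add.mp h

omit [Fact p.Prime] in
theorem zeta_fixed (σ : ↥K.fixingSubgroup) : (σ : Gq) (ζ : Qb) = (ζ : Qb) :=
  (IntermediateField.mem_fixingSubgroup_iff K (σ : Gq)).mp σ.2 ζ ζ.2

omit [Fact p.Prime] in
include hζ in
theorem isPrimitiveRoot_coe : IsPrimitiveRoot ((ζ : K) : Qb) p :=
  hζ.map_of_injective (f := K.val) K.val.injective

/-- The defining property of the Kummer character, for every `p`-th root of `a`. -/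
theorem kum_spec (a : Kˣ) (θ : Qb) (hθ : θ ^ p = ((a : K) : Qb)) (σ : ↥K.fixingSubgroup) :
    (σ : Gq) θ = (ζ : Qb) ^ (kum K ζ hζ a σ).val * θ := by
  have hp : p.Prime := Fact.out
  have hz := isPrimitiveRoot_coe K ζ hζ
  have h0 := root_ne_zero (p := p) K a
  have h1 : (θ / root p K a) ^ p = 1 := by
    rw [div_pow, hθ, root_pow, div_self]
    have : ((a : K) : Qb) ≠ 0 := by
      rw [← root_pow (p := p) K a]
      exact pow_ne_zero _ h0
    exact this
  obtain ⟨i, -, hi⟩ := hz.eq_pow_of_pow_eq_one h1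
  have hθ' : θ = (ζ : Qb) ^ i * root p K a := by
    rw [hi, div_mul_cancel₀ _ h0]
  rw [hθ', map_mul, map_pow, zeta_fixed K ζ σ, kum_root K ζ hζ a σ]
  ring

/-- The Kummer character is determined by its defining property. -/
theorem kum_eq_of_apply (a : Kˣ) (θ : Qb) (hθ : θ ^ p = ((a : K) : Qb)) (σ : ↥K.fixingSubgroup)
    (n : ℕ) (h : (σ : Gq) θ = (ζ : Qb) ^ n * θ) : kum K ζ hζ a σ = (n : ZMod p) := by
  have hp : p.Prime := Fact.out
  have : NeZero p := ⟨hp.ne_zero⟩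
  have hz := isPrimitiveRoot_coe K ζ hζ
  have hθ0 : θ ≠ 0 := by
    rintro rfl
    rw [zero_pow hp.ne_zero] at hθ
    have h2 : (a : K) = 0 := Subtype.ext (by rw [← hθ]; rfl)
    exact a.ne_zero h2
  have h1 := kum_spec K ζ hζ a θ hθ σ
  rw [h] at h1
  have h2 : (ζ : Qb) ^ n = (ζ : Qb) ^ (kum K ζ hζ a σ).val := mul_right_cancel₀ hθ0 h1
  exact (natCast_eq_of_pow_eq_pow_val hz n _ h2).symm

/-- The Kummer character is multiplicative in `a`. -/
theorem kum_mul (a b : Kˣ) : kum K ζ hζ (a * b) = kum K ζ hζ a + kum K ζ hζ b := by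
  have hp : p.Prime := Fact.out
  have : NeZero p := ⟨hp.ne_zero⟩
  funext σ
  have hθ : (root p K a * root p K b) ^ p = (((a * b : Kˣ) : K) : Qb) := by
    rw [mul_pow, root_pow, root_pow]
    push_cast
    rfl
  have h := kum_eq_of_apply K ζ hζ (a * b) _ hθ σ
    ((kum K ζ hζ a σ).val + (kum K ζ hζ b σ).val) (by
      rw [map_mul, kum_root K ζ hζ a σ, kum_root K ζ hζ b σ, pow_add]
      ring)
  rw [h, Pi.add_apply]
  push_cast
  rw [ZMod.natCast_zmod_val, ZMod.natCast_zmod_val]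

theorem kum_one : kum K ζ hζ 1 = 0 := by
  have h := kum_mul K ζ hζ 1 1
  rw [mul_one] at h
  exact left_eq_add.mp h

/-- The Kummer character as a homomorphism `Kˣ →* Multiplicative (G_K → 𝔽_p)`. -/
noncomputable def kumHom : Kˣ →* Multiplicative (↥K.fixingSubgroup → ZMod p) where
  toFun a := Multiplicative.ofAdd (kum K ζ hζ a)
  map_one' := by rw [kum_one]; rfl
  map_mul' a b := by rw [kum_mul]; rfl

@[simp] theorem kumHom_apply (a : Kˣ) :
    Multiplicative.toAdd (kumHom K ζ hζ a) = kum K ζ hζ a := rfl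

/-- The kernel of the Kummer character: the `p`-th powers. -/
theorem kum_eq_zero_iff (a : Kˣ) :
    kum K ζ hζ a = 0 ↔ a ∈ (powMonoidHom p : Kˣ →* Kˣ).range := by
  have hp : p.Prime := Fact.out
  constructor
  · intro h
    have hfix : ∀ τ ∈ K.fixingSubgroup, τ (root p K a) = root p K a := by
      intro τ hτ
      have h1 := kum_root K ζ hζ a ⟨τ, hτ⟩
      rw [h] at h1
      simpa using h1
    have hmem : root p K a ∈ K := mem_of_forall_fixingSubgroup K _ hfix
    have hne : (⟨root p K a, hmem⟩ : K) ≠ 0 := by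
      intro h0
      exact root_ne_zero (p := p) K a (congrArg Subtype.val h0)
    refine ⟨Units.mk0 ⟨root p K a, hmem⟩ hne, ?_⟩
    apply Units.ext
    apply Subtype.ext
    rw [powMonoidHom_apply, Units.val_pow_eq_pow_val, Units.val_mk0]
    exact root_pow K a
  · rintro ⟨b, rfl⟩
    funext σ
    have hθ : (((b : K) : Qb)) ^ p = ((((powMonoidHom p : Kˣ →* Kˣ) b : Kˣ) : K) : Qb) := by
      rw [powMonoidHom_apply, Units.val_pow_eq_pow_val]
      rfl
    have hfix : (σ : Gq) ((b : K) : Qb) = (ζ : Qb) ^ 0 * ((b : K) : Qb) := by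
      rw [pow_zero, one_mul]
      exact (IntermediateField.mem_fixingSubgroup_iff K (σ : Gq)).mp σ.2 _ (b : K).2
    have h := kum_eq_of_apply K ζ hζ _ _ hθ σ 0 hfix
    rw [h]
    simp

theorem ker_kumHom : (kumHom K ζ hζ).ker = (powMonoidHom p : Kˣ →* Kˣ).range := by
  ext a
  rw [MonoidHom.mem_ker, ← kum_eq_zero_iff K ζ hζ a]
  rfl

/-- The Kummer character of `a` is constant modulo the stabiliser of a `p`-th root of `a`. -/
theorem kum_mul_of_fix (a : Kˣ) (θ : Qb) (hθ : θ ^ p = ((a : K) : Qb))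
    (g s : ↥K.fixingSubgroup) (hs : (s : Gq) θ = θ) :
    kum K ζ hζ a (g * s) = kum K ζ hζ a g := by
  have h0 : kum K ζ hζ a s = 0 := by
    have := kum_eq_of_apply K ζ hζ a θ hθ s 0 (by rw [pow_zero, one_mul, hs])
    simpa using this
  rw [kum_map_mul, h0, add_zero]

/-- Every additive function `G_K → 𝔽_p` which is constant modulo `Fix F`, `F/ℚ` finite, is a
Kummer character. -/
theorem exists_kum_eq_of_levelConstant [FiniteDimensional ℚ K] (c : ↥K.fixingSubgroup → ZMod p)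
    (hadd : ∀ σ τ, c (σ * τ) = c σ + c τ)
    (hlev : ∃ F : IntermediateField ℚ Qb, FiniteDimensional ℚ F ∧
      ∀ g s : ↥K.fixingSubgroup, (s : Gq) ∈ F.fixingSubgroup → c (g * s) = c g) :
    ∃ a : Kˣ, kum K ζ hζ a = c := by
  classical
  have hp : p.Prime := Fact.out
  have : NeZero p := ⟨hp.ne_zero⟩
  have hc1 : c 1 = 0 := by
    have h := hadd 1 1
    rw [mul_one] at h
    exact left_eq_add.mp h
  let c' : Gq → ZMod p := fun σ => if h : σ ∈ K.fixingSubgroup then c ⟨σ, h⟩ else 0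
  have hc' : ∀ σ : ↥K.fixingSubgroup, c' (σ : Gq) = c σ := by
    intro σ
    simp only [c', dif_pos σ.2]
  obtain ⟨F, hF, hcF⟩ := hlev
  obtain ⟨α, θ, hα, hθ, hspec⟩ := exists_kummer_of_hom K ζ hζ c'
    (by
      intro σ hσ τ hτ
      have h := hadd ⟨σ, hσ⟩ ⟨τ, hτ⟩
      have e1 : c' σ = c ⟨σ, hσ⟩ := hc' ⟨σ, hσ⟩
      have e2 : c' τ = c ⟨τ, hτ⟩ := hc' ⟨τ, hτ⟩
      have e3 : c' (σ * τ) = c (⟨σ, hσ⟩ * ⟨τ, hτ⟩) := hc' (⟨σ, hσ⟩ * ⟨τ, hτ⟩)
      rw [e1, e2, e3, h])
    ⟨F, hF, fun s hs hsK => by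
      have h := hcF 1 ⟨s, hsK⟩ hs
      rw [one_mul, hc1] at h
      have e1 : c' s = c ⟨s, hsK⟩ := hc' ⟨s, hsK⟩
      rw [e1, h]⟩
  refine ⟨Units.mk0 α hα, ?_⟩
  funext σ
  have h := kum_eq_of_apply K ζ hζ (Units.mk0 α hα) θ (by rw [hθ, Units.val_mk0]) σ
    (c σ).val (by rw [← hc' σ]; exact hspec σ σ.2)
  rw [h, ZMod.natCast_zmod_val]

end Kum

/-! ### The ramification dictionary and the Selmer group -/

section Selmer

variable {p : ℕ} [Fact p.Prime] (S : Finset Nat.Primes) (K : IntermediateField ℚ Qb)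
  [NumberField K] (ζ : K) (hζ : IsPrimitiveRoot ζ p)

omit [Fact p.Prime] in
/-- `p ∣ ord_v a` in the two shapes used by the Kummer dictionary and by the Selmer count. -/
theorem exists_valuation_mul_pow_eq_one_iff (v : HeightOneSpectrum (𝓞 K)) (a : K) (ha : a ≠ 0) :
    (∃ x : K, x ≠ 0 ∧ v.valuation K (a * x ^ p) = 1) ↔
      ∃ m : ℤ, v.valuation K a = WithZero.exp ((p : ℤ) * m) := by
  have hva : v.valuation K a ≠ 0 := by rw [Ne, map_eq_zero]; exact ha
  constructor
  · rintro ⟨x, hx, h⟩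
    have hvx : v.valuation K x ≠ 0 := by rw [Ne, map_eq_zero]; exact hx
    refine ⟨-WithZero.log (v.valuation K x), ?_⟩
    have h1 : v.valuation K a = WithZero.exp (WithZero.log (v.valuation K a)) :=
      (WithZero.exp_log hva).symm
    rw [h1]
    congr 1
    have h2 := congrArg WithZero.log h
    rw [map_mul, map_pow, WithZero.log_mul hva (pow_ne_zero _ hvx), WithZero.log_pow,
      WithZero.log_one] at h2
    simp only [nsmul_eq_mul] at h2
    linarith
  · rintro ⟨m, hm⟩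
    obtain ⟨π, hπ⟩ := v.valuation_exists_uniformizer K
    have hπ0 : π ≠ 0 := by
      rintro rfl
      rw [map_zero] at hπ
      exact WithZero.exp_ne_zero hπ.symm
    refine ⟨π ^ m, zpow_ne_zero _ hπ0, ?_⟩
    rw [map_mul, map_pow, map_zpow₀, hπ, hm, ← WithZero.exp_zsmul, ← WithZero.exp_nsmul,
      ← WithZero.exp_add, ← WithZero.exp_zero]
    congr 1
    simp only [smul_eq_mul, nsmul_eq_mul]
    ring

/-- **Ramification dictionary.** For `K` unramified outside `S ∋ p`, the Kummer character of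
`a ∈ Kˣ` is a level-`S` character iff `p ∣ ord_v a` for every prime `v` of `K` not above `S`. -/
theorem kum_mem_VS_iff (hpS : ExtCitation.pPrime p ∈ S) (hK : K.IsUnramifiedOutside S) (a : Kˣ) :
    kum K ζ hζ a ∈ VS p S K ↔ a ∈ selS K p (SK S K) := by
  have hp : p.Prime := Fact.out
  have hR3 := isUnramifiedOutside_adjoin_simple_iff S hpS K hK (root p K a) (a : K) a.ne_zero
    (root_pow K a)
  have hdict : a ∈ selS K p (SK S K) ↔
      ∀ v : HeightOneSpectrum (𝓞 K), (∀ q ∈ S, (((q : Nat.Primes) : ℕ) : 𝓞 K) ∉ v.asIdeal) →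
        ∃ x : K, x ≠ 0 ∧ v.valuation K ((a : K) * x ^ p) = 1 := by
    rw [mem_selS_iff_valuation K p hp.ne_zero]
    refine forall_congr' fun v => ?_
    rw [not_mem_SK_iff, exists_valuation_mul_pow_eq_one_iff K v (a : K) a.ne_zero]
  rw [hdict, ← hR3]
  constructor
  · rintro ⟨-, F, hF, hcF⟩
    -- `K(θ) ≤ K ⊔ F`
    have hle : (K⟮root p K a⟯).restrictScalars ℚ ≤ K ⊔ F := by
      have hgal := Fermat.Agent.S14.Base.isGalois
      rw [← InfiniteGalois.fixedField_fixingSubgroup ((K⟮root p K a⟯).restrictScalars ℚ),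
        ← InfiniteGalois.fixedField_fixingSubgroup (K ⊔ F)]
      apply IntermediateField.fixedField_antitone
      intro s hs
      rw [IntermediateField.fixingSubgroup_sup] at hs
      refine mem_fixingSubgroup_adjoin_simple K _ s hs.1 ?_
      have h1 := hcF 1 ⟨s, hs.1⟩ hs.2
      rw [one_mul, kum_map_one] at h1
      have h2 := kum_root K ζ hζ a ⟨s, hs.1⟩
      rw [h1] at h2
      simpa using h2
    exact (hK.sup hF).of_le hle
  · intro hur
    refine ⟨kum_map_mul K ζ hζ a, (K⟮root p K a⟯).restrictScalars ℚ, hur, fun g s hs => ?_⟩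
    exact kum_mul_of_fix K ζ hζ a _ (root_pow K a) g s
      (apply_eq_of_mem_fixingSubgroup_adjoin_simple K _ _ hs)

/-- Every level-`S` character of `G_K` is a Kummer character. -/
theorem exists_kum_eq (c : ↥K.fixingSubgroup → ZMod p) (hc : c ∈ VS p S K) :
    ∃ a : Kˣ, kum K ζ hζ a = c := by
  obtain ⟨hadd, F, hF, hcF⟩ := hc
  exact exists_kum_eq_of_levelConstant K ζ hζ c hadd ⟨F, hF.1, hcF⟩

/-- The class of `a` lies in Mathlib's Selmer group `K⟮S_K, p⟯` iff `a ∈ selS`. -/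
theorem mk_mem_selmerGroup_iff (a : Kˣ) :
    (QuotientGroup.mk a : Kˣ ⧸ (powMonoidHom p : Kˣ →* Kˣ).range) ∈
        selmerGroup (R := 𝓞 K) (K := K) (S := (SK S K : Set (HeightOneSpectrum (𝓞 K))))
          (n := p) ↔ a ∈ selS K p (SK S K) := by
  rw [← comap_mk_selmerGroup K p (Fact.out : p.Prime).ne_zero (SK S K)]
  rfl

/-- The Kummer character on classes modulo `p`-th powers. -/
noncomputable def kumQ : Kˣ ⧸ (powMonoidHom p : Kˣ →* Kˣ).range →*
    Multiplicative (↥K.fixingSubgroup → ZMod p) :=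
  QuotientGroup.lift _ (kumHom K ζ hζ) (by rw [ker_kumHom])

omit [NumberField K] in
@[simp] theorem kumQ_mk (a : Kˣ) :
    Multiplicative.toAdd (kumQ K ζ hζ (QuotientGroup.mk a)) = kum K ζ hζ a := rfl

omit [NumberField K] in
theorem kumQ_injective : Function.Injective (kumQ K ζ hζ) := by
  rw [← MonoidHom.ker_eq_bot_iff, Subgroup.eq_bot_iff_forall]
  intro x hx
  obtain ⟨a, rfl⟩ := QuotientGroup.mk_surjective x
  rw [MonoidHom.mem_ker] at hx
  have h : kum K ζ hζ a = 0 := congrArg Multiplicative.toAdd hx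
  rw [kum_eq_zero_iff] at h
  exact (QuotientGroup.eq_one_iff a).mpr h

/-- **COUNT-V (1).** The Kummer bijection between Mathlib's Selmer group `K⟮S_K, p⟯` and the
level-`S` characters of `G_K` (`p ∈ S`, `K` unramified outside `S`, `μ_p ⊂ K`). -/
noncomputable def kumEquiv (hpS : ExtCitation.pPrime p ∈ S) (hK : K.IsUnramifiedOutside S) :
    ↥(selmerGroup (R := 𝓞 K) (K := K) (S := (SK S K : Set (HeightOneSpectrum (𝓞 K))))
      (n := p)) ≃ ↥(VS p S K) :=
  Equiv.ofBijective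
    (fun x => ⟨Multiplicative.toAdd (kumQ K ζ hζ x.1), by
      obtain ⟨x, hx⟩ := x
      obtain ⟨a, rfl⟩ := QuotientGroup.mk_surjective x
      rw [kumQ_mk]
      exact (kum_mem_VS_iff S K ζ hζ hpS hK a).mpr ((mk_mem_selmerGroup_iff S K a).mp hx)⟩)
    ⟨fun x y h => by
      apply Subtype.ext
      apply kumQ_injective K ζ hζ
      exact congrArg Multiplicative.ofAdd (congrArg Subtype.val h),
     fun c => by
      obtain ⟨a, ha⟩ := exists_kum_eq S K ζ hζ c.1 c.2
      have hmem : a ∈ selS K p (SK S K) := by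
        rw [← kum_mem_VS_iff S K ζ hζ hpS hK a, ha]
        exact c.2
      exact ⟨⟨QuotientGroup.mk a, (mk_mem_selmerGroup_iff S K a).mpr hmem⟩, Subtype.ext ha⟩⟩

theorem kumEquiv_mk (hpS : ExtCitation.pPrime p ∈ S) (hK : K.IsUnramifiedOutside S) (a : Kˣ)
    (ha : (QuotientGroup.mk a : Kˣ ⧸ (powMonoidHom p : Kˣ →* Kˣ).range) ∈
      selmerGroup (R := 𝓞 K) (K := K) (S := (SK S K : Set (HeightOneSpectrum (𝓞 K))))
        (n := p)) :
    (kumEquiv S K ζ hζ hpS hK ⟨QuotientGroup.mk a, ha⟩ : ↥K.fixingSubgroup → ZMod p) =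
      kum K ζ hζ a := rfl

theorem kumEquiv_mul (hpS : ExtCitation.pPrime p ∈ S) (hK : K.IsUnramifiedOutside S)
    (x y : ↥(selmerGroup (R := 𝓞 K) (K := K) (S := (SK S K : Set (HeightOneSpectrum (𝓞 K))))
      (n := p))) :
    kumEquiv S K ζ hζ hpS hK (x * y) = kumEquiv S K ζ hζ hpS hK x + kumEquiv S K ζ hζ hpS hK y := by
  apply Subtype.ext
  show Multiplicative.toAdd (kumQ K ζ hζ (x.1 * y.1)) =
    Multiplicative.toAdd (kumQ K ζ hζ x.1) + Multiplicative.toAdd (kumQ K ζ hζ y.1)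
  rw [map_mul]
  rfl

include hζ in
/-- **COUNT-V (2), cardinality.** `|V_S| = p ^ (r₂ + |S_K| + ρ)`, `p ^ ρ = [Cl : Cl^p ⊔ ⟨S_K⟩]`. -/
theorem card_VS (hp2 : p ≠ 2) (hpS : ExtCitation.pPrime p ∈ S) (hK : K.IsUnramifiedOutside S) :
    ∃ ρ : ℕ, (clS (𝓞 K) p (SK S K)).index = p ^ ρ ∧
      Nat.card ↥(VS p S K) = p ^ (NumberField.InfinitePlace.nrComplexPlaces K + (SK S K).card + ρ) := by
  obtain ⟨ρ, hρ, hcard⟩ := exists_card_selmerGroup_eq_pow K p hp2 hζ (SK S K)
  exact ⟨ρ, hρ, by rw [← Nat.card_congr (kumEquiv S K ζ hζ hpS hK), hcard]⟩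

include hζ in
/-- **COUNT-V (2), dimension.** `dim_{𝔽_p} V_S = r₂ + |S_K| + ρ`, `p ^ ρ = [Cl : Cl^p ⊔ ⟨S_K⟩]`. -/
theorem finrank_VS (hp2 : p ≠ 2) (hpS : ExtCitation.pPrime p ∈ S) (hK : K.IsUnramifiedOutside S) :
    ∃ ρ : ℕ, (clS (𝓞 K) p (SK S K)).index = p ^ ρ ∧ Finite ↥(VS p S K) ∧
      Module.finrank (ZMod p) ↥(VS p S K) =
        NumberField.InfinitePlace.nrComplexPlaces K + (SK S K).card + ρ := by
  have hp : p.Prime := Fact.out
  obtain ⟨ρ, hρ, hcard⟩ := card_VS S K ζ hζ hp2 hpS hK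
  have hfin : Finite ↥(VS p S K) := by
    apply Nat.finite_of_card_ne_zero
    rw [hcard]
    exact pow_ne_zero _ hp.ne_zero
  refine ⟨ρ, hρ, hfin, ?_⟩
  have : Fintype ↥(VS p S K) := Fintype.ofFinite _
  have h1 := Module.card_eq_pow_finrank (K := ZMod p) (V := ↥(VS p S K))
  rw [ZMod.card, ← Nat.card_eq_fintype_card, hcard] at h1
  exact (Nat.pow_right_injective hp.two_le h1).symm

end Selmer

end Fermat.Agent.CFT.Global.CountV
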