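import Mathlib
import Fermat.Agent.CFT.Global.CountV
import Fermat.Agent.S55.Shapiro.Level
import Fermat.Agent.S55.Glue.LevelGalois
import Fermat.Agent.S55.Glue.CoindDual
import Fermat.Agent.S55.Glue.DualTwist

/-!
# CNT (c3), `ℚ`-side: `H¹(G_{ℚ,S}, M0(K))` and `H¹(G_{ℚ,S}, M0(K)^∨(1))`

`Qb = AlgebraicClosure ℚ`, `Gq = Gal(Qb/ℚ)`, `K ≤ Qb` a number field unramified outside `S ∋ p`
containing a primitive `p`-th root of unity, `M0(K) = coind_{Fix K}^{Gq} 𝔽_p` (`MK p K`).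

* `shapiroH1` : for every `𝔽_p[Gq]`-module `N` with an equivariant linear equivalence
  `T : M0(K) ≃ N`, the Shapiro map `V_S(K) → H¹(G_{ℚ,S}, N) = continuousH1S S N`,
  `c ↦ [T ∘ ind₁ c]`, is a linear equivalence (`shapiroEquiv`);
* `finrank_continuousH1S` : hence `continuousH1S S N` is finite and of dimension
  `r₂(K) + |S_K| + ρ`, `p ^ ρ = [Cl_K : Cl_K^p ⊔ ⟨S_K⟩]` (EXACT; this is (c3) with equality);
* `finrank_continuousH1S_MK`, `finrank_continuousH1S_MK_dualTwist` : the two instances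
  `N = M0(K)` and `N = M0(K).dualTwist (cycloChar p)`.
-/

set_option autoImplicit false

open scoped NumberField IntermediateField
open IsDedekindDomain groupCohomology ExtCitation

namespace Fermat.Agent.CFT.Global.CountQ

local notation "Qb" => AlgebraicClosure ℚ
local notation "Gq" => (AlgebraicClosure ℚ ≃ₐ[ℚ] AlgebraicClosure ℚ)

open Fermat.Agent.CFT.Global.CountV Fermat.Agent.S55.Shapiro Fermat.Agent.S55.Glue
  Fermat.Agent.S55.Glue.CoindDual Fermat.Agent.CFT.Global.SelmerCount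

local instance isAlgebraicQbar_cq : Algebra.IsAlgebraic ℚ (AlgebraicClosure ℚ) :=
  AlgebraicClosure.isAlgebraic ℚ
local instance isAlgClosureQbar_cq : IsAlgClosure ℚ (AlgebraicClosure ℚ) :=
  ⟨inferInstance, inferInstance⟩
local instance normalQbar_cq : Normal ℚ (AlgebraicClosure ℚ) :=
  IsAlgClosure.normal ℚ (AlgebraicClosure ℚ)

/-- The trivial module `𝔽_p` of `G_K = Fix K`. -/
noncomputable abbrev AK (p : ℕ) [Fact p.Prime] (K : IntermediateField ℚ Qb) :
    Rep.{0} (ZMod p) ↥K.fixingSubgroup :=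
  Rep.trivial (ZMod p) ↥K.fixingSubgroup (ZMod p)

/-- The base module `M0(K) = coind_{Fix K}^{Gq} 𝔽_p`. -/
noncomputable abbrev MK (p : ℕ) [Fact p.Prime] (K : IntermediateField ℚ Qb) :
    Rep.{0} (ZMod p) Gq :=
  Rep.coind K.fixingSubgroup.subtype (AK p K)

variable {p : ℕ} [Fact p.Prime] (S : Finset Nat.Primes) (K : IntermediateField ℚ Qb)

/-! ### Cocycles with trivial coefficients -/

theorem AK_ρ_apply (g : ↥K.fixingSubgroup) (a : AK p K) : (AK p K).ρ g a = a := rfl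

theorem mem_cocycles₁_AK_iff (β : ↥K.fixingSubgroup → AK p K) :
    β ∈ cocycles₁ (AK p K) ↔ ∀ σ τ, β (σ * τ) = β σ + β τ := by
  rw [mem_cocycles₁_iff]
  refine forall₂_congr fun σ τ => ?_
  rw [AK_ρ_apply, add_comm]

theorem eq_zero_of_mem_coboundaries₁_AK {β : ↥K.fixingSubgroup → AK p K}
    (hβ : β ∈ coboundaries₁ (AK p K)) : β = 0 := by
  obtain ⟨a, rfl⟩ := hβ
  funext g
  rw [d₀₁_hom_apply, AK_ρ_apply, sub_self]
  rfl

/-! ### Levels -/

theorem normal_fixingSubgroup (F : IntermediateField ℚ Qb) [Normal ℚ F] :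
    (F.fixingSubgroup).Normal :=
  ⟨fun _ hs g => conj_mem_fixingSubgroup F hs g⟩

theorem finiteIndex_fixingSubgroup (F : IntermediateField ℚ Qb) [FiniteDimensional ℚ F] :
    (F.fixingSubgroup).FiniteIndex := by
  have hn : Normal ℚ (IntermediateField.normalClosure ℚ F Qb) := normalClosure.normal ℚ _ Qb
  have hfin : ((IntermediateField.normalClosure ℚ F Qb).fixingSubgroup).FiniteIndex := by
    rw [fixingSubgroup_eq_ker]
    infer_instance
  exact @Subgroup.finiteIndex_of_le _ _ _ _ hfin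
    (IntermediateField.fixingSubgroup_antitone (IntermediateField.le_normalClosure F))

variable {S K}

/-- `ind₁` of a level-`S` character of `G_K` is a level-`S` cochain of `Gq`. -/
theorem isLevelConstantS₁_ind₁ (hK : K.IsUnramifiedOutside S) (R : Retr K.fixingSubgroup)
    {c : ↥K.fixingSubgroup → ZMod p} (hc : c ∈ VS p S K) :
    IsLevelConstantS₁ S (ind₁ (AK p K) R c) := by
  obtain ⟨-, F, hF, hcF⟩ := hc
  obtain ⟨F', hFF', hKF', hF', hn⟩ := exists_normal_isUnramifiedOutside hF hK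
  have hnF' := normal_fixingSubgroup F'
  have hNU : F'.fixingSubgroup ≤ K.fixingSubgroup := IntermediateField.fixingSubgroup_antitone hKF'
  have hβ : RInv₁ ((F'.fixingSubgroup).subgroupOf K.fixingSubgroup) c := by
    intro g s hs
    exact hcF g s (IntermediateField.fixingSubgroup_antitone hFF' (Subgroup.mem_subgroupOf.mp hs))
  exact ⟨F', hF', fun g s hs => rinv₁_ind₁ (A := AK p K) R hNU hβ g s hs⟩

/-- `sh₁` of a level-`S` cocycle of `Gq` with values in `M0(K)` is a level-`S` character of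
`G_K`. -/
theorem sh₁_mem_VS {c : Gq → MK p K} (hc : c ∈ cocycles₁ (MK p K))
    (hl : IsLevelConstantS₁ S c) : sh₁ K.fixingSubgroup (AK p K) c ∈ VS p S K := by
  obtain ⟨F, hF, hcF⟩ := hl
  refine ⟨(mem_cocycles₁_AK_iff K _).mp (sh₁_mem_cocycles₁ hc), F, hF, fun g s hs => ?_⟩
  have h : RInv₁ F.fixingSubgroup c := fun g s hs => hcF g s hs
  exact rinv₁_sh₁ (A := AK p K) h g s (Subgroup.mem_subgroupOf.mpr hs)

/-! ### The Shapiro equivalence on `H¹` -/

section Shapiro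

variable (N : Rep.{0} (ZMod p) Gq) (T : (MK p K) ≃ₗ[ZMod p] N)
  (hT : ∀ (g : Gq) (m : MK p K), T ((MK p K).ρ g m) = N.ρ g (T m))

include hT in
theorem comp_mem_cocycles₁ {φ : Gq → MK p K} (hφ : φ ∈ cocycles₁ (MK p K)) :
    (fun g => T (φ g)) ∈ cocycles₁ N := by
  rw [mem_cocycles₁_iff] at hφ ⊢
  intro g h
  rw [hφ g h, map_add, hT]

include hT in
theorem symm_comp_mem_cocycles₁ {φ : Gq → N} (hφ : φ ∈ cocycles₁ N) :
    (fun g => T.symm (φ g)) ∈ cocycles₁ (MK p K) := by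
  rw [mem_cocycles₁_iff] at hφ ⊢
  intro g h
  apply T.injective
  simp only [map_add, hT, T.apply_symm_apply]
  exact hφ g h

include hT in
theorem comp_d₀₁ (m : MK p K) :
    (fun g => T ((d₀₁ (MK p K)).hom m g)) = (d₀₁ N).hom (T m) := by
  funext g
  rw [d₀₁_hom_apply, d₀₁_hom_apply, map_sub, hT]

/-- The cocycle `T ∘ ind₁ c` attached to a level-`S` character `c` of `G_K`. -/
noncomputable def shapiroCocycle (R : Retr K.fixingSubgroup) :
    ↥(VS p S K) →ₗ[ZMod p] ↥(cocycles₁ N) where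
  toFun c := ⟨fun g => T (ind₁ (AK p K) R c.1 g),
    comp_mem_cocycles₁ N T hT (ind₁_mem_cocycles₁ R ((mem_cocycles₁_AK_iff K _).mpr c.2.1))⟩
  map_add' c c' := by
    apply Subtype.ext
    funext g
    show T (ind₁ (AK p K) R (c.1 + c'.1) g) =
      T (ind₁ (AK p K) R c.1 g) + T (ind₁ (AK p K) R c'.1 g)
    rw [map_add, Pi.add_apply, map_add]
  map_smul' a c := by
    apply Subtype.ext
    funext g
    show T (ind₁ (AK p K) R (a • c.1) g) = a • T (ind₁ (AK p K) R c.1 g)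
    rw [map_smul, Pi.smul_apply, map_smul]

theorem shapiroCocycle_apply (R : Retr K.fixingSubgroup) (c : ↥(VS p S K)) (g : Gq) :
    (shapiroCocycle N T hT R c : Gq → N) g = T (ind₁ (AK p K) R c.1 g) := rfl

/-- The Shapiro map `V_S(K) → H¹(G_{ℚ,S}, N)`, `c ↦ [T ∘ ind₁ c]`. -/
noncomputable def shapiroH1 (hK : K.IsUnramifiedOutside S) (R : Retr K.fixingSubgroup) :
    ↥(VS p S K) →ₗ[ZMod p] ↥(continuousH1S S N) :=
  LinearMap.codRestrict (continuousH1S S N) ((H1π N).hom ∘ₗ shapiroCocycle N T hT R)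
    (fun c => (mem_continuousH1S_iff S N _).mpr
      ⟨shapiroCocycle N T hT R c, (isLevelConstantS₁_ind₁ hK R c.2).comp T, rfl⟩)

theorem shapiroH1_apply (hK : K.IsUnramifiedOutside S) (R : Retr K.fixingSubgroup)
    (c : ↥(VS p S K)) :
    (shapiroH1 N T hT hK R c : H1 N) = (H1π N).hom (shapiroCocycle N T hT R c) := rfl

theorem shapiroH1_injective (hK : K.IsUnramifiedOutside S) (R : Retr K.fixingSubgroup) :
    Function.Injective (shapiroH1 N T hT hK R) := by
  rw [← LinearMap.ker_eq_bot, LinearMap.ker_eq_bot']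
  intro c hc
  have h1 : (H1π N).hom (shapiroCocycle N T hT R c) = 0 := by
    rw [← shapiroH1_apply N T hT hK R c, hc]
    rfl
  have h2 : (shapiroCocycle N T hT R c : Gq → N) ∈ coboundaries₁ N :=
    (H1π_eq_zero_iff _).mp h1
  obtain ⟨n, hn⟩ := h2
  -- pull the primitive back along `T`
  have h3 : ind₁ (AK p K) R c.1 = (d₀₁ (MK p K)).hom (T.symm n) := by
    funext g
    apply T.injective
    have h4 := congrFun hn g
    rw [shapiroCocycle_apply] at h4
    have h5 := congrFun (comp_d₀₁ N T hT (T.symm n)) g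
    simp only [T.apply_symm_apply] at h5
    rw [← h4]
    exact h5.symm
  have h5 : sh₁ K.fixingSubgroup (AK p K) (ind₁ (AK p K) R c.1) ∈ coboundaries₁ (AK p K) :=
    sh₁_mem_coboundaries₁ ⟨T.symm n, h3.symm⟩
  rw [sh₁_ind₁] at h5
  exact Subtype.ext (eq_zero_of_mem_coboundaries₁_AK K h5)

theorem shapiroH1_surjective (hK : K.IsUnramifiedOutside S) (R : Retr K.fixingSubgroup) :
    Function.Surjective (shapiroH1 N T hT hK R) := by
  rintro ⟨x, hx⟩
  obtain ⟨c', hc', rfl⟩ := (mem_continuousH1S_iff S N x).mp hx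
  -- the `M0(K)`-valued cocycle
  set φ : Gq → MK p K := fun g => T.symm (c' g) with hφ
  have hφc : φ ∈ cocycles₁ (MK p K) := symm_comp_mem_cocycles₁ N T hT c'.2
  have hφl : IsLevelConstantS₁ S φ := hc'.comp T.symm
  set β : ↥(VS p S K) := ⟨sh₁ K.fixingSubgroup (AK p K) φ, sh₁_mem_VS hφc hφl⟩ with hβ
  refine ⟨β, Subtype.ext ?_⟩
  rw [shapiroH1_apply]
  show (H1π N).hom (shapiroCocycle N T hT R β) = (H1π N).hom c'
  refine (H1π_eq_iff _ _).mpr ?_
  have h1 := ind₁_sh₁_sub R φ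
  have h2 : (d₁₂ (MK p K)).hom φ = 0 := LinearMap.mem_ker.mp hφc
  rw [h2, map_zero, add_zero] at h1
  refine ⟨T (hom₀ (AK p K) R φ), ?_⟩
  rw [← comp_d₀₁ N T hT, ← h1]
  funext g
  show T ((ind₁ (AK p K) R (sh₁ K.fixingSubgroup (AK p K) φ) - φ) g) =
    (shapiroCocycle N T hT R β : Gq → N) g - (c' : Gq → N) g
  rw [Pi.sub_apply, map_sub, shapiroCocycle_apply, hφ]
  simp only [T.apply_symm_apply]
  rfl

/-- **Shapiro for `H¹(G_{ℚ,S}, -)`**: `V_S(K) ≃ continuousH1S S N` for every module `N`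
equivariantly isomorphic to `M0(K)`. -/
noncomputable def shapiroEquiv (hK : K.IsUnramifiedOutside S) (R : Retr K.fixingSubgroup) :
    ↥(VS p S K) ≃ₗ[ZMod p] ↥(continuousH1S S N) :=
  LinearEquiv.ofBijective (shapiroH1 N T hT hK R)
    ⟨shapiroH1_injective N T hT hK R, shapiroH1_surjective N T hT hK R⟩

include T hT in
/-- **CNT (c3), exact form.** `H¹(G_{ℚ,S}, N)` is finite of dimension `r₂ + |S_K| + ρ`,
`p ^ ρ = [Cl : Cl^p ⊔ ⟨S_K⟩]`, for every `N` equivariantly isomorphic to `M0(K)`. -/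
theorem finrank_continuousH1S [NumberField K] (ζ : K) (hζ : IsPrimitiveRoot ζ p) (hp2 : p ≠ 2)
    (hpS : pPrime p ∈ S) (hK : K.IsUnramifiedOutside S) :
    ∃ ρ : ℕ, (clS (𝓞 K) p (SK S K)).index = p ^ ρ ∧ Finite ↥(continuousH1S S N) ∧
      Module.finrank (ZMod p) ↥(continuousH1S S N) =
        NumberField.InfinitePlace.nrComplexPlaces K + (SK S K).card + ρ := by
  obtain ⟨ρ, hρ, hfin, hrank⟩ := finrank_VS S K ζ hζ hp2 hpS hK
  obtain ⟨R⟩ := Retr.nonempty K.fixingSubgroup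
  have e := shapiroEquiv N T hT hK R
  exact ⟨ρ, hρ, Finite.of_equiv _ e.toEquiv, by rw [← e.finrank_eq, hrank]⟩

end Shapiro

/-! ### The two instances -/

/-- **CNT (c3) for `M0(K)`.** -/
theorem finrank_continuousH1S_MK [NumberField K] (ζ : K) (hζ : IsPrimitiveRoot ζ p)
    (hp2 : p ≠ 2) (hpS : pPrime p ∈ S) (hK : K.IsUnramifiedOutside S) :
    ∃ ρ : ℕ, (clS (𝓞 K) p (SK S K)).index = p ^ ρ ∧ Finite ↥(continuousH1S S (MK p K)) ∧
      Module.finrank (ZMod p) ↥(continuousH1S S (MK p K)) =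
        NumberField.InfinitePlace.nrComplexPlaces K + (SK S K).card + ρ :=
  finrank_continuousH1S (MK p K) (LinearEquiv.refl _ _) (fun _ _ => rfl) ζ hζ hp2 hpS hK

/-- The cyclotomic character is trivial on `G_K` when `μ_p ⊂ K`. -/
theorem cycloChar_eq_one_of_isPrimitiveRoot (ζ : K) (hζ : IsPrimitiveRoot ζ p)
    (u : Gq) (hu : u ∈ K.fixingSubgroup) : cycloChar p u = 1 := by
  apply cycloChar_eq_one_of_mem_fixingSubgroup
  rw [mem_fixingSubgroup_cycloField_iff]
  intro x hx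
  have hz : IsPrimitiveRoot ((ζ : K) : Qb) p := hζ.map_of_injective (f := K.val) K.val.injective
  obtain ⟨i, -, rfl⟩ := hz.eq_pow_of_pow_eq_one hx
  rw [map_pow]
  congr 1
  exact (IntermediateField.mem_fixingSubgroup_iff K u).mp hu ζ ζ.2

/-- **CNT (c3) for the dual twist `M0(K)^∨(1)`.** -/
theorem finrank_continuousH1S_MK_dualTwist [NumberField K] (ζ : K) (hζ : IsPrimitiveRoot ζ p)
    (hp2 : p ≠ 2) (hpS : pPrime p ∈ S) (hK : K.IsUnramifiedOutside S) :
    ∃ ρ : ℕ, (clS (𝓞 K) p (SK S K)).index = p ^ ρ ∧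
      Finite ↥(continuousH1S S ((MK p K).dualTwist (cycloChar p))) ∧
      Module.finrank (ZMod p) ↥(continuousH1S S ((MK p K).dualTwist (cycloChar p))) =
        NumberField.InfinitePlace.nrComplexPlaces K + (SK S K).card + ρ := by
  have hfi := finiteIndex_fixingSubgroup K
  have hχ : ∀ u ∈ K.fixingSubgroup, cycloChar p u = 1 :=
    cycloChar_eq_one_of_isPrimitiveRoot ζ hζ
  exact finrank_continuousH1S ((MK p K).dualTwist (cycloChar p))
    (LinearEquiv.ofBijective (toDualLin (U := K.fixingSubgroup) (cycloChar p) hχ)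
      (toDualLin_bijective (cycloChar p) hχ))
    (fun g m => toDualLin_ρ (cycloChar p) hχ g m) ζ hζ hp2 hpS hK

end Fermat.Agent.CFT.Global.CountQ
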