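import Mathlib
import Fermat.Agent.CFT.Local.PadicExt
import Fermat.Agent.CFT.Local.WildIndex

/-!
# COUNT-V (3a): the power index of a finite extension of `ℚ_[q]` inside `PadicAlgCl q`

For `E : IntermediateField ℚ_[q] (PadicAlgCl q)` finite over `ℚ_[q]` and containing a primitive
`p`-th root of unity:

* `q = p` : `[Eˣ : (Eˣ)^p] = p ^ (2 + [E : ℚ_p])`;
* `q ≠ p` : `[Eˣ : (Eˣ)^p] = p ^ 2`.

These are the local dimensions `dim_{F_p} K_w^× / p` of the Hilbert–Furtwängler count.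
-/

set_option autoImplicit false

namespace Fermat.Agent.CFT.Global.CountLocal

open scoped NNReal NormedField Valued
open IsLocalRing Fermat.Agent.CFT.Local.NormedLocal Fermat.Agent.CFT.Local.PadicExt
  Fermat.Agent.CFT.Local

section Base

variable (p : ℕ) [Fact p.Prime]

/-- `𝒪[ℚ_[p]]` is the subring `ℤ_[p]`. -/
lemma integer_eq_subring : (𝒪[ℚ_[p]] : Subring ℚ_[p]) = PadicInt.subring p := by
  ext x
  rw [Valued.integer.mem_iff]
  change _ ↔ ‖x‖ ≤ 1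
  rfl

/-- `𝒪[ℚ_[p]] ≃+* ℤ_[p]`. -/
noncomputable def integerEquiv : 𝒪[ℚ_[p]] ≃+* ℤ_[p] :=
  RingEquiv.subringCongr (integer_eq_subring p)

lemma maximalIdeal_integer_padic :
    maximalIdeal 𝒪[ℚ_[p]] = Ideal.span {((p : ℕ) : 𝒪[ℚ_[p]])} := by
  have h := map_maximalIdeal_of_surjective (integerEquiv p).symm.toRingHom
    (integerEquiv p).symm.surjective
  rw [PadicInt.maximalIdeal_eq_span_p, Ideal.map_span, Set.image_singleton] at h
  have h2 : (integerEquiv p).symm.toRingHom ((p : ℕ) : ℤ_[p]) = ((p : ℕ) : 𝒪[ℚ_[p]]) :=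
    map_natCast (integerEquiv p).symm p
  rw [h2] at h
  exact h.symm

lemma card_residueField_padic : Nat.card 𝓀[ℚ_[p]] = p := by
  have e : 𝓀[ℚ_[p]] ≃+* ZMod p :=
    (IsLocalRing.ResidueField.mapEquiv (integerEquiv p)).trans PadicInt.residueField
  rw [Nat.card_congr e.toEquiv, Nat.card_zmod]

end Base

section Wild

variable (p : ℕ) [Fact p.Prime] (E : IntermediateField ℚ_[p] (PadicAlgCl p))
  [FiniteDimensional ℚ_[p] E]

attribute [local instance] Ideal.Quotient.field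

/-- `|𝒪_E / p 𝒪_E| = p ^ [E : ℚ_p]`. -/
theorem card_quotient_span_natCast_padicExt :
    Nat.card (𝒪[E] ⧸ Ideal.span {((p : ℕ) : 𝒪[E])}) = p ^ Module.finrank ℚ_[p] E := by
  have hfin := finite_integer ℚ_[p] E
  have hfree := free_integer ℚ_[p] E
  have hmap : Ideal.map (algebraMap 𝒪[ℚ_[p]] 𝒪[E]) (maximalIdeal 𝒪[ℚ_[p]]) =
      Ideal.span {((p : ℕ) : 𝒪[E])} := by
    have h := maximalIdeal_integer_padic p
    rw [h, Ideal.map_span, Set.image_singleton, map_natCast]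
  have hfr := IsLocalRing.finrank_quotient_map (R := 𝒪[ℚ_[p]]) (S := 𝒪[E])
  rw [finrank_integer] at hfr
  have : Module.Finite (𝒪[ℚ_[p]] ⧸ maximalIdeal 𝒪[ℚ_[p]])
      (𝒪[E] ⧸ Ideal.map (algebraMap 𝒪[ℚ_[p]] 𝒪[E]) (maximalIdeal 𝒪[ℚ_[p]])) :=
    Module.Finite.of_restrictScalars_finite 𝒪[ℚ_[p]] _ _
  have hc := Module.natCard_eq_pow_finrank (K := 𝒪[ℚ_[p]] ⧸ maximalIdeal 𝒪[ℚ_[p]])
    (V := 𝒪[E] ⧸ Ideal.map (algebraMap 𝒪[ℚ_[p]] 𝒪[E]) (maximalIdeal 𝒪[ℚ_[p]]))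
  rw [hfr] at hc
  have hk : Nat.card (𝒪[ℚ_[p]] ⧸ maximalIdeal 𝒪[ℚ_[p]]) = p := card_residueField_padic p
  rw [hk] at hc
  rw [← hmap]
  exact hc

/-- **Wild local power index.** `E/ℚ_p` finite inside `PadicAlgCl p`, `μ_p ⊂ E`:
`[Eˣ : (Eˣ)^p] = p ^ (2 + [E : ℚ_p])`. -/
theorem index_pow_units_padicExt_wild {ζ : E} (hζ : IsPrimitiveRoot ζ p) :
    (powMonoidHom p : Eˣ →* Eˣ).range.index = p ^ (2 + Module.finrank ℚ_[p] E) := by
  have hp : p.Prime := Fact.out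
  have hζ1 : ‖ζ‖ = 1 := by
    have h1 : ‖ζ‖ ^ p = 1 := by rw [← norm_pow, hζ.pow_eq_one, norm_one]
    exact (pow_eq_one_iff_of_nonneg (norm_nonneg ζ) hp.ne_zero).1 h1
  have hmem : ζ ∈ 𝒪[E] := by
    have : ζ ∈ ((𝒪[E] : Subring E) : Set E) := by
      rw [coe_integer_eq_closedBall, mem_closedBall_zero_iff, hζ1]
    exact this
  have hζ' : IsPrimitiveRoot (⟨ζ, hmem⟩ : 𝒪[E]) p :=
    IsPrimitiveRoot.of_map_of_injective (f := (𝒪[E]).subtype) (by exact hζ) Subtype.val_injective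
  have hp0 : ((p : ℕ) : 𝒪[E]) ≠ 0 := by
    intro h
    have h2 : ((p : ℕ) : E) = 0 := by
      have := congrArg (fun x : 𝒪[E] => (x : E)) h
      simpa using this
    exact hp.ne_zero (Nat.cast_eq_zero.1 h2)
  rw [index_range_pow_prime_fractionField_of_primitiveRoot (O := 𝒪[E]) E hp hp0 hζ',
    card_quotient_span_natCast_padicExt, pow_add]

end Wild

section Tame

variable (q : ℕ) [Fact q.Prime] (p : ℕ) [Fact p.Prime] (E : IntermediateField ℚ_[q] (PadicAlgCl q))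
  [FiniteDimensional ℚ_[q] E]

/-- **Tame local power index.** `E/ℚ_q` finite inside `PadicAlgCl q`, `q ≠ p`, `μ_p ⊂ E`:
`[Eˣ : (Eˣ)^p] = p ^ 2`. -/
theorem index_pow_units_padicExt_tame (hqp : q ≠ p) {ζ : E} (hζ : IsPrimitiveRoot ζ p) :
    (powMonoidHom p : Eˣ →* Eˣ).range.index = p ^ 2 := by
  have hp : p.Prime := Fact.out
  have hq : q.Prime := Fact.out
  have hζ1 : ‖ζ‖ = 1 := by
    have h1 : ‖ζ‖ ^ p = 1 := by rw [← norm_pow, hζ.pow_eq_one, norm_one]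
    exact (pow_eq_one_iff_of_nonneg (norm_nonneg ζ) hp.ne_zero).1 h1
  have hmem : ζ ∈ 𝒪[E] := by
    have : ζ ∈ ((𝒪[E] : Subring E) : Set E) := by
      rw [coe_integer_eq_closedBall, mem_closedBall_zero_iff, hζ1]
    exact this
  have hζ' : IsPrimitiveRoot (⟨ζ, hmem⟩ : 𝒪[E]) p :=
    IsPrimitiveRoot.of_map_of_injective (f := (𝒪[E]).subtype) (by exact hζ) Subtype.val_injective
  have hpu : IsUnit ((p : ℕ) : 𝒪[E]) := by
    rw [Valued.integer.isUnit_iff_norm_eq_one]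
    have h : ‖((p : ℕ) : E)‖ = ‖((p : ℕ) : ℚ_[q])‖ := by
      rw [← map_natCast (algebraMap ℚ_[q] E) p, norm_algebraMap']
    have h2 : ‖((p : ℕ) : ℚ_[q])‖ = 1 := by
      rw [Padic.norm_natCast_eq_one_iff]
      exact (Nat.coprime_primes hq hp).2 hqp
    rw [← h2, ← h]
    rfl
  exact index_range_pow_prime_fractionField_tame_of_primitiveRoot (O := 𝒪[E]) E hp hpu hζ'

/-- Uniform statement: `[Eˣ : (Eˣ)^p] = p ^ (2 + [E : ℚ_q] · [q = p])`. -/
theorem index_pow_units_padicExt {ζ : E} (hζ : IsPrimitiveRoot ζ p) :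
    (powMonoidHom p : Eˣ →* Eˣ).range.index =
      p ^ (2 + if q = p then Module.finrank ℚ_[q] E else 0) := by
  by_cases hqp : q = p
  · subst hqp
    rw [if_pos rfl]
    exact index_pow_units_padicExt_wild q E hζ
  · rw [if_neg hqp, add_zero]
    exact index_pow_units_padicExt_tame q p E hqp hζ

end Tame

end Fermat.Agent.CFT.Global.CountLocal
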