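import Mathlib
import Fermat.Agent.CFT.Global.CountQ
import Fermat.Agent.S55.Abs.Bridge
import Fermat.Agent.S55.Glue.LocalDegreeMackey
import Fermat.Agent.CFT.LocalBr.FinCard

/-!
# CNT (c0), (c1), (c3), `ℚ`-side, in the Abs vocabulary

`Qb = AlgebraicClosure ℚ`, `GQ = Gal(Qb/ℚ)`, `K ≤ Qb` a number field with `μ_p ⊂ K`,
`N` an `𝔽_p[GQ]`-module with an equivariant linear equivalence `T : M0(K) ≃ N`
(`M0(K) = MK p K = coind_{Fix K} 𝔽_p`; the two instances are `N = M0(K)` and
`N = M0(K).dualTwist (cycloChar p)`).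

* `classMap`, `H1equivRange`, `H1equivS`, `H1equivLoc` : the level cohomology `S55.Abs.H1 𝒰 M` is the
  range of the class map into Mathlib's `H¹`; for `𝒰 = globalLevel S` it is `continuousH1S S M`,
  for `𝒰 = localLevel r` it is `continuousH1 r M`.
* `finrank_H1_res_le` : **abstract Mackey bound.** For `r : H →* G`, `U ≤ G`, a system `D` of
  representatives of `U \ G / r(H)` and `N ≅ coind_U k`, the evaluation
  `z ↦ (h ↦ (T⁻¹ (z h)) (τ j))_j` embeds `S55.Abs.H1 𝒱 (Res_r N)` into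
  `∏_j homLev 𝒱 (conjSub U r (τ j))` (level-constant additive characters of the Mackey subgroups).
* `finrank_H1_primeLocal_le` : **(c1), one prime.**
  `dim H¹(G_q, N) ≤ 2 · #{w | q} + [q = p] · [K : ℚ]`, with finiteness (c0).
* `c1_le` : **(c1).** `∑_{q ∈ S} dim H¹(G_q, N) ≤ 2 |S_K| + [K : ℚ]`.
* `finrank_absH1` : **(c3)** (exact) for `S55.Abs.H1 (globalLevel S) N`.
* `count_le` : the numerical inequality `(2 |S_K| + [K : ℚ]) + 2 ρ ≤ 2 (r₂ + |S_K| + ρ)`.
-/

set_option autoImplicit false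

open scoped NumberField
open IsDedekindDomain groupCohomology ExtCitation

namespace Fermat.Agent.CFT.Global.CountAbs

open Fermat.Agent.S55.Abs Fermat.Agent.S55.Shapiro

/-! ### Level cohomology inside Mathlib's `H¹` -/

section ClassMap

variable {k : Type} [Field k] {G : Type} [Group G] (𝒰 : LevelFamily G) (M : Rep.{0} k G)

/-- The class map from level 1-cocycles to Mathlib's `H¹`. -/
noncomputable def classMap : ↥(Z1 𝒰 M) →ₗ[k] ↑(groupCohomology.H1 M) :=
  (H1π M).hom ∘ₗ Submodule.inclusion (inf_le_right : Z1 𝒰 M ≤ cocycles₁ M)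

theorem classMap_apply (c : ↥(Z1 𝒰 M)) :
    classMap 𝒰 M c = (H1π M).hom ⟨c.1, c.2.2⟩ := rfl

theorem ker_classMap :
    LinearMap.ker (classMap 𝒰 M) = (coboundaries₁ M).comap (Z1 𝒰 M).subtype := by
  ext c
  rw [LinearMap.mem_ker, Submodule.mem_comap, classMap_apply]
  exact H1π_eq_zero_iff _

/-- `S55.Abs.H1 𝒰 M` is the range of the class map. -/
noncomputable def H1equivRange : S55.Abs.H1 𝒰 M ≃ₗ[k] ↥(LinearMap.range (classMap 𝒰 M)) :=
  (Submodule.quotEquivOfEq _ _ (ker_classMap 𝒰 M).symm).trans (classMap 𝒰 M).quotKerEquivRange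

end ClassMap

section ClassMapGalois

variable {k : Type} [Field k]

theorem range_classMap_globalLevel (S : Finset Nat.Primes) (M : Rep.{0} k GQ) :
    LinearMap.range (classMap (globalLevel S) M) = continuousH1S S M := by
  ext x
  rw [mem_continuousH1S_iff]
  constructor
  · rintro ⟨c, rfl⟩
    exact ⟨⟨c.1, c.2.2⟩, (isLevelConstantS₁_iff S _).2 c.2.1, rfl⟩
  · rintro ⟨c, hc, rfl⟩
    exact ⟨⟨c.1, (isLevelConstantS₁_iff S _).1 hc, c.2⟩, rfl⟩

theorem range_classMap_localLevel {H : Type} [Group H] (r : H →* GQ) (M : Rep.{0} k H) :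
    LinearMap.range (classMap (localLevel r) M) = continuousH1 r M := by
  ext x
  rw [mem_continuousH1_iff]
  constructor
  · rintro ⟨c, rfl⟩
    exact ⟨⟨c.1, c.2.2⟩, (isLevelConstant₁_iff r _).2 c.2.1, rfl⟩
  · rintro ⟨c, hc, rfl⟩
    exact ⟨⟨c.1, (isLevelConstant₁_iff r _).1 hc, c.2⟩, rfl⟩

/-- `S55.Abs.H1 (globalLevel S) M ≃ H¹(G_{ℚ,S}, M)` (Prelude `continuousH1S`). -/
noncomputable def H1equivS (S : Finset Nat.Primes) (M : Rep.{0} k GQ) :
    S55.Abs.H1 (globalLevel S) M ≃ₗ[k] ↥(continuousH1S S M) :=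
  (H1equivRange (globalLevel S) M).trans (LinearEquiv.ofEq _ _ (range_classMap_globalLevel S M))

/-- `S55.Abs.H1 (localLevel r) M ≃ continuousH1 r M` (Prelude). -/
noncomputable def H1equivLoc {H : Type} [Group H] (r : H →* GQ) (M : Rep.{0} k H) :
    S55.Abs.H1 (localLevel r) M ≃ₗ[k] ↥(continuousH1 r M) :=
  (H1equivRange (localLevel r) M).trans (LinearEquiv.ofEq _ _ (range_classMap_localLevel r M))

end ClassMapGalois

/-! ### Linear algebra -/

/-- If `ker E ≤ B` and the target of `E` is finite-dimensional then `Z ⧸ B` is finite-dimensional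
of dimension at most that of the target. -/
theorem finrank_quotient_le_of_ker_le {k Z Y : Type*} [Field k] [AddCommGroup Z] [Module k Z]
    [AddCommGroup Y] [Module k Y] [Module.Finite k Y] (E : Z →ₗ[k] Y) (B : Submodule k Z)
    (h : LinearMap.ker E ≤ B) :
    Module.Finite k (Z ⧸ B) ∧ Module.finrank k (Z ⧸ B) ≤ Module.finrank k Y := by
  have hs : Function.Surjective
      (Submodule.mapQ (LinearMap.ker E) B LinearMap.id (by rw [Submodule.comap_id]; exact h)) := by
    intro x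
    obtain ⟨z, rfl⟩ := Submodule.mkQ_surjective _ x
    exact ⟨Submodule.Quotient.mk z, rfl⟩
  have e := E.quotKerEquivRange
  have : Module.Finite k (Z ⧸ LinearMap.ker E) := Module.Finite.equiv e.symm
  refine ⟨Module.Finite.of_surjective _ hs, ?_⟩
  calc Module.finrank k (Z ⧸ B) ≤ Module.finrank k (Z ⧸ LinearMap.ker E) :=
        LinearMap.finrank_le_finrank_of_surjective hs
    _ = Module.finrank k (LinearMap.range E) := e.finrank_eq
    _ ≤ Module.finrank k Y := Submodule.finrank_le _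

/-! ### The abstract Mackey bound -/

section Mackey

variable {k : Type} [Field k] {G : Type} [Group G] {U : Subgroup G}
  {H : Type} [Group H] {r : H →* G} (𝒱 : LevelFamily H)

/-- Additive functions `W → k` which are right-invariant under `V ⊓ W` for some level `V ∈ 𝒱`
(`= H¹` of the level cochains of `W` with trivial coefficients `k`). -/
def homLev (W : Subgroup H) : Submodule k (↥W → k) where
  carrier := {c | (∀ s t, c (s * t) = c s + c t) ∧
    ∃ V ∈ 𝒱.sets, ∀ g s : ↥W, (s : H) ∈ V → c (g * s) = c g}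
  add_mem' := by
    rintro c c' ⟨h1, V, hV, h2⟩ ⟨h1', V', hV', h2'⟩
    obtain ⟨W', hW', hle⟩ := 𝒱.inter V hV V' hV'
    refine ⟨fun s t => ?_, W', hW', fun g s hs => ?_⟩
    · simp only [Pi.add_apply, h1, h1']
      ring
    · simp only [Pi.add_apply]
      rw [h2 g s (hle hs).1, h2' g s (hle hs).2]
  zero_mem' := by
    obtain ⟨V, hV⟩ := 𝒱.nonempty
    exact ⟨fun _ _ => by simp, V, hV, fun _ _ _ => rfl⟩
  smul_mem' := by
    rintro a c ⟨h1, V, hV, h2⟩
    refine ⟨fun s t => ?_, V, hV, fun g s hs => ?_⟩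
    · simp only [Pi.smul_apply, h1, smul_add]
    · simp only [Pi.smul_apply, h2 g s hs]

theorem mem_homLev_iff (W : Subgroup H) (c : ↥W → k) :
    c ∈ homLev 𝒱 W ↔ (∀ s t, c (s * t) = c s + c t) ∧
      ∃ V ∈ 𝒱.sets, ∀ g s : ↥W, (s : H) ∈ V → c (g * s) = c g := Iff.rfl

variable {𝒱}
variable (N : Rep.{0} k G) (T : (Rep.coind U.subtype (Rep.trivial k ↥U k)) ≃ₗ[k] N)
  (hT : ∀ (g : G) (m : Rep.coind U.subtype (Rep.trivial k ↥U k)),
    T ((Rep.coind U.subtype (Rep.trivial k ↥U k)).ρ g m) = N.ρ g (T m))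

include hT in
theorem symm_comp_mem_cocycles₁_res {z : H → N} (hz : z ∈ cocycles₁ (Rep.res r N)) :
    (fun h => T.symm (z h)) ∈
      cocycles₁ (Rep.res r (Rep.coind U.subtype (Rep.trivial k ↥U k))) := by
  rw [mem_cocycles₁_iff] at hz ⊢
  intro g h
  apply T.injective
  have e : T ((Rep.res r (Rep.coind U.subtype (Rep.trivial k ↥U k))).ρ g (T.symm (z h))) =
      (Rep.res r N).ρ g (z h) := by
    show T ((Rep.coind U.subtype (Rep.trivial k ↥U k)).ρ (r g) (T.symm (z h))) = N.ρ (r g) (z h)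
    rw [hT, T.apply_symm_apply]
  rw [map_add, T.apply_symm_apply, T.apply_symm_apply, e]
  exact hz g h

include hT in
theorem comp_mem_coboundaries₁_res {c : H → Rep.coind U.subtype (Rep.trivial k ↥U k)}
    (hc : c ∈ coboundaries₁ (Rep.res r (Rep.coind U.subtype (Rep.trivial k ↥U k)))) :
    (fun h => T (c h)) ∈ coboundaries₁ (Rep.res r N) := by
  obtain ⟨m, rfl⟩ := hc
  refine ⟨T m, ?_⟩
  funext h
  rw [d₀₁_hom_apply, d₀₁_hom_apply, map_sub]
  congr 1
  show N.ρ (r h) (T m) = T ((Rep.coind U.subtype (Rep.trivial k ↥U k)).ρ (r h) m)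
  rw [hT]

/-- Evaluation at `g`: `z ↦ (h ↦ (T⁻¹ (z h)) g)`, a level-constant additive character of the
Mackey subgroup `conjSub U r g`. -/
noncomputable def evalAt (g : G) :
    ↥(Z1 𝒱 (Rep.res r N)) →ₗ[k] ↥(homLev (k := k) 𝒱 (conjSub U r g)) where
  toFun z := ⟨mk₁ U (Rep.trivial k ↥U k) r g (fun h => T.symm (z.1 h)), by
    refine ⟨fun s t => ?_, ?_⟩
    · have h1 := mk₁_mem_cocycles₁ (U := U) (A := Rep.trivial k ↥U k) (r := r) g
        (symm_comp_mem_cocycles₁_res N T hT z.2.2)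
      have h2 := (mem_cocycles₁_iff _).mp h1 s t
      rw [h2, add_comm]
      rfl
    · obtain ⟨V, hV, h⟩ := z.2.1
      refine ⟨V, hV, fun g' s hs => ?_⟩
      show (T.symm (z.1 ((g' : H) * (s : H)))).1 g = (T.symm (z.1 (g' : H))).1 g
      rw [h _ _ hs]⟩
  map_add' z z' := by
    apply Subtype.ext
    funext h
    show (T.symm (z.1 (h : H) + z'.1 (h : H))).1 g =
      (T.symm (z.1 (h : H))).1 g + (T.symm (z'.1 (h : H))).1 g
    rw [map_add]
    rfl
  map_smul' a z := by
    apply Subtype.ext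
    funext h
    show (T.symm (a • z.1 (h : H))).1 g = a • (T.symm (z.1 (h : H))).1 g
    rw [map_smul]
    rfl

theorem evalAt_apply (g : G) (z : ↥(Z1 𝒱 (Rep.res r N))) (h : ↥(conjSub U r g)) :
    (evalAt N T hT g z : ↥(conjSub U r g) → k) h = (T.symm (z.1 (h : H))).1 g := rfl

/-- The kernel of the total evaluation consists of coboundaries (Mackey–Shapiro, degree 1). -/
theorem ker_evalAt_le {J : Type} (D : DRep U r J) :
    LinearMap.ker (LinearMap.pi fun j => evalAt (𝒱 := 𝒱) N T hT (D.τ j)) ≤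
      (coboundaries₁ (Rep.res r N)).comap (Z1 𝒱 (Rep.res r N)).subtype := by
  intro z hz
  rw [LinearMap.mem_ker] at hz
  have hj : ∀ j, mk₁ U (Rep.trivial k ↥U k) r (D.τ j) (fun h => T.symm (z.1 h)) = 0 := fun j =>
    congrArg Subtype.val (congrFun hz j)
  have hc := symm_comp_mem_cocycles₁_res N T hT z.2.2
  have hcob := (mem_coboundaries₁_iff_mk₁ D hc).mpr (fun j => by
    rw [hj j]
    exact Submodule.zero_mem _)
  have h2 := comp_mem_coboundaries₁_res N T hT hcob
  rw [Submodule.mem_comap]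
  have e : (fun h => T (T.symm (z.1 h))) = z.1 := by
    funext h
    rw [T.apply_symm_apply]
  rw [e] at h2
  exact h2

include T hT in
/-- **Abstract Mackey bound for `H¹`.**  If `N ≅ coind_U k`, `D` is a finite system of
representatives of `U \ G / r(H)`, and the spaces of level-constant additive characters of the
Mackey subgroups are finite-dimensional of dimension `≤ n j`, then
`dim H¹_lev(H, Res_r N) ≤ ∑ j, n j`. -/
theorem finrank_H1_res_le {J : Type} [Fintype J] (D : DRep U r J) (n : J → ℕ)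
    (hfin : ∀ j, Module.Finite k ↥(homLev (k := k) 𝒱 (conjSub U r (D.τ j))))
    (hn : ∀ j, Module.finrank k ↥(homLev (k := k) 𝒱 (conjSub U r (D.τ j))) ≤ n j) :
    Module.Finite k (S55.Abs.H1 𝒱 (Rep.res r N)) ∧
      Module.finrank k (S55.Abs.H1 𝒱 (Rep.res r N)) ≤ ∑ j, n j := by
  have := hfin
  obtain ⟨h1, h2⟩ := finrank_quotient_le_of_ker_le
    (LinearMap.pi fun j => evalAt (𝒱 := 𝒱) N T hT (D.τ j)) _ (ker_evalAt_le N T hT D)
  refine ⟨h1, h2.trans ?_⟩
  rw [Module.finrank_pi_fintype]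
  exact Finset.sum_le_sum fun j _ => hn j

end Mackey

/-! ### Arithmetic: the local groups of `ℚ` -/

section Arithmetic

open Fermat.Agent.CFT.Global.CountV Fermat.Agent.CFT.Global.CountQ
  Fermat.Agent.CFT.Global.SelmerCount Fermat.Agent.S55.Glue Fermat.Agent.S55.Glue.LocalDegree
  Fermat.Agent.S55.Glue.PlacesAbove Fermat.Agent.CFT.LocalBr

local notation "Qb" => AlgebraicClosure ℚ

variable {p : ℕ} [Fact p.Prime]

section OnePrime

variable (q : ℕ) [Fact q.Prime] (K : IntermediateField ℚ Qb)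

/-- For the local level family, `homLev` of an open subgroup `Fix E` is `FinCard.homLC p E`. -/
theorem homLev_localLevel_eq_homLC (E : IntermediateField ℚ_[q] (PadicAlgCl q)) :
    homLev (k := ZMod p) (localLevel (localGaloisToGlobal q)) E.fixingSubgroup =
      FinCard.homLC p E := by
  ext c
  constructor
  · rintro ⟨h1, V, ⟨F, hF, rfl⟩, h2⟩
    exact ⟨h1, F, hF, fun g s hs => h2 g s hs⟩
  · rintro ⟨h1, F, hF, h2⟩
    exact ⟨h1, _, ⟨F, hF, rfl⟩, fun g s hs => h2 g s hs⟩

/-- The level-constant additive characters of a Mackey subgroup of `G_q` (`= Fix K_w`):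
finite-dimensional of dimension `≤ 2 + [q = p] · [K_w : ℚ_q]` (`μ_p ⊂ K`). -/
theorem finrank_homLev_conjSub_le [FiniteDimensional ℚ K]
    (hχ : ∀ u ∈ K.fixingSubgroup, cycloChar p u = 1) (g : GQ) :
    Module.Finite (ZMod p) ↥(homLev (k := ZMod p) (localLevel (localGaloisToGlobal q))
        (conjSub K.fixingSubgroup (localGaloisToGlobal q) g)) ∧
      Module.finrank (ZMod p) ↥(homLev (k := ZMod p) (localLevel (localGaloisToGlobal q))
        (conjSub K.fixingSubgroup (localGaloisToGlobal q) g)) ≤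
        2 + if q = p then localDegree q K g else 0 := by
  have hμ : ∀ u ∈ (localField q K g).fixingSubgroup,
      cycloChar p (localGaloisToGlobal q u) = 1 := by
    intro u hu
    rw [← conjSub_eq_fixingSubgroup_localField] at hu
    have h1 := hχ _ ((mem_conjSub _ _).mp hu)
    rwa [map_mul, map_mul, map_inv, mul_right_comm, mul_inv_cancel, one_mul] at h1
  have key : ∀ W : Subgroup (Gq q), W = (localField q K g).fixingSubgroup →
      Module.Finite (ZMod p) ↥(homLev (k := ZMod p) (localLevel (localGaloisToGlobal q)) W) ∧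
        Module.finrank (ZMod p) ↥(homLev (k := ZMod p) (localLevel (localGaloisToGlobal q)) W) ≤
          2 + if q = p then localDegree q K g else 0 := by
    rintro W rfl
    rw [homLev_localLevel_eq_homLC]
    have := FinCard.finite_homLC p (localField q K g) hμ
    exact ⟨Module.Finite.of_finite, FinCard.finrank_homLC_le p (localField q K g) hμ⟩
  exact key _ (conjSub_eq_fixingSubgroup_localField q K g)

variable (N : Rep.{0} (ZMod p) GQ) (T : (MK p K) ≃ₗ[ZMod p] N)
  (hT : ∀ (g : GQ) (m : MK p K), T ((MK p K).ρ g m) = N.ρ g (T m))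

include T hT in
/-- **(c0) + (c1) at one prime `q`** (any prime, also `q = p`):
`dim H¹(G_q, N) ≤ 2 · #{w | q} + [q = p] · [K : ℚ]`. -/
theorem finrank_H1_local_le [NumberField K] (hχ : ∀ u ∈ K.fixingSubgroup, cycloChar p u = 1) :
    Module.Finite (ZMod p) (S55.Abs.H1 (localLevel (localGaloisToGlobal q))
        (Rep.res (localGaloisToGlobal q) N)) ∧
      Module.finrank (ZMod p) (S55.Abs.H1 (localLevel (localGaloisToGlobal q))
        (Rep.res (localGaloisToGlobal q) N)) ≤
        2 * Nat.card (PlacesOver K q) + if q = p then Module.finrank ℚ K else 0 := by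
  obtain ⟨D⟩ := DRep.nonempty K.fixingSubgroup (localGaloisToGlobal q)
  have hfinJ := drep_finite D
  have : Fintype (DoubleCoset.Quotient (K.fixingSubgroup : Set GQ)
      ((localGaloisToGlobal q).range : Set GQ)) := Fintype.ofFinite _
  obtain ⟨h1, h2⟩ := finrank_H1_res_le (𝒱 := localLevel (localGaloisToGlobal q)) N T hT D
    (fun j => 2 + if q = p then localDegree q K (D.τ j) else 0)
    (fun j => (finrank_homLev_conjSub_le q K hχ (D.τ j)).1)
    (fun j => (finrank_homLev_conjSub_le q K hχ (D.τ j)).2)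
  refine ⟨h1, h2.trans (le_of_eq ?_)⟩
  rw [Finset.sum_add_distrib, Finset.sum_const, Finset.card_univ, smul_eq_mul,
    ← drep_card_eq_card_placesOver q K D, Nat.card_eq_fintype_card, mul_comm]
  congr 1
  split_ifs with h
  · exact drep_sum_localDegree q K D
  · simp

end OnePrime

section AllPrimes

variable (S : Finset Nat.Primes) (K : IntermediateField ℚ Qb)
  (N : Rep.{0} (ZMod p) GQ) (T : (MK p K) ≃ₗ[ZMod p] N)
  (hT : ∀ (g : GQ) (m : MK p K), T ((MK p K).ρ g m) = N.ρ g (T m))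

include T hT in
/-- **(c0) + (c1) at one prime `q : Nat.Primes`**, in the shape of `Abs.ctxS`. -/
theorem finrank_H1_primeLocal_le [NumberField K]
    (hχ : ∀ u ∈ K.fixingSubgroup, cycloChar p u = 1) (q : Nat.Primes) :
    Module.Finite (ZMod p) (S55.Abs.H1 (localLevel (primeLocalToGlobal q))
        (Rep.res (primeLocalToGlobal q) N)) ∧
      Module.finrank (ZMod p) (S55.Abs.H1 (localLevel (primeLocalToGlobal q))
        (Rep.res (primeLocalToGlobal q) N)) ≤
        2 * Nat.card (PlacesOver K (q : ℕ)) + if q = pPrime p then Module.finrank ℚ K else 0 := by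
  have : Fact (q : ℕ).Prime := ⟨q.2⟩
  have h := finrank_H1_local_le (q : ℕ) K N T hT hχ
  have e : (if (q : ℕ) = p then Module.finrank ℚ K else 0) =
      if q = pPrime p then Module.finrank ℚ K else 0 := by
    by_cases hq : q = pPrime p
    · have hq' : (q : ℕ) = p := by rw [hq]; rfl
      rw [if_pos hq, if_pos hq']
    · have hq' : ¬ (q : ℕ) = p := fun h' => hq (Subtype.ext h')
      rw [if_neg hq, if_neg hq']
  rw [e] at h
  exact h

/-- `|S_K| = ∑_{q ∈ S} #{w | q}`. -/
theorem sum_card_placesOver [NumberField K] :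
    ∑ q ∈ S, Nat.card (PlacesOver K ((q : Nat.Primes) : ℕ)) = (SK S K).card := by
  classical
  have hcard : ∀ q ∈ S, Nat.card (PlacesOver K ((q : Nat.Primes) : ℕ)) =
      ((SK S K).filter fun v => (((q : Nat.Primes) : ℕ) : 𝓞 K) ∈ v.asIdeal).card := by
    intro q hq
    refine Nat.subtype_card _ fun v => ?_
    rw [Finset.mem_filter, mem_SK_iff]
    exact ⟨fun h => h.2, fun h => ⟨⟨q, hq, h⟩, h⟩⟩
  rw [Finset.sum_congr rfl hcard, ← Finset.card_biUnion]
  · congr 1
    ext v
    rw [Finset.mem_biUnion, mem_SK_iff]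
    constructor
    · rintro ⟨q, hq, hv⟩
      exact ⟨q, hq, (Finset.mem_filter.mp hv).2⟩
    · rintro ⟨q, hq, hv⟩
      exact ⟨q, hq, Finset.mem_filter.mpr ⟨(mem_SK_iff S K v).mpr ⟨q, hq, hv⟩, hv⟩⟩
  · intro q _ q' _ hqq'
    rw [Function.onFun, Finset.disjoint_left]
    intro v hv hv'
    have h1 := (Finset.mem_filter.mp hv).2
    have h2 := (Finset.mem_filter.mp hv').2
    have hcop : Nat.Coprime (q : ℕ) (q' : ℕ) :=
      (Nat.coprime_primes q.2 q'.2).mpr (fun h => hqq' (Subtype.ext h))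
    have hone : (1 : 𝓞 K) ∈ v.asIdeal := by
      have hb : ((q : ℕ) : ℤ) * Nat.gcdA q q' + ((q' : ℕ) : ℤ) * Nat.gcdB q q' = 1 := by
        have := Nat.gcd_eq_gcd_ab (q : ℕ) (q' : ℕ)
        rw [hcop.gcd_eq_one] at this
        exact_mod_cast this.symm
      have hc := congrArg (fun z : ℤ => (z : 𝓞 K)) hb
      simp only [Int.cast_add, Int.cast_mul, Int.cast_natCast, Int.cast_one] at hc
      rw [← hc]
      exact v.asIdeal.add_mem (v.asIdeal.mul_mem_right _ h1) (v.asIdeal.mul_mem_right _ h2)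
    exact v.isPrime.ne_top ((Ideal.eq_top_iff_one _).mpr hone)

include T hT in
/-- **CNT (c1).** `∑_{q ∈ S} dim H¹(G_q, N) ≤ 2 |S_K| + [K : ℚ]`. -/
theorem c1_le [NumberField K] (hpS : pPrime p ∈ S)
    (hχ : ∀ u ∈ K.fixingSubgroup, cycloChar p u = 1) :
    ∑ q ∈ S, Module.finrank (ZMod p) (S55.Abs.H1 (localLevel (primeLocalToGlobal q))
        (Rep.res (primeLocalToGlobal q) N)) ≤ 2 * (SK S K).card + Module.finrank ℚ K := by
  calc ∑ q ∈ S, Module.finrank (ZMod p) (S55.Abs.H1 (localLevel (primeLocalToGlobal q))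
        (Rep.res (primeLocalToGlobal q) N))
      ≤ ∑ q ∈ S, (2 * Nat.card (PlacesOver K ((q : Nat.Primes) : ℕ)) +
          if q = pPrime p then Module.finrank ℚ K else 0) :=
        Finset.sum_le_sum fun q _ => (finrank_H1_primeLocal_le K N T hT hχ q).2
    _ = 2 * (SK S K).card + Module.finrank ℚ K := by
        rw [Finset.sum_add_distrib, ← Finset.mul_sum, sum_card_placesOver,
          Finset.sum_ite_eq' S (pPrime p), if_pos hpS]

include T hT in
/-- **CNT (c1)**, sum over the subtype `↥S` (the index type of `Abs.ctxS`). -/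
theorem c1_le' [NumberField K] (hpS : pPrime p ∈ S)
    (hχ : ∀ u ∈ K.fixingSubgroup, cycloChar p u = 1) :
    ∑ q : ↥S, Module.finrank (ZMod p) (S55.Abs.H1 (localLevel (primeLocalToGlobal q.1))
        (Rep.res (primeLocalToGlobal q.1) N)) ≤ 2 * (SK S K).card + Module.finrank ℚ K := by
  rw [Finset.sum_coe_sort S (fun q => Module.finrank (ZMod p)
    (S55.Abs.H1 (localLevel (primeLocalToGlobal q)) (Rep.res (primeLocalToGlobal q) N)))]
  exact c1_le S K N T hT hpS hχ

include T hT in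
/-- **CNT (c0) + (c1)** for the product `J_S(N) = ∏_{q ∈ S} H¹(G_q, N)`. -/
theorem finrank_JS_le [NumberField K] (hpS : pPrime p ∈ S)
    (hχ : ∀ u ∈ K.fixingSubgroup, cycloChar p u = 1) :
    Module.Finite (ZMod p) (∀ q : ↥S, S55.Abs.H1 (localLevel (primeLocalToGlobal q.1))
        (Rep.res (primeLocalToGlobal q.1) N)) ∧
      Module.finrank (ZMod p) (∀ q : ↥S, S55.Abs.H1 (localLevel (primeLocalToGlobal q.1))
        (Rep.res (primeLocalToGlobal q.1) N)) ≤ 2 * (SK S K).card + Module.finrank ℚ K := by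
  have hfin : ∀ q : ↥S, Module.Finite (ZMod p) (S55.Abs.H1 (localLevel (primeLocalToGlobal q.1))
      (Rep.res (primeLocalToGlobal q.1) N)) := fun q =>
    (finrank_H1_primeLocal_le K N T hT hχ q.1).1
  have hfree : ∀ q : ↥S, Module.Free (ZMod p) (S55.Abs.H1 (localLevel (primeLocalToGlobal q.1))
      (Rep.res (primeLocalToGlobal q.1) N)) := fun q => inferInstance
  refine ⟨inferInstance, ?_⟩
  rw [Module.finrank_pi_fintype]
  exact c1_le' S K N T hT hpS hχ

include T hT in
/-- **CNT (c0) + (c3)** (exact) for the level cohomology `Abs.H1 (globalLevel S) N`. -/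
theorem finrank_absH1 [NumberField K] (ζ : K) (hζ : IsPrimitiveRoot ζ p) (hp2 : p ≠ 2)
    (hpS : pPrime p ∈ S) (hK : K.IsUnramifiedOutside S) :
    ∃ ρ : ℕ, (clS (𝓞 K) p (SK S K)).index = p ^ ρ ∧
      Module.Finite (ZMod p) (S55.Abs.H1 (globalLevel S) N) ∧
      Module.finrank (ZMod p) (S55.Abs.H1 (globalLevel S) N) =
        NumberField.InfinitePlace.nrComplexPlaces K + (SK S K).card + ρ := by
  obtain ⟨ρ, hρ, hfin, hrank⟩ := finrank_continuousH1S N T hT ζ hζ hp2 hpS hK
  have : Module.Finite (ZMod p) ↥(continuousH1S S N) := Module.Finite.of_finite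
  exact ⟨ρ, hρ, Module.Finite.equiv (H1equivS S N).symm, by
    rw [(H1equivS S N).finrank_eq, hrank]⟩

/-- `[K : ℚ] = 2 r₂` when `μ_p ⊂ K`, `p` odd. -/
theorem finrank_eq_two_mul_nrComplexPlaces [NumberField K] (ζ : K) (hζ : IsPrimitiveRoot ζ p)
    (hp2 : p ≠ 2) :
    Module.finrank ℚ K = 2 * NumberField.InfinitePlace.nrComplexPlaces K := by
  have h2 : 2 < p := lt_of_le_of_ne (Fact.out : p.Prime).two_le (Ne.symm hp2)
  have h0 : NumberField.InfinitePlace.nrRealPlaces K = 0 :=
    NumberField.InfinitePlace.IsPrimitiveRoot.nrRealPlaces_eq_zero_of_two_lt h2 hζ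
  have h1 := NumberField.InfinitePlace.card_add_two_mul_card_eq_rank K
  rw [← h1, h0, zero_add]

/-- The numerical count of the base case: `A + 2 c ≤ 2 Bd` for `A = 2 |S_K| + [K : ℚ]`,
`c = ρ`, `Bd = r₂ + |S_K| + ρ`. -/
theorem count_le [NumberField K] (ζ : K) (hζ : IsPrimitiveRoot ζ p) (hp2 : p ≠ 2) (ρ : ℕ) :
    (2 * (SK S K).card + Module.finrank ℚ K) + 2 * ρ ≤
      2 * (NumberField.InfinitePlace.nrComplexPlaces K + (SK S K).card + ρ) := by
  rw [finrank_eq_two_mul_nrComplexPlaces K ζ hζ hp2]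
  omega

end AllPrimes

/-! ### Packaged form for `M0(K)` and its twisted dual -/

section Packaged

variable (S : Finset Nat.Primes) (K : IntermediateField ℚ Qb)

/-- `μ_p ⊂ K` gives a primitive `p`-th root of unity in `K`. -/
theorem exists_primitiveRoot_of_cycloField_le (hcyc : cycloField p ≤ K) :
    ∃ ζ : K, IsPrimitiveRoot ζ p := by
  have : NeZero p := ⟨(Fact.out : p.Prime).ne_zero⟩
  obtain ⟨ζ, hζ⟩ := HasEnoughRootsOfUnity.exists_primitiveRoot Qb p
  have hmem : ζ ∈ K := hcyc (IntermediateField.subset_adjoin ℚ _ hζ.pow_eq_one)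
  exact ⟨⟨ζ, hmem⟩, IsPrimitiveRoot.of_map_of_injective (f := K.val) hζ K.val.injective⟩

/-- `μ_p ⊂ K`: the cyclotomic character is trivial on `Gal(ℚ̄/K)`. -/
theorem cycloChar_eq_one_of_cycloField_le (hcyc : cycloField p ≤ K) :
    ∀ u ∈ K.fixingSubgroup, cycloChar p u = 1 := fun _ hu =>
  cycloChar_eq_one_of_mem_fixingSubgroup p (IntermediateField.fixingSubgroup_antitone hcyc hu)

/-- The equivariant linear equivalence `M0(K) ≃ M0(K)^∨(1)` (`μ_p ⊂ K`). -/
noncomputable def dualEquiv [FiniteDimensional ℚ K] (hcyc : cycloField p ≤ K) :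
    (MK p K) ≃ₗ[ZMod p] ((MK p K).dualTwist (cycloChar p)) :=
  LinearEquiv.ofBijective
    (CoindDual.toDualLin (U := K.fixingSubgroup) (cycloChar p)
      (cycloChar_eq_one_of_cycloField_le K hcyc))
    (CoindDual.toDualLin_bijective (cycloChar p) (cycloChar_eq_one_of_cycloField_le K hcyc))

theorem dualEquiv_ρ [FiniteDimensional ℚ K] (hcyc : cycloField p ≤ K) (g : GQ) (m : MK p K) :
    dualEquiv K hcyc ((MK p K).ρ g m) =
      ((MK p K).dualTwist (cycloChar p)).ρ g (dualEquiv K hcyc m) :=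
  CoindDual.toDualLin_ρ (cycloChar p) (cycloChar_eq_one_of_cycloField_le K hcyc) g m

/-- **CNT, packaged** for `M = M0(K)` and `M' = M.dualTwist (cycloChar p)`:
there is `ρ` with `p ^ ρ = [Cl_K : Cl_K^p ⊔ ⟨S_K⟩]` such that, with `A = 2 |S_K| + [K : ℚ]`,
`Bd = r₂ + |S_K| + ρ`:
(c0)+(c3) `H¹_lev(G_{ℚ,S}, N)` is finite of dimension `Bd` (`N = M, M'`);
(c0)+(c1) every `H¹_lev(G_q, N)` is finite and `∑_{q ∈ S} dim H¹_lev(G_q, N) ≤ A` (`N = M, M'`);
and `A + 2 ρ ≤ 2 Bd`. -/
theorem cnt [NumberField K] (hp2 : p ≠ 2) (hpS : pPrime p ∈ S) (hK : K.IsUnramifiedOutside S)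
    (hcyc : cycloField p ≤ K) :
    ∃ ρ : ℕ, (clS (𝓞 K) p (SK S K)).index = p ^ ρ ∧
      (Module.Finite (ZMod p) (S55.Abs.H1 (globalLevel S) (MK p K)) ∧
        Module.finrank (ZMod p) (S55.Abs.H1 (globalLevel S) (MK p K)) =
          NumberField.InfinitePlace.nrComplexPlaces K + (SK S K).card + ρ) ∧
      (Module.Finite (ZMod p) (S55.Abs.H1 (globalLevel S) ((MK p K).dualTwist (cycloChar p))) ∧
        Module.finrank (ZMod p)
            (S55.Abs.H1 (globalLevel S) ((MK p K).dualTwist (cycloChar p))) =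
          NumberField.InfinitePlace.nrComplexPlaces K + (SK S K).card + ρ) ∧
      ((∀ q : Nat.Primes, Module.Finite (ZMod p) (S55.Abs.H1 (localLevel (primeLocalToGlobal q))
          (Rep.res (primeLocalToGlobal q) (MK p K)))) ∧
        ∑ q : ↥S, Module.finrank (ZMod p) (S55.Abs.H1 (localLevel (primeLocalToGlobal q.1))
          (Rep.res (primeLocalToGlobal q.1) (MK p K))) ≤
          2 * (SK S K).card + Module.finrank ℚ K) ∧
      ((∀ q : Nat.Primes, Module.Finite (ZMod p) (S55.Abs.H1 (localLevel (primeLocalToGlobal q))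
          (Rep.res (primeLocalToGlobal q) ((MK p K).dualTwist (cycloChar p))))) ∧
        ∑ q : ↥S, Module.finrank (ZMod p) (S55.Abs.H1 (localLevel (primeLocalToGlobal q.1))
          (Rep.res (primeLocalToGlobal q.1) ((MK p K).dualTwist (cycloChar p)))) ≤
          2 * (SK S K).card + Module.finrank ℚ K) ∧
      (2 * (SK S K).card + Module.finrank ℚ K) + 2 * ρ ≤
        2 * (NumberField.InfinitePlace.nrComplexPlaces K + (SK S K).card + ρ) := by
  obtain ⟨ζ, hζ⟩ := exists_primitiveRoot_of_cycloField_le K hcyc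
  have hχ := cycloChar_eq_one_of_cycloField_le K hcyc
  have hp1 : 1 < p := (Fact.out : p.Prime).one_lt
  obtain ⟨ρ, hρ, hfin, hrank⟩ := finrank_absH1 S K (MK p K) (LinearEquiv.refl _ _)
    (fun _ _ => rfl) ζ hζ hp2 hpS hK
  obtain ⟨ρ', hρ', hfin', hrank'⟩ := finrank_absH1 S K ((MK p K).dualTwist (cycloChar p))
    (dualEquiv K hcyc) (dualEquiv_ρ K hcyc) ζ hζ hp2 hpS hK
  have hρρ : ρ' = ρ := Nat.pow_right_injective hp1 (hρ'.symm.trans hρ)
  rw [hρρ] at hrank'
  exact ⟨ρ, hρ, ⟨hfin, hrank⟩, ⟨hfin', hrank'⟩,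
    ⟨fun q => (finrank_H1_primeLocal_le K (MK p K) (LinearEquiv.refl _ _) (fun _ _ => rfl) hχ q).1,
      c1_le' S K (MK p K) (LinearEquiv.refl _ _) (fun _ _ => rfl) hpS hχ⟩,
    ⟨fun q => (finrank_H1_primeLocal_le K ((MK p K).dualTwist (cycloChar p)) (dualEquiv K hcyc)
        (dualEquiv_ρ K hcyc) hχ q).1,
      c1_le' S K ((MK p K).dualTwist (cycloChar p)) (dualEquiv K hcyc) (dualEquiv_ρ K hcyc)
        hpS hχ⟩,
    count_le S K ζ hζ hp2 ρ⟩

end Packaged

end Arithmetic

end Fermat.Agent.CFT.Global.CountAbs
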