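/-
PROGRAM CFT (helper187).  The permutation module `ℤ[P]` of a FREE `G`-set `P` (finite cyclic `G`)
has trivial Herbrand groups; consequence: an equivariant injection `ℤ[P] → E × ℤ` of full rank
forces `h(E) = 1 / |G|`.
-/
import Mathlib
import Fermat.Agent.Lib.Herbrand
import Fermat.Agent.Lib.HerbrandInduced

set_option autoImplicit false

namespace Fermat.Agent.CFT.Global.FreePerm

open Fermat.Agent.Lib.Herbrand

attribute [local instance] Finsupp.comapDistribMulAction

section Rep

variable (G : Type*) [Group G] {P : Type*} [MulAction G P]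

/-- A representative of the orbit of `w`. -/
noncomputable def rep (w : P) : P := (Quotient.mk (MulAction.orbitRel G P) w).out

theorem exists_smul_rep (w : P) : ∃ τ : G, τ • rep G w = w := by
  have h : (MulAction.orbitRel G P).r (rep G w) w := Quotient.mk_out (s := MulAction.orbitRel G P) w
  rw [MulAction.orbitRel_apply] at h
  obtain ⟨τ, hτ⟩ := h
  exact ⟨τ⁻¹, by rw [← hτ, inv_smul_smul]⟩

theorem rep_smul (τ : G) (w : P) : rep G (τ • w) = rep G w := by
  unfold rep
  congr 1
  apply Quotient.sound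
  show (MulAction.orbitRel G P).r (τ • w) w
  rw [MulAction.orbitRel_apply]
  exact ⟨τ, rfl⟩

theorem rep_rep (w : P) : rep G (rep G w) = rep G w := by
  obtain ⟨τ, hτ⟩ := exists_smul_rep G w
  conv_rhs => rw [← hτ, rep_smul]

/-- The group element carrying the representative to `w`. -/
noncomputable def tr (w : P) : G := (exists_smul_rep G w).choose

theorem tr_smul_rep (w : P) : tr G w • rep G w = w := (exists_smul_rep G w).choose_spec

end Rep

section Induced

variable {G : Type*} [Group G] [Fintype G] {P : Type*} [Fintype P] [MulAction G P]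

/-- Functions supported on the orbit representatives. -/
noncomputable def repSub (G : Type*) [Group G] (P : Type*) [MulAction G P] : AddSubgroup (P →₀ ℤ) where
  carrier := {φ | ∀ w, rep G w ≠ w → φ w = 0}
  add_mem' := by
    intro a b ha hb w hw
    simp [ha w hw, hb w hw]
  zero_mem' := by
    intro w _
    simp
  neg_mem' := by
    intro a ha w hw
    simp [ha w hw]

omit [Fintype P] in
theorem sum_smul_apply (hfree : ∀ (τ : G) (w : P), τ • w = w → τ = 1)
    (φ : G → repSub G P) (w : P) :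
    (∑ τ : G, τ • (φ τ : P →₀ ℤ)) w = (φ (tr G w) : P →₀ ℤ) (rep G w) := by
  rw [Finsupp.finsetSum_apply]
  rw [Finset.sum_eq_single (tr G w)]
  · rw [Finsupp.comapSMul_apply]
    congr 1
    rw [inv_smul_eq_iff, tr_smul_rep]
  · intro τ _ hτ
    rw [Finsupp.comapSMul_apply]
    apply (φ τ).2
    intro h
    apply hτ
    rw [rep_smul] at h
    have h2 : τ • rep G w = tr G w • rep G w := by
      rw [tr_smul_rep, h, smul_inv_smul]
    have h3 : (tr G w)⁻¹ * τ = 1 := hfree _ (rep G w) (by rw [mul_smul, h2, inv_smul_smul])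
    exact (inv_mul_eq_one.1 h3).symm
  · intro h
    exact absurd (Finset.mem_univ _) h

omit [Fintype G] [Fintype P] in
theorem tr_smul_of_rep (hfree : ∀ (τ : G) (w : P), τ • w = w → τ = 1) (τ : G) (r : P)
    (hr : rep G r = r) : tr G (τ • r) = τ := by
  have h1 : tr G (τ • r) • rep G (τ • r) = τ • r := tr_smul_rep G (τ • r)
  rw [rep_smul, hr] at h1
  have h3 : τ⁻¹ * tr G (τ • r) = 1 := hfree _ r (by rw [mul_smul, h1, inv_smul_smul])
  exact (inv_mul_eq_one.1 h3).symm

theorem induced_bijective (hfree : ∀ (τ : G) (w : P), τ • w = w → τ = 1) :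
    Function.Bijective (fun φ : G → repSub G P => ∑ τ : G, τ • (φ τ : P →₀ ℤ)) := by
  constructor
  · intro φ φ' h
    simp only at h
    funext τ
    apply Subtype.ext
    ext r
    by_cases hr : rep G r = r
    · have h1 := sum_smul_apply hfree φ (τ • r)
      have h2 := sum_smul_apply hfree φ' (τ • r)
      rw [tr_smul_of_rep hfree τ r hr, rep_smul, hr] at h1 h2
      rw [← h1, ← h2, h]
    · rw [(φ τ).2 r hr, (φ' τ).2 r hr]
  · intro x
    classical
    refine ⟨fun τ => ⟨Finsupp.equivFunOnFinite.symm (fun r => if rep G r = r then x (τ • r) else 0),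
      ?_⟩, ?_⟩
    · intro w hw
      simp [hw]
    · ext w
      rw [sum_smul_apply hfree]
      simp [rep_rep, tr_smul_rep]

theorem herbrand_perm {s : G} (hs : ∀ τ : G, τ ∈ Subgroup.zpowers s)
    (hfree : ∀ (τ : G) (w : P), τ • w = w → τ = 1) :
    DefinedCyc (P →₀ ℤ) s ∧ herbrandCyc (P →₀ ℤ) s = 1 :=
  herbrandCyc_of_induced hs (repSub G P) (induced_bijective hfree)

end Induced

section Main

variable {G : Type*} [Group G] [Fintype G] {P : Type*} [Fintype P] [MulAction G P]
variable {E : Type*} [AddCommGroup E] [DistribMulAction G E]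

/-- The trivial action on `ℤ`. -/
@[reducible] def trivInt (G : Type*) [Group G] : DistribMulAction G ℤ where
  smul _ a := a
  one_smul _ := rfl
  mul_smul _ _ _ := rfl
  smul_zero _ := rfl
  smul_add _ _ _ := rfl

/-- Total degree `ℤ[P] → ℤ`. -/
noncomputable def deg (P : Type*) : (P →₀ ℤ) →+ ℤ := Finsupp.liftAddHom (fun _ => AddMonoidHom.id ℤ)

omit [Fintype P] in
@[simp] theorem deg_single (w : P) (c : ℤ) : deg P (Finsupp.single w c) = c := by
  simp [deg]

omit [Fintype G] [Fintype P] in
theorem deg_smul (τ : G) (φ : P →₀ ℤ) : deg P (τ • φ) = deg P φ := by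
  induction φ using Finsupp.induction_linear with
  | zero => simp
  | add a b ha hb => rw [smul_add, map_add, map_add, ha, hb]
  | single w c => rw [Finsupp.comapSMul_single, deg_single, deg_single]

theorem finrank_prod_int [Module.Finite ℤ E] :
    Module.finrank ℤ (E × ℤ) = Module.finrank ℤ E + 1 := by
  have h := (LinearMap.ker (LinearMap.snd ℤ E ℤ)).finrank_quotient_add_finrank
  have e1 : Module.finrank ℤ ((E × ℤ) ⧸ LinearMap.ker (LinearMap.snd ℤ E ℤ)) = 1 := by
    rw [LinearEquiv.finrank_eq ((LinearMap.snd ℤ E ℤ).quotKerEquivOfSurjective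
      LinearMap.snd_surjective)]
    exact Module.finrank_self ℤ
  have e2 : Module.finrank ℤ (LinearMap.ker (LinearMap.snd ℤ E ℤ)) = Module.finrank ℤ E := by
    rw [LinearMap.ker_snd]
    exact (LinearEquiv.finrank_eq (LinearEquiv.ofInjective (LinearMap.inl ℤ E ℤ)
      LinearMap.inl_injective)).symm
  omega

/-- **Main abstract statement.** If the permutation module of a free `G`-set `P` embeds
equivariantly into `E × ℤ` (trivial action on `ℤ`, second component the degree) and
`rank E + 1 = |P|`, then the Herbrand quotient of `E` is `1 / |G|`. -/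
theorem herbrandCyc_of_perm_embedding {s : G} (hs : ∀ τ : G, τ ∈ Subgroup.zpowers s)
    [Module.Finite ℤ E]
    (hfree : ∀ (τ : G) (w : P), τ • w = w → τ = 1)
    (ψ : (P →₀ ℤ) →+ E) (hψ : ∀ (τ : G) (φ : P →₀ ℤ), ψ (τ • φ) = τ • ψ φ)
    (hinj : ∀ φ : P →₀ ℤ, ψ φ = 0 → deg P φ = 0 → φ = 0)
    (hrank : Module.finrank ℤ E + 1 = Fintype.card P) :
    DefinedCyc E s ∧ herbrandCyc E s = 1 / (Fintype.card G : ℚ) := by
  classical
  let _ : DistribMulAction G ℤ := trivInt G
  have hZ := herbrandCyc_int s (fun _ _ => rfl)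
  set Ψ : (P →₀ ℤ) →+ E × ℤ := ψ.prod (deg P) with hΨ
  set F : E × ℤ →+ E × ℤ := (subOneHom E s).prodMap (subOneHom ℤ s) with hF
  set Gm : E × ℤ →+ E × ℤ := (normHom G E).prodMap (normHom G ℤ) with hGm
  have hΨinj : Function.Injective Ψ := by
    rw [injective_iff_map_eq_zero]
    intro φ hφ
    have h1 : ψ φ = 0 := congrArg Prod.fst hφ
    have h2 : deg P φ = 0 := congrArg Prod.snd hφ
    exact hinj φ h1 h2
  have hiF : ∀ φ, Ψ (subOneHom (P →₀ ℤ) s φ) = F (Ψ φ) := by
    intro φ
    refine Prod.ext ?_ ?_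
    · show ψ (subOneHom (P →₀ ℤ) s φ) = subOneHom E s (ψ φ)
      rw [subOneHom_apply, subOneHom_apply, map_sub, hψ]
    · show deg P (subOneHom (P →₀ ℤ) s φ) = subOneHom ℤ s (deg P φ)
      rw [subOneHom_apply, subOneHom_apply, map_sub, deg_smul]
      rfl
  have hiG : ∀ φ, Ψ (normHom G (P →₀ ℤ) φ) = Gm (Ψ φ) := by
    intro φ
    refine Prod.ext ?_ ?_
    · show ψ (normHom G (P →₀ ℤ) φ) = normHom G E (ψ φ)
      rw [Fermat.Agent.Lib.Herbrand.normHom_apply, Fermat.Agent.Lib.Herbrand.normHom_apply, map_sum]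
      exact Finset.sum_congr rfl (fun τ _ => hψ τ φ)
    · show deg P (normHom G (P →₀ ℤ) φ) = normHom G ℤ (deg P φ)
      rw [Fermat.Agent.Lib.Herbrand.normHom_apply, Fermat.Agent.Lib.Herbrand.normHom_apply, map_sum]
      refine Finset.sum_congr rfl (fun τ _ => ?_)
      rw [deg_smul]
      rfl
  have hFG : F.comp Gm = 0 := by
    ext ⟨e, c⟩
    · exact DFunLike.congr_fun (subOneHom_comp_normHom (A := E) s) e
    · exact DFunLike.congr_fun (subOneHom_comp_normHom (A := ℤ) s) c
  have hGF : Gm.comp F = 0 := by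
    ext ⟨e, c⟩
    · exact DFunLike.congr_fun (normHom_comp_subOneHom (A := E) s) e
    · exact DFunLike.congr_fun (normHom_comp_subOneHom (A := ℤ) s) c
  -- finiteness of the cokernel
  have hfin : Finite ((E × ℤ) ⧸ Ψ.range) := by
    let N : Submodule ℤ (E × ℤ) := LinearMap.range Ψ.toIntLinearMap
    have h1 := N.finrank_quotient_add_finrank
    have h2 : Module.finrank ℤ N = Fintype.card P := by
      have := LinearMap.finrank_range_of_inj (f := Ψ.toIntLinearMap) hΨinj
      rw [this, Module.finrank_finsupp_self]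
    have h3 : Module.finrank ℤ ((E × ℤ) ⧸ N) = 0 := by
      rw [finrank_prod_int] at h1
      omega
    have h4 : Module.IsTorsion ℤ ((E × ℤ) ⧸ N) := Module.finrank_eq_zero_iff_isTorsion.1 h3
    have h5 : Finite ((E × ℤ) ⧸ N) := Module.finite_of_fg_torsion _ h4
    have h6 : N.toAddSubgroup = Ψ.range := by
      ext x
      simp [N]
    have h7 : Finite ((E × ℤ) ⧸ N.toAddSubgroup) := h5
    exact Finite.of_equiv _ (QuotientAddGroup.quotientAddEquivOfEq h6).toEquiv
  have hfi : Ψ.range.FiniteIndex := AddSubgroup.finiteIndex_of_finite_quotient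
  have hker : Finite Ψ.ker := by
    rw [(AddMonoidHom.ker_eq_bot_iff Ψ).2 hΨinj]
    infer_instance
  obtain ⟨hiff, heq⟩ := herbrand_eq_of_finite_ker_coker Ψ
    (subOneHom_comp_normHom (A := P →₀ ℤ) s) (normHom_comp_subOneHom (A := P →₀ ℤ) s) hFG hGF hiF hiG
  obtain ⟨hperm, hqperm⟩ := herbrand_perm (P := P) hs hfree
  have hFGdef : Defined F Gm := hiff.1 hperm
  have hqFG : herbrand F Gm = 1 := by
    rw [← heq]; exact hqperm
  have hi : Function.Injective (AddMonoidHom.inl E ℤ) := fun a b hab => by simpa using hab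
  have hπ : Function.Surjective (AddMonoidHom.snd E ℤ) := Prod.snd_surjective
  have hex : (AddMonoidHom.inl E ℤ).range = (AddMonoidHom.snd E ℤ).ker := by
    ext ⟨a, b⟩
    simp only [AddMonoidHom.mem_range, AddMonoidHom.inl_apply, Prod.mk.injEq, AddMonoidHom.mem_ker,
      AddMonoidHom.coe_snd]
    constructor
    · rintro ⟨x, -, hx⟩
      exact hx.symm
    · intro hb
      exact ⟨a, rfl, hb.symm⟩
  have hE : DefinedCyc E s :=
    Defined.exact_left (AddMonoidHom.inl E ℤ) (AddMonoidHom.snd E ℤ) hi hπ hex hFG hGF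
      (fun a => Prod.ext rfl (map_zero (subOneHom ℤ s)).symm)
      (fun a => Prod.ext rfl (map_zero (normHom G ℤ)).symm) (fun _ => rfl) (fun _ => rfl) hFGdef hZ.1
  refine ⟨hE, ?_⟩
  have hmul : herbrand F Gm = herbrand (subOneHom E s) (normHom G E) *
      herbrand (subOneHom ℤ s) (normHom G ℤ) :=
    herbrand_exact (AddMonoidHom.inl E ℤ) (AddMonoidHom.snd E ℤ) hi hπ hex hFG hGF
      (fun a => Prod.ext rfl (map_zero (subOneHom ℤ s)).symm)
      (fun a => Prod.ext rfl (map_zero (normHom G ℤ)).symm) (fun _ => rfl) (fun _ => rfl) hE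
  have hZq : herbrand (subOneHom ℤ s) (normHom G ℤ) = (Fintype.card G : ℚ) := hZ.2
  rw [hqFG, hZq] at hmul
  have hn : (Fintype.card G : ℚ) ≠ 0 := Nat.cast_ne_zero.2 Fintype.card_ne_zero
  rw [herbrandCyc, eq_div_iff hn]
  exact hmul.symm

end Main

end Fermat.Agent.CFT.Global.FreePerm
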