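import Fermat.Agent.Lib.FrobDensity.Count

/-!
# Relative Frobenius density and Kummer non-residue primes

* `exists_prime_smul_eq`: for a finite Galois extension `L/K` of number fields, `σ ∈ Gal(L/K)` and
  a finite set `T` of rational primes there are a prime `ℓ ∉ T` and a prime `P` of `L` above `ℓ`
  which is fixed by `σ` (derived from the landed absolute statement via the Galois closure).
* `exists_nonresidue`: if `K` contains a primitive `p`-th root of unity and `a ∈ 𝓞 K` is not a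
  `p`-th power in `K`, then outside any finite set of primes there is a prime `v` of `K`,
  `v ∤ p a`, such that `a` is not a `p`-th power modulo `v`.
-/

set_option autoImplicit false
set_option linter.style.haveILetI false
set_option linter.unusedSectionVars false

open scoped NumberField Pointwise
open IsDedekindDomain

namespace Fermat.Agent.CFT.Global.FrobRel

theorem algebraMap_smul_restrict (K L M : Type*) [Field K] [NumberField K] [Field L]
    [NumberField L] [Algebra K L]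
    [Normal K L] [Field M] [NumberField M] [Algebra K M] [Algebra L M] [IsScalarTower K L M]
    (g' : M ≃ₐ[K] M) (x : 𝓞 L) :
    algebraMap (𝓞 L) (𝓞 M) (AlgEquiv.restrictNormalHom L g' • x) =
      (g'.restrictScalars ℚ) • algebraMap (𝓞 L) (𝓞 M) x := by
  apply NumberField.RingOfIntegers.ext
  change algebraMap L M ((AlgEquiv.restrictNormalHom L g') (x : L)) = g' (algebraMap L M (x : L))
  exact AlgEquiv.restrictNormal_commutes g' L (x : L)

theorem smul_under_restrict (K L M : Type*) [Field K] [NumberField K] [Field L]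
    [NumberField L] [Algebra K L]
    [Normal K L] [Field M] [NumberField M] [Algebra K M] [Algebra L M] [IsScalarTower K L M]
    (g' : M ≃ₐ[K] M) (Q : Ideal (𝓞 M)) :
    AlgEquiv.restrictNormalHom L g' • Q.under (𝓞 L) =
      ((g'.restrictScalars ℚ) • Q).under (𝓞 L) := by
  ext x
  rw [Ideal.mem_pointwise_smul_iff_inv_smul_mem, Ideal.under_def, Ideal.under_def, Ideal.mem_comap,
    Ideal.mem_comap, Ideal.mem_pointwise_smul_iff_inv_smul_mem, ← map_inv,
    algebraMap_smul_restrict K L M g'⁻¹ x]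
  rfl

theorem exists_prime_smul_eq_aux (K L M : Type*) [Field K] [NumberField K] [Field L]
    [NumberField L] [Algebra K L] [IsGalois K L] [Field M] [NumberField M] [Algebra K M]
    [Algebra L M] [IsScalarTower K L M] [IsGalois ℚ M] (σ : L ≃ₐ[K] L) (T : Finset ℕ) :
    ∃ (ℓ : ℕ) (P : Ideal (𝓞 L)), ℓ.Prime ∧ ℓ ∉ T ∧ P.IsPrime ∧
      P.LiesOver (Ideal.span {(ℓ : ℤ)}) ∧ σ • P = P := by
  haveI : IsGalois K M := IsGalois.tower_top_of_isGalois ℚ K M
  obtain ⟨σ', hσ'⟩ := AlgEquiv.restrictNormalHom_surjective (F := K) (K₁ := L) M σ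
  obtain ⟨ℓ, Q, hℓ, hℓT, hQ, hQℓ, -, hstab⟩ :=
    Fermat.Agent.Lib.FrobDensity.exists_prime_stabilizer_eq_zpowers M (σ'.restrictScalars ℚ) T
  have hτQ : (σ'.restrictScalars ℚ) • Q = Q := by
    have : (σ'.restrictScalars ℚ) ∈ MulAction.stabilizer (M ≃ₐ[ℚ] M) Q := by
      rw [hstab]; exact Subgroup.mem_zpowers _
    exact this
  refine ⟨ℓ, Q.under (𝓞 L), hℓ, hℓT, inferInstance, inferInstance, ?_⟩
  rw [← hσ', smul_under_restrict K L M σ' Q, hτQ]

/-- **Relative Frobenius density (fixed-prime form).**  `L/K` a finite Galois extension of number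
fields, `σ ∈ Gal(L/K)`, `T` a finite set of rational primes: there are a prime `ℓ ∉ T` and a prime
`P` of `L` above `ℓ` with `σ P = P`. -/
theorem exists_prime_smul_eq (K L : Type*) [Field K] [NumberField K] [Field L]
    [NumberField L] [Algebra K L] [IsGalois K L] (σ : L ≃ₐ[K] L) (T : Finset ℕ) :
    ∃ (ℓ : ℕ) (P : Ideal (𝓞 L)), ℓ.Prime ∧ ℓ ∉ T ∧ P.IsPrime ∧
      P.LiesOver (Ideal.span {(ℓ : ℤ)}) ∧ σ • P = P := by
  haveI : IsAlgClosure ℚ (AlgebraicClosure L) := IsAlgClosure.ofAlgebraic ℚ L (AlgebraicClosure L)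
  letI : Algebra K (IntermediateField.normalClosure ℚ L (AlgebraicClosure L)) :=
    ((algebraMap L (IntermediateField.normalClosure ℚ L (AlgebraicClosure L))).comp
      (algebraMap K L)).toAlgebra
  haveI : IsScalarTower K L (IntermediateField.normalClosure ℚ L (AlgebraicClosure L)) :=
    IsScalarTower.of_algebraMap_eq (fun _ => rfl)
  haveI : Normal ℚ (IntermediateField.normalClosure ℚ L (AlgebraicClosure L)) :=
    normalClosure.normal ℚ L (AlgebraicClosure L)
  haveI : NumberField (IntermediateField.normalClosure ℚ L (AlgebraicClosure L)) := ⟨⟩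
  haveI : IsGalois ℚ (IntermediateField.normalClosure ℚ L (AlgebraicClosure L)) := ⟨⟩
  exact exists_prime_smul_eq_aux K L
    (IntermediateField.normalClosure ℚ L (AlgebraicClosure L)) σ T

/-- If `w` is a primitive `p`-th root of unity (`p` prime) in a domain and `1 - w ∈ I`,
then `p ∈ I`. -/
theorem natCast_mem_of_one_sub_primitiveRoot_mem {R : Type*} [CommRing R] [IsDomain R] {p : ℕ}
    (hp : p.Prime) {w : R} (hw : IsPrimitiveRoot w p) (I : Ideal R) (h : 1 - w ∈ I) :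
    (p : R) ∈ I := by
  have h1 : (p : R) = ∑ k ∈ Finset.range p, (1 - w ^ k) := by
    rw [Finset.sum_sub_distrib, hw.geom_sum_eq_zero hp.one_lt]
    simp
  rw [h1]
  refine Ideal.sum_mem _ fun k _ => ?_
  exact Ideal.mem_of_dvd _ (one_sub_dvd_one_sub_pow w k) h

/-- **Key algebraic lemma.**  `R` a domain, `P` a prime ideal, `z` a primitive `p`-th root of
unity, `θ ^ p = a`, `s` a ring endomorphism preserving `P`, fixing `z` and `x` and moving `θ` to
`z ^ j * θ` with `p ∤ j`.  If `p ∉ P` and `a ∉ P` then `x ^ p - a ∉ P`. -/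
theorem pow_sub_not_mem_of_moved_root {R : Type*} [CommRing R] [IsDomain R] {p : ℕ}
    (hp : p.Prime) (P : Ideal R) [P.IsPrime] {z θ a x : R} (hz : IsPrimitiveRoot z p)
    (hθ : θ ^ p = a) (s : R →+* R) (hsP : ∀ y ∈ P, s y ∈ P) (hsz : s z = z) (hsx : s x = x)
    (j : ℕ) (hj : ¬ p ∣ j) (hsθ : s θ = z ^ j * θ) (hpP : (p : R) ∉ P) (haP : a ∉ P) :
    x ^ p - a ∉ P := by
  intro hmem
  rw [← hθ, hz.pow_sub_pow_eq_prod_sub_mul x θ hp.pos, Ideal.IsPrime.prod_mem_iff] at hmem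
  obtain ⟨w, hw, hwP⟩ := hmem
  have hw1 : w ^ p = 1 := ((Polynomial.mem_nthRootsFinset hp.pos (1 : R)).mp hw)
  haveI : NeZero p := ⟨hp.ne_zero⟩
  obtain ⟨k, -, rfl⟩ := hz.eq_pow_of_pow_eq_one hw1
  have h2 := hsP _ hwP
  rw [map_sub, map_mul, map_pow, hsz, hsx, hsθ] at h2
  have h3 : z ^ k * ((1 - z ^ j) * θ) ∈ P := by
    have : z ^ k * ((1 - z ^ j) * θ) = (x - z ^ k * (z ^ j * θ)) - (x - z ^ k * θ) := by ring
    rw [this]
    exact P.sub_mem h2 hwP
  have hzk : z ^ k ∉ P := by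
    intro h
    have h4 : (z ^ k) ^ p ∈ P := P.pow_mem_of_mem h p hp.pos
    rw [← pow_mul, mul_comm, pow_mul, hz.pow_eq_one, one_pow] at h4
    exact (Ideal.IsPrime.ne_top inferInstance) ((Ideal.eq_top_iff_one P).mpr h4)
  have hθP : θ ∉ P := fun h => haP (hθ ▸ P.pow_mem_of_mem h p hp.pos)
  have hzj : IsPrimitiveRoot (z ^ j) p :=
    hz.pow_of_coprime j ((Nat.Prime.coprime_iff_not_dvd hp).mpr hj).symm
  rcases (Ideal.IsPrime.mem_or_mem inferInstance h3) with h | h
  · exact hzk h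
  · rcases (Ideal.IsPrime.mem_or_mem inferInstance h) with h | h
    · exact hpP (natCast_mem_of_one_sub_primitiveRoot_mem hp hzj P h)
    · exact hθP h

/-- A rational prime `ℓ` below a prime `𝔮` of `𝓞 K` divides the absolute norm of every nonzero
ideal contained in `𝔮`. -/
theorem mem_primeFactors_absNorm (K : Type*) [Field K] [NumberField K] {ℓ : ℕ} (hℓ : ℓ.Prime)
    (𝔮 : Ideal (𝓞 K)) [h𝔮 : 𝔮.LiesOver (Ideal.span {(ℓ : ℤ)})] (I : Ideal (𝓞 K)) (hI : I ≠ ⊥)
    (hle : I ≤ 𝔮) : ℓ ∈ (Ideal.absNorm I).primeFactors := by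
  have h1 : ((Ideal.absNorm I : ℕ) : 𝓞 K) ∈ 𝔮 := hle (Ideal.absNorm_mem I)
  have h2 : ((Ideal.absNorm I : ℕ) : ℤ) ∈ Ideal.span {(ℓ : ℤ)} := by
    rw [Ideal.mem_of_liesOver 𝔮 (Ideal.span {(ℓ : ℤ)})]
    simpa using h1
  rw [Ideal.mem_span_singleton] at h2
  rw [Nat.mem_primeFactors]
  exact ⟨hℓ, Int.natCast_dvd_natCast.mp h2, fun h => hI (Ideal.absNorm_eq_zero_iff.mp h)⟩

theorem exists_nonresidue_aux (K L : Type*) [Field K] [NumberField K] [Field L] [NumberField L]
    [Algebra K L] [IsGalois K L] {p : ℕ} (hp : p.Prime) {ζ : K} (hζ : IsPrimitiveRoot ζ p)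
    (a : 𝓞 K) (ha : ¬ ∃ t : K, (a : K) = t ^ p) (θ : L) (hθ : θ ^ p = algebraMap K L (a : K))
    (T : Finset (HeightOneSpectrum (𝓞 K))) :
    ∃ v : HeightOneSpectrum (𝓞 K), v ∉ T ∧ (p : 𝓞 K) ∉ v.asIdeal ∧ a ∉ v.asIdeal ∧
      ∀ x : 𝓞 K, x ^ p - a ∉ v.asIdeal := by
  classical
  have hinj : Function.Injective (algebraMap K L) := (algebraMap K L).injective
  have ha0 : a ≠ 0 := by
    rintro rfl
    exact ha ⟨0, by simp [hp.ne_zero]⟩
  have haK : (a : K) ≠ 0 := NumberField.RingOfIntegers.coe_ne_zero_iff.mpr ha0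
  have hθK : θ ∉ Set.range (algebraMap K L) := by
    rintro ⟨t, ht⟩
    apply ha
    refine ⟨t, hinj ?_⟩
    rw [map_pow, ht, hθ]
  obtain ⟨σ, hσ⟩ : ∃ σ : L ≃ₐ[K] L, σ θ ≠ θ := by
    by_contra hcon
    exact hθK ((IsGalois.mem_range_algebraMap_iff_fixed θ).mpr
      fun f => by_contra fun hf => hcon ⟨f, hf⟩)
  have hθ0 : θ ≠ 0 := by
    rintro rfl
    rw [zero_pow hp.ne_zero] at hθ
    exact haK (hinj (by rw [← hθ, map_zero]))
  have hθint : IsIntegral ℤ θ := by
    refine IsIntegral.of_pow hp.pos ?_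
    rw [hθ]
    exact (NumberField.RingOfIntegers.isIntegral_coe a).algebraMap
  have hζint : IsIntegral ℤ ζ := hζ.isIntegral hp.pos
  obtain ⟨θ₀, hθ₀⟩ : ∃ θ₀ : 𝓞 L, (θ₀ : L) = θ := ⟨⟨θ, hθint⟩, rfl⟩
  obtain ⟨ζ₀, hζ₀c⟩ : ∃ ζ₀ : 𝓞 K, (ζ₀ : K) = ζ := ⟨⟨ζ, hζint⟩, rfl⟩
  have hζ₀ : IsPrimitiveRoot ζ₀ p :=
    IsPrimitiveRoot.of_map_of_injective (f := algebraMap (𝓞 K) K)
      (by
        have : (algebraMap (𝓞 K) K) ζ₀ = ζ := hζ₀c
        rw [this]; exact hζ) NumberField.RingOfIntegers.coe_injective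
  have hz : IsPrimitiveRoot (algebraMap (𝓞 K) (𝓞 L) ζ₀) p :=
    hζ₀.map_of_injective (FaithfulSMul.algebraMap_injective (𝓞 K) (𝓞 L))
  have hzL : IsPrimitiveRoot (algebraMap K L ζ) p := hζ.map_of_injective hinj
  have h1 : (σ θ / θ) ^ p = 1 := by
    rw [div_pow, ← map_pow, hθ, AlgEquiv.commutes, div_self]
    exact fun h => haK (hinj (by rw [h, map_zero]))
  haveI : NeZero p := ⟨hp.ne_zero⟩
  obtain ⟨j, hjp, hj⟩ := hzL.eq_pow_of_pow_eq_one h1
  have hσθ : σ θ = (algebraMap K L ζ) ^ j * θ := by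
    rw [hj, div_mul_cancel₀ _ hθ0]
  have hj0 : ¬ p ∣ j := by
    intro hdvd
    have hj00 : j = 0 := Nat.eq_zero_of_dvd_of_lt hdvd hjp
    apply hσ
    rw [hσθ, hj00, pow_zero, one_mul]
  obtain ⟨ℓ, P, hℓ, hℓT, hP, hPℓ, hσP⟩ := exists_prime_smul_eq K L σ
    (insert p ((Ideal.absNorm (Ideal.span {a})).primeFactors ∪
      T.biUnion fun v => (Ideal.absNorm v.asIdeal).primeFactors))
  have hℓ0 : Ideal.span {(ℓ : ℤ)} ≠ ⊥ := by
    rw [Ne, Ideal.span_singleton_eq_bot]
    exact_mod_cast hℓ.ne_zero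
  have h𝔮bot : P.under (𝓞 K) ≠ ⊥ :=
    Ideal.ne_bot_of_liesOver_of_ne_bot hℓ0 (P.under (𝓞 K))
  have hℓp : ℓ ≠ p := fun h => hℓT (h ▸ Finset.mem_insert_self _ _)
  have hℓa : ℓ ∉ (Ideal.absNorm (Ideal.span {a})).primeFactors := fun h =>
    hℓT (Finset.mem_insert_of_mem (Finset.mem_union_left _ h))
  have hℓv : ∀ v ∈ T, ℓ ∉ (Ideal.absNorm v.asIdeal).primeFactors := fun v hv h =>
    hℓT (Finset.mem_insert_of_mem (Finset.mem_union_right _ (Finset.mem_biUnion.mpr ⟨v, hv, h⟩)))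
  have hp𝔮 : (p : 𝓞 K) ∉ P.under (𝓞 K) := by
    intro h
    have h2 : ((p : ℕ) : ℤ) ∈ Ideal.span {(ℓ : ℤ)} := by
      rw [Ideal.mem_of_liesOver (P.under (𝓞 K)) (Ideal.span {(ℓ : ℤ)})]
      simpa using h
    rw [Ideal.mem_span_singleton] at h2
    exact hℓp ((Nat.prime_dvd_prime_iff_eq hℓ hp).mp (Int.natCast_dvd_natCast.mp h2))
  have ha𝔮 : a ∉ P.under (𝓞 K) := by
    intro h
    refine hℓa (mem_primeFactors_absNorm K hℓ (P.under (𝓞 K)) (Ideal.span {a}) ?_ ?_)
    · rwa [Ne, Ideal.span_singleton_eq_bot]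
    · rwa [Ideal.span_singleton_le_iff_mem]
  refine ⟨⟨P.under (𝓞 K), inferInstance, h𝔮bot⟩, ?_, hp𝔮, ha𝔮, ?_⟩
  · intro hv
    exact hℓv _ hv (mem_primeFactors_absNorm K hℓ (P.under (𝓞 K)) _ h𝔮bot le_rfl)
  · intro x hx
    have key := pow_sub_not_mem_of_moved_root (R := 𝓞 L) hp P
      (z := algebraMap (𝓞 K) (𝓞 L) ζ₀) (θ := θ₀) (a := algebraMap (𝓞 K) (𝓞 L) a)
      (x := algebraMap (𝓞 K) (𝓞 L) x) hz
      (by
        apply NumberField.RingOfIntegers.ext
        change (θ₀ : L) ^ p = algebraMap K L (a : K)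
        rw [hθ₀, hθ])
      (MulSemiringAction.toRingHom (L ≃ₐ[K] L) (𝓞 L) σ)
      (by
        intro y hy
        have : σ • y ∈ σ • P := Ideal.smul_mem_pointwise_smul σ y P hy
        rwa [hσP] at this)
      (by
        apply NumberField.RingOfIntegers.ext
        change σ (algebraMap K L (ζ₀ : K)) = algebraMap K L (ζ₀ : K)
        exact σ.commutes _)
      (by
        apply NumberField.RingOfIntegers.ext
        change σ (algebraMap K L (x : K)) = algebraMap K L (x : K)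
        exact σ.commutes _)
      j hj0
      (by
        apply NumberField.RingOfIntegers.ext
        change σ (θ₀ : L) = (algebraMap K L (ζ₀ : K)) ^ j * (θ₀ : L)
        rw [hθ₀, hζ₀c, hσθ])
      (by
        intro h
        apply hp𝔮
        rw [Ideal.under_def, Ideal.mem_comap]
        simpa using h)
      (by
        intro h
        exact ha𝔮 (by rwa [Ideal.under_def, Ideal.mem_comap]))
    apply key
    have : algebraMap (𝓞 K) (𝓞 L) x ^ p - algebraMap (𝓞 K) (𝓞 L) a =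
        algebraMap (𝓞 K) (𝓞 L) (x ^ p - a) := by
      rw [map_sub, map_pow]
    rw [this]
    exact hx

open Polynomial in
/-- **Kummer non-residue primes.**  `K` a number field containing a primitive `p`-th root of
unity, `a ∈ 𝓞 K` not a `p`-th power in `K`, `T` a finite set of primes of `K`.  Then there is a
prime `v ∉ T` with `p ∉ v`, `a ∉ v`, such that `a` is not a `p`-th power modulo `v`. -/
theorem exists_nonresidue (K : Type*) [Field K] [NumberField K] {p : ℕ} (hp : p.Prime) {ζ : K}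
    (hζ : IsPrimitiveRoot ζ p) (a : 𝓞 K) (ha : ¬ ∃ t : K, (a : K) = t ^ p)
    (T : Finset (HeightOneSpectrum (𝓞 K))) :
    ∃ v : HeightOneSpectrum (𝓞 K), v ∉ T ∧ (p : 𝓞 K) ∉ v.asIdeal ∧ a ∉ v.asIdeal ∧
      ∀ x : 𝓞 K, x ^ p - a ∉ v.asIdeal := by
  have haK : (a : K) ≠ 0 := by
    intro h
    exact ha ⟨0, by rw [h, zero_pow hp.ne_zero]⟩
  have hsep : (X ^ p - C (a : K) : K[X]).Separable :=
    separable_X_pow_sub_C (a : K) (by exact_mod_cast hp.ne_zero) haK
  haveI : IsGalois K (X ^ p - C (a : K) : K[X]).SplittingField :=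
    IsGalois.of_separable_splitting_field (p := (X ^ p - C (a : K) : K[X])) hsep
  haveI : CharZero (X ^ p - C (a : K) : K[X]).SplittingField :=
    charZero_of_injective_algebraMap (algebraMap K _).injective
  haveI : FiniteDimensional ℚ (X ^ p - C (a : K) : K[X]).SplittingField :=
    Module.Finite.trans K _
  haveI : NumberField (X ^ p - C (a : K) : K[X]).SplittingField := ⟨⟩
  have hdeg : ((X ^ p - C (a : K) : K[X]).map
      (algebraMap K (X ^ p - C (a : K) : K[X]).SplittingField)).degree ≠ 0 := by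
    rw [degree_map, degree_X_pow_sub_C hp.pos]
    exact_mod_cast hp.ne_zero
  obtain ⟨θ, hθ⟩ := (SplittingField.splits (X ^ p - C (a : K) : K[X])).exists_eval_eq_zero hdeg
  rw [eval_map, eval₂_sub, eval₂_pow, eval₂_X, eval₂_C, sub_eq_zero] at hθ
  exact exists_nonresidue_aux K _ hp hζ a ha θ hθ T

end Fermat.Agent.CFT.Global.FrobRel
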