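import Mathlib
import Fermat.Agent.Lib.NonPowerPrime
import Fermat.Agent.Lib.Frobenius
import Fermat.Agent.Lib.CycloChar
import Fermat.Agent.Lib.FrobAssemble
import Fermat.Agent.Lib.DecompLift
import Fermat.Agent.Lib.InertiaBridge
import Fermat.Agent.S14.Wiring.ValRing
import Fermat.Agent.S14.Wiring.Lifting

/-!
# (G4) in `K`-side language: a Frobenius which moves a `p`-th root of a non-`p`-th power

`Qb = AlgebraicClosure ℚ`, `K ≤ Qb` a number field containing a primitive `p`-th root of unity,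
`α ∈ Kˣ` not a `p`-th power, `θ ∈ Qb` with `θ ^ p = α`.

* `exists_frobenius_fixing`: at a place `A` of `Qb` over a prime `q` whose prime of `K` has
  residue field `𝔽_q` (`x ^ q ≡ x` on the integers of `K`), there is a Frobenius element
  (`ValuationSubring.IsFrobeniusAt`, as in the Prelude) lying in `G_K = K.fixingSubgroup`.
* `exists_frobenius_moving`: outside every finite set `T` of primes of `K` there is a prime `v`
  of prime norm `q ≠ p` at which `α` is a unit, and a place `A` of `Qb` above `v`, such that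
  Frobenius elements of `G_K` at `A` exist and every one of them moves `θ`.
* `exists_frobenius_moving_of_primes`: the same avoiding a finite set of rational primes.
* `exists_frobenius_char_ne_zero`: character form.
-/

set_option autoImplicit false

open scoped NumberField
open IsDedekindDomain

namespace Fermat.Agent.CFT.Global.G4Adapter

local notation "Qb" => AlgebraicClosure ℚ
local notation "Gq" => (AlgebraicClosure ℚ ≃ₐ[ℚ] AlgebraicClosure ℚ)

open Fermat.Agent.S14.Wiring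

/-- Only finitely many primes of a Dedekind domain contain a given nonzero element. -/
theorem finite_setOf_mem {R : Type*} [CommRing R] [IsDedekindDomain R] (x : R) (hx : x ≠ 0) :
    {v : HeightOneSpectrum R | x ∈ v.asIdeal}.Finite := by
  have h := Ideal.finite_factors (R := R) (I := Ideal.span {x})
    (by simpa [Ideal.span_singleton_eq_bot] using hx)
  refine h.subset fun v hv => ?_
  exact Ideal.dvd_span_singleton.mpr hv

/-- In a finite cyclic group of order `p * e`, an element killed by `e` is a `p`-th power. -/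
theorem exists_pow_eq_of_pow_eq_one {G : Type*} [Group G] [Finite G] [IsCyclic G] {p e : ℕ}
    (he : 0 < e) (hcard : Nat.card G = p * e) (u : G) (hu : u ^ e = 1) : ∃ t : G, t ^ p = u := by
  obtain ⟨g, hg⟩ := IsCyclic.exists_generator (α := G)
  obtain ⟨j, rfl⟩ := Subgroup.mem_zpowers_iff.mp (hg u)
  have hord : orderOf g = p * e := by
    rw [← hcard]
    exact orderOf_eq_card_of_forall_mem_zpowers hg
  have h1 : g ^ (j * (e : ℤ)) = 1 := by
    rw [zpow_mul, zpow_natCast]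
    exact hu
  have h2 : ((p * e : ℕ) : ℤ) ∣ j * (e : ℤ) := by
    rw [← hord]
    exact orderOf_dvd_iff_zpow_eq_one.mpr h1
  have h3 : (p : ℤ) ∣ j := by
    push_cast at h2
    exact Int.dvd_of_mul_dvd_mul_right (by exact_mod_cast he.ne') h2
  obtain ⟨j', rfl⟩ := h3
  refine ⟨g ^ j', ?_⟩
  rw [← zpow_natCast, ← zpow_mul, mul_comm]

/-- **Frobenius in `G_K` at a degree-one place.** If the `q`-th power map is the identity on the
integers of `K` modulo the maximal ideal of `A` (a place of `Qb` over the prime `q`), then there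
is a Frobenius element at `A` fixing `K` pointwise. -/
theorem exists_frobenius_fixing (K : IntermediateField ℚ Qb) (A : ValuationSubring Qb) {q : ℕ}
    (hq : q.Prime) (hA : A.LiesOverPrime q)
    (hdeg : ∀ x : Qb, x ∈ K → IsIntegral ℤ x → x ^ q - x ∈ A.nonunits) :
    ∃ σ : Gq, σ ∈ K.fixingSubgroup ∧ A.IsFrobeniusAt σ q := by
  obtain ⟨φ, hφ⟩ := Fermat.Agent.Lib.Frobenius.exists_isFrobeniusAt A hq hA
  have hφD : φ ∈ A.decompositionSubgroup ℚ := hφ.mem_decompositionSubgroup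
  have hφinvD : φ⁻¹ ∈ A.decompositionSubgroup ℚ := inv_mem hφD
  have hfrob : ∀ x : Qb, x ∈ A → φ x - x ^ q ∈ A.nonunits := fun x hx =>
    Fermat.Agent.Lib.CycloChar.sub_pow_mem_nonunits_of_isFrobeniusAt A φ q hφ hx
  have hadd : ∀ a b : Qb, a ∈ A.nonunits → b ∈ A.nonunits → a + b ∈ A.nonunits := by
    intro a b ha hb
    rw [A.mem_nonunits_iff] at ha hb ⊢
    exact A.valuation.map_add_lt ha hb
  have hneg : ∀ a : Qb, a ∈ A.nonunits → -a ∈ A.nonunits := by
    intro a ha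
    rw [A.mem_nonunits_iff] at ha ⊢
    rwa [Valuation.map_neg]
  have hτ : ∀ x ∈ K, IsIntegral ℤ x → φ⁻¹ x - x ∈ A.nonunits := by
    intro x hx hxi
    have hxA : x ∈ A := Fermat.Agent.Lib.DecompLift.mem_of_isIntegral A hxi
    have h1 : φ x - x ∈ A.nonunits := by
      have e : φ x - x = (φ x - x ^ q) + (x ^ q - x) := by ring
      rw [e]
      exact hadd _ _ (hfrob x hxA) (hdeg x hx hxi)
    have h2 : φ⁻¹ (φ x - x) ∈ A.nonunits :=
      (Lifting.map_mem_nonunits_iff_of_mem_decomposition A φ⁻¹ hφinvD _).mpr h1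
    have h3 : φ⁻¹ (φ x - x) = x - φ⁻¹ x := by
      rw [map_sub]
      congr 1
      exact φ.symm_apply_apply x
    rw [h3] at h2
    have h4 := hneg _ h2
    rwa [neg_sub] at h4
  obtain ⟨ι, hιI, hι⟩ := Fermat.Agent.Lib.DecompLift.exists_inertia_lift K A hq hA φ⁻¹ hτ
  refine ⟨φ * ι, ?_, ?_⟩
  · rw [IntermediateField.mem_fixingSubgroup_iff]
    intro x hx
    rw [AlgEquiv.mul_apply, hι x hx]
    exact φ.apply_symm_apply x
  · have halg : ∀ x : Qb, IsAlgebraic ℤ x := Fermat.Agent.Lib.DecompLift.isAlgebraic_int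
    refine Fermat.Agent.Lib.FrobAssemble.isFrobeniusAt_of_integral A q hq hA halg (φ * ι) ?_
    intro x hxi
    have hxA : x ∈ A := Fermat.Agent.Lib.DecompLift.mem_of_isIntegral A hxi
    have h1 : ι x - x ∈ A.nonunits :=
      Fermat.Agent.Lib.InertiaBridge.sub_mem_of_mem_inertiaSubgroupIn A ι hιI x hxA
    have h2 : φ (ι x - x) ∈ A.nonunits :=
      (Lifting.map_mem_nonunits_iff_of_mem_decomposition A φ hφD _).mpr h1
    have e : (φ * ι) x - x ^ q = φ (ι x - x) + (φ x - x ^ q) := by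
      rw [AlgEquiv.mul_apply, map_sub]
      ring
    rw [e]
    exact hadd _ _ h2 (hfrob x hxA)

/-- **(G4), `K`-side form.** Let `K ≤ Qb` be a number field containing a primitive `p`-th root of
unity, `α ∈ K` not a `p`-th power and `θ ^ p = α`.  Outside every finite set `T` of primes of
`K` there is a prime `v` of prime norm `q ≠ p` at which `α` is a unit, and a place `A` of `Qb`
above `v`, such that Frobenius elements of `G_K` at `A` exist and each of them moves `θ`. -/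
theorem exists_frobenius_moving {p : ℕ} [Fact p.Prime] (K : IntermediateField ℚ Qb)
    [NumberField K] (ζ : K) (hζ : IsPrimitiveRoot ζ p) (θ : Qb) (α : K)
    (hθ : θ ^ p = ((α : K) : Qb)) (hnp : ¬ ∃ t : K, α = t ^ p)
    (T : Finset (HeightOneSpectrum (𝓞 K))) :
    ∃ (v : HeightOneSpectrum (𝓞 K)) (q : ℕ) (A : ValuationSubring Qb),
      v ∉ T ∧ q.Prime ∧ Ideal.absNorm v.asIdeal = q ∧ q ≠ p ∧ A.LiesOverPrime q ∧
      v.asIdeal = ValRing.primeUnder K A ∧ v.valuation K α = 1 ∧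
      (∃ σ : Gq, σ ∈ K.fixingSubgroup ∧ A.IsFrobeniusAt σ q) ∧
      (∀ σ : Gq, σ ∈ K.fixingSubgroup → A.IsFrobeniusAt σ q → σ θ ≠ θ) := by
  classical
  have hp : p.Prime := Fact.out
  have : NeZero p := ⟨hp.ne_zero⟩
  -- `α = a / d`, `β = α d ^ p ∈ 𝓞 K`
  obtain ⟨a, d, hd, had⟩ := IsFractionRing.div_surjective (A := 𝓞 K) α
  have hd0 : d ≠ 0 := nonZeroDivisors.ne_zero hd
  have hdK : algebraMap (𝓞 K) K d ≠ 0 := by
    intro h
    exact hd0 (NumberField.RingOfIntegers.coe_injective (by rw [h]; rfl))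
  have had' : α * algebraMap (𝓞 K) K d = algebraMap (𝓞 K) K a := by
    rw [← had]
    exact div_mul_cancel₀ _ hdK
  set β : 𝓞 K := a * d ^ (p - 1) with hβ
  have hβα : algebraMap (𝓞 K) K β = α * (algebraMap (𝓞 K) K d) ^ p := by
    have e : p = (p - 1) + 1 := (Nat.sub_add_cancel hp.pos).symm
    rw [hβ, map_mul, map_pow, ← had']
    conv_rhs => rw [e, pow_succ]
    ring
  have hβnp : ¬ ∃ t : K, algebraMap (𝓞 K) K β = t ^ p := by
    rintro ⟨t, ht⟩
    apply hnp
    refine ⟨t / algebraMap (𝓞 K) K d, ?_⟩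
    rw [div_pow, ← ht, hβα, mul_div_assoc, div_self (pow_ne_zero _ hdK), mul_one]
  -- the bad primes
  have hpK : ((p : ℕ) : 𝓞 K) ≠ 0 := by exact_mod_cast hp.ne_zero
  have hfin := finite_setOf_mem (((p : ℕ) : 𝓞 K) * d) (mul_ne_zero hpK hd0)
  obtain ⟨v, hvT, hvq, hvβ⟩ :=
    Fermat.Agent.Lib.NonPowerPrime.exists_nonpower_prime hζ β hβnp (T ∪ hfin.toFinset)
  have hvT' : v ∉ T := fun h => hvT (Finset.mem_union_left _ h)
  have hvpd : ((p : ℕ) : 𝓞 K) * d ∉ v.asIdeal := fun h =>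
    hvT (Finset.mem_union_right _ (hfin.mem_toFinset.mpr h))
  have hvp : ((p : ℕ) : 𝓞 K) ∉ v.asIdeal := fun h => hvpd (Ideal.mul_mem_right _ _ h)
  have hvd : d ∉ v.asIdeal := fun h => hvpd (Ideal.mul_mem_left _ _ h)
  have hvβ' : β ∉ v.asIdeal := fun h => hvβ ⟨0, by simpa [zero_pow hp.ne_zero] using h⟩
  obtain ⟨q, hqdef⟩ : ∃ q : ℕ, q = Ideal.absNorm v.asIdeal := ⟨_, rfl⟩
  rw [← hqdef] at hvq
  have hqv : ((q : ℕ) : 𝓞 K) ∈ v.asIdeal := by
    rw [hqdef]
    exact Ideal.absNorm_mem v.asIdeal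
  have hqp : q ≠ p := fun h => hvp (h ▸ hqv)
  -- the place of `Qb`
  obtain ⟨ℓ, A, hℓ, hℓv, hAℓ, hvA, hdict, hdict', hdict1⟩ :=
    ValRing.exists_valuationSubring_full K v
  have hℓq : ℓ = q := by
    by_contra hne
    have hcop : IsCoprime (ℓ : ℤ) (q : ℤ) :=
      Nat.isCoprime_iff_coprime.mpr ((Nat.coprime_primes hℓ hvq).mpr hne)
    obtain ⟨x, y, hxy⟩ := hcop
    have h1 : (1 : 𝓞 K) ∈ v.asIdeal := by
      have e : (1 : 𝓞 K) = (x : 𝓞 K) * ((ℓ : ℕ) : 𝓞 K) + (y : 𝓞 K) * ((q : ℕ) : 𝓞 K) := by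
        have := congrArg (fun z : ℤ => (z : 𝓞 K)) hxy
        simp only [Int.cast_add, Int.cast_mul, Int.cast_natCast, Int.cast_one] at this
        exact this.symm
      rw [e]
      exact v.asIdeal.add_mem (Ideal.mul_mem_left _ _ hℓv) (Ideal.mul_mem_left _ _ hqv)
    exact v.isPrime.ne_top ((Ideal.eq_top_iff_one _).mpr h1)
  rw [hℓq] at hAℓ
  -- valuations
  have hvd' : v.valuation K (algebraMap (𝓞 K) K d) = 1 :=
    (HeightOneSpectrum.valuation_eq_one_iff_notMem (K := K) (v := v)).mpr hvd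
  have hvα : v.valuation K α = 1 := by
    have h1 : v.valuation K (algebraMap (𝓞 K) K β) = 1 :=
      (HeightOneSpectrum.valuation_eq_one_iff_notMem (K := K) (v := v)).mpr hvβ'
    have h3 : v.valuation K α * v.valuation K (algebraMap (𝓞 K) K d) ^ p = 1 := by
      rw [← map_pow, ← map_mul, ← hβα]
      exact h1
    rw [hvd', one_pow, mul_one] at h3
    exact h3
  -- the residue field of `v` has `q` elements
  have := v.isMaximal
  let : Field (𝓞 K ⧸ v.asIdeal) := Ideal.Quotient.field v.asIdeal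
  have hfinite : Finite (𝓞 K ⧸ v.asIdeal) := by
    rw [← Ideal.absNorm_ne_zero_iff, ← hqdef]
    exact hvq.ne_zero
  let : Fintype (𝓞 K ⧸ v.asIdeal) := Fintype.ofFinite _
  have hcard : Fintype.card (𝓞 K ⧸ v.asIdeal) = q := by
    rw [hqdef, ← Nat.card_eq_fintype_card, Ideal.absNorm_apply, Submodule.cardQuot_apply]
  have hfermat : ∀ x : 𝓞 K, x ^ q - x ∈ v.asIdeal := by
    intro x
    have h := FiniteField.pow_card (Ideal.Quotient.mk v.asIdeal x)
    rw [hcard] at h
    rw [← Ideal.Quotient.eq_zero_iff_mem, map_sub, map_pow, h, sub_self]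
  have hmemA : ∀ x : 𝓞 K, x ∈ v.asIdeal → ((algebraMap (𝓞 K) K x : K) : Qb) ∈ A.nonunits := by
    intro x hx
    rw [hvA, ValRing.mem_primeUnder] at hx
    exact A.mem_nonunits_iff.mpr hx
  refine ⟨v, q, A, hvT', hvq, hqdef.symm, hqp, hAℓ, hvA, hvα, ?_, ?_⟩
  · -- existence of a Frobenius in `G_K`
    refine exists_frobenius_fixing K A hvq hAℓ ?_
    intro x hx hxi
    have hxK : IsIntegral ℤ (⟨x, hx⟩ : K) :=
      (isIntegral_algebraMap_iff (algebraMap K Qb).injective).mp hxi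
    set x' : 𝓞 K := IsIntegralClosure.mk' (𝓞 K) (⟨x, hx⟩ : K) hxK with hx'
    have hx'K : algebraMap (𝓞 K) K x' = ⟨x, hx⟩ :=
      IsIntegralClosure.algebraMap_mk' (𝓞 K) (⟨x, hx⟩ : K) hxK
    have h1 := hmemA _ (hfermat x')
    have e : ((algebraMap (𝓞 K) K (x' ^ q - x') : K) : Qb) = x ^ q - x := by
      rw [map_sub, map_pow, hx'K]
      rfl
    rw [e] at h1
    exact h1
  · -- every Frobenius in `G_K` moves `θ`
    intro σ hσK hσF hσθ
    have hvαA : A.valuation ((α : K) : Qb) = 1 := (hdict1 α).mpr hvα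
    have hvθ : A.valuation θ = 1 := by
      have h1 : A.valuation θ ^ p = 1 := by rw [← map_pow, hθ, hvαA]
      rcases lt_trichotomy (A.valuation θ) 1 with h | h | h
      · exact absurd h1 (pow_lt_one₀ zero_le h hp.ne_zero).ne
      · exact h
      · exact absurd h1 (one_lt_pow₀ h hp.ne_zero).ne'
    have hθA : θ ∈ A := (A.valuation_le_one_iff _).mp hvθ.le
    have h1 : σ θ - θ ^ q ∈ A.nonunits :=
      Fermat.Agent.Lib.CycloChar.sub_pow_mem_nonunits_of_isFrobeniusAt A σ q hσF hθA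
    rw [hσθ] at h1
    have h2 : A.valuation (θ ^ (q - 1) - 1) < 1 := by
      have e : θ - θ ^ q = -(θ * (θ ^ (q - 1) - 1)) := by
        have e' : q = (q - 1) + 1 := (Nat.sub_add_cancel hvq.pos).symm
        conv_lhs => rw [e', pow_succ]
        ring
      rw [A.mem_nonunits_iff, e, Valuation.map_neg, map_mul, hvθ, one_mul] at h1
      exact h1
    -- `p ∣ q - 1`
    have hζint : IsIntegral ℤ ζ := hζ.isIntegral hp.pos
    set ζ' : 𝓞 K := IsIntegralClosure.mk' (𝓞 K) ζ hζint with hζ'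
    have hζ'K : algebraMap (𝓞 K) K ζ' = ζ := IsIntegralClosure.algebraMap_mk' (𝓞 K) ζ hζint
    have hinj : Function.Injective (algebraMap (𝓞 K) K) :=
      NumberField.RingOfIntegers.coe_injective
    have hζ'p : ζ' ^ p = 1 := by
      apply hinj
      rw [map_pow, hζ'K, map_one]
      exact hζ.pow_eq_one
    have hζ'1 : Ideal.Quotient.mk v.asIdeal ζ' ≠ 1 := by
      intro h
      have h0 : ζ' - 1 ∈ v.asIdeal := by
        rw [← Ideal.Quotient.eq_zero_iff_mem, map_sub, h, map_one, sub_self]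
      -- `p = ∑ (1 - ζ' ^ k)`
      have hsum : ∑ k ∈ Finset.range p, ζ' ^ k = 0 := by
        apply hinj
        rw [map_sum, map_zero]
        simp only [map_pow, hζ'K]
        exact hζ.geom_sum_eq_zero hp.one_lt
      have hpe : ((p : ℕ) : 𝓞 K) = -∑ k ∈ Finset.range p, (ζ' ^ k - 1) := by
        rw [Finset.sum_sub_distrib, hsum]
        simp
      apply hvp
      rw [hpe]
      refine v.asIdeal.neg_mem (Ideal.sum_mem _ fun k _ => ?_)
      exact Ideal.mem_of_dvd _ (sub_one_dvd_pow_sub_one ζ' k) h0   -- (ζ' - 1) ∣ ζ'^k - 1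
    have hpq1 : p ∣ q - 1 := by
      have hord : orderOf (Ideal.Quotient.mk v.asIdeal ζ') = p :=
        orderOf_eq_prime (by rw [← map_pow, hζ'p, map_one]) hζ'1
      rw [← hord]
      refine orderOf_dvd_of_pow_eq_one ?_
      have hne : Ideal.Quotient.mk v.asIdeal ζ' ≠ 0 := by
        intro h
        have h1 : (Ideal.Quotient.mk v.asIdeal ζ') ^ p = 1 := by rw [← map_pow, hζ'p, map_one]
        rw [h, zero_pow hp.ne_zero] at h1
        exact zero_ne_one h1
      have h := FiniteField.pow_card_sub_one_eq_one (Ideal.Quotient.mk v.asIdeal ζ') hne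
      rwa [hcard] at h
    obtain ⟨e, he⟩ := hpq1
    have he0 : 0 < e := by
      rcases Nat.eq_zero_or_pos e with h | h
      · rw [h, mul_zero] at he
        have := hvq.two_le
        omega
      · exact h
    -- `α ^ e ≡ 1`
    have h3 : A.valuation (((α : K) : Qb) ^ e - 1) < 1 := by
      rw [← hθ, ← pow_mul, ← he]
      exact h2
    have h4 : v.valuation K (α ^ e - 1) < 1 := by
      rw [← hdict']
      exact A.mem_nonunits_iff.mpr h3
    have h5 : β ^ e - d ^ (q - 1) ∈ v.asIdeal := by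
      rw [← HeightOneSpectrum.valuation_lt_one_iff_mem (K := K)]
      have e1 : algebraMap (𝓞 K) K (β ^ e - d ^ (q - 1)) =
          (α ^ e - 1) * (algebraMap (𝓞 K) K d) ^ (q - 1) := by
        rw [map_sub, map_pow, map_pow, hβα, mul_pow, ← pow_mul, ← he]
        ring
      have e2 : v.valuation K (algebraMap (𝓞 K) K (β ^ e - d ^ (q - 1))) < 1 := by
        rw [e1, map_mul, map_pow, hvd', one_pow, mul_one]
        exact h4
      exact e2
    -- in the residue field
    have hdne : Ideal.Quotient.mk v.asIdeal d ≠ 0 := by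
      rw [Ne, Ideal.Quotient.eq_zero_iff_mem]
      exact hvd
    have hβne : Ideal.Quotient.mk v.asIdeal β ≠ 0 := by
      rw [Ne, Ideal.Quotient.eq_zero_iff_mem]
      exact hvβ'
    have h6 : (Ideal.Quotient.mk v.asIdeal β) ^ e = 1 := by
      have h := FiniteField.pow_card_sub_one_eq_one (Ideal.Quotient.mk v.asIdeal d) hdne
      rw [hcard] at h
      rw [← h, ← map_pow, ← map_pow, ← sub_eq_zero, ← map_sub, Ideal.Quotient.eq_zero_iff_mem]
      exact h5
    -- cyclicity of the unit group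
    have hcardU : Nat.card (𝓞 K ⧸ v.asIdeal)ˣ = p * e := by
      rw [Nat.card_eq_fintype_card, Fintype.card_units, hcard, he]
    obtain ⟨t, ht⟩ := exists_pow_eq_of_pow_eq_one he0 hcardU (Units.mk0 _ hβne)
      (by ext; simpa using h6)
    obtain ⟨t', ht'⟩ := Ideal.Quotient.mk_surjective (t : 𝓞 K ⧸ v.asIdeal)
    refine hvβ ⟨t', ?_⟩
    rw [← Ideal.Quotient.eq_zero_iff_mem, map_sub, map_pow, ht', ← Units.val_pow_eq_pow_val, ht]
    simp

/-- **(G4) avoiding finitely many primes of `K` and finitely many rational primes.** -/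
theorem exists_frobenius_moving_of_primes {p : ℕ} [Fact p.Prime] (K : IntermediateField ℚ Qb)
    [NumberField K] (ζ : K) (hζ : IsPrimitiveRoot ζ p) (θ : Qb) (α : K)
    (hθ : θ ^ p = ((α : K) : Qb)) (hnp : ¬ ∃ t : K, α = t ^ p)
    (T : Finset (HeightOneSpectrum (𝓞 K))) (S : Finset ℕ) :
    ∃ (v : HeightOneSpectrum (𝓞 K)) (q : ℕ) (A : ValuationSubring Qb),
      v ∉ T ∧ q ∉ S ∧ q.Prime ∧ Ideal.absNorm v.asIdeal = q ∧ q ≠ p ∧ A.LiesOverPrime q ∧
      v.asIdeal = ValRing.primeUnder K A ∧ v.valuation K α = 1 ∧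
      (∃ σ : Gq, σ ∈ K.fixingSubgroup ∧ A.IsFrobeniusAt σ q) ∧
      (∀ σ : Gq, σ ∈ K.fixingSubgroup → A.IsFrobeniusAt σ q → σ θ ≠ θ) := by
  classical
  set N : ℕ := ∏ s ∈ S.filter (· ≠ 0), s with hN
  have hN0 : N ≠ 0 := by
    rw [hN, Finset.prod_ne_zero_iff]
    intro s hs
    exact (Finset.mem_filter.mp hs).2
  have hNK : ((N : ℕ) : 𝓞 K) ≠ 0 := by exact_mod_cast hN0
  have hfin := finite_setOf_mem ((N : ℕ) : 𝓞 K) hNK
  obtain ⟨v, q, A, hvT, hq, hvq, hqp, hA, hvA, hvα, hex, hall⟩ :=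
    exists_frobenius_moving K ζ hζ θ α hθ hnp (T ∪ hfin.toFinset)
  refine ⟨v, q, A, fun h => hvT (Finset.mem_union_left _ h), ?_, hq, hvq, hqp, hA, hvA, hvα,
    hex, hall⟩
  intro hqS
  apply hvT
  refine Finset.mem_union_right _ (hfin.mem_toFinset.mpr ?_)
  have hqv : ((q : ℕ) : 𝓞 K) ∈ v.asIdeal := by
    rw [← hvq]
    exact Ideal.absNorm_mem v.asIdeal
  have hdvd : q ∣ N := by
    rw [hN]
    exact Finset.dvd_prod_of_mem _ (Finset.mem_filter.mpr ⟨hqS, hq.ne_zero⟩)
  obtain ⟨m, hm⟩ := hdvd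
  show ((N : ℕ) : 𝓞 K) ∈ v.asIdeal
  rw [hm, Nat.cast_mul]
  exact Ideal.mul_mem_right _ _ hqv

/-- **(G4), decomposition group form.** Outside finitely many primes there is a place `A` of `Qb`
over a prime `v` of `K` (of prime norm `q ≠ p`, with `α` a `v`-unit) whose decomposition group in
`G_K` does not fix `θ`. -/
theorem exists_decomposition_moving {p : ℕ} [Fact p.Prime] (K : IntermediateField ℚ Qb)
    [NumberField K] (ζ : K) (hζ : IsPrimitiveRoot ζ p) (θ : Qb) (α : K)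
    (hθ : θ ^ p = ((α : K) : Qb)) (hnp : ¬ ∃ t : K, α = t ^ p)
    (T : Finset (HeightOneSpectrum (𝓞 K))) (S : Finset ℕ) :
    ∃ (v : HeightOneSpectrum (𝓞 K)) (q : ℕ) (A : ValuationSubring Qb),
      v ∉ T ∧ q ∉ S ∧ q.Prime ∧ Ideal.absNorm v.asIdeal = q ∧ q ≠ p ∧ A.LiesOverPrime q ∧
      v.asIdeal = ValRing.primeUnder K A ∧ v.valuation K α = 1 ∧
      ∃ σ : Gq, σ ∈ K.fixingSubgroup ∧ σ ∈ A.decompositionSubgroup ℚ ∧ σ θ ≠ θ := by
  obtain ⟨v, q, A, hvT, hqS, hq, hvq, hqp, hA, hvA, hvα, ⟨σ, hσK, hσF⟩, hall⟩ :=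
    exists_frobenius_moving_of_primes K ζ hζ θ α hθ hnp T S
  exact ⟨v, q, A, hvT, hqS, hq, hvq, hqp, hA, hvA, hvα, σ, hσK, hσF.mem_decompositionSubgroup,
    hall σ hσK hσF⟩

/-- **(G4), character form.** If `c` is the Kummer character of `θ` (`σ θ = ζ ^ c(σ) θ` on `G_K`),
then outside finitely many primes there is a place at which Frobenius elements of `G_K` exist and
`c` is nonzero on each of them. -/
theorem exists_frobenius_char_ne_zero {p : ℕ} [Fact p.Prime] (K : IntermediateField ℚ Qb)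
    [NumberField K] (ζ : K) (hζ : IsPrimitiveRoot ζ p) (θ : Qb) (α : K)
    (hθ : θ ^ p = ((α : K) : Qb)) (hnp : ¬ ∃ t : K, α = t ^ p)
    (c : Gq → ZMod p)
    (hc : ∀ σ : Gq, σ ∈ K.fixingSubgroup → σ θ = ((ζ : K) : Qb) ^ (c σ).val * θ)
    (T : Finset (HeightOneSpectrum (𝓞 K))) (S : Finset ℕ) :
    ∃ (v : HeightOneSpectrum (𝓞 K)) (q : ℕ) (A : ValuationSubring Qb),
      v ∉ T ∧ q ∉ S ∧ q.Prime ∧ Ideal.absNorm v.asIdeal = q ∧ q ≠ p ∧ A.LiesOverPrime q ∧
      v.asIdeal = ValRing.primeUnder K A ∧ v.valuation K α = 1 ∧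
      (∃ σ : Gq, σ ∈ K.fixingSubgroup ∧ A.IsFrobeniusAt σ q) ∧
      (∀ σ : Gq, σ ∈ K.fixingSubgroup → A.IsFrobeniusAt σ q → c σ ≠ 0) := by
  obtain ⟨v, q, A, hvT, hqS, hq, hvq, hqp, hA, hvA, hvα, hex, hall⟩ :=
    exists_frobenius_moving_of_primes K ζ hζ θ α hθ hnp T S
  refine ⟨v, q, A, hvT, hqS, hq, hvq, hqp, hA, hvA, hvα, hex, ?_⟩
  intro σ hσK hσF h0
  apply hall σ hσK hσF
  rw [hc σ hσK, h0, ZMod.val_zero, pow_zero, one_mul]

end Fermat.Agent.CFT.Global.G4Adapter
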