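import Mathlib
import Fermat.Prelude.Def_GroupCohomology_ContinuousUnramified
import Fermat.Agent.CFT.Global.G4Adapter
import Fermat.Agent.CFT.Kummer.Gen
import Fermat.Agent.S55.Shapiro.Level
import Fermat.Agent.S55.Glue.PlacesAbove
import Fermat.Agent.S55.Glue.LocalRange
import Fermat.Agent.S55.Glue.CoindDual
import Fermat.Agent.S55.Glue.DualTwist

/-!
# (G4Q): the local-global principle for `H¹(G_ℚ, M0(K))` and `H¹(G_ℚ, M0(K)^∨(1))`

`Qb = AlgebraicClosure ℚ`, `Gq = Gal(Qb/ℚ)`, `K ≤ Qb` finite over `ℚ` containing a primitive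
`p`-th root of unity, `U = K.fixingSubgroup`, `M = coind_U^{Gq} 𝔽_p` (the base module `M0(K)` of
the S55 program) and `M' = M.dualTwist (cycloChar p)`.

* `coboundary_of_locally_coboundary`: a level-constant 1-cocycle of `Gq` with values in `M` which,
  for all primes `ℓ` outside a finite set, is a coboundary on the decomposition group of SOME
  place of `Qb` over `ℓ`, is a coboundary.
* `coboundary_of_locally_coboundary_dualTwist`: the same for `M'`.
* `eq_zero_of_locally_zero`, `eq_zero_of_locally_zero_dualTwist`: class forms in the Prelude's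
  language (`continuousH1`, restriction along `primeLocalToGlobal ℓ`), and
  `eq_zero_of_mem_continuousH1S`, `eq_zero_of_mem_continuousH1S_dualTwist` for `continuousH1S S`.
-/

set_option autoImplicit false

open CategoryTheory groupCohomology ExtCitation

namespace Fermat.Agent.CFT.Global.G4Q

local notation "Qb" => AlgebraicClosure ℚ
local notation "Gq" => (AlgebraicClosure ℚ ≃ₐ[ℚ] AlgebraicClosure ℚ)

open Fermat.Agent.S55

section General

variable {k G : Type} [CommRing k] [Group G] (M : Rep.{0} k G)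

/-- If a 1-cocycle is the coboundary of `m` at `g⁻¹ σ g`, it is the coboundary of
`g m - c g` at `σ`. -/
theorem cocycle_conj {c : G → M} (hc : c ∈ cocycles₁ M) (g σ : G) (m : M)
    (h : c (g⁻¹ * σ * g) = M.ρ (g⁻¹ * σ * g) m - m) :
    c σ = M.ρ σ (M.ρ g m - c g) - (M.ρ g m - c g) := by
  have hcoc := (mem_cocycles₁_iff c).1 hc
  have h1 : c (σ * g) = M.ρ σ (c g) + c σ := hcoc σ g
  have h2 : c (g * (g⁻¹ * σ * g)) = M.ρ g (c (g⁻¹ * σ * g)) + c g := hcoc g _
  have h3 : g * (g⁻¹ * σ * g) = σ * g := by group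
  have h4 : M.ρ g (M.ρ (g⁻¹ * σ * g) m) = M.ρ σ (M.ρ g m) := by
    rw [← Module.End.mul_apply, ← map_mul, h3, map_mul, Module.End.mul_apply]
  rw [h3, h1, h, map_sub, h4] at h2
  have h5 : c σ = M.ρ σ (M.ρ g m) - M.ρ g m + c g - M.ρ σ (c g) := by
    rw [← h2]; abel
  rw [h5, map_sub]
  abel

end General

/-- A cocycle of `Gq` which is a coboundary on the decomposition group of one place over `ℓ` is a
coboundary on the decomposition group of every place over `ℓ`. -/
theorem exists_primitive_of_place {k : Type} [CommRing k] (M : Rep.{0} k Gq) {c : Gq → M}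
    (hc : c ∈ cocycles₁ M) {ℓ : ℕ} (hℓ : ℓ.Prime) {A A' : ValuationSubring Qb}
    (hA : A.LiesOverPrime ℓ) (hA' : A'.LiesOverPrime ℓ) (m : M)
    (hm : ∀ σ ∈ A.decompositionSubgroup ℚ, c σ = M.ρ σ m - m) :
    ∃ m' : M, ∀ σ ∈ A'.decompositionSubgroup ℚ, c σ = M.ρ σ m' - m' := by
  obtain ⟨g, rfl⟩ := Glue.PlacesAbove.exists_smul_eq hℓ hA hA'
  refine ⟨M.ρ g m - c g, fun σ hσ => ?_⟩
  rw [Glue.PlacesAbove.mem_decompositionSubgroup_smul_iff] at hσ
  exact cocycle_conj M hc g σ m (hm _ hσ)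

/-- The Prelude's distinguished place over `ℓ` lies over `ℓ`. -/
theorem liesOverPrime_primeLocalPlace (ℓ : Nat.Primes) :
    (primeLocalPlace ℓ).LiesOverPrime (ℓ : ℕ) := by
  have : Fact (ℓ : ℕ).Prime := ⟨ℓ.2⟩
  show ((ℓ : ℕ) : Qb) ∈ (padicPlace (ℓ : ℕ)).nonunits
  rw [ValuationSubring.mem_nonunits_iff]
  by_contra hlt
  have h1 : (1 : _) ≤ (padicPlace (ℓ : ℕ)).valuation ((ℓ : ℕ) : Qb) := not_lt.mp hlt
  have hne : ((ℓ : ℕ) : Qb) ≠ 0 := by exact_mod_cast ℓ.2.ne_zero
  have h2 : (padicPlace (ℓ : ℕ)).valuation (((ℓ : ℕ) : Qb)⁻¹) ≤ 1 := by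
    rw [map_inv₀]
    exact inv_le_one_of_one_le₀ h1
  have h3 : (((ℓ : ℕ) : Qb)⁻¹) ∈ padicPlace (ℓ : ℕ) :=
    ((padicPlace (ℓ : ℕ)).valuation_le_one_iff _).mp h2
  rw [mem_padicPlace_iff] at h3
  have h4 : ‖padicEmbedding (ℓ : ℕ) (((ℓ : ℕ) : Qb)⁻¹)‖ ≤ 1 := h3
  rw [map_inv₀, norm_inv, Glue.LocalRange.norm_padicEmbedding_natCast_self, inv_inv] at h4
  have h5 : (1 : ℝ) < (ℓ : ℕ) := by exact_mod_cast ℓ.2.one_lt
  linarith

/-- The base module `M0(K) = coind_{G_K}^{G_ℚ} 𝔽_p` (reducibly equal to `Abs.M0 (ZMod p) U` and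
`Glue.CoindDual.M0 U` for `U = K.fixingSubgroup`). -/
noncomputable abbrev baseMod (p : ℕ) (K : IntermediateField ℚ Qb) : Rep.{0} (ZMod p) Gq :=
  Rep.coind K.fixingSubgroup.subtype (Rep.trivial (ZMod p) K.fixingSubgroup (ZMod p))

section Main

variable {p : ℕ} [Fact p.Prime] (K : IntermediateField ℚ Qb)

local notation "MK" => baseMod p K

/-- **(G4Q), cochain form.** A level-constant 1-cocycle of `G_ℚ` with values in `M0(K)` (`K` finite
over `ℚ` containing `μ_p`) which for every prime `ℓ` outside a finite set is a coboundary on the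
decomposition group of some place over `ℓ`, is a coboundary. -/
theorem coboundary_of_locally_coboundary [FiniteDimensional ℚ K] (ζ : K)
    (hζ : IsPrimitiveRoot ζ p) (c : Gq → MK) (hc : c ∈ cocycles₁ MK)
    (hlev : IsLevelConstant₁ (MonoidHom.id Gq) c) (T : Finset ℕ)
    (hloc : ∀ ℓ : ℕ, ℓ.Prime → ℓ ∉ T → ∃ A : ValuationSubring Qb, A.LiesOverPrime ℓ ∧
      ∃ m : MK, ∀ σ ∈ A.decompositionSubgroup ℚ, c σ = (MK).ρ σ m - m) :
    c ∈ coboundaries₁ MK := by
  classical
  have hp : p.Prime := Fact.out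
  have : NeZero p := ⟨hp.ne_zero⟩
  have : NumberField K := { to_charZero := inferInstance, to_finiteDimensional := inferInstance }
  have hcoc := (mem_cocycles₁_iff c).1 hc
  have hc1 : c 1 = 0 := by
    have h := hcoc 1 1
    rw [mul_one, map_one, Module.End.one_apply] at h
    exact left_eq_add.mp h
  -- left invariance of elements of `M0(K)`
  have hinv : ∀ (f : MK) (σ : Gq), σ ∈ K.fixingSubgroup → f.1 σ = f.1 1 := by
    intro f σ hσ
    have h := Shapiro.coind_apply_coe f ⟨σ, hσ⟩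
    exact h
  -- the character `σ ↦ c(σ)(1)`
  set e : Gq → ZMod p := fun σ => (c σ).1 1 with he
  have hadd : ∀ σ ∈ K.fixingSubgroup, ∀ τ ∈ K.fixingSubgroup, e (σ * τ) = e σ + e τ := by
    intro σ hσ τ _
    have h1 := hcoc σ τ
    have h2 : (c (σ * τ)).1 1 = (c τ).1 (1 * σ) + (c σ).1 1 := by rw [h1]; rfl
    rw [one_mul, hinv (c τ) σ hσ] at h2
    show (c (σ * τ)).1 1 = (c σ).1 1 + (c τ).1 1
    rw [h2, add_comm]
  have hlev' : ∃ F : IntermediateField ℚ Qb, FiniteDimensional ℚ F ∧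
      ∀ s ∈ F.fixingSubgroup, s ∈ K.fixingSubgroup → e s = 0 := by
    obtain ⟨F, hF, hcF⟩ := hlev
    refine ⟨F, hF, fun s hs _ => ?_⟩
    have h := hcF 1 s hs
    rw [one_mul, hc1] at h
    show (c s).1 1 = 0
    rw [h]
    rfl
  obtain ⟨α, θ, hα, hθ, hσθ⟩ :=
    Fermat.Agent.CFT.Kummer.exists_kummer_of_hom K ζ hζ e hadd hlev'
  have hzprim : IsPrimitiveRoot ((ζ : K) : Qb) p :=
    hζ.map_of_injective (f := K.val) K.val.injective
  have hθ0 : θ ≠ 0 := by
    intro h0
    rw [h0, zero_pow hp.ne_zero] at hθ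
    exact hα (by exact_mod_cast hθ.symm)
  -- `e` vanishes on `G_K`
  have he0 : ∀ σ ∈ K.fixingSubgroup, e σ = 0 := by
    by_contra hne
    push Not at hne
    obtain ⟨σ₀, hσ₀, hne⟩ := hne
    have hnp : ¬ ∃ t : K, α = t ^ p := by
      rintro ⟨t, rfl⟩
      have ht0 : ((t : K) : Qb) ≠ 0 := by
        intro h0
        apply hα
        have : (t : K) = 0 := by exact_mod_cast h0
        rw [this, zero_pow hp.ne_zero]
      have h1 : (θ / ((t : K) : Qb)) ^ p = 1 := by
        rw [div_pow, hθ]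
        push_cast
        exact div_self (pow_ne_zero _ ht0)
      obtain ⟨i, -, hi⟩ := hzprim.eq_pow_of_pow_eq_one h1
      have hθK : θ ∈ K := by
        have h2 : θ = ((ζ : K) : Qb) ^ i * ((t : K) : Qb) := by
          rw [hi, div_mul_cancel₀ _ ht0]
        rw [h2]
        exact K.mul_mem (pow_mem ζ.2 i) t.2
      have h3 : σ₀ θ = θ := (IntermediateField.mem_fixingSubgroup_iff K σ₀).1 hσ₀ θ hθK
      have h4 := hσθ σ₀ hσ₀
      rw [h3] at h4
      have h5 : ((ζ : K) : Qb) ^ (e σ₀).val = 1 := by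
        have h6 : ((ζ : K) : Qb) ^ (e σ₀).val * θ = 1 * θ := by rw [one_mul]; exact h4.symm
        exact mul_right_cancel₀ hθ0 h6
      have h7 : p ∣ (e σ₀).val := (hzprim.pow_eq_one_iff_dvd _).1 h5
      have h8 : (e σ₀).val = 0 := Nat.eq_zero_of_dvd_of_lt h7 (ZMod.val_lt _)
      exact hne ((ZMod.val_eq_zero _).1 h8)
    obtain ⟨v, q, A', -, hqT, hq, -, -, hA', -, -, σ, hσK, hσD, hσθ'⟩ :=
      Fermat.Agent.CFT.Global.G4Adapter.exists_decomposition_moving K ζ hζ θ α hθ hnp ∅ T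
    obtain ⟨A, hA, m, hm⟩ := hloc q hq hqT
    obtain ⟨m', hm'⟩ := exists_primitive_of_place MK hc hq hA hA' m hm
    have h0 : e σ = 0 := by
      have h1 := hm' σ hσD
      show (c σ).1 1 = 0
      rw [h1, Shapiro.coind_sub_apply, Shapiro.coind_ρ_apply, one_mul, hinv m' σ hσK, sub_self]
    apply hσθ'
    rw [hσθ σ hσK, h0, ZMod.val_zero, pow_zero, one_mul]
  -- conclude by Shapiro
  rw [Shapiro.mem_coboundaries₁_iff_sh₁ hc]
  refine ⟨0, ?_⟩
  funext u
  rw [map_zero]
  exact (he0 u u.2).symm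

/-- `G_K` has finite index in `G_ℚ` for `K` finite over `ℚ`. -/
theorem finiteIndex_fixingSubgroup [FiniteDimensional ℚ K] : K.fixingSubgroup.FiniteIndex := by
  have := Fermat.Agent.S14.Base.isGalois
  have : Finite (Gq ⧸ K.fixingSubgroup) :=
    Subgroup.quotient_finite_of_isOpen K.fixingSubgroup (IntermediateField.fixingSubgroup_isOpen K)
  exact Subgroup.finiteIndex_of_finite_quotient

/-- The mod `p` cyclotomic character is trivial on `G_K` when `μ_p ⊆ K`. -/
theorem cycloChar_eq_one_of_mem (ζ : K) (hζ : IsPrimitiveRoot ζ p) :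
    ∀ u ∈ K.fixingSubgroup, cycloChar p u = 1 := by
  have hp : p.Prime := Fact.out
  have : NeZero p := ⟨hp.ne_zero⟩
  intro u hu
  apply Glue.cycloChar_eq_one_of_mem_fixingSubgroup
  rw [Glue.mem_fixingSubgroup_cycloField_iff]
  intro x hx
  have hzprim : IsPrimitiveRoot ((ζ : K) : Qb) p :=
    hζ.map_of_injective (f := K.val) K.val.injective
  obtain ⟨i, -, hi⟩ := hzprim.eq_pow_of_pow_eq_one hx
  rw [← hi]
  exact (IntermediateField.mem_fixingSubgroup_iff K u).1 hu _ (pow_mem ζ.2 i)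

/-- **(G4Q), cochain form, dual twist.** The same local-global principle for
`M0(K).dualTwist (cycloChar p)`. -/
theorem coboundary_of_locally_coboundary_dualTwist [FiniteDimensional ℚ K] (ζ : K)
    (hζ : IsPrimitiveRoot ζ p) (c : Gq → (MK).dualTwist (cycloChar p))
    (hc : c ∈ cocycles₁ ((MK).dualTwist (cycloChar p)))
    (hlev : IsLevelConstant₁ (MonoidHom.id Gq) c) (T : Finset ℕ)
    (hloc : ∀ ℓ : ℕ, ℓ.Prime → ℓ ∉ T → ∃ A : ValuationSubring Qb, A.LiesOverPrime ℓ ∧
      ∃ m : (MK).dualTwist (cycloChar p), ∀ σ ∈ A.decompositionSubgroup ℚ,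
        c σ = ((MK).dualTwist (cycloChar p)).ρ σ m - m) :
    c ∈ coboundaries₁ ((MK).dualTwist (cycloChar p)) := by
  have := finiteIndex_fixingSubgroup K
  have hχ := cycloChar_eq_one_of_mem (p := p) K ζ hζ
  let E : MK ≃ₗ[ZMod p] (MK).dualTwist (cycloChar p) :=
    LinearEquiv.ofBijective (Glue.CoindDual.toDualLin (U := K.fixingSubgroup) (cycloChar p) hχ)
      (Glue.CoindDual.toDualLin_bijective _ hχ)
  have hEρ : ∀ (g : Gq) (x : MK), E ((MK).ρ g x) = ((MK).dualTwist (cycloChar p)).ρ g (E x) :=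
    fun g x => Glue.CoindDual.toDualLin_ρ (U := K.fixingSubgroup) (cycloChar p) hχ g x
  have hEsymmρ : ∀ (g : Gq) (y : (MK).dualTwist (cycloChar p)),
      E.symm (((MK).dualTwist (cycloChar p)).ρ g y) = (MK).ρ g (E.symm y) := by
    intro g y
    apply E.injective
    rw [hEρ, E.apply_symm_apply, E.apply_symm_apply]
  have hcoc := (mem_cocycles₁_iff c).1 hc
  set c₀ : Gq → MK := fun g => E.symm (c g) with hc₀def
  have hc₀ : c₀ ∈ cocycles₁ MK := by
    rw [mem_cocycles₁_iff]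
    intro g h
    show E.symm (c (g * h)) = (MK).ρ g (E.symm (c h)) + E.symm (c g)
    rw [hcoc g h, map_add, hEsymmρ]
  have hlev₀ : IsLevelConstant₁ (MonoidHom.id Gq) c₀ := hlev.comp E.symm
  obtain ⟨m₀, hm₀⟩ := coboundary_of_locally_coboundary K ζ hζ c₀ hc₀ hlev₀ T (by
    intro ℓ hℓ hℓT
    obtain ⟨A, hA, m, hm⟩ := hloc ℓ hℓ hℓT
    refine ⟨A, hA, E.symm m, fun σ hσ => ?_⟩
    show E.symm (c σ) = _
    rw [hm σ hσ, map_sub, hEsymmρ])
  refine ⟨E m₀, ?_⟩
  funext g
  have h1 := congrFun hm₀ g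
  rw [d₀₁_hom_apply] at h1 ⊢
  rw [← hEρ, ← map_sub, h1]
  exact E.apply_symm_apply _

end Main

/-! ### Class forms in the Prelude's language -/

/-- Local triviality of a class along the Prelude's local maps, at the cocycle level. -/
theorem exists_local_primitive {k : Type} [CommRing k] (N : Rep.{0} k Gq) (c : cocycles₁ N)
    (T : Finset Nat.Primes)
    (hloc : ∀ ℓ : Nat.Primes, ℓ ∉ T →
      (groupCohomology.map (primeLocalToGlobal ℓ) (𝟙 (Rep.res (primeLocalToGlobal ℓ) N)) 1).hom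
        (H1π N c) = 0) :
    ∀ ℓ : ℕ, ℓ.Prime → ℓ ∉ T.image (fun q : Nat.Primes => (q : ℕ)) →
      ∃ A : ValuationSubring Qb, A.LiesOverPrime ℓ ∧
        ∃ m : N, ∀ σ ∈ A.decompositionSubgroup ℚ, c σ = N.ρ σ m - m := by
  intro ℓ hℓ hℓT
  have h := hloc ⟨ℓ, hℓ⟩ (fun h => hℓT (Finset.mem_image.mpr ⟨_, h, rfl⟩))
  rw [Glue.LocalRange.map_H1π_eq_zero_iff, Glue.LocalRange.range_primeLocalToGlobal] at h
  exact ⟨primeLocalPlace ⟨ℓ, hℓ⟩, liesOverPrime_primeLocalPlace ⟨ℓ, hℓ⟩, h⟩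

section Classes

variable {p : ℕ} [Fact p.Prime] (K : IntermediateField ℚ Qb) [FiniteDimensional ℚ K] (ζ : K)
  (hζ : IsPrimitiveRoot ζ p)

include hζ

/-- **(G4Q)** for `M0(K)`: a continuous class which restricts to zero at all primes outside a
finite set is zero. -/
theorem eq_zero_of_locally_zero (y : H1 (baseMod p K))
    (hy : y ∈ continuousH1 (MonoidHom.id Gq) (baseMod p K)) (T : Finset Nat.Primes)
    (hloc : ∀ ℓ : Nat.Primes, ℓ ∉ T →
      (groupCohomology.map (primeLocalToGlobal ℓ)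
        (𝟙 (Rep.res (primeLocalToGlobal ℓ) (baseMod p K))) 1).hom y = 0) :
    y = 0 := by
  obtain ⟨c, hclev, rfl⟩ := (mem_continuousH1_iff _ _ y).1 hy
  show H1π (baseMod p K) c = 0
  rw [H1π_eq_zero_iff]
  exact coboundary_of_locally_coboundary K ζ hζ c c.2 hclev _
    (exists_local_primitive (baseMod p K) c T hloc)

/-- **(G4Q)** for `M0(K).dualTwist (cycloChar p)`. -/
theorem eq_zero_of_locally_zero_dualTwist (y : H1 ((baseMod p K).dualTwist (cycloChar p)))
    (hy : y ∈ continuousH1 (MonoidHom.id Gq) ((baseMod p K).dualTwist (cycloChar p)))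
    (T : Finset Nat.Primes)
    (hloc : ∀ ℓ : Nat.Primes, ℓ ∉ T →
      (groupCohomology.map (primeLocalToGlobal ℓ)
        (𝟙 (Rep.res (primeLocalToGlobal ℓ) ((baseMod p K).dualTwist (cycloChar p)))) 1).hom y
        = 0) :
    y = 0 := by
  obtain ⟨c, hclev, rfl⟩ := (mem_continuousH1_iff _ _ y).1 hy
  show H1π ((baseMod p K).dualTwist (cycloChar p)) c = 0
  rw [H1π_eq_zero_iff]
  exact coboundary_of_locally_coboundary_dualTwist K ζ hζ c c.2 hclev _
    (exists_local_primitive ((baseMod p K).dualTwist (cycloChar p)) c T hloc)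

/-- **(G4Q)** in the literal shape of the base case: `y ∈ V(M) = continuousH1S S M`, locally
trivial at every prime, is zero. -/
theorem eq_zero_of_mem_continuousH1S (S : Finset Nat.Primes) (y : H1 (baseMod p K))
    (hy : y ∈ continuousH1S S (baseMod p K))
    (hloc : ∀ ℓ : Nat.Primes,
      (groupCohomology.map (primeLocalToGlobal ℓ)
        (𝟙 (Rep.res (primeLocalToGlobal ℓ) (baseMod p K))) 1).hom y = 0) :
    y = 0 :=
  eq_zero_of_locally_zero K ζ hζ y (continuousH1S_le_continuousH1 S _ hy) ∅ (fun ℓ _ => hloc ℓ)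

/-- **(G4Q)** for the dual twist, literal shape. -/
theorem eq_zero_of_mem_continuousH1S_dualTwist (S : Finset Nat.Primes)
    (y : H1 ((baseMod p K).dualTwist (cycloChar p)))
    (hy : y ∈ continuousH1S S ((baseMod p K).dualTwist (cycloChar p)))
    (hloc : ∀ ℓ : Nat.Primes,
      (groupCohomology.map (primeLocalToGlobal ℓ)
        (𝟙 (Rep.res (primeLocalToGlobal ℓ) ((baseMod p K).dualTwist (cycloChar p)))) 1).hom y
        = 0) :
    y = 0 :=
  eq_zero_of_locally_zero_dualTwist K ζ hζ y (continuousH1S_le_continuousH1 S _ hy) ∅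
    (fun ℓ _ => hloc ℓ)

end Classes

end Fermat.Agent.CFT.Global.G4Q
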