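import Mathlib
import Fermat.Agent.CFT.Global.G4Q
import Fermat.Agent.S55.Base.AsmA2Epi

/-!
# (G4Q) in the literal shape `Base.Asm.G4` of the base-case assembly

`Base.Asm.G4 S N` (helper145, `S55/Base/AsmA2Epi.lean`): a level-`S` 1-cocycle of `N` which is a
coboundary on the local group at every prime is a coboundary.  Here it is proved, from
`G4Q.coboundary_of_locally_coboundary(_dualTwist)`, for `N = M0(K)` and `N = M0(K)^∨(1)`, `K`
finite over `ℚ` containing `μ_p`.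
-/

set_option autoImplicit false

open CategoryTheory groupCohomology ExtCitation

namespace Fermat.Agent.CFT.Global.G4Asm

local notation "Qb" => AlgebraicClosure ℚ
local notation "Gq" => (AlgebraicClosure ℚ ≃ₐ[ℚ] AlgebraicClosure ℚ)

open Fermat.Agent.S55 Fermat.Agent.S55.Abs

variable {p : ℕ} [Fact p.Prime]

/-- `μ_p ⊆ K` gives a primitive `p`-th root of unity in `K`. -/
theorem exists_primitiveRoot (K : IntermediateField ℚ Qb) (hc : Glue.cycloField p ≤ K) :
    ∃ ζ : K, IsPrimitiveRoot ζ p := by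
  have : NeZero p := ⟨(Fact.out : p.Prime).ne_zero⟩
  obtain ⟨ζ, hζ⟩ := HasEnoughRootsOfUnity.exists_primitiveRoot Qb p
  have hmem : ζ ∈ K := hc (IntermediateField.subset_adjoin ℚ _ hζ.pow_eq_one)
  exact ⟨⟨ζ, hmem⟩, IsPrimitiveRoot.of_map_of_injective (f := K.val) hζ K.val.injective⟩

/-- A level-`S` cochain is level-constant in the Prelude's sense. -/
theorem isLevelConstant₁_of_mem_C1 {S : Finset Nat.Primes} {N : Rep.{0} (ZMod p) Gq}
    {y : Gq → N} (hy : y ∈ C1 (globalLevel S) N) : IsLevelConstant₁ (MonoidHom.id Gq) y := by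
  obtain ⟨U, ⟨F, hF, rfl⟩, h⟩ := hy
  exact ⟨F, hF.1, fun g s hs => h g s hs⟩

/-- Local coboundaries along `primeLocalToGlobal` in the decomposition-group form of `G4Q`. -/
theorem exists_local_primitive_of_res {N : Rep.{0} (ZMod p) Gq} {y : Gq → N}
    (hloc : ∀ w : Nat.Primes, res₁ (fun w : Nat.Primes => primeLocalToGlobal w) N w y
      ∈ coboundaries₁ (Rep.res (primeLocalToGlobal w) N)) :
    ∀ ℓ : ℕ, ℓ.Prime → ℓ ∉ (∅ : Finset ℕ) → ∃ A : ValuationSubring Qb, A.LiesOverPrime ℓ ∧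
      ∃ m : N, ∀ σ ∈ A.decompositionSubgroup ℚ, y σ = N.ρ σ m - m := by
  intro ℓ hℓ _
  obtain ⟨m, hm⟩ := hloc ⟨ℓ, hℓ⟩
  refine ⟨primeLocalPlace ⟨ℓ, hℓ⟩, G4Q.liesOverPrime_primeLocalPlace ⟨ℓ, hℓ⟩, m, ?_⟩
  intro σ hσ
  rw [← Glue.LocalRange.range_primeLocalToGlobal] at hσ
  obtain ⟨h, rfl⟩ := hσ
  have h1 := congrFun hm h
  rw [d₀₁_hom_apply] at h1
  exact h1.symm

/-- **[G4]** for `M0(K)`, `K` finite over `ℚ` containing `μ_p`. -/
theorem g4_M0 (S : Finset Nat.Primes) (K : IntermediateField ℚ Qb) [FiniteDimensional ℚ K]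
    (hc : Glue.cycloField p ≤ K) :
    Base.Asm.G4 S (M0 (ZMod p) K.fixingSubgroup) := by
  obtain ⟨ζ, hζ⟩ := exists_primitiveRoot K hc
  intro y hy hloc
  exact G4Q.coboundary_of_locally_coboundary K ζ hζ y hy.2 (isLevelConstant₁_of_mem_C1 hy.1) ∅
    (exists_local_primitive_of_res hloc)

/-- **[G4]** for `M0(K)^∨(1)`, `K` finite over `ℚ` containing `μ_p`. -/
theorem g4_M0_dualTwist (S : Finset Nat.Primes) (K : IntermediateField ℚ Qb)
    [FiniteDimensional ℚ K] (hc : Glue.cycloField p ≤ K) :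
    Base.Asm.G4 S ((M0 (ZMod p) K.fixingSubgroup).dualTwist (cycloChar p)) := by
  obtain ⟨ζ, hζ⟩ := exists_primitiveRoot K hc
  intro y hy hloc
  exact G4Q.coboundary_of_locally_coboundary_dualTwist K ζ hζ y hy.2
    (isLevelConstant₁_of_mem_C1 hy.1) ∅ (exists_local_primitive_of_res hloc)

/-- **[G4]** in the shape of the base case (`K` unramified outside `S`, `μ_p ⊆ K`). -/
theorem g4_of_isUnramifiedOutside (S : Finset Nat.Primes) (K : IntermediateField ℚ Qb)
    (hK : K.IsUnramifiedOutside S) (hc : Glue.cycloField p ≤ K) :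
    Base.Asm.G4 S (M0 (ZMod p) K.fixingSubgroup) ∧
      Base.Asm.G4 S ((M0 (ZMod p) K.fixingSubgroup).dualTwist (cycloChar p)) := by
  have := hK.1
  exact ⟨g4_M0 S K hc, g4_M0_dualTwist S K hc⟩

end Fermat.Agent.CFT.Global.G4Asm
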