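/-
PROGRAM CFT (helper187).  Galois action on the primes (`HeightOneSpectrum (𝓞 L)`) of a number
field and equivariance of the adic valuations:
`(galPrime τ w).valuation L (τ x) = w.valuation L x`.
-/
import Mathlib

set_option autoImplicit false

namespace Fermat.Agent.CFT.Global.GalPrime

open NumberField IsDedekindDomain WithZero

variable {K L : Type*} [Field K] [Field L] [NumberField L] [Algebra K L]

set_option linter.unusedSectionVars false

/-- The ring automorphism of `𝓞 L` induced by `τ`. -/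
noncomputable def galRing (τ : L ≃ₐ[K] L) : 𝓞 L ≃+* 𝓞 L :=
  RingOfIntegers.mapRingEquiv (τ : L ≃+* L)

omit [NumberField L] in
@[simp] theorem coe_galRing (τ : L ≃ₐ[K] L) (x : 𝓞 L) : ((galRing τ x : 𝓞 L) : L) = τ (x : L) := rfl

omit [NumberField L] in
theorem galRing_one (x : 𝓞 L) : galRing (1 : L ≃ₐ[K] L) x = x := by
  apply RingOfIntegers.ext
  simp

omit [NumberField L] in
theorem galRing_mul (τ ρ : L ≃ₐ[K] L) (x : 𝓞 L) :
    galRing (τ * ρ) x = galRing τ (galRing ρ x) := by
  apply RingOfIntegers.ext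
  simp

omit [NumberField L] in
theorem galRing_symm_apply (τ : L ≃ₐ[K] L) (x : 𝓞 L) : (galRing τ).symm x = galRing τ⁻¹ x := by
  apply (galRing τ).injective
  rw [RingEquiv.apply_symm_apply, ← galRing_mul, mul_inv_cancel, galRing_one]

/-- The prime `τ(w)`. -/
noncomputable def galPrime (τ : L ≃ₐ[K] L) (w : HeightOneSpectrum (𝓞 L)) :
    HeightOneSpectrum (𝓞 L) :=
  HeightOneSpectrum.equivOfRingEquiv (galRing τ) w

theorem mem_galPrime (τ : L ≃ₐ[K] L) (w : HeightOneSpectrum (𝓞 L)) (x : 𝓞 L) :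
    x ∈ (galPrime τ w).asIdeal ↔ galRing τ⁻¹ x ∈ w.asIdeal := by
  rw [← galRing_symm_apply]
  rfl

theorem galPrime_one (w : HeightOneSpectrum (𝓞 L)) : galPrime (1 : L ≃ₐ[K] L) w = w := by
  ext x
  rw [mem_galPrime, inv_one, galRing_one]

theorem galPrime_mul (τ ρ : L ≃ₐ[K] L) (w : HeightOneSpectrum (𝓞 L)) :
    galPrime (τ * ρ) w = galPrime τ (galPrime ρ w) := by
  ext x
  rw [mem_galPrime, mem_galPrime, mem_galPrime, mul_inv_rev, galRing_mul]

theorem galPrime_asIdeal (τ : L ≃ₐ[K] L) (w : HeightOneSpectrum (𝓞 L)) :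
    (galPrime τ w).asIdeal = w.asIdeal.map (galRing τ) := by
  ext x
  rw [mem_galPrime, ← galRing_symm_apply, Ideal.mem_map_of_equiv]
  constructor
  · intro h
    exact ⟨_, h, RingEquiv.apply_symm_apply _ _⟩
  · rintro ⟨y, hy, rfl⟩
    rwa [RingEquiv.symm_apply_apply]

theorem galRing_mem_pow_iff (τ : L ≃ₐ[K] L) (w : HeightOneSpectrum (𝓞 L)) (r : 𝓞 L) (n : ℕ) :
    galRing τ r ∈ (galPrime τ w).asIdeal ^ n ↔ r ∈ w.asIdeal ^ n := by
  rw [galPrime_asIdeal, ← Ideal.map_pow, Ideal.mem_map_of_equiv]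
  constructor
  · rintro ⟨y, hy, h⟩
    rwa [← (galRing τ).injective h]
  · intro h
    exact ⟨r, h, rfl⟩

theorem intValuation_galPrime (τ : L ≃ₐ[K] L) (w : HeightOneSpectrum (𝓞 L)) (r : 𝓞 L) :
    (galPrime τ w).intValuation (galRing τ r) = w.intValuation r := by
  by_cases hr : r = 0
  · rw [hr, map_zero, map_zero, map_zero]
  · have hr' : galRing τ r ≠ 0 := fun h => hr ((galRing τ).injective (by rw [h, map_zero]))
    have h1 := (galPrime τ w).intValuation_if_neg hr'
    have h2 := w.intValuation_if_neg hr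
    set c₁ := ((Associates.mk (galPrime τ w).asIdeal).count (Associates.mk (Ideal.span {galRing τ r})).factors)
    set c₂ := ((Associates.mk w.asIdeal).count (Associates.mk (Ideal.span {r})).factors)
    have a1 : (galPrime τ w).intValuation (galRing τ r) ≤ exp (-(c₂ : ℤ)) := by
      rw [HeightOneSpectrum.intValuation_le_pow_iff_mem, galRing_mem_pow_iff,
        ← HeightOneSpectrum.intValuation_le_pow_iff_mem, h2]
    have a2 : w.intValuation r ≤ exp (-(c₁ : ℤ)) := by
      rw [HeightOneSpectrum.intValuation_le_pow_iff_mem, ← galRing_mem_pow_iff τ,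
        ← HeightOneSpectrum.intValuation_le_pow_iff_mem, h1]
    rw [h1, exp_le_exp] at a1
    rw [h2, exp_le_exp] at a2
    rw [h1, h2]
    congr 1
    omega

/-- Equivariance of the adic valuations under the Galois action. -/
theorem valuation_galPrime (τ : L ≃ₐ[K] L) (w : HeightOneSpectrum (𝓞 L)) (x : L) :
    (galPrime τ w).valuation L (τ x) = w.valuation L x := by
  obtain ⟨a, b, hb, rfl⟩ := IsFractionRing.div_surjective (A := 𝓞 L) x
  rw [map_div₀, map_div₀, map_div₀]
  have e1 : τ (algebraMap (𝓞 L) L a) = algebraMap (𝓞 L) L (galRing τ a) := rfl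
  have e2 : τ (algebraMap (𝓞 L) L b) = algebraMap (𝓞 L) L (galRing τ b) := rfl
  rw [e1, e2, HeightOneSpectrum.valuation_of_algebraMap, HeightOneSpectrum.valuation_of_algebraMap,
    HeightOneSpectrum.valuation_of_algebraMap, HeightOneSpectrum.valuation_of_algebraMap,
    intValuation_galPrime, intValuation_galPrime]

theorem valuation_galPrime' (τ : L ≃ₐ[K] L) (w : HeightOneSpectrum (𝓞 L)) (x : L) :
    w.valuation L (τ x) = (galPrime τ⁻¹ w).valuation L x := by
  have h := valuation_galPrime τ (galPrime τ⁻¹ w) x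
  rwa [← galPrime_mul, mul_inv_cancel, galPrime_one] at h

end Fermat.Agent.CFT.Global.GalPrime
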