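/-
Global twin of `LocalBr/LCLocal` + `LocalBr/KummerLoc`: level-constant cochains of a subgroup
`H ≤ Gal(ℚ̄/ℚ)` (level structure = inclusion) with values in `ℚ̄^×` and `μ_p`.

* `unitsQ`, `muQ p` : `ℚ̄^×` and `μ_p = 𝔽_p(1)` (Prelude shape `ofChar (cycloChar p)`);
* `smooth_unitsQ` : `ℚ̄^×` is smooth for `basisOf H.subtype`;
* `h90_global`, `h90On_global` : Hilbert 90 for level-constant 1-cocycles `H → ℚ̄^×`;
* `muHomQ p`, `isKummer_muHomQ` : the Kummer datum `μ_p → ℚ̄^×`;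
* `kummer_injective_glob`, `kummer_surjective_glob` : `H²(H, μ_p) → H²(H, ℚ̄^×)` is injective
  with image the `p`-torsion (Prelude cochain form);
* `exists_isLevel₂_glob` : a level-constant 2-cocycle with values in `ℚ̄^×` lives at a finite
  level `lev H.subtype F`; `isCobAt_of_mem_levelCoboundaries₂_glob` : inflation from a finite
  level is injective.
-/
import Fermat.Agent.CFT.LC.ContH2
import Fermat.Agent.CFT.Cyclic.Galois
import Fermat.Agent.CFT.LocalBr.MuEmb

set_option autoImplicit false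

open CategoryTheory groupCohomology ExtCitation

namespace Fermat.Agent.CFT.Global.LCGlobal

open Fermat.Agent.CFT.LC Fermat.Agent.CFT.LocalBr

local notation "Qb" => AlgebraicClosure ℚ
local notation "GQ" => (AlgebraicClosure ℚ ≃ₐ[ℚ] AlgebraicClosure ℚ)

local instance isAlgebraicQbar_lcg : Algebra.IsAlgebraic ℚ (AlgebraicClosure ℚ) :=
  AlgebraicClosure.isAlgebraic ℚ

/-- `ℚ̄^×` as a `ℤ[Gal(ℚ̄/ℚ)]`-module. -/
noncomputable abbrev unitsQ : Rep ℤ GQ := Rep.ofAlgebraAutOnUnits ℚ Qb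

/-- `μ_p = 𝔽_p(1)` as a representation of `Gal(ℚ̄/ℚ)` (Prelude shape). -/
noncomputable abbrev muQ (p : ℕ) [Fact p.Prime] : Rep (ZMod p) GQ :=
  ofChar (k := ZMod p) (cycloChar p)

section H90

variable (H : Subgroup GQ)

/-- `ℚ̄^×` is smooth. -/
theorem smooth_unitsQ : (basisOf H.subtype).Smooth (Rep.res H.subtype unitsQ) := by
  rw [smooth_basisOf_iff]
  intro a
  obtain ⟨F, hF⟩ : ∃ F : IntermediateField ℚ Qb,
      F = IntermediateField.adjoin ℚ
        {((Additive.toMul (a : Additive Qbˣ) : Qbˣ) : Qb)} := ⟨_, rfl⟩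
  have hfin : FiniteDimensional ℚ F := by
    rw [hF]
    exact IntermediateField.adjoin.finiteDimensional (Algebra.IsIntegral.isIntegral _)
  refine ⟨F, hfin, fun s hs => ?_⟩
  have h1 : (s : GQ) ∈ F.fixingSubgroup := hs
  rw [IntermediateField.mem_fixingSubgroup_iff] at h1
  have h2 := h1 _ (hF ▸ IntermediateField.mem_adjoin_simple_self ℚ _)
  show Additive.ofMul (Units.map ((s : GQ) : Qb →* Qb) (Additive.toMul a)) = a
  apply Additive.toMul.injective
  apply Units.ext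
  exact h2

/-- Hilbert 90 for level-constant 1-cocycles of any subgroup of `Gal(ℚ̄/ℚ)`. -/
theorem h90_core (y : ↥H → unitsQ)
    (hcoc : ∀ s t : ↥H, y (s * t) = unitsQ.ρ (s : GQ) (y t) + y s)
    (F : IntermediateField ℚ Qb) [FiniteDimensional ℚ F]
    (hF : ∀ t s : ↥H, (s : GQ) ∈ F.fixingSubgroup → y (t * s) = y t) :
    ∃ a : unitsQ, ∀ s : ↥H, y s = unitsQ.ρ (s : GQ) a - a := by
  classical
  obtain ⟨x, hx⟩ := Cyclic.exists_smul_div_eq_of_levelConstant H
    (fun g => if hg : g ∈ H then Additive.toMul (y ⟨g, hg⟩ : Additive Qbˣ) else 1)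
    (fun g hg h hh => by
      simp only [dif_pos hg, dif_pos hh, dif_pos (H.mul_mem hg hh)]
      have h1 := hcoc ⟨g, hg⟩ ⟨h, hh⟩
      exact congrArg Additive.toMul h1)
    F
    (fun g hg s hs hsE => by
      simp only [dif_pos hg, dif_pos (H.mul_mem hg hs)]
      exact congrArg Additive.toMul (hF ⟨g, hg⟩ ⟨s, hs⟩ hsE))
  refine ⟨Additive.ofMul x, fun s => ?_⟩
  have h1 := hx s s.2
  simp only [dif_pos s.2] at h1
  have h2 : (y s : Additive Qbˣ) = Additive.ofMul ((s : GQ) • x / x) := by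
    rw [h1]; rfl
  exact h2

/-- **Hilbert 90** for level-constant 1-cocycles `H → ℚ̄^×`. -/
theorem h90_global : H90 (basisOf H.subtype) (Rep.res H.subtype unitsQ) := by
  rintro y ⟨_, ⟨F, hF, hFn, rfl⟩, hc⟩ hcoc
  exact h90_core H y hcoc F (fun t s hs => hc t s hs)

/-- **Hilbert 90** for level-constant 1-cocycles of the level subgroups of `H`. -/
theorem h90On_global (N : Subgroup ↥H) (hN : (basisOf H.subtype).mem N) :
    H90On (basisOf H.subtype) (Rep.res H.subtype unitsQ) N := by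
  obtain ⟨F₁, hF₁, hF₁n, rfl⟩ := hN
  rintro y ⟨_, ⟨F, hF, hFn, rfl⟩, hc⟩ hcoc
  obtain ⟨a, ha⟩ := h90_core (H ⊓ F₁.fixingSubgroup)
    (fun v => y ⟨⟨v, v.2.1⟩, v.2.2⟩)
    (fun s t => hcoc ⟨⟨s, s.2.1⟩, s.2.2⟩ ⟨⟨t, t.2.1⟩, t.2.2⟩) F
    (fun t s hs => hc ⟨⟨t, t.2.1⟩, t.2.2⟩ ⟨⟨s, s.2.1⟩, s.2.2⟩ hs)
  exact ⟨a, fun s => ha ⟨s.1.1, ⟨s.1.2, s.2⟩⟩⟩

end H90

section Mu

variable (p : ℕ) [Fact p.Prime]

/-- `ζ_p ∈ ℚ̄` as a unit. -/
noncomputable def zetaUnitQ : Qbˣ :=
  Units.mk0 (zetaQb p) ((isPrimitiveRoot_zetaQb p).ne_zero (Fact.out : p.Prime).ne_zero)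

@[simp] theorem coe_zetaUnitQ : ((zetaUnitQ p : Qbˣ) : Qb) = zetaQb p := rfl

theorem zetaUnitQ_pow : zetaUnitQ p ^ p = 1 := by
  ext
  simp [(isPrimitiveRoot_zetaQb p).pow_eq_one]

theorem smul_zetaUnitQ (τ : GQ) :
    τ • zetaUnitQ p = zetaUnitQ p ^ ((cycloChar p τ : ZMod p)).val := by
  ext
  simp [cycloChar_spec p τ (isPrimitiveRoot_zetaQb p).pow_eq_one]

/-- The embedding `𝔽_p(1) → ℚ̄^×`, `a ↦ ζ ^ a`, as an additive map. -/
noncomputable def muEmbQ : ZMod p →+ Additive Qbˣ :=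
  ZMod.lift p ⟨zmultiplesHom _ (Additive.ofMul (zetaUnitQ p)), by
    simp [← ofMul_pow, zetaUnitQ_pow]⟩

theorem muEmbQ_intCast (n : ℤ) : muEmbQ p (n : ZMod p) = Additive.ofMul (zetaUnitQ p ^ n) := by
  rw [muEmbQ, ZMod.lift_coe]
  simp [ofMul_zpow]

theorem muEmbQ_natCast (n : ℕ) : muEmbQ p (n : ZMod p) = Additive.ofMul (zetaUnitQ p ^ n) := by
  rw [← Int.cast_natCast, muEmbQ_intCast, zpow_natCast]

theorem muEmbQ_apply (a : ZMod p) :
    muEmbQ p a = Additive.ofMul (zetaUnitQ p ^ a.val) := by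
  have hp : p.Prime := Fact.out
  have : NeZero p := ⟨hp.ne_zero⟩
  have h := muEmbQ_natCast p a.val
  rwa [ZMod.natCast_zmod_val] at h

theorem muEmbQ_injective : Function.Injective (muEmbQ p) := by
  have hp : p.Prime := Fact.out
  have : NeZero p := ⟨hp.ne_zero⟩
  rw [injective_iff_map_eq_zero]
  intro a ha
  rw [muEmbQ_apply] at ha
  have h1 : zetaQb p ^ a.val = 1 := by
    have := congrArg (fun u : Additive Qbˣ => ((Additive.toMul u : Qbˣ) : Qb)) ha
    simpa using this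
  have h2 : p ∣ a.val := (isPrimitiveRoot_zetaQb p).dvd_of_pow_eq_one _ h1
  have h3 : a.val = 0 := Nat.eq_zero_of_dvd_of_lt h2 (ZMod.val_lt a)
  exact (ZMod.val_eq_zero a).1 h3

/-- Equivariance: the action on `ℚ̄^×` corresponds to the twist by the cyclotomic character. -/
theorem muEmbQ_equivariant (τ : GQ) (a : ZMod p) :
    unitsQ.ρ τ (muEmbQ p a) = muEmbQ p ((muQ p).ρ τ a) := by
  have hp : p.Prime := Fact.out
  have : NeZero p := ⟨hp.ne_zero⟩
  have hact : (muQ p).ρ τ a = (cycloChar p τ : ZMod p) * a := rfl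
  rw [hact]
  have h1 : ((cycloChar p τ : ZMod p) * a) =
      (((cycloChar p τ : ZMod p).val * a.val : ℕ) : ZMod p) := by
    rw [Nat.cast_mul, ZMod.natCast_zmod_val, ZMod.natCast_zmod_val]
  rw [h1, muEmbQ_natCast, muEmbQ_apply]
  change Additive.ofMul (τ • (zetaUnitQ p ^ a.val)) = _
  rw [smul_pow', smul_zetaUnitQ, ← pow_mul]

/-- The range of `muEmbQ` is the `p`-torsion of `ℚ̄^×`. -/
theorem mem_range_muEmbQ_iff (u : Additive Qbˣ) :
    u ∈ Set.range (muEmbQ p) ↔ p • u = 0 := by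
  have hp : p.Prime := Fact.out
  have : NeZero p := ⟨hp.ne_zero⟩
  constructor
  · rintro ⟨a, rfl⟩
    rw [← map_nsmul]
    simp
  · intro h
    have h1 : ((Additive.toMul u : Qbˣ) : Qb) ^ p = 1 := by
      have := congrArg (fun u : Additive Qbˣ => ((Additive.toMul u : Qbˣ) : Qb)) h
      simpa using this
    obtain ⟨i, _, hi⟩ := (isPrimitiveRoot_zetaQb p).eq_pow_of_pow_eq_one h1
    refine ⟨(i : ZMod p), ?_⟩
    rw [muEmbQ_natCast]
    change Additive.ofMul (zetaUnitQ p ^ i) = Additive.ofMul (Additive.toMul u)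
    apply congrArg Additive.ofMul
    apply Units.ext
    rw [Units.val_pow_eq_pow_val, coe_zetaUnitQ, hi]

/-- `ℚ̄^×` is `n`-divisible for every `n ≠ 0`. -/
theorem exists_nsmul_eq_unitsQ {n : ℕ} (hn : n ≠ 0) (u : Additive Qbˣ) :
    ∃ v : Additive Qbˣ, n • v = u := by
  obtain ⟨z, hz⟩ := IsAlgClosed.exists_pow_nat_eq ((Additive.toMul u : Qbˣ) : Qb)
    (Nat.pos_of_ne_zero hn)
  have hz0 : z ≠ 0 := by
    rintro rfl
    rw [zero_pow hn] at hz
    exact (Additive.toMul u).ne_zero hz.symm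
  refine ⟨Additive.ofMul (Units.mk0 z hz0), ?_⟩
  rw [← ofMul_pow]
  change Additive.ofMul (Units.mk0 z hz0 ^ n) = Additive.ofMul (Additive.toMul u)
  apply congrArg Additive.ofMul
  apply Units.ext
  rw [Units.val_pow_eq_pow_val, Units.val_mk0, hz]

/-- `muEmbQ` as an additive map between the underlying modules of `muQ` and `unitsQ`. -/
noncomputable def muHomQ : (muQ p) →+ unitsQ := muEmbQ p

@[simp] lemma muHomQ_apply (a : muQ p) : muHomQ p a = muEmbQ p a := rfl

/-- `muHomQ` is a Kummer datum. -/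
theorem isKummer_muHomQ : IsKummer (T := muQ p) (A := unitsQ) (muHomQ p) p := by
  have hp : p.Prime := Fact.out
  refine ⟨muEmbQ_injective p, fun g t => (muEmbQ_equivariant p g t).symm, fun a => ?_,
    fun a => ?_⟩
  · exact ((mem_range_muEmbQ_iff p a).symm.trans Set.mem_range)
  · exact exists_nsmul_eq_unitsQ hp.ne_zero a

/-- The Kummer datum restricted to a subgroup. -/
theorem isKummer_muHomQ_res (H : Subgroup GQ) :
    IsKummer (T := Rep.res H.subtype (muQ p)) (A := Rep.res H.subtype unitsQ) (muHomQ p) p := by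
  have hK := isKummer_muHomQ p
  exact ⟨hK.inj, fun g t => hK.equivariant (g : GQ) t, hK.range, hK.div⟩

variable (H : Subgroup GQ)

/-- **Kummer injectivity** (Prelude form): a `μ_p`-valued 2-cochain of `H` which becomes a
level-constant coboundary in `ℚ̄^×` is a level-constant coboundary in `μ_p`. -/
theorem kummer_injective_glob (t : ↥H × ↥H → muQ p)
    (h : (fun x => muHomQ p (t x)) ∈
      levelCoboundaries₂ H.subtype (Rep.res H.subtype unitsQ)) :
    t ∈ levelCoboundaries₂ H.subtype (Rep.res H.subtype (muQ p)) := by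
  rw [mem_levelCoboundaries₂_iff_isCob] at h ⊢
  obtain ⟨x, hx, hd⟩ := h
  obtain ⟨y, hy, hdy⟩ := kummer_injective (basisOf H.subtype) (smooth_unitsQ H)
    (isKummer_muHomQ_res p H) (h90_global H) (c := t) hx hd
  exact ⟨y, hy, hdy⟩

/-- **Kummer surjectivity onto the `p`-torsion** (Prelude form). -/
theorem kummer_surjective_glob (f : ↥H × ↥H → unitsQ)
    (hf : f ∈ levelCocycles₂ H.subtype (Rep.res H.subtype unitsQ))
    (hpf : p • f ∈ levelCoboundaries₂ H.subtype (Rep.res H.subtype unitsQ)) :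
    ∃ t : ↥H × ↥H → muQ p, t ∈ levelCocycles₂ H.subtype (Rep.res H.subtype (muQ p)) ∧
      ((fun x => muHomQ p (t x)) - f) ∈
        levelCoboundaries₂ H.subtype (Rep.res H.subtype unitsQ) := by
  rw [mem_levelCocycles₂_iff_isCoc₂] at hf
  rw [mem_levelCoboundaries₂_iff_isCob] at hpf
  obtain ⟨x, hx, hd⟩ := hpf
  obtain ⟨c, hc, hcc, z, hz, hdz⟩ := kummer_surjective (basisOf H.subtype) (smooth_unitsQ H)
    (isKummer_muHomQ_res p H) hf.2 hf.1 hx hd
  refine ⟨c, ?_, ?_⟩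
  · rw [mem_levelCocycles₂_iff_isCoc₂]
    exact ⟨hcc, hc⟩
  · rw [mem_levelCoboundaries₂_iff_isCob]
    exact ⟨z, hz, hdz⟩

end Mu

section Level

variable (H : Subgroup GQ)

/-- A level-constant 2-cocycle of `H` with values in `ℚ̄^×` lives at a finite level. -/
theorem exists_isLevel₂_glob {f : ↥H × ↥H → unitsQ}
    (hf : IsLevelConstant₂ H.subtype f) (F₀ : IntermediateField ℚ Qb) [FiniteDimensional ℚ F₀]
    [Normal ℚ F₀] :
    ∃ F : IntermediateField ℚ Qb, FiniteDimensional ℚ F ∧ Normal ℚ F ∧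
      lev H.subtype F ≤ lev H.subtype F₀ ∧
      IsLevel₂ (Rep.res H.subtype unitsQ) (lev H.subtype F) f := by
  obtain ⟨_, ⟨F, hF, hFn, rfl⟩, hle, hl⟩ := (basisOf H.subtype).exists_isLevel₂ (smooth_unitsQ H)
    ((const₂_basisOf_iff H.subtype f).2 hf) (mem_basisOf_lev H.subtype F₀)
  exact ⟨F, hF, hFn, hle, hl⟩

/-- **Inflation is injective**: a 2-cochain of level `lev H.subtype F` which is a level-constant
coboundary of `H` with values in `ℚ̄^×` is a coboundary at that level. -/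
theorem isCobAt_of_mem_levelCoboundaries₂_glob (F : IntermediateField ℚ Qb)
    [FiniteDimensional ℚ F] [Normal ℚ F] {f : ↥H × ↥H → unitsQ}
    (hf : IsLevel₂ (Rep.res H.subtype unitsQ) (lev H.subtype F) f)
    (h : f ∈ levelCoboundaries₂ H.subtype (Rep.res H.subtype unitsQ)) :
    IsCobAt (Rep.res H.subtype unitsQ) (lev H.subtype F) f := by
  rw [mem_levelCoboundaries₂_iff_isCob] at h
  obtain ⟨x, hx, hd⟩ := h
  exact exists_isLevel₁_of_dOne_eq (basisOf H.subtype) (mem_basisOf_lev H.subtype F)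
    (h90On_global H _ (mem_basisOf_lev H.subtype F)) hf hx hd

end Level

end Fermat.Agent.CFT.Global.LCGlobal
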