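/-
PROGRAM CFT (helper187).  Herbrand groups of the permutation module `ℤ[X]` of an arbitrary
finite `G`-set `X` (`G` finite cyclic): `ker N = (s - 1) ℤ[X]` and
`[ℤ[X]^G : N ℤ[X]] = ∏_{orbits} |Stab|`.
-/
import Mathlib
import Fermat.Agent.Lib.Herbrand
import Fermat.Agent.Lib.HerbrandInduced
import Fermat.Agent.CFT.Global.FreePerm

set_option autoImplicit false

namespace Fermat.Agent.CFT.Global.PermHerbrand

open Fermat.Agent.Lib.Herbrand Fermat.Agent.CFT.Global.FreePerm

attribute [local instance] Finsupp.comapDistribMulAction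

variable {G : Type*} [Group G] [Fintype G] {X : Type*} [Fintype X] [MulAction G X]

set_option linter.unusedSectionVars false

/-- The number of `τ` fixing `w` (the order of the stabiliser). -/
noncomputable def kap (G : Type*) [Group G] [Fintype G] {X : Type*} [MulAction G X] (w : X) : ℕ := by
  classical exact (Finset.univ.filter (fun τ : G => τ • w = w)).card

omit [Fintype X] in
theorem kap_pos (w : X) : 0 < kap G w := by
  classical
  unfold kap
  exact Finset.card_pos.2 ⟨1, by simp⟩

omit [Fintype X] in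
theorem kap_eq_card_stabilizer (w : X) : kap G w = Nat.card (MulAction.stabilizer G w) := by
  classical
  unfold kap
  rw [Nat.card_eq_fintype_card, Fintype.card_subtype]
  rfl

omit [Fintype X] in
theorem card_filter_smul (w : X) (ρ : G) [DecidableEq X] :
    (Finset.univ.filter (fun τ : G => τ • w = ρ • w)).card = kap G w := by
  classical
  unfold kap
  refine Finset.card_bij (fun τ _ => ρ⁻¹ * τ) ?_ ?_ ?_
  · intro τ hτ
    simp only [Finset.mem_filter, Finset.mem_univ, true_and] at hτ ⊢
    rw [mul_smul, hτ, inv_smul_smul]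
  · intro a _ b _ h
    exact mul_left_cancel h
  · intro b hb
    simp only [Finset.mem_filter, Finset.mem_univ, true_and] at hb
    refine ⟨ρ * b, ?_, by simp⟩
    simp only [Finset.mem_filter, Finset.mem_univ, true_and]
    rw [mul_smul, hb]

omit [Fintype X] in
theorem kap_smul (ρ : G) (w : X) : kap G (ρ • w) = kap G w := by
  classical
  unfold kap
  refine Finset.card_bij (fun τ _ => ρ⁻¹ * τ * ρ) ?_ ?_ ?_
  · intro τ hτ
    simp only [Finset.mem_filter, Finset.mem_univ, true_and] at hτ ⊢
    rw [mul_smul, mul_smul, hτ, inv_smul_smul]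
  · intro a _ b _ h
    exact mul_left_cancel (mul_right_cancel h)
  · intro b hb
    simp only [Finset.mem_filter, Finset.mem_univ, true_and] at hb
    refine ⟨ρ * b * ρ⁻¹, ?_, by group⟩
    simp only [Finset.mem_filter, Finset.mem_univ, true_and]
    rw [mul_smul, mul_smul, inv_smul_smul, hb]

omit [Fintype X] in
theorem kap_rep (w : X) : kap G (rep G w) = kap G w := by
  obtain ⟨τ, hτ⟩ := exists_smul_rep G w
  conv_rhs => rw [← hτ, kap_smul]

omit [Fintype X] in
theorem rep_eq_iff (w w' : X) : rep G w' = rep G w ↔ ∃ ρ : G, ρ • w = w' := by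
  constructor
  · intro h
    obtain ⟨τ, hτ⟩ := exists_smul_rep G w
    obtain ⟨τ', hτ'⟩ := exists_smul_rep G w'
    refine ⟨τ' * τ⁻¹, ?_⟩
    rw [mul_smul, ← hτ', h]
    congr 1
    rw [inv_smul_eq_iff, hτ]
  · rintro ⟨ρ, rfl⟩
    exact rep_smul G ρ w

/-- The norm of a basis vector: `|Stab w|` times the indicator of the orbit of `w`. -/
theorem normHom_single_apply [DecidableEq X] (w w' : X) :
    (normHom G (X →₀ ℤ) (Finsupp.single w 1)) w' =
      if rep G w' = rep G w then (kap G w : ℤ) else 0 := by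
  classical
  rw [Fermat.Agent.Lib.Herbrand.normHom_apply, Finsupp.finsetSum_apply]
  simp only [Finsupp.comapSMul_single, Finsupp.single_apply]
  rw [Finset.sum_boole]
  split_ifs with h
  · obtain ⟨ρ, rfl⟩ := (rep_eq_iff w w').1 h
    rw [card_filter_smul w ρ]
  · have : (Finset.univ.filter (fun τ : G => τ • w = w')) = ∅ := by
      rw [Finset.filter_eq_empty_iff]
      intro τ _ hτ
      exact h ((rep_eq_iff w w').2 ⟨τ, hτ⟩)
    rw [this]
    simp

/-- `ker N = (s - 1) ℤ[X]`. -/
theorem hq_norm_sub_perm {s : G} (hs : ∀ τ : G, τ ∈ Subgroup.zpowers s) :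
    hq (normHom G (X →₀ ℤ)) (subOneHom (X →₀ ℤ) s) = 1 := by
  classical
  rw [hq, AddSubgroup.relIndex_eq_one]
  intro φ hφ
  rw [AddMonoidHom.mem_ker] at hφ
  -- decomposition `φ = χ + ψ`
  set ψ : X →₀ ℤ := ∑ w, φ w • Finsupp.single (rep G w) (1 : ℤ) with hψ
  set χ : X →₀ ℤ := ∑ w, φ w • (Finsupp.single w (1 : ℤ) - Finsupp.single (rep G w) (1 : ℤ)) with hχ
  have hdec : φ = χ + ψ := by
    rw [hχ, hψ, ← Finset.sum_add_distrib]
    conv_lhs => rw [← Finsupp.univ_sum_single φ]
    refine Finset.sum_congr rfl (fun w _ => ?_)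
    rw [← smul_add, sub_add_cancel, Finsupp.smul_single, smul_eq_mul, mul_one]
  have hχr : χ ∈ (subOneHom (X →₀ ℤ) s).range := by
    rw [hχ]
    refine sum_mem (fun w _ => ?_)
    refine AddSubgroup.zsmul_mem _ ?_ _
    obtain ⟨τ, hτ⟩ := exists_smul_rep G w
    have := smul_sub_mem_range_subOneHom hs τ (Finsupp.single (rep G w) (1 : ℤ))
    rwa [Finsupp.comapSMul_single, hτ] at this
  have hNχ : normHom G (X →₀ ℤ) χ = 0 := by
    obtain ⟨y, hy⟩ := hχr
    rw [← hy]
    exact DFunLike.congr_fun (normHom_comp_subOneHom (A := X →₀ ℤ) s) y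
  have hNψ : normHom G (X →₀ ℤ) ψ = 0 := by
    have : normHom G (X →₀ ℤ) φ = normHom G (X →₀ ℤ) χ + normHom G (X →₀ ℤ) ψ := by
      rw [hdec, map_add]
    rw [hφ, hNχ, zero_add] at this
    exact this.symm
  have hψ0 : ψ = 0 := by
    ext r
    have hψr : ψ r = ∑ w, φ w * (if rep G w = r then 1 else 0) := by
      rw [hψ, Finsupp.finsetSum_apply]
      refine Finset.sum_congr rfl (fun w _ => ?_)
      rw [Finsupp.smul_apply, Finsupp.single_apply, smul_eq_mul]
    by_cases hr : rep G r = r
    · have hN : (normHom G (X →₀ ℤ) ψ) r = (kap G r : ℤ) * ψ r := by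
        rw [hψ, map_sum, Finsupp.finsetSum_apply, ← hψ, hψr, Finset.mul_sum]
        refine Finset.sum_congr rfl (fun w _ => ?_)
        rw [map_zsmul, Finsupp.smul_apply, normHom_single_apply, rep_rep, smul_eq_mul]
        by_cases hw : rep G w = r
        · rw [if_pos hw, if_pos (by rw [hr, hw]), kap_rep, ← hw, kap_rep]
          ring
        · rw [if_neg hw, if_neg (by rw [hr]; exact fun h => hw h.symm)]
          ring
      rw [hNψ] at hN
      have hk : (kap G r : ℤ) ≠ 0 := by exact_mod_cast (kap_pos r).ne'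
      have := hN.symm
      rcases mul_eq_zero.1 this with h | h
      · exact absurd h hk
      · simpa using h
    · rw [hψr]
      simp only [Finsupp.coe_zero, Pi.zero_apply]
      refine Finset.sum_eq_zero (fun w _ => ?_)
      rw [if_neg, mul_zero]
      intro hw
      apply hr
      rw [← hw, rep_rep]
  rw [hdec, hψ0, add_zero]
  exact hχr

/-- Functions on the orbit space, as orbit-constant elements of `ℤ[X]`. -/
noncomputable def iota (G : Type*) [Group G] (X : Type*) [Fintype X] [MulAction G X] :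
    (MulAction.orbitRel.Quotient G X → ℤ) →+ (X →₀ ℤ) where
  toFun f := Finsupp.equivFunOnFinite.symm (fun w => f (Quotient.mk (MulAction.orbitRel G X) w))
  map_zero' := by ext; simp
  map_add' f g := by ext; simp

@[simp] theorem iota_apply (f : MulAction.orbitRel.Quotient G X → ℤ) (w : X) :
    iota G X f w = f (Quotient.mk (MulAction.orbitRel G X) w) := by
  simp [iota]

theorem iota_injective : Function.Injective (iota G X) := by
  rw [injective_iff_map_eq_zero]
  intro f hf
  funext O
  have := DFunLike.congr_fun hf O.out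
  rw [iota_apply, Quotient.out_eq] at this
  simpa using this

theorem mk_eq_mk_iff (w w' : X) :
    (Quotient.mk (MulAction.orbitRel G X) w' = Quotient.mk (MulAction.orbitRel G X) w) ↔
      rep G w' = rep G w := by
  constructor
  · intro h
    unfold rep
    rw [h]
  · intro h
    obtain ⟨ρ, rfl⟩ := (rep_eq_iff w w').1 h
    apply Quotient.sound
    show (MulAction.orbitRel G X).r (ρ • w) w
    rw [MulAction.orbitRel_apply]
    exact ⟨ρ, rfl⟩

theorem range_iota {s : G} (hs : ∀ τ : G, τ ∈ Subgroup.zpowers s) :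
    (iota G X).range = (subOneHom (X →₀ ℤ) s).ker := by
  ext φ
  rw [mem_ker_subOneHom_iff hs]
  constructor
  · rintro ⟨f, rfl⟩ τ
    ext w
    rw [Finsupp.comapSMul_apply, iota_apply, iota_apply]
    congr 1
    rw [mk_eq_mk_iff]
    exact rep_smul G τ⁻¹ w
  · intro h
    refine ⟨fun O => φ O.out, ?_⟩
    ext w
    rw [iota_apply]
    obtain ⟨τ, hτ⟩ := exists_smul_rep G w
    have h1 := DFunLike.congr_fun (h τ⁻¹) (rep G w)
    rw [Finsupp.comapSMul_apply, inv_inv, hτ] at h1
    exact h1.symm

theorem normHom_single_eq_iota [DecidableEq (MulAction.orbitRel.Quotient G X)] (w : X) :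
    normHom G (X →₀ ℤ) (Finsupp.single w 1) =
      iota G X (Pi.single (Quotient.mk (MulAction.orbitRel G X) w) (kap G w : ℤ)) := by
  classical
  ext w'
  rw [normHom_single_apply, iota_apply, Pi.single_apply]
  simp only [mk_eq_mk_iff]

/-- `[ℤ[X]^G : N ℤ[X]] = ∏_{orbits} |Stab|`. -/
theorem hq_sub_norm_perm [Fintype (MulAction.orbitRel.Quotient G X)] {s : G}
    (hs : ∀ τ : G, τ ∈ Subgroup.zpowers s) :
    hq (subOneHom (X →₀ ℤ) s) (normHom G (X →₀ ℤ)) =
      ∏ O : MulAction.orbitRel.Quotient G X, kap G O.out := by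
  classical
  set R : AddSubgroup (MulAction.orbitRel.Quotient G X → ℤ) :=
    AddSubgroup.pi Set.univ (fun O => AddSubgroup.zmultiples (kap G O.out : ℤ)) with hR
  have hrange : (normHom G (X →₀ ℤ)).range = R.map (iota G X) := by
    apply le_antisymm
    · rintro _ ⟨φ, rfl⟩
      rw [← Finsupp.univ_sum_single φ, map_sum]
      refine sum_mem (fun w _ => ?_)
      have e : Finsupp.single w (φ w) = φ w • Finsupp.single w (1 : ℤ) := by
        rw [Finsupp.smul_single, smul_eq_mul, mul_one]
      rw [e, map_zsmul]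
      refine AddSubgroup.zsmul_mem _ ?_ _
      rw [normHom_single_eq_iota]
      refine AddSubgroup.mem_map_of_mem _ ?_
      rw [hR, AddSubgroup.mem_pi]
      intro O' _
      rw [Pi.single_apply]
      split_ifs with h
      · rw [h]
        have : kap G w = kap G (Quotient.mk (MulAction.orbitRel G X) w).out := (kap_rep w).symm
        rw [this]
        exact AddSubgroup.mem_zmultiples _
      · exact AddSubgroup.zero_mem _
    · rintro _ ⟨f, hf, rfl⟩
      have hf2 : f ∈ AddSubgroup.pi Set.univ
          (fun O : MulAction.orbitRel.Quotient G X => AddSubgroup.zmultiples (kap G O.out : ℤ)) := hf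
      rw [AddSubgroup.mem_pi] at hf2
      have hf' : ∀ O, ∃ m : ℤ, m • (kap G O.out : ℤ) = f O := fun O =>
        AddSubgroup.mem_zmultiples_iff.1 (hf2 O (Set.mem_univ O))
      choose m hm using hf'
      refine ⟨∑ O, m O • Finsupp.single O.out (1 : ℤ), ?_⟩
      rw [map_sum]
      have e1 : f = ∑ O, m O • Pi.single O (kap G O.out : ℤ) := by
        funext O'
        rw [Finset.sum_apply, Finset.sum_eq_single O']
        · rw [Pi.smul_apply, Pi.single_eq_same, hm]
        · intro b _ hb
          rw [Pi.smul_apply, Pi.single_eq_of_ne (Ne.symm hb), smul_zero]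
        · intro h
          exact absurd (Finset.mem_univ _) h
      conv_rhs => rw [e1, map_sum]
      refine Finset.sum_congr rfl (fun O _ => ?_)
      rw [map_zsmul, map_zsmul, normHom_single_eq_iota, Quotient.out_eq]
  rw [hq, hrange, ← range_iota hs, AddMonoidHom.range_eq_map,
    AddSubgroup.relIndex_map_map_of_injective _ _ iota_injective, AddSubgroup.relIndex_top_right,
    hR, AddSubgroup.index_pi]
  refine Finset.prod_congr rfl (fun O _ => ?_)
  rw [Int.index_zmultiples, Int.natAbs_natCast]

/-- Both Herbrand groups of a permutation module are finite, with quotient `∏ |Stab|`. -/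
theorem herbrandCyc_perm [Fintype (MulAction.orbitRel.Quotient G X)] {s : G}
    (hs : ∀ τ : G, τ ∈ Subgroup.zpowers s) :
    DefinedCyc (X →₀ ℤ) s ∧
      herbrandCyc (X →₀ ℤ) s = ((∏ O : MulAction.orbitRel.Quotient G X, kap G O.out : ℕ) : ℚ) := by
  have h1 := hq_sub_norm_perm (X := X) hs
  have h2 := hq_norm_sub_perm (X := X) hs
  have hpos : (∏ O : MulAction.orbitRel.Quotient G X, kap G O.out) ≠ 0 :=
    Finset.prod_ne_zero_iff.2 (fun O _ => (kap_pos O.out).ne')
  refine ⟨⟨by rw [h1]; exact hpos, by rw [h2]; exact one_ne_zero⟩, ?_⟩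
  rw [herbrandCyc, herbrand, h1, h2]
  simp

section Divisor

variable {U : Type*} [AddCommGroup U] [DistribMulAction G U]

theorem subOneHom_mem_ker (d : U →+ (X →₀ ℤ)) (hd : ∀ (τ : G) (u : U), d (τ • u) = τ • d u)
    (s : G) : ∀ a ∈ d.ker, subOneHom U s a ∈ d.ker := by
  intro a ha
  rw [AddMonoidHom.mem_ker] at ha ⊢
  rw [map_subOneHom d hd, ha, map_zero]

theorem normHom_mem_ker (d : U →+ (X →₀ ℤ)) (hd : ∀ (τ : G) (u : U), d (τ • u) = τ • d u) :
    ∀ a ∈ d.ker, normHom G U a ∈ d.ker := by
  intro a ha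
  rw [AddMonoidHom.mem_ker] at ha ⊢
  rw [map_normHom d hd, ha, map_zero]

/-- **Divisor lemma.** If `d : U → ℤ[X]` is equivariant with finite-index range, the Herbrand
quotient of `U` is that of `ker d` times `∏_{orbits} |Stab|`. -/
theorem herbrandCyc_of_divisor [Fintype (MulAction.orbitRel.Quotient G X)] {s : G}
    (hs : ∀ τ : G, τ ∈ Subgroup.zpowers s)
    (d : U →+ (X →₀ ℤ)) (hd : ∀ (τ : G) (u : U), d (τ • u) = τ • d u) [hfi : d.range.FiniteIndex]
    (hker : Defined (resHom (subOneHom U s) d.ker (subOneHom_mem_ker d hd s))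
      (resHom (normHom G U) d.ker (normHom_mem_ker d hd))) :
    DefinedCyc U s ∧
      herbrandCyc U s =
        herbrand (resHom (subOneHom U s) d.ker (subOneHom_mem_ker d hd s))
          (resHom (normHom G U) d.ker (normHom_mem_ker d hd)) *
        ((∏ O : MulAction.orbitRel.Quotient G X, kap G O.out : ℕ) : ℚ) := by
  have hfg := subOneHom_comp_normHom (A := U) s
  have hgf := normHom_comp_subOneHom (A := U) s
  have hfg' := subOneHom_comp_normHom (A := X →₀ ℤ) s
  have hgf' := normHom_comp_subOneHom (A := X →₀ ℤ) s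
  set fq := quotHom (subOneHom U s) d.ker (subOneHom_mem_ker d hd s) with hfq
  set gq := quotHom (normHom G U) d.ker (normHom_mem_ker d hd) with hgq
  have hfgq : fq.comp gq = 0 := by
    ext u
    simp only [AddMonoidHom.coe_comp, Function.comp_apply, QuotientAddGroup.coe_mk',
      AddMonoidHom.zero_comp, AddMonoidHom.zero_apply, hfq, hgq, quotHom_mk]
    rw [show subOneHom U s (normHom G U u) = 0 from DFunLike.congr_fun hfg u]
    rfl
  have hgfq : gq.comp fq = 0 := by
    ext u
    simp only [AddMonoidHom.coe_comp, Function.comp_apply, QuotientAddGroup.coe_mk',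
      AddMonoidHom.zero_comp, AddMonoidHom.zero_apply, hfq, hgq, quotHom_mk]
    rw [show normHom G U (subOneHom U s u) = 0 from DFunLike.congr_fun hgf u]
    rfl
  set φ : U ⧸ d.ker →+ (X →₀ ℤ) := QuotientAddGroup.kerLift d with hφ
  have hφinj : Function.Injective φ := QuotientAddGroup.kerLift_injective d
  have hφr : φ.range = d.range := by
    ext x
    constructor
    · rintro ⟨y, rfl⟩
      obtain ⟨u, rfl⟩ := QuotientAddGroup.mk_surjective y
      exact ⟨u, rfl⟩
    · rintro ⟨u, rfl⟩
      exact ⟨QuotientAddGroup.mk u, rfl⟩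
  have : φ.range.FiniteIndex := by rw [hφr]; exact hfi
  have : Finite φ.ker := by
    rw [(AddMonoidHom.ker_eq_bot_iff φ).2 hφinj]
    infer_instance
  have hφf : ∀ x, φ (fq x) = subOneHom (X →₀ ℤ) s (φ x) := by
    intro x
    obtain ⟨u, rfl⟩ := QuotientAddGroup.mk_surjective x
    exact map_subOneHom d hd s u
  have hφg : ∀ x, φ (gq x) = normHom G (X →₀ ℤ) (φ x) := by
    intro x
    obtain ⟨u, rfl⟩ := QuotientAddGroup.mk_surjective x
    exact map_normHom d hd u
  obtain ⟨hiff, heq⟩ := herbrand_eq_of_finite_ker_coker φ hfgq hgfq hfg' hgf' hφf hφg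
  obtain ⟨hpd, hpq⟩ := herbrandCyc_perm (X := X) hs
  have hqdef : Defined fq gq := hiff.2 hpd
  refine ⟨Defined.of_res_quot hfg hgf hker hqdef, ?_⟩
  rw [herbrandCyc, herbrand_eq_mul hfg hgf hker, heq]
  congr 1

end Divisor

end Fermat.Agent.CFT.Global.PermHerbrand
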