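/-
PROGRAM CFT (helper187).  Herbrand quotient of the global unit group of a cyclic extension
`L/K` of number fields in which no infinite place ramifies:  `h((𝓞 L)ˣ) = 1 / [L : K]`.

Proof without the lattice lemma: the infinite places `P` of `L` form a free `G`-set; Mathlib's
`dirichletUnitTheorem.exists_unit` gives units negative (in log) away from one place, made
`G`-equivariant by averaging; `e_w ↦ (u_w ^ m, 1)` embeds `ℤ[P]` into `E × ℤ` (strict diagonal
dominance), and `FreePerm.hq_of_perm_embedding` concludes.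
-/
import Mathlib
import Fermat.Agent.Lib.Herbrand
import Fermat.Agent.Lib.HerbrandInduced
import Fermat.Agent.CFT.Global.FreePerm

set_option autoImplicit false

namespace Fermat.Agent.CFT.Global.UnitsHerbrand

open NumberField NumberField.InfinitePlace Fermat.Agent.Lib.Herbrand
  Fermat.Agent.CFT.Global.FreePerm

attribute [local instance] Finsupp.comapDistribMulAction

variable (K L : Type*) [Field K] [Field L] [NumberField L] [Algebra K L]

set_option linter.unusedSectionVars false

/-- The action of `τ ∈ Gal(L/K)` on the units of `𝓞 L`. -/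
noncomputable def galU (τ : L ≃ₐ[K] L) : (𝓞 L)ˣ →* (𝓞 L)ˣ :=
  Units.map ((RingOfIntegers.mapRingEquiv (τ : L ≃+* L) : 𝓞 L ≃+* 𝓞 L) : 𝓞 L →* 𝓞 L)

@[simp] theorem coe_galU (τ : L ≃ₐ[K] L) (u : (𝓞 L)ˣ) :
    ((galU K L τ u : (𝓞 L)ˣ) : L) = τ (u : L) := rfl

theorem galU_one (u : (𝓞 L)ˣ) : galU K L 1 u = u := by
  apply NumberField.Units.coe_injective
  simp

theorem galU_mul (τ ρ : L ≃ₐ[K] L) (u : (𝓞 L)ˣ) :
    galU K L (τ * ρ) u = galU K L τ (galU K L ρ u) := by
  apply NumberField.Units.coe_injective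
  simp

/-- The Galois action on the additive group of units. -/
@[reducible] noncomputable def galAct : DistribMulAction (L ≃ₐ[K] L) (Additive (𝓞 L)ˣ) where
  smul τ a := Additive.ofMul (galU K L τ a.toMul)
  one_smul a := by
    show Additive.ofMul (galU K L 1 a.toMul) = a
    rw [galU_one]; rfl
  mul_smul τ ρ a := by
    show Additive.ofMul (galU K L (τ * ρ) a.toMul) = Additive.ofMul (galU K L τ (galU K L ρ a.toMul))
    rw [galU_mul]
  smul_zero τ := by
    show Additive.ofMul (galU K L τ 1) = 0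
    rw [map_one]; rfl
  smul_add τ a b := by
    show Additive.ofMul (galU K L τ (a.toMul * b.toMul)) = _
    rw [map_mul]; rfl

variable {L} in
/-- `log |·|_w` as an additive map on units. -/
noncomputable def logAt (w : InfinitePlace L) : Additive (𝓞 L)ˣ →+ ℝ where
  toFun a := Real.log (w ((a.toMul : (𝓞 L)ˣ) : L))
  map_zero' := by simp
  map_add' a b := by
    show Real.log (w (((a.toMul * b.toMul : (𝓞 L)ˣ)) : L)) = _
    rw [Units.val_mul, map_mul, map_mul,
      Real.log_mul (ne_of_gt (Units.pos_at_place _ _)) (ne_of_gt (Units.pos_at_place _ _))]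

variable {L} in
@[simp] theorem logAt_ofMul (w : InfinitePlace L) (u : (𝓞 L)ˣ) :
    logAt w (Additive.ofMul u) = Real.log (w (u : L)) := rfl

variable {K L} in
theorem place_galU (w : InfinitePlace L) (τ : L ≃ₐ[K] L) (u : (𝓞 L)ˣ) :
    w ((galU K L τ u : (𝓞 L)ˣ) : L) = (τ⁻¹ • w) (u : L) := by
  rw [coe_galU, InfinitePlace.smul_apply]
  rfl

section Units

variable [FiniteDimensional K L]

/-- Units with negative logarithm at every place but one (Mathlib's Dirichlet construction). -/
noncomputable def v0 (w : InfinitePlace L) : (𝓞 L)ˣ :=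
  (NumberField.Units.dirichletUnitTheorem.exists_unit L w).choose

theorem v0_spec (w w' : InfinitePlace L) (h : w' ≠ w) : Real.log (w' (v0 L w : L)) < 0 :=
  (NumberField.Units.dirichletUnitTheorem.exists_unit L w).choose_spec w' h

/-- A `G`-equivariant family of such units. -/
noncomputable def uu (w : InfinitePlace L) : (𝓞 L)ˣ :=
  ∏ τ : L ≃ₐ[K] L, galU K L τ (v0 L (τ⁻¹ • w))

theorem uu_smul (ρ : L ≃ₐ[K] L) (w : InfinitePlace L) :
    uu K L (ρ • w) = galU K L ρ (uu K L w) := by
  unfold uu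
  rw [map_prod]
  refine Fintype.prod_equiv (Equiv.mulLeft ρ⁻¹) _ _ (fun τ => ?_)
  rw [← galU_mul]
  simp only [Equiv.coe_mulLeft, mul_inv_cancel_left, mul_inv_rev, inv_inv, mul_smul]

theorem log_uu_neg (w w' : InfinitePlace L) (h : w' ≠ w) :
    Real.log (w' (uu K L w : L)) < 0 := by
  have h1 : w' (uu K L w : L) = ∏ τ : L ≃ₐ[K] L, (τ⁻¹ • w') (v0 L (τ⁻¹ • w) : L) := by
    unfold uu
    rw [Units.coe_prod, map_prod, map_prod]
    exact Finset.prod_congr rfl (fun τ _ => place_galU w' τ _)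
  rw [h1, Real.log_prod (fun τ _ => ne_of_gt (Units.pos_at_place _ _))]
  refine Finset.sum_neg (fun τ _ => ?_) Finset.univ_nonempty
  apply v0_spec
  intro h2
  exact h (smul_left_cancel _ h2)

end Units

section Main

variable [FiniteDimensional K L]

attribute [local instance] galAct

/-- The equivariant map `ℤ[P] → E`, `e_w ↦ u_w ^ m`. -/
noncomputable def psi (m : ℕ) : (InfinitePlace L →₀ ℤ) →+ Additive (𝓞 L)ˣ :=
  Finsupp.liftAddHom (fun w => zmultiplesHom (Additive (𝓞 L)ˣ) (m • Additive.ofMul (uu K L w)))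

theorem psi_single (m : ℕ) (w : InfinitePlace L) (c : ℤ) :
    psi K L m (Finsupp.single w c) = c • (m • Additive.ofMul (uu K L w)) := by
  simp [psi]

theorem psi_smul (m : ℕ) (τ : L ≃ₐ[K] L) (φ : InfinitePlace L →₀ ℤ) :
    psi K L m (τ • φ) = τ • psi K L m φ := by
  induction φ using Finsupp.induction_linear with
  | zero => simp
  | add a b ha hb => rw [smul_add, map_add, map_add, ha, hb, smul_add]
  | single w c =>
    rw [Finsupp.comapSMul_single, psi_single, psi_single, uu_smul, smul_comm τ c, smul_comm τ m]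
    rfl

theorem logAt_psi (m : ℕ) (w' : InfinitePlace L) (φ : InfinitePlace L →₀ ℤ) :
    logAt w' (psi K L m φ) = ∑ w, (φ w : ℝ) * (m * Real.log (w' (uu K L w : L))) := by
  classical
  induction φ using Finsupp.induction_linear with
  | zero => simp
  | add a b ha hb =>
    rw [map_add, map_add, ha, hb, ← Finset.sum_add_distrib]
    refine Finset.sum_congr rfl (fun w _ => ?_)
    simp only [Finsupp.coe_add, Pi.add_apply, Int.cast_add]
    ring
  | single w c =>
    rw [psi_single, map_zsmul, map_nsmul, logAt_ofMul, Finset.sum_eq_single w]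
    · simp
    · intro b _ hb
      simp [hb.symm]
    · intro h
      exact absurd (Finset.mem_univ _) h

theorem deg_eq_sum (φ : InfinitePlace L →₀ ℤ) : deg (InfinitePlace L) φ = ∑ w, φ w := by
  classical
  induction φ using Finsupp.induction_linear with
  | zero => simp
  | add a b ha hb => rw [map_add, ha, hb, ← Finset.sum_add_distrib]; rfl
  | single w c =>
    rw [deg_single, Finset.sum_eq_single w]
    · simp
    · intro b _ hb
      simp [hb.symm]
    · intro h
      exact absurd (Finset.mem_univ _) h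

theorem exists_m : ∃ m : ℕ, ∀ w w' : InfinitePlace L, w' ≠ w →
    (m : ℝ) * Real.log (w' (uu K L w : L)) + 1 < 0 := by
  classical
  choose f hf using
    (fun p : InfinitePlace L × InfinitePlace L =>
      exists_nat_gt (1 / (-Real.log (p.2 (uu K L p.1 : L)))))
  refine ⟨∑ p, f p, fun w w' h => ?_⟩
  have hneg := log_uu_neg K L w w' h
  have h1 : (f (w, w') : ℝ) ≤ ((∑ p, f p : ℕ) : ℝ) := by
    exact_mod_cast Finset.single_le_sum (f := f) (fun _ _ => Nat.zero_le _) (Finset.mem_univ (w, w'))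
  have h2 := hf (w, w')
  simp only at h2
  have hpos : 0 < -Real.log (w' (uu K L w : L)) := by linarith
  rw [div_lt_iff₀ hpos] at h2
  nlinarith

theorem psi_injective_aux (m : ℕ)
    (hm : ∀ w w' : InfinitePlace L, w' ≠ w → (m : ℝ) * Real.log (w' (uu K L w : L)) + 1 < 0)
    (φ : InfinitePlace L →₀ ℤ) (h1 : psi K L m φ = 0) (h2 : deg (InfinitePlace L) φ = 0) :
    φ = 0 := by
  classical
  let M : Matrix (InfinitePlace L) (InfinitePlace L) ℝ :=
    fun w w' => (mult w' : ℝ) * (m * Real.log (w' (uu K L w : L)) + 1)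
  have hM : M.det ≠ 0 := by
    apply Matrix.det_ne_zero_of_sum_row_pos
    · intro i j hij
      have : (0 : ℝ) < (mult j : ℝ) := by exact_mod_cast mult_pos
      exact mul_neg_of_pos_of_neg this (hm i j (Ne.symm hij))
    · intro i
      have e1 : ∑ j, M i j = (m : ℝ) * ∑ j, (mult j : ℝ) * Real.log (j (uu K L i : L)) +
          ∑ j : InfinitePlace L, (mult j : ℝ) := by
        rw [Finset.mul_sum, ← Finset.sum_add_distrib]
        refine Finset.sum_congr rfl (fun j _ => ?_)
        simp only [M]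
        ring
      rw [e1, Units.sum_mult_mul_log, mul_zero, zero_add]
      refine Finset.sum_pos (fun j _ => ?_) Finset.univ_nonempty
      exact_mod_cast mult_pos
  have hv : Matrix.vecMul (fun w => (φ w : ℝ)) M = 0 := by
    funext w'
    simp only [Matrix.vecMul, dotProduct, Pi.zero_apply, M]
    have e2 : ∑ w, (φ w : ℝ) * ((mult w' : ℝ) * (m * Real.log (w' (uu K L w : L)) + 1)) =
        (mult w' : ℝ) * (∑ w, (φ w : ℝ) * (m * Real.log (w' (uu K L w : L))) + ∑ w, (φ w : ℝ)) := by
      rw [← Finset.sum_add_distrib, Finset.mul_sum]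
      refine Finset.sum_congr rfl (fun w _ => ?_)
      ring
    rw [e2, ← logAt_psi, h1, map_zero, zero_add]
    have e3 : (∑ w, (φ w : ℝ)) = ((deg (InfinitePlace L) φ : ℤ) : ℝ) := by
      rw [deg_eq_sum]; push_cast; rfl
    rw [e3, h2]
    simp
  have h0 := Matrix.eq_zero_of_vecMul_eq_zero hM hv
  ext w
  have := congrFun h0 w
  simpa using this

/-- **Herbrand quotient of the global units** of a cyclic extension with no ramified infinite
place: both Herbrand groups are finite and `h((𝓞 L)ˣ) = 1 / |Gal(L/K)|`.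
(The `Gal(L/K)`-action on `Additive (𝓞 L)ˣ` is `galAct K L`.) -/
theorem herbrandCyc_units [IsGalois K L] {s : L ≃ₐ[K] L}
    (hs : ∀ τ : L ≃ₐ[K] L, τ ∈ Subgroup.zpowers s)
    (hunr : ∀ w : InfinitePlace L, w.IsUnramified K) :
    DefinedCyc (Additive (𝓞 L)ˣ) s ∧
      herbrandCyc (Additive (𝓞 L)ˣ) s = 1 / (Fintype.card (L ≃ₐ[K] L) : ℚ) := by
  obtain ⟨m, hm⟩ := exists_m K L
  refine herbrandCyc_of_perm_embedding (P := InfinitePlace L) hs ?_ (psi K L m) (psi_smul K L m)
    (psi_injective_aux K L m hm) ?_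
  · intro τ w hτ
    have h1 := (isUnramified_iff_stabilizer_eq_bot (k := K) (w := w)).1 (hunr w)
    have h2 : τ ∈ MulAction.stabilizer (L ≃ₐ[K] L) w := hτ
    rw [h1] at h2
    exact Subgroup.mem_bot.1 h2
  · rw [NumberField.Units.finrank_eq, NumberField.Units.rank]
    have : 0 < Fintype.card (InfinitePlace L) := Fintype.card_pos
    omega

/-- The same with `[L : K]`. -/
theorem herbrandCyc_units_finrank [IsGalois K L] {s : L ≃ₐ[K] L}
    (hs : ∀ τ : L ≃ₐ[K] L, τ ∈ Subgroup.zpowers s)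
    (hunr : ∀ w : InfinitePlace L, w.IsUnramified K) :
    herbrandCyc (Additive (𝓞 L)ˣ) s = 1 / (Module.finrank K L : ℚ) := by
  rw [(herbrandCyc_units K L hs hunr).2, ← IsGalois.card_aut_eq_finrank K L,
    Nat.card_eq_fintype_card]

/-- Raw index form: `[E^G : N E] * |G| = [ker N : (s - 1) E]`, both indices nonzero
(`hq f g = [ker f : range g]`). -/
theorem hq_units [IsGalois K L] {s : L ≃ₐ[K] L}
    (hs : ∀ τ : L ≃ₐ[K] L, τ ∈ Subgroup.zpowers s)
    (hunr : ∀ w : InfinitePlace L, w.IsUnramified K) :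
    hq (subOneHom (Additive (𝓞 L)ˣ) s) (normHom (L ≃ₐ[K] L) (Additive (𝓞 L)ˣ)) ≠ 0 ∧
    hq (normHom (L ≃ₐ[K] L) (Additive (𝓞 L)ˣ)) (subOneHom (Additive (𝓞 L)ˣ) s) ≠ 0 ∧
    hq (subOneHom (Additive (𝓞 L)ˣ) s) (normHom (L ≃ₐ[K] L) (Additive (𝓞 L)ˣ)) *
        Fintype.card (L ≃ₐ[K] L) =
      hq (normHom (L ≃ₐ[K] L) (Additive (𝓞 L)ˣ)) (subOneHom (Additive (𝓞 L)ˣ) s) := by
  obtain ⟨⟨h1, h2⟩, h3⟩ := herbrandCyc_units K L hs hunr
  refine ⟨h1, h2, ?_⟩
  have hn : (Fintype.card (L ≃ₐ[K] L) : ℚ) ≠ 0 := Nat.cast_ne_zero.2 Fintype.card_ne_zero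
  have h2' : (hq (normHom (L ≃ₐ[K] L) (Additive (𝓞 L)ˣ)) (subOneHom (Additive (𝓞 L)ˣ) s) : ℚ) ≠ 0 :=
    Nat.cast_ne_zero.2 h2
  rw [herbrandCyc, herbrand, div_eq_div_iff h2' hn, one_mul] at h3
  exact_mod_cast h3

end Main

end Fermat.Agent.CFT.Global.UnitsHerbrand
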