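/-
PROGRAM CFT (helper187).  Herbrand quotient of the `T`-units of a cyclic extension `L/K` of
number fields (no ramified infinite place), `T` a finite Galois-stable set of primes of `L`:
`h(E_T) = (∏_{orbits O ⊆ T} |Stab_O|) / [L : K]`.
-/
import Mathlib
import Fermat.Agent.Lib.Herbrand
import Fermat.Agent.Lib.HerbrandInduced
import Fermat.Agent.CFT.Global.FreePerm
import Fermat.Agent.CFT.Global.PermHerbrand
import Fermat.Agent.CFT.Global.UnitsHerbrand
import Fermat.Agent.CFT.Global.GalPrime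

set_option autoImplicit false

namespace Fermat.Agent.CFT.Global.TUnitsHerbrand

open NumberField IsDedekindDomain WithZero Fermat.Agent.Lib.Herbrand
  Fermat.Agent.CFT.Global.FreePerm Fermat.Agent.CFT.Global.PermHerbrand
  Fermat.Agent.CFT.Global.UnitsHerbrand Fermat.Agent.CFT.Global.GalPrime

attribute [local instance] Finsupp.comapDistribMulAction

open scoped nonZeroDivisors

set_option linter.unusedSectionVars false
set_option linter.style.haveILetI false

variable (K L : Type*) [Field K] [Field L] [NumberField L] [Algebra K L]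

/-- Galois-stability of a set of primes of `L`. -/
def GalStable (TL : Set (HeightOneSpectrum (𝓞 L))) : Prop :=
  ∀ (τ : L ≃ₐ[K] L) (w : HeightOneSpectrum (𝓞 L)), w ∈ TL → galPrime τ w ∈ TL

variable {K L} {TL : Set (HeightOneSpectrum (𝓞 L))}

theorem GalStable.not_mem (h : GalStable K L TL) (τ : L ≃ₐ[K] L) {w : HeightOneSpectrum (𝓞 L)}
    (hw : w ∉ TL) : galPrime τ w ∉ TL := by
  intro h2
  have := h τ⁻¹ _ h2
  rw [← galPrime_mul, inv_mul_cancel, galPrime_one] at this
  exact hw this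

theorem mem_unit_iff (x : Lˣ) : x ∈ TL.unit L ↔ ∀ w, w ∉ TL → w.valuation L (x : L) = 1 := Iff.rfl

/-- The action of `τ` on the `T`-units. -/
noncomputable def galTU (h : GalStable K L TL) (τ : L ≃ₐ[K] L) : TL.unit L →* TL.unit L where
  toFun x := ⟨Units.map (MonoidHomClass.toMonoidHom τ) x.1, by
    rw [mem_unit_iff]
    intro w hw
    have e : ((Units.map (MonoidHomClass.toMonoidHom τ) x.1 : Lˣ) : L) = τ ((x.1 : Lˣ) : L) := rfl
    rw [e, valuation_galPrime']
    exact (mem_unit_iff x.1).1 x.2 _ (h.not_mem τ⁻¹ hw)⟩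
  map_one' := by
    apply Subtype.ext
    simp
  map_mul' x y := by
    apply Subtype.ext
    simp

@[simp] theorem coe_galTU (h : GalStable K L TL) (τ : L ≃ₐ[K] L) (x : TL.unit L) :
    (((galTU h τ x : TL.unit L) : Lˣ) : L) = τ ((x : Lˣ) : L) := rfl

theorem unit_ext {x y : TL.unit L} (hxy : ((x : Lˣ) : L) = ((y : Lˣ) : L)) : x = y :=
  Subtype.ext (Units.ext hxy)

/-- The Galois action on the additive group of `T`-units. -/
@[reducible] noncomputable def tAct (h : GalStable K L TL) :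
    DistribMulAction (L ≃ₐ[K] L) (Additive (TL.unit L)) where
  smul τ a := Additive.ofMul (galTU h τ a.toMul)
  one_smul a := by
    show Additive.ofMul (galTU h 1 a.toMul) = a
    have : galTU h 1 a.toMul = a.toMul := unit_ext (by simp)
    rw [this]; rfl
  mul_smul τ ρ a := by
    show Additive.ofMul (galTU h (τ * ρ) a.toMul) =
      Additive.ofMul (galTU h τ (galTU h ρ a.toMul))
    have : galTU h (τ * ρ) a.toMul = galTU h τ (galTU h ρ a.toMul) := unit_ext (by simp)
    rw [this]
  smul_zero τ := by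
    show Additive.ofMul (galTU h τ 1) = 0
    rw [map_one]; rfl
  smul_add τ a b := by
    show Additive.ofMul (galTU h τ (a.toMul * b.toMul)) = _
    rw [map_mul]; rfl

/-- The Galois action on a Galois-stable set of primes. -/
@[reducible] noncomputable def primeAct (h : GalStable K L TL) : MulAction (L ≃ₐ[K] L) TL where
  smul τ w := ⟨galPrime τ w.1, h τ w.1 w.2⟩
  one_smul w := Subtype.ext (galPrime_one w.1)
  mul_smul τ ρ w := Subtype.ext (galPrime_mul τ ρ w.1)

/-- The divisor map `x ↦ (ord_w x)_{w ∈ T}` (up to sign). -/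
noncomputable def dmap (TL : Set (HeightOneSpectrum (𝓞 L))) [Finite TL] :
    Additive (TL.unit L) →+ (TL →₀ ℤ) where
  toFun x := Finsupp.equivFunOnFinite.symm
    (fun w : TL => Multiplicative.toAdd (w.1.valuationOfNeZero ((x.toMul : TL.unit L) : Lˣ)))
  map_zero' := by
    ext w
    simp
  map_add' x y := by
    ext w
    simp [map_mul]

@[simp] theorem dmap_apply [Finite TL] (x : Additive (TL.unit L)) (w : TL) :
    dmap TL x w = Multiplicative.toAdd (w.1.valuationOfNeZero ((x.toMul : TL.unit L) : Lˣ)) := by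
  simp [dmap]

theorem dmap_smul [Finite TL] (h : GalStable K L TL) (τ : L ≃ₐ[K] L) (x : Additive (TL.unit L)) :
    letI := tAct h
    letI := primeAct h
    dmap TL (τ • x) = τ • dmap TL x := by
  letI := tAct h
  letI := primeAct h
  ext w
  rw [Finsupp.comapSMul_apply, dmap_apply, dmap_apply]
  congr 1
  rw [← WithZero.coe_inj, HeightOneSpectrum.valuationOfNeZero_eq,
    HeightOneSpectrum.valuationOfNeZero_eq]
  exact valuation_galPrime' τ w.1 _

/-! ### A subgroup of `ℤ[X]` containing a nonzero multiple of every basis vector has finite index -/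

theorem finiteIndex_of_singles {X : Type*} [Fintype X] (H : AddSubgroup (X →₀ ℤ))
    (hH : ∀ w : X, ∃ c : ℤ, c ≠ 0 ∧ Finsupp.single w c ∈ H) : H.FiniteIndex := by
  classical
  choose c hc0 hcH using hH
  let N : Submodule ℤ (X →₀ ℤ) := AddSubgroup.toIntSubmodule H
  have htor : Module.IsTorsion ℤ ((X →₀ ℤ) ⧸ N) := by
    intro q
    obtain ⟨φ, rfl⟩ := Submodule.Quotient.mk_surjective N q
    have hC : (∏ w, c w) ≠ 0 := Finset.prod_ne_zero_iff.2 (fun w _ => hc0 w)
    refine ⟨⟨∏ w, c w, mem_nonZeroDivisors_of_ne_zero hC⟩, ?_⟩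
    show (∏ w, c w) • Submodule.Quotient.mk φ = (0 : (X →₀ ℤ) ⧸ N)
    rw [← Submodule.Quotient.mk_smul, Submodule.Quotient.mk_eq_zero]
    show (∏ w, c w) • φ ∈ H
    rw [← Finsupp.univ_sum_single φ, Finset.smul_sum]
    refine sum_mem (fun w _ => ?_)
    have e : (∏ w, c w) • Finsupp.single w (φ w) =
        (φ w * ∏ w' ∈ Finset.univ.erase w, c w') • Finsupp.single w (c w) := by
      rw [Finsupp.smul_single, Finsupp.smul_single, smul_eq_mul, smul_eq_mul,
        ← Finset.mul_prod_erase Finset.univ c (Finset.mem_univ w)]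
      congr 1
      ring
    rw [e]
    exact AddSubgroup.zsmul_mem _ (hcH w) _
  have hfin : Finite ((X →₀ ℤ) ⧸ N) := Module.finite_of_fg_torsion _ htor
  have hfin' : Finite ((X →₀ ℤ) ⧸ H) := hfin
  exact AddSubgroup.finiteIndex_of_finite_quotient

/-! ### Principal powers of primes -/

theorem exists_gen (w : HeightOneSpectrum (𝓞 L)) :
    ∃ a : 𝓞 L, a ≠ 0 ∧ a ∈ w.asIdeal ∧
      ∀ w' : HeightOneSpectrum (𝓞 L), w' ≠ w → a ∉ w'.asIdeal := by
  classical
  have hw0 : w.asIdeal ∈ (Ideal (𝓞 L))⁰ := mem_nonZeroDivisors_of_ne_zero w.ne_bot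
  set n := Fintype.card (ClassGroup (𝓞 L)) with hn
  have hnpos : n ≠ 0 := Fintype.card_ne_zero
  have h1 : (ClassGroup.mk0 ⟨w.asIdeal, hw0⟩) ^ n = 1 := pow_card_eq_one
  have hwn : w.asIdeal ^ n ∈ (Ideal (𝓞 L))⁰ := pow_mem hw0 n
  have h2 : ClassGroup.mk0 ⟨w.asIdeal ^ n, hwn⟩ = 1 := by
    rw [← h1, ← map_pow]
    rfl
  rw [ClassGroup.mk0_eq_one_iff] at h2
  obtain ⟨a, ha⟩ := h2.principal
  have ha0 : a ≠ 0 := by
    rintro rfl
    rw [Ideal.submodule_span_eq, Ideal.span_singleton_eq_bot.2 rfl] at ha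
    exact (pow_ne_zero n w.ne_bot) ha
  have hamem : a ∈ w.asIdeal ^ n := by
    rw [ha]
    exact Ideal.mem_span_singleton_self a
  refine ⟨a, ha0, Ideal.pow_le_self hnpos hamem, ?_⟩
  intro w' hw' haw'
  apply hw'
  have h3 : w.asIdeal ^ n ≤ w'.asIdeal := by
    rw [ha, Ideal.submodule_span_eq, Ideal.span_singleton_le_iff_mem]
    exact haw'
  have h4 : w.asIdeal ≤ w'.asIdeal := (Ideal.IsPrime.pow_le_iff (hP := w'.isPrime) hnpos).1 h3
  have h5 : w.asIdeal = w'.asIdeal := (w.isMaximal).eq_of_le w'.isPrime.ne_top h4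
  exact (HeightOneSpectrum.ext h5).symm

theorem finiteIndex_range_dmap [Fintype TL] : (dmap TL).range.FiniteIndex := by
  classical
  apply finiteIndex_of_singles
  intro w
  obtain ⟨a, ha0, haw, ha'⟩ := exists_gen w.1
  have haL : (algebraMap (𝓞 L) L a) ≠ 0 := by
    rwa [Ne, FaithfulSMul.algebraMap_eq_zero_iff]
  have hx : Units.mk0 (algebraMap (𝓞 L) L a) haL ∈ TL.unit L := by
    rw [mem_unit_iff]
    intro w' hw'
    have hne : w' ≠ w.1 := fun h => hw' (h ▸ w.2)
    rw [Units.val_mk0, HeightOneSpectrum.valuation_of_algebraMap,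
      HeightOneSpectrum.intValuation_eq_one_iff]
    exact ha' w' hne
  set x : TL.unit L := ⟨Units.mk0 (algebraMap (𝓞 L) L a) haL, hx⟩ with hxdef
  refine ⟨Multiplicative.toAdd (w.1.valuationOfNeZero (x : Lˣ)), ?_, ?_⟩
  · intro h0
    have h1 : w.1.valuationOfNeZero (x : Lˣ) = 1 := h0
    have h2 : w.1.valuation L (algebraMap (𝓞 L) L a) = 1 := by
      have e := HeightOneSpectrum.valuationOfNeZero_eq w.1 (x : Lˣ)
      rw [h1] at e
      exact e.symm
    rw [HeightOneSpectrum.valuation_of_algebraMap, HeightOneSpectrum.intValuation_eq_one_iff] at h2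
    exact h2 haw
  · refine ⟨Additive.ofMul x, ?_⟩
    ext w''
    rw [dmap_apply, Finsupp.single_apply]
    split_ifs with hww
    · rw [hww]
      rfl
    · have hne : w''.1 ≠ w.1 := fun h => hww (Subtype.ext h).symm
      have h2 : w''.1.valuation L (algebraMap (𝓞 L) L a) = 1 := by
        rw [HeightOneSpectrum.valuation_of_algebraMap, HeightOneSpectrum.intValuation_eq_one_iff]
        exact ha' w''.1 hne
      have h3 : w''.1.valuationOfNeZero ((Additive.toMul (Additive.ofMul x) : TL.unit L) : Lˣ) = 1 := by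
        rw [← WithZero.coe_inj, HeightOneSpectrum.valuationOfNeZero_eq]
        exact h2
      rw [h3]
      rfl

/-! ### The kernel of the divisor map is the group of global units -/

/-- Global units as `T`-units. -/
noncomputable def jmap (TL : Set (HeightOneSpectrum (𝓞 L))) :
    Additive (𝓞 L)ˣ →+ Additive (TL.unit L) where
  toFun u := Additive.ofMul ⟨Units.map (algebraMap (𝓞 L) L : 𝓞 L →* L) u.toMul, by
    rw [mem_unit_iff]
    intro w _
    have e := HeightOneSpectrum.valuationOfNeZero_eq (K := L) w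
      (Units.map (algebraMap (𝓞 L) L : 𝓞 L →* L) u.toMul)
    rw [HeightOneSpectrum.valuation_of_unit_eq] at e
    exact e.symm⟩
  map_zero' := by
    apply congrArg Additive.ofMul
    apply unit_ext
    simp
  map_add' x y := by
    apply congrArg Additive.ofMul
    apply unit_ext
    simp

@[simp] theorem coe_jmap (u : Additive (𝓞 L)ˣ) :
    ((((jmap TL u).toMul : TL.unit L) : Lˣ) : L) = ((u.toMul : (𝓞 L)ˣ) : L) := rfl

theorem jmap_injective : Function.Injective (jmap TL) := by
  intro u u' h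
  have h1 : ((u.toMul : (𝓞 L)ˣ) : L) = ((u'.toMul : (𝓞 L)ˣ) : L) := by
    rw [← coe_jmap (TL := TL), ← coe_jmap (TL := TL), h]
  exact congrArg Additive.ofMul (NumberField.Units.coe_injective L h1)

theorem dmap_jmap [Finite TL] (u : Additive (𝓞 L)ˣ) : dmap TL (jmap TL u) = 0 := by
  ext w
  rw [dmap_apply]
  have : w.1.valuationOfNeZero (((jmap TL u).toMul : TL.unit L) : Lˣ) = 1 :=
    HeightOneSpectrum.valuation_of_unit_eq (K := L) w.1 u.toMul
  rw [this]
  rfl

theorem exists_jmap_eq [Finite TL] (x : Additive (TL.unit L)) (hx : dmap TL x = 0) :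
    ∃ u, jmap TL u = x := by
  have hval : ∀ w : HeightOneSpectrum (𝓞 L), w.valuation L (((x.toMul : TL.unit L) : Lˣ) : L) = 1 := by
    intro w
    by_cases hw : w ∈ TL
    · have h1 := DFunLike.congr_fun hx ⟨w, hw⟩
      rw [dmap_apply] at h1
      have h2 : w.valuationOfNeZero ((x.toMul : TL.unit L) : Lˣ) = 1 := h1
      have e := HeightOneSpectrum.valuationOfNeZero_eq (K := L) w ((x.toMul : TL.unit L) : Lˣ)
      rw [h2] at e
      exact e.symm
    · exact (mem_unit_iff _).1 (x.toMul : TL.unit L).2 w hw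
  set y : Lˣ := ((x.toMul : TL.unit L) : Lˣ) with hy
  obtain ⟨a, ha⟩ := HeightOneSpectrum.mem_integers_of_valuation_le_one L (y : L)
    (fun w => (hval w).le)
  obtain ⟨b, hb⟩ := HeightOneSpectrum.mem_integers_of_valuation_le_one L ((y⁻¹ : Lˣ) : L)
    (fun w => by
      rw [Units.val_inv_eq_inv_val, map_inv₀, hval w, inv_one])
  have hab : a * b = 1 := by
    apply FaithfulSMul.algebraMap_injective (𝓞 L) L
    rw [map_mul, ha, hb, map_one, Units.mul_inv]
  have hba : b * a = 1 := by rw [mul_comm, hab]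
  refine ⟨Additive.ofMul ⟨a, b, hab, hba⟩, ?_⟩
  apply congrArg Additive.ofMul (a₂ := x.toMul)
  apply unit_ext
  exact ha

variable [FiniteDimensional K L]

theorem jmap_smul (h : GalStable K L TL) (τ : L ≃ₐ[K] L) (u : Additive (𝓞 L)ˣ) :
    letI := tAct h
    letI := galAct K L
    jmap TL (τ • u) = τ • jmap TL u := by
  letI := tAct h
  letI := galAct K L
  apply congrArg Additive.ofMul
  apply unit_ext
  rfl

/-- **Herbrand quotient of the `T`-units**: for `Gal(L/K) = ⟨s⟩`, no ramified infinite place and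
`TL` a finite Galois-stable set of primes of `L`, both Herbrand groups of `TL.unit L` are finite
and `h = (∏_{orbits} |Stab|) / |Gal(L/K)|`. The actions are `tAct h` on `Additive (TL.unit L)`
and `primeAct h` on `TL`. -/
theorem herbrandCyc_tunits [IsGalois K L] [Fintype TL] (h : GalStable K L TL)
    [Fintype (@MulAction.orbitRel.Quotient (L ≃ₐ[K] L) TL _ (primeAct h))]
    {s : L ≃ₐ[K] L} (hs : ∀ τ : L ≃ₐ[K] L, τ ∈ Subgroup.zpowers s)
    (hunr : ∀ w : InfinitePlace L, w.IsUnramified K) :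
    letI := tAct h
    letI := primeAct h
    DefinedCyc (Additive (TL.unit L)) s ∧
      herbrandCyc (Additive (TL.unit L)) s =
        ((∏ O : MulAction.orbitRel.Quotient (L ≃ₐ[K] L) TL, kap (L ≃ₐ[K] L) O.out : ℕ) : ℚ) /
          (Fintype.card (L ≃ₐ[K] L) : ℚ) := by
  letI := tAct h
  letI := primeAct h
  letI := galAct K L
  have hd : ∀ (τ : L ≃ₐ[K] L) (u : Additive (TL.unit L)), dmap TL (τ • u) = τ • dmap TL u :=
    dmap_smul h
  haveI : (dmap TL).range.FiniteIndex := finiteIndex_range_dmap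
  -- transfer from the global units to the kernel of the divisor map
  obtain ⟨hUdef, hUq⟩ := herbrandCyc_units K L hs hunr
  let φ : Additive (𝓞 L)ˣ →+ (dmap TL).ker :=
    (jmap TL).codRestrict (dmap TL).ker (fun u => dmap_jmap u)
  have hφinj : Function.Injective φ := by
    intro u u' huu
    exact jmap_injective (congrArg Subtype.val huu)
  have hφsurj : Function.Surjective φ := by
    rintro ⟨x, hx⟩
    obtain ⟨u, hu⟩ := exists_jmap_eq x hx
    exact ⟨u, Subtype.ext hu⟩
  haveI : Finite φ.ker := by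
    rw [(AddMonoidHom.ker_eq_bot_iff φ).2 hφinj]
    infer_instance
  haveI : φ.range.FiniteIndex := by
    rw [AddMonoidHom.range_eq_top.2 hφsurj]
    infer_instance
  have hfg' : (resHom (subOneHom (Additive (TL.unit L)) s) (dmap TL).ker
      (subOneHom_mem_ker (dmap TL) hd s)).comp
      (resHom (normHom (L ≃ₐ[K] L) (Additive (TL.unit L))) (dmap TL).ker
        (normHom_mem_ker (dmap TL) hd)) = 0 :=
    AddMonoidHom.ext fun x => Subtype.ext
      (DFunLike.congr_fun (subOneHom_comp_normHom (A := Additive (TL.unit L)) s) x.1)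
  have hgf' : (resHom (normHom (L ≃ₐ[K] L) (Additive (TL.unit L))) (dmap TL).ker
      (normHom_mem_ker (dmap TL) hd)).comp
      (resHom (subOneHom (Additive (TL.unit L)) s) (dmap TL).ker
        (subOneHom_mem_ker (dmap TL) hd s)) = 0 :=
    AddMonoidHom.ext fun x => Subtype.ext
      (DFunLike.congr_fun (normHom_comp_subOneHom (A := Additive (TL.unit L)) s) x.1)
  obtain ⟨hiff, heq⟩ := herbrand_eq_of_finite_ker_coker φ
    (subOneHom_comp_normHom (A := Additive (𝓞 L)ˣ) s)
    (normHom_comp_subOneHom (A := Additive (𝓞 L)ˣ) s) hfg' hgf'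
    (fun x => Subtype.ext (map_subOneHom (jmap TL) (jmap_smul h) s x))
    (fun x => Subtype.ext (map_normHom (jmap TL) (jmap_smul h) x))
  have hker := hiff.1 hUdef
  obtain ⟨hdef, hq⟩ := herbrandCyc_of_divisor (X := TL) hs (dmap TL) hd hker
  refine ⟨hdef, ?_⟩
  rw [hq, ← heq]
  have : herbrand (subOneHom (Additive (𝓞 L)ˣ) s) (normHom (L ≃ₐ[K] L) (Additive (𝓞 L)ˣ)) =
      1 / (Fintype.card (L ≃ₐ[K] L) : ℚ) := hUq
  rw [this]
  ring

/-- Raw index form: `[E_T^G : N E_T] * |G| = (∏_{orbits} |Stab|) * [ker N : (s - 1) E_T]`, both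
indices nonzero (`hq f g = [ker f : range g]`). -/
theorem hq_tunits [IsGalois K L] [Fintype TL] (h : GalStable K L TL)
    [Fintype (@MulAction.orbitRel.Quotient (L ≃ₐ[K] L) TL _ (primeAct h))]
    {s : L ≃ₐ[K] L} (hs : ∀ τ : L ≃ₐ[K] L, τ ∈ Subgroup.zpowers s)
    (hunr : ∀ w : InfinitePlace L, w.IsUnramified K) :
    letI := tAct h
    letI := primeAct h
    hq (subOneHom (Additive (TL.unit L)) s) (normHom (L ≃ₐ[K] L) (Additive (TL.unit L))) ≠ 0 ∧
    hq (normHom (L ≃ₐ[K] L) (Additive (TL.unit L))) (subOneHom (Additive (TL.unit L)) s) ≠ 0 ∧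
    hq (subOneHom (Additive (TL.unit L)) s) (normHom (L ≃ₐ[K] L) (Additive (TL.unit L))) *
        Fintype.card (L ≃ₐ[K] L) =
      (∏ O : MulAction.orbitRel.Quotient (L ≃ₐ[K] L) TL, kap (L ≃ₐ[K] L) O.out) *
        hq (normHom (L ≃ₐ[K] L) (Additive (TL.unit L))) (subOneHom (Additive (TL.unit L)) s) := by
  letI := tAct h
  letI := primeAct h
  obtain ⟨⟨h1, h2⟩, h3⟩ := herbrandCyc_tunits h hs hunr
  refine ⟨h1, h2, ?_⟩
  have hn : (Fintype.card (L ≃ₐ[K] L) : ℚ) ≠ 0 := Nat.cast_ne_zero.2 Fintype.card_ne_zero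
  have h2' : (hq (normHom (L ≃ₐ[K] L) (Additive (TL.unit L)))
      (subOneHom (Additive (TL.unit L)) s) : ℚ) ≠ 0 := Nat.cast_ne_zero.2 h2
  rw [herbrandCyc, herbrand, div_eq_div_iff h2' hn] at h3
  exact_mod_cast h3

end Fermat.Agent.CFT.Global.TUnitsHerbrand
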