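import Fermat.Agent.CFT.Local.ApproxNormCore
import Fermat.Agent.CFT.Global.HasseNorm.GaloisVal

/-!
# Local first inequality at a nonsplit place of a cyclic extension of number fields

Completion-free and density-free: for `L/K` cyclic of degree `≥ 2` and a finite place `v` of `K`
with a single place of `L` above it (any ramification, wild included), some `b ∈ Kˣ` is not an
approximate norm at `v`.  This is input (H-loc)/(LI) of the Hasse norm theorem.
-/

set_option autoImplicit false
set_option linter.unusedSectionVars false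

open scoped NumberField WithZero
open IsDedekindDomain

namespace Fermat.Agent.CFT.Global.LocalFirstIneq

open Fermat.Agent.CFT.Global.HasseNorm Fermat.Agent.CFT.Local

variable {K L : Type*} [Field K] [NumberField K] [Field L] [NumberField L] [Algebra K L]

section Prep

variable (v : HeightOneSpectrum (𝓞 K)) (w : HeightOneSpectrum (𝓞 L))

theorem val_algebraMap (hwv : w.under (𝓞 K) = v) (x : K) :
    w.valuation L (algebraMap K L x)
      = v.valuation K x ^ v.asIdeal.ramificationIdx' w.asIdeal := by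
  have : w.asIdeal.LiesOver v.asIdeal := ⟨by rw [← hwv]; rfl⟩
  exact (HeightOneSpectrum.valuation_liesOver L v w x).symm

theorem ramIdx_ne_zero (hwv : w.under (𝓞 K) = v) :
    v.asIdeal.ramificationIdx' w.asIdeal ≠ 0 := by
  have : w.asIdeal.LiesOver v.asIdeal := ⟨by rw [← hwv]; rfl⟩
  exact Ideal.IsDedekindDomain.ramificationIdx'_ne_zero_of_liesOver w.asIdeal v.ne_bot

theorem exists_exp_le (γ : ℤᵐ⁰) (hγ : γ ≠ 0) : ∃ N : ℕ, WithZero.exp (-(N : ℤ)) ≤ γ := by
  obtain ⟨d, rfl⟩ : ∃ d, γ = WithZero.exp d := ⟨_, (WithZero.exp_log hγ).symm⟩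
  refine ⟨(-d).toNat, ?_⟩
  rw [WithZero.exp_le_exp]
  have := Int.self_le_toNat (-d)
  omega

/-- Finitely many integers of `L` approximate all `w`-integral elements to a given precision. -/
theorem exists_finset_approx (γ : ℤᵐ⁰) (hγ : γ ≠ 0) :
    ∃ F : Finset L, ∀ x, w.valuation L x ≤ 1 → ∃ y ∈ F, w.valuation L (x - y) ≤ γ := by
  classical
  obtain ⟨N, hN⟩ := exists_exp_le γ hγ
  have hfin : Finite (𝓞 L ⧸ w.asIdeal ^ N) :=
    Ideal.finiteQuotientOfFreeOfNeBot _ (pow_ne_zero _ w.ne_bot)
  let _ := Fintype.ofFinite (𝓞 L ⧸ w.asIdeal ^ N)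
  refine ⟨Finset.univ.image
    (fun q : 𝓞 L ⧸ w.asIdeal ^ N => algebraMap (𝓞 L) L (Quotient.out q)), ?_⟩
  intro x hx
  obtain ⟨a, ha⟩ := w.exists_valuation_sub_lt_of_integer hx (Units.mk0 γ hγ)
  rw [Units.val_mk0] at ha
  set a' : 𝓞 L := Quotient.out (Ideal.Quotient.mk (w.asIdeal ^ N) a) with ha'
  refine ⟨algebraMap (𝓞 L) L a', Finset.mem_image.2 ⟨_, Finset.mem_univ _, rfl⟩, ?_⟩
  have h1 : a - a' ∈ w.asIdeal ^ N := by
    rw [← Ideal.Quotient.eq, ha']
    exact (Ideal.Quotient.mk_out _).symm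
  have h2 : w.valuation L (algebraMap (𝓞 L) L (a - a')) ≤ γ := by
    rw [HeightOneSpectrum.valuation_of_algebraMap]
    exact ((w.intValuation_le_pow_iff_mem _ N).2 h1).trans hN
  have e : x - algebraMap (𝓞 L) L a'
      = algebraMap (𝓞 L) L (a - a') - (algebraMap (𝓞 L) L a - x) := by
    rw [map_sub]; ring
  rw [e]
  exact (w.valuation L).map_sub_le h2 ha.le

/-- If the Galois group preserves `w`, every `w`-integral element of `L` is a combination of an
integral basis of `𝓞 L` with coefficients in `K` that are integral at `w`. -/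
theorem exists_coeffs [IsGalois K L]
    (hinv : ∀ (τ : L ≃ₐ[K] L) (x : L), w.valuation L (τ x) = w.valuation L x)
    (x : L) (hx : w.valuation L x ≤ 1) :
    ∃ a : Module.Free.ChooseBasisIndex ℤ (𝓞 L) → K,
      (∀ i, w.valuation L (algebraMap K L (a i)) ≤ 1) ∧
      x = ∑ i, a i • algebraMap (𝓞 L) L (NumberField.RingOfIntegers.basis L i) := by
  obtain ⟨n, ⟨d, hd⟩, hnd⟩ := w.exists_primeCompl_mul_eq_of_integer x hx
  set s : 𝓞 K := RingOfIntegers.norm K d with hs
  obtain ⟨q, hq⟩ := RingOfIntegers.dvd_norm K d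
  have hwd : w.valuation L (algebraMap (𝓞 L) L d) = 1 :=
    (w.valuation_eq_one_iff_notMem).2 hd
  have hsL : algebraMap K L (algebraMap (𝓞 K) K s)
      = algebraMap (𝓞 L) L (algebraMap (𝓞 K) (𝓞 L) s) := by
    rw [← IsScalarTower.algebraMap_apply, ← IsScalarTower.algebraMap_apply]
  have hws : w.valuation L (algebraMap K L (algebraMap (𝓞 K) K s)) = 1 := by
    have h1 : algebraMap K L (algebraMap (𝓞 K) K s)
        = ∏ τ : L ≃ₐ[K] L, τ (algebraMap (𝓞 L) L d) := by
      rw [← Algebra.norm_eq_prod_automorphisms]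
      rfl
    rw [h1, map_prod]
    simp only [hinv, hwd]
    simp
  have hsL0 : algebraMap K L (algebraMap (𝓞 K) K s) ≠ 0 := by
    intro h0
    rw [h0, map_zero] at hws
    exact zero_ne_one hws
  set r : 𝓞 L := q * n with hr
  have hrx : algebraMap K L (algebraMap (𝓞 K) K s) * x = algebraMap (𝓞 L) L r := by
    rw [hsL, hq, hr, map_mul, map_mul, ← hnd]
    ring
  refine ⟨fun i => ((NumberField.RingOfIntegers.basis L).repr r i : K) / algebraMap (𝓞 K) K s,
    ?_, ?_⟩
  · intro i
    rw [map_div₀, map_div₀, hws, div_one, map_intCast]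
    have : (((NumberField.RingOfIntegers.basis L).repr r i : ℤ) : L)
        = algebraMap (𝓞 L) L (((NumberField.RingOfIntegers.basis L).repr r i : ℤ) : 𝓞 L) := by
      simp
    rw [this]
    exact w.valuation_le_one _
  · have hsum : algebraMap (𝓞 L) L r = ∑ i, (((NumberField.RingOfIntegers.basis L).repr r i : ℤ) : L)
        * algebraMap (𝓞 L) L (NumberField.RingOfIntegers.basis L i) := by
      conv_lhs => rw [← (NumberField.RingOfIntegers.basis L).sum_repr r]
      rw [map_sum]
      refine Finset.sum_congr rfl fun i _ => ?_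
      rw [zsmul_eq_mul, map_mul, map_intCast]
    have hx' : x = (algebraMap K L (algebraMap (𝓞 K) K s))⁻¹ * algebraMap (𝓞 L) L r := by
      rw [← hrx, inv_mul_cancel_left₀ hsL0]
    rw [hx', hsum, Finset.mul_sum]
    refine Finset.sum_congr rfl fun i _ => ?_
    rw [Algebra.smul_def, map_div₀, map_intCast]
    ring

end Prep

/-- **Local first inequality (approximate form).**  `L/K` cyclic of degree `≥ 2`, `v` a finite
place of `K` with only one place of `L` above it: some `b ∈ Kˣ` is not a norm from `L` up to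
`1 + v ^ n`, for some `n`. -/
theorem exists_not_approxNorm_of_nonsplit [IsGalois K L] [IsCyclic (L ≃ₐ[K] L)]
    (hKL : 1 < Module.finrank K L) (v : HeightOneSpectrum (𝓞 K)) (hv : Nonsplit K L v) :
    ∃ b : K, b ≠ 0 ∧ ∃ n : ℕ, ∀ y : L, y ≠ 0 →
      ¬ v.valuation K (b / Algebra.norm K y - 1) ≤ WithZero.exp (-(n : ℤ)) := by
  obtain ⟨w, hwv⟩ := exists_under_eq K L v
  have hinv : ∀ (τ : L ≃ₐ[K] L) (x : L), w.valuation L (τ x) = w.valuation L x := by
    intro τ x
    have h1 : galSmul K L τ w = w := hv _ _ (by rw [under_galSmul, hwv]) hwv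
    have h2 := valuation_galSmul K L τ w x
    rwa [h1] at h2
  obtain ⟨πK, hπK⟩ := v.valuation_exists_uniformizer K
  have hπ0 : πK ≠ 0 := by
    rintro rfl
    rw [map_zero] at hπK
    exact WithZero.exp_ne_zero hπK.symm
  have he := ramIdx_ne_zero v w hwv
  have hπw : w.valuation L (algebraMap K L πK) < 1 := by
    rw [val_algebraMap v w hwv, hπK]
    refine pow_lt_one₀ zero_le ?_ he
    rw [← WithZero.exp_zero, WithZero.exp_lt_exp]
    norm_num
  have hπw0 : w.valuation L (algebraMap K L πK) ≠ 0 := by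
    rw [Valuation.ne_zero_iff]
    simpa using hπ0
  obtain ⟨b, hb0, j, hb⟩ := ApproxNormCore.exists_not_approx_norm (K := K) (L := L) (by omega)
    (w.valuation L) hinv (w.valuation_exists_uniformizer L) πK hπ0 hπw
    (fun j => exists_finset_approx w _ (pow_ne_zero j hπw0))
    (fun i => algebraMap (𝓞 L) L (NumberField.RingOfIntegers.basis L i))
    (fun x hx => exists_coeffs w hinv x hx)
    (Nat.cast_ne_zero.2 (by omega))
  refine ⟨b, hb0, j, fun y hy h => hb y hy ?_⟩
  have e : algebraMap K L (b / Algebra.norm K y) - 1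
      = algebraMap K L (b / Algebra.norm K y - 1) := by
    rw [map_sub, map_one]
  rw [e, val_algebraMap v w hwv, val_algebraMap v w hwv, hπK, ← pow_mul, mul_comm, pow_mul]
  refine pow_le_pow_left₀ zero_le ?_ _
  rw [← WithZero.exp_nsmul]
  simpa using h

/-- The same statement with the "single place above" hypothesis spelled with `Ideal.comap`. -/
theorem exists_not_approxNorm [IsGalois K L] [IsCyclic (L ≃ₐ[K] L)]
    (hKL : 1 < Module.finrank K L) (v : HeightOneSpectrum (𝓞 K))
    (hv : ∀ w w' : HeightOneSpectrum (𝓞 L),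
      w.asIdeal.comap (algebraMap (𝓞 K) (𝓞 L)) = v.asIdeal →
      w'.asIdeal.comap (algebraMap (𝓞 K) (𝓞 L)) = v.asIdeal → w = w') :
    ∃ b : K, b ≠ 0 ∧ ∃ n : ℕ, ∀ y : L, y ≠ 0 →
      ¬ v.valuation K (b / Algebra.norm K y - 1) ≤ WithZero.exp (-(n : ℤ)) :=
  exists_not_approxNorm_of_nonsplit hKL v (fun w w' h h' =>
    hv w w' (by rw [← h]; rfl) (by rw [← h']; rfl))

/-- The form consumed by the Hasse norm theorem: at a nonsplit place some nonzero element is
not an approximate norm. -/
theorem exists_ne_zero_not_approxNorm [IsGalois K L] [IsCyclic (L ≃ₐ[K] L)]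
    (hKL : 1 < Module.finrank K L) (v : HeightOneSpectrum (𝓞 K)) (hv : Nonsplit K L v) :
    ∃ b : K, b ≠ 0 ∧ ¬ ApproxNorm K L v b := by
  obtain ⟨b, hb0, n, hb⟩ := exists_not_approxNorm_of_nonsplit hKL v hv
  refine ⟨b, hb0, fun h => ?_⟩
  obtain ⟨y, hy, hy'⟩ := h n
  exact hb y hy hy'

end Fermat.Agent.CFT.Global.LocalFirstIneq
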