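import Fermat.Agent.CFT.Global.HP.RealBasic
import Fermat.Prelude.Def_ExtCitation_KummerBridge

/-!
# Hasse principle over a number field `K ⊂ ℚ̄` with coefficients `μ_p` (HP-K)

`K` an arbitrary finite extension of `ℚ` inside `Qb = ℚ̄` (NO hypothesis `ζ_p ∈ K`),
`U = K.fixingSubgroup = G_K`, `χ = cycloChar p` the mod `p` cyclotomic character.  The module
`μ_p` is modelled by `ZMod p` with the `χ`-twisted action `g • x = χ(g) x`.

* `HPUnitsStmt p` : the statement of the Sylow/tower theorem `HP.hp_units` (a level-constant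
  `Qbˣ`-valued 2-cocycle of `G_K` with `p`-torsion values which is locally trivial at every finite
  place is the coboundary of a level-constant `Qbˣ`-valued cochain).
* `exists_torsion_cochain` : Kummer descent — a level-constant `Qbˣ`-valued 1-cochain whose
  coboundary is `p`-torsion can be corrected by a coboundary to a `μ_p`-valued one.
* `hp_K_of` : **HP-K**, raw-function form: a level-constant `χ`-twisted `ZMod p`-valued 2-cocycle
  of `G_K` which is a level-constant coboundary on every `D(Av) ⊓ G_K` (all finite places) is the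
  coboundary of a level-constant cochain.
-/

set_option autoImplicit false

open groupCohomology

namespace Fermat.Agent.CFT.Global.HPK

open Fermat.Agent.CFT.Global.HP ExtCitation

/-- The statement of the tower theorem `HP.hp_units` for the prime `p`. -/
def HPUnitsStmt (p : ℕ) : Prop :=
  ∀ (K : IntermediateField ℚ Qb), FiniteDimensional ℚ K →
    ∀ a : K.fixingSubgroup × K.fixingSubgroup → Qbˣ, IsMulCocycle₂ a →
    IsLevelConstant₂ (Subgroup.subtype K.fixingSubgroup) a →
    (∀ s t, a (s, t) ^ p = 1) → LocTriv K.fixingSubgroup a →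
    ∃ c : K.fixingSubgroup → Qbˣ, IsLevelConstant₁ (Subgroup.subtype K.fixingSubgroup) c ∧
      ∀ s t : K.fixingSubgroup, a (s, t) = (s : Gq) • c t / c (s * t) * c s

/-! ### Kummer descent -/

/-- **Kummer descent.** If the coboundary of a level-constant cochain `c : U → Qbˣ` has
`p`-torsion values, then `c` can be replaced by a level-constant cochain with `p`-torsion values
and the same coboundary. -/
theorem exists_torsion_cochain {p : ℕ} (hp : 0 < p) (U : Subgroup Gq) (c : U → Qbˣ)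
    (hlev : IsLevelConstant₁ (Subgroup.subtype U) c)
    (hpow : ∀ s t : U, ((s : Gq) • c t / c (s * t) * c s) ^ p = 1) :
    ∃ c' : U → Qbˣ, IsLevelConstant₁ (Subgroup.subtype U) c' ∧ (∀ s, c' s ^ p = 1) ∧
      ∀ s t : U, (s : Gq) • c' t / c' (s * t) * c' s = (s : Gq) • c t / c (s * t) * c s := by
  classical
  obtain ⟨F, hF, hFc⟩ := hlev
  haveI := hF
  -- the `p`-th power of `c`, extended by `1`, is a level-constant 1-cocycle
  set f : Gq → Qbˣ := fun σ => if h : σ ∈ U then c ⟨σ, h⟩ ^ p else 1 with hf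
  have hcoc : ∀ s t : U, c (s * t) ^ p = ((s : Gq) • c t) ^ p * c s ^ p := by
    intro s t
    have h := hpow s t
    rw [mul_pow, div_pow, div_mul_eq_mul_div, div_eq_one] at h
    exact h.symm
  obtain ⟨x, hx⟩ := Fermat.Agent.CFT.Cyclic.exists_smul_div_eq_of_levelConstant U f
    (fun g hg h hh => by
      simp only [hf, dif_pos hg, dif_pos hh, dif_pos (U.mul_mem hg hh)]
      have := hcoc ⟨g, hg⟩ ⟨h, hh⟩
      rw [smul_pow']
      exact this)
    F
    (fun g hg s hs hsF => by
      simp only [hf, dif_pos hg, dif_pos (U.mul_mem hg hs)]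
      have := hFc ⟨g, hg⟩ ⟨s, hs⟩ hsF
      rw [show (⟨g * s, U.mul_mem hg hs⟩ : U) = ⟨g, hg⟩ * ⟨s, hs⟩ from rfl, this])
  have hx' : ∀ s : U, (s : Gq) • x / x = c s ^ p := by
    intro s
    rw [hx s s.2]
    simp only [hf, dif_pos s.2]
  -- a `p`-th root of `x`
  obtain ⟨d0, hd0⟩ := IsAlgClosed.exists_pow_nat_eq (x : Qb) hp
  have hd0ne : d0 ≠ 0 := by
    rintro rfl
    rw [zero_pow hp.ne'] at hd0
    exact x.ne_zero hd0.symm
  set δ : Qbˣ := Units.mk0 d0 hd0ne with hδ
  have hδx : δ ^ p = x := by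
    apply Units.ext
    rw [Units.val_pow_eq_pow_val, hδ, Units.val_mk0, hd0]
  refine ⟨fun s => c s / ((s : Gq) • δ / δ), ?_, ?_, ?_⟩
  · -- level
    haveI : FiniteDimensional ℚ (IntermediateField.adjoin ℚ ({d0} : Set Qb)) :=
      IntermediateField.adjoin.finiteDimensional
        ((AlgebraicClosure.isAlgebraic ℚ).isAlgebraic d0).isIntegral
    refine ⟨F ⊔ IntermediateField.adjoin ℚ ({d0} : Set Qb), inferInstance, fun g s hs => ?_⟩
    have hs1 : (s : Gq) ∈ F.fixingSubgroup :=
      IntermediateField.fixingSubgroup_antitone le_sup_left hs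
    have hs2 : (s : Gq) ∈ (IntermediateField.adjoin ℚ ({d0} : Set Qb)).fixingSubgroup :=
      IntermediateField.fixingSubgroup_antitone le_sup_right hs
    have hsδ : (s : Gq) • δ = δ := by
      apply Units.ext
      have := (IntermediateField.mem_fixingSubgroup_iff _ _).1 hs2 d0
        (IntermediateField.mem_adjoin_simple_self ℚ d0)
      exact this
    have h1 : c (g * s) = c g := hFc g s hs1
    have h2 : ((g * s : U) : Gq) • δ = (g : Gq) • δ := by
      rw [Subgroup.coe_mul, mul_smul, hsδ]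
    simp only [h1, h2]
  · intro s
    rw [div_pow, div_pow, ← smul_pow', hδx, hx' s, div_self']
  · intro s t
    have h2 : ((s * t : U) : Gq) • δ = (s : Gq) • (t : Gq) • δ := by
      rw [Subgroup.coe_mul, mul_smul]
    simp only [smul_div', h2]
    apply Additive.ofMul.injective
    simp only [ofMul_mul, ofMul_div]
    abel

/-! ### The embedding `ZMod p → Qbˣ`, `k ↦ ζ ^ k` -/

section zeta

variable (p : ℕ) [Fact p.Prime]

/-- A primitive `p`-th root of unity in `Qbˣ`. -/
theorem exists_primitiveRoot_units : ∃ ζ : Qbˣ, IsPrimitiveRoot ζ p := by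
  haveI : NeZero p := ⟨(Fact.out : p.Prime).ne_zero⟩
  haveI : NeZero (p : Qb) := ⟨Nat.cast_ne_zero.mpr (NeZero.ne p)⟩
  obtain ⟨ζ, hζ⟩ := HasEnoughRootsOfUnity.exists_primitiveRoot Qb p
  refine ⟨(hζ.isUnit (NeZero.ne p)).unit, IsPrimitiveRoot.coe_units_iff.1 ?_⟩
  rw [IsUnit.unit_spec]
  exact hζ

/-- `iota p ζ k = ζ ^ k`. -/
noncomputable def iota (ζ : Qbˣ) (k : ZMod p) : Qbˣ := ζ ^ k.val

variable {p} {ζ : Qbˣ} (hζ : IsPrimitiveRoot ζ p)
include hζ

lemma iota_add (k l : ZMod p) : iota p ζ (k + l) = iota p ζ k * iota p ζ l := by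
  haveI : NeZero p := ⟨(Fact.out : p.Prime).ne_zero⟩
  unfold iota
  rw [ZMod.val_add, ← pow_eq_pow_mod _ hζ.pow_eq_one, pow_add]

lemma iota_sub (k l : ZMod p) : iota p ζ (k - l) = iota p ζ k / iota p ζ l := by
  rw [eq_div_iff_mul_eq', ← iota_add hζ, sub_add_cancel]

lemma iota_pow (k : ZMod p) : iota p ζ k ^ p = 1 := by
  unfold iota
  rw [← pow_mul, mul_comm, pow_mul, hζ.pow_eq_one, one_pow]

lemma iota_injective : Function.Injective (iota p ζ) := by
  haveI : NeZero p := ⟨(Fact.out : p.Prime).ne_zero⟩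
  intro k l h
  exact ZMod.val_injective p (hζ.pow_inj (ZMod.val_lt k) (ZMod.val_lt l) h)

lemma exists_iota_eq (y : Qbˣ) (hy : y ^ p = 1) : ∃ k : ZMod p, iota p ζ k = y := by
  haveI : NeZero p := ⟨(Fact.out : p.Prime).ne_zero⟩
  obtain ⟨i, hi, h⟩ := hζ.eq_pow_of_mem_rootsOfUnity ((mem_rootsOfUnity p y).2 hy)
  exact ⟨(i : ZMod p), by rw [iota, ZMod.val_cast_of_lt hi, h]⟩

lemma smul_iota (g : Gq) (k : ZMod p) :
    g • iota p ζ k = iota p ζ ((cycloChar p g : ZMod p) * k) := by
  haveI : NeZero p := ⟨(Fact.out : p.Prime).ne_zero⟩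
  have h1 : g • ζ = ζ ^ ((cycloChar p g : ZMod p)).val := by
    apply Units.ext
    have := modularCyclotomicCharacter.spec Qb (card_rootsOfUnity_eq_self p) (g : Qb ≃+* Qb)
      (t := ζ) ((mem_rootsOfUnity p ζ).2 hζ.pow_eq_one)
    rw [Units.val_pow_eq_pow_val]
    exact this
  unfold iota
  rw [smul_pow', h1, ← pow_mul, ZMod.val_mul, ← pow_eq_pow_mod _ hζ.pow_eq_one]

end zeta

/-! ### HP-K -/

/-- **HP-K (raw-function form), from the tower theorem.**  `K` any number field in `Qb`,
`U = K.fixingSubgroup`, coefficients `μ_p = ZMod p` with the action twisted by the mod `p`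
cyclotomic character.  A level-constant 2-cocycle of `U` which is, on every `D(Av) ⊓ U`
(`Av` over a rational prime `q`), the coboundary of a level-constant 1-cochain, is the coboundary
of a level-constant 1-cochain of `U`. -/
theorem hp_K_of {p : ℕ} [Fact p.Prime] (hHP : HPUnitsStmt p)
    (K : IntermediateField ℚ Qb) [FiniteDimensional ℚ K]
    (a : K.fixingSubgroup × K.fixingSubgroup → ZMod p)
    (hcoc : ∀ g h j : K.fixingSubgroup, a (g * h, j) + a (g, h)
        = (cycloChar p (g : Gq) : ZMod p) * a (h, j) + a (g, h * j))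
    (hlev : IsLevelConstant₂ (Subgroup.subtype K.fixingSubgroup) a)
    (hloc : ∀ q : ℕ, q.Prime → ∀ Av : ValuationSubring Qb, Av.LiesOverPrime q →
      ∃ t : ↥(Av.decompositionSubgroup ℚ ⊓ K.fixingSubgroup) → ZMod p,
        IsLevelConstant₁ (Subgroup.subtype (Av.decompositionSubgroup ℚ ⊓ K.fixingSubgroup)) t ∧
        ∀ s s' : ↥(Av.decompositionSubgroup ℚ ⊓ K.fixingSubgroup),
          a (⟨s, s.2.2⟩, ⟨s', s'.2.2⟩)
            = (cycloChar p (s : Gq) : ZMod p) * t s' - t (s * s') + t s) :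
    ∃ c : K.fixingSubgroup → ZMod p,
      IsLevelConstant₁ (Subgroup.subtype K.fixingSubgroup) c ∧
      ∀ g h : K.fixingSubgroup,
        a (g, h) = (cycloChar p (g : Gq) : ZMod p) * c h - c (g * h) + c g := by
  classical
  obtain ⟨ζ, hζ⟩ := exists_primitiveRoot_units p
  -- the multiplicative cocycle `ζ ^ a`
  set α : K.fixingSubgroup × K.fixingSubgroup → Qbˣ := fun x => iota p ζ (a x) with hα
  have hαcoc : IsMulCocycle₂ α := by
    intro g h j
    simp only [hα]
    rw [← iota_add hζ, hcoc g h j, iota_add hζ, ← smul_iota hζ]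
    rfl
  have hαlev : IsLevelConstant₂ (Subgroup.subtype K.fixingSubgroup) α := hlev.comp (iota p ζ)
  have hαpow : ∀ s t, α (s, t) ^ p = 1 := fun s t => iota_pow hζ _
  have hαloc : LocTriv K.fixingSubgroup α := by
    intro q hq Av hAv
    obtain ⟨t, ht, hat⟩ := hloc q hq Av hAv
    refine ⟨fun s => iota p ζ (t s), ht.comp (iota p ζ), fun s s' => ?_⟩
    simp only [hα]
    rw [hat s s', iota_add hζ, iota_sub hζ, ← smul_iota hζ]
  obtain ⟨c₀, hc₀lev, hc₀⟩ := hHP K inferInstance α hαcoc hαlev hαpow hαloc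
  -- Kummer descent
  obtain ⟨c₁, hc₁lev, hc₁pow, hc₁⟩ := exists_torsion_cochain (Fact.out : p.Prime).pos
    K.fixingSubgroup c₀ hc₀lev (fun s t => by rw [← hc₀ s t]; exact hαpow s t)
  choose m hm using fun s => exists_iota_eq hζ (c₁ s) (hc₁pow s)
  refine ⟨m, ?_, fun g h => ?_⟩
  · obtain ⟨F, hF, hFc⟩ := hc₁lev
    refine ⟨F, hF, fun g s hs => iota_injective hζ ?_⟩
    rw [hm, hm, hFc g s hs]
  · apply iota_injective hζ
    rw [iota_add hζ, iota_sub hζ, ← smul_iota hζ, hm, hm, hm, hc₁ g h, ← hc₀ g h]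

/-- If `K` contains a primitive `p`-th root of unity, the cyclotomic character is trivial on
`K.fixingSubgroup`. -/
theorem cycloChar_eq_one_of_mem {p : ℕ} [Fact p.Prime] (K : IntermediateField ℚ Qb)
    {z : Qb} (hz : IsPrimitiveRoot z p) (hzK : z ∈ K) (g : Gq) (hg : g ∈ K.fixingSubgroup) :
    cycloChar p g = 1 := by
  haveI : NeZero p := ⟨(Fact.out : p.Prime).ne_zero⟩
  have hp1 : 1 < p := (Fact.out : p.Prime).one_lt
  set ζ : Qbˣ := (hz.isUnit (NeZero.ne p)).unit with hζdef
  have hζ : IsPrimitiveRoot ζ p := by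
    refine IsPrimitiveRoot.coe_units_iff.1 ?_
    rw [hζdef, IsUnit.unit_spec]
    exact hz
  have hfix : g • ζ = ζ := by
    apply Units.ext
    have := (IntermediateField.mem_fixingSubgroup_iff _ _).1 hg z hzK
    rw [hζdef]
    exact this
  have h1 := smul_iota hζ g 1
  rw [mul_one] at h1
  have h2 : iota p ζ 1 = ζ := by
    unfold iota
    rw [ZMod.val_one'' (by omega), pow_one]
  rw [h2, hfix] at h1
  have h3 : (1 : ZMod p) = (cycloChar p g : ZMod p) := iota_injective hζ (h2.trans h1)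
  exact Units.ext h3.symm

/-- **HP-K for trivial coefficients** (`K` contains the `p`-th roots of unity, in the form: the
cyclotomic character is trivial on `K.fixingSubgroup`; see `cycloChar_eq_one_of_mem`). -/
theorem hp_K_triv_of {p : ℕ} [Fact p.Prime] (hHP : HPUnitsStmt p)
    (K : IntermediateField ℚ Qb) [FiniteDimensional ℚ K]
    (hχ : ∀ g ∈ K.fixingSubgroup, cycloChar p g = 1)
    (a : K.fixingSubgroup × K.fixingSubgroup → ZMod p)
    (hcoc : ∀ g h j : K.fixingSubgroup, a (g * h, j) + a (g, h) = a (h, j) + a (g, h * j))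
    (hlev : IsLevelConstant₂ (Subgroup.subtype K.fixingSubgroup) a)
    (hloc : ∀ q : ℕ, q.Prime → ∀ Av : ValuationSubring Qb, Av.LiesOverPrime q →
      ∃ t : ↥(Av.decompositionSubgroup ℚ ⊓ K.fixingSubgroup) → ZMod p,
        IsLevelConstant₁ (Subgroup.subtype (Av.decompositionSubgroup ℚ ⊓ K.fixingSubgroup)) t ∧
        ∀ s s' : ↥(Av.decompositionSubgroup ℚ ⊓ K.fixingSubgroup),
          a (⟨s, s.2.2⟩, ⟨s', s'.2.2⟩) = t s' - t (s * s') + t s) :
    ∃ c : K.fixingSubgroup → ZMod p,
      IsLevelConstant₁ (Subgroup.subtype K.fixingSubgroup) c ∧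
      ∀ g h : K.fixingSubgroup, a (g, h) = c h - c (g * h) + c g := by
  have hχ' : ∀ g : K.fixingSubgroup, (cycloChar p (g : Gq) : ZMod p) = 1 := fun g => by
    rw [hχ g g.2]; rfl
  obtain ⟨c, hc, hac⟩ := hp_K_of hHP K a
    (fun g h j => by rw [hχ' g, one_mul]; exact hcoc g h j) hlev
    (fun q hq Av hAv => by
      obtain ⟨t, ht, hat⟩ := hloc q hq Av hAv
      refine ⟨t, ht, fun s s' => ?_⟩
      rw [hχ (s : Gq) s.2.2, hat s s']
      simp)
  exact ⟨c, hc, fun g h => by rw [hac g h, hχ' g, one_mul]⟩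

end Fermat.Agent.CFT.Global.HPK
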