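import Fermat.Agent.CFT.Global.HPK
import Fermat.Agent.CFT.Global.HP.Prime

/-!
# HP-K, hypothesis-free (odd `p`)

The Hasse principle for `H²(G_K, μ_p)`, `K` an arbitrary number field inside `Qb = ℚ̄`
(no hypothesis `ζ_p ∈ K`), `p` an odd prime:

* `hpUnitsStmt` : the tower theorem `HP.hp_units` with `hprime` discharged by
  `HP.Prime.lt_eq_zero_of_card_eq` (Hasse norm theorem);
* `hp_K` : a level-constant 2-cocycle of `G_K = K.fixingSubgroup` with values in `ZMod p`
  twisted by the mod `p` cyclotomic character, which is the coboundary of a level-constant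
  1-cochain on every `D(Av) ⊓ G_K` (`Av` a valuation subring of `Qb` over a rational prime), is
  the coboundary of a level-constant 1-cochain of `G_K`;
* `hp_K_triv` : the same for trivial coefficients when the cyclotomic character is trivial on
  `G_K`.
-/

set_option autoImplicit false

open groupCohomology

namespace Fermat.Agent.CFT.Global.HPK

open Fermat.Agent.CFT.Global.HP ExtCitation

/-- The tower theorem for odd `p`, hypothesis-free. -/
theorem hpUnitsStmt {p : ℕ} [Fact p.Prime] (hodd : p ≠ 2) : HPUnitsStmt p :=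
  fun K hK a ha hlev hpow hloc =>
    haveI := hK
    hp_units p (fun G _ _ A _ hcard x hx => Prime.lt_eq_zero_of_card_eq hodd G A hcard x hx)
      K a ha hlev hpow hloc

/-- **HP-K** (raw-function form, `μ_p`-coefficients, arbitrary number field `K ⊂ Qb`, `p` odd). -/
theorem hp_K {p : ℕ} [Fact p.Prime] (hodd : p ≠ 2)
    (K : IntermediateField ℚ Qb) [FiniteDimensional ℚ K]
    (a : K.fixingSubgroup × K.fixingSubgroup → ZMod p)
    (hcoc : ∀ g h j : K.fixingSubgroup, a (g * h, j) + a (g, h)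
        = (cycloChar p (g : Gq) : ZMod p) * a (h, j) + a (g, h * j))
    (hlev : IsLevelConstant₂ (Subgroup.subtype K.fixingSubgroup) a)
    (hloc : ∀ q : ℕ, q.Prime → ∀ Av : ValuationSubring Qb, Av.LiesOverPrime q →
      ∃ t : ↥(Av.decompositionSubgroup ℚ ⊓ K.fixingSubgroup) → ZMod p,
        IsLevelConstant₁ (Subgroup.subtype (Av.decompositionSubgroup ℚ ⊓ K.fixingSubgroup)) t ∧
        ∀ s s' : ↥(Av.decompositionSubgroup ℚ ⊓ K.fixingSubgroup),
          a (⟨s, s.2.2⟩, ⟨s', s'.2.2⟩)
            = (cycloChar p (s : Gq) : ZMod p) * t s' - t (s * s') + t s) :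
    ∃ c : K.fixingSubgroup → ZMod p,
      IsLevelConstant₁ (Subgroup.subtype K.fixingSubgroup) c ∧
      ∀ g h : K.fixingSubgroup,
        a (g, h) = (cycloChar p (g : Gq) : ZMod p) * c h - c (g * h) + c g :=
  hp_K_of (hpUnitsStmt hodd) K a hcoc hlev hloc

/-- **HP-K for trivial coefficients** (`p` odd, the cyclotomic character trivial on
`K.fixingSubgroup`, e.g. `ζ_p ∈ K`: `cycloChar_eq_one_of_mem`). -/
theorem hp_K_triv {p : ℕ} [Fact p.Prime] (hodd : p ≠ 2)
    (K : IntermediateField ℚ Qb) [FiniteDimensional ℚ K]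
    (hχ : ∀ g ∈ K.fixingSubgroup, cycloChar p g = 1)
    (a : K.fixingSubgroup × K.fixingSubgroup → ZMod p)
    (hcoc : ∀ g h j : K.fixingSubgroup, a (g * h, j) + a (g, h) = a (h, j) + a (g, h * j))
    (hlev : IsLevelConstant₂ (Subgroup.subtype K.fixingSubgroup) a)
    (hloc : ∀ q : ℕ, q.Prime → ∀ Av : ValuationSubring Qb, Av.LiesOverPrime q →
      ∃ t : ↥(Av.decompositionSubgroup ℚ ⊓ K.fixingSubgroup) → ZMod p,
        IsLevelConstant₁ (Subgroup.subtype (Av.decompositionSubgroup ℚ ⊓ K.fixingSubgroup)) t ∧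
        ∀ s s' : ↥(Av.decompositionSubgroup ℚ ⊓ K.fixingSubgroup),
          a (⟨s, s.2.2⟩, ⟨s', s'.2.2⟩) = t s' - t (s * s') + t s) :
    ∃ c : K.fixingSubgroup → ZMod p,
      IsLevelConstant₁ (Subgroup.subtype K.fixingSubgroup) c ∧
      ∀ g h : K.fixingSubgroup, a (g, h) = c h - c (g * h) + c g :=
  hp_K_triv_of (hpUnitsStmt hodd) K hχ a hcoc hlev hloc

end Fermat.Agent.CFT.Global.HPK
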