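/-
PROGRAM CFT (S55), step G5-LA: "isotropy + counting" (Hilbert–Furtwängler count).

Pure linear algebra over a field `k` (in the application `k = ZMod p`):

* `P`  : the local space `⊕_{w ∈ S} K_w^× / p` with the (nondegenerate) local Hilbert form `ω`;
* `B`  : the global Kummer group `B_S = H^1(G_{K,S}, μ_p)`, `loc : B → P` the localisation map;
* `C`  : `Cl_S(K) / p`;
* `A`  : the Artin pairing on `V0 = ker loc = Sha^1` against `C`.

From isotropy of the image of `loc` (product formula), the dimension counts
`dim P ≤ 2 n`, `n + ρ ≤ dim B`, `dim C ≤ ρ` and the vanishing of the left kernel of `A`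
we get: `dim ker loc = ρ = dim C`, `A` is perfect, and the image of `loc` is its own
orthogonal complement (on both sides).
-/
import Mathlib

set_option autoImplicit false

namespace Fermat.Agent.CFT.Global.LagrangianCount

open Module

section

variable {k P B C : Type*} [Field k] [AddCommGroup P] [Module k P] [AddCommGroup B] [Module k B]
  [AddCommGroup C] [Module k C]

/-- An isotropic subspace of a finite-dimensional space carrying a form with trivial left
kernel has at most half the dimension. -/
theorem two_mul_finrank_le_of_isotropic [FiniteDimensional k P]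
    (ω : P →ₗ[k] P →ₗ[k] k) (hω : ∀ x, (∀ y, ω x y = 0) → x = 0)
    (W : Submodule k P) (hW : ∀ x ∈ W, ∀ y ∈ W, ω x y = 0) :
    2 * finrank k W ≤ finrank k P := by
  -- `W → W.dualAnnihilator`, `w ↦ ω w`, is injective
  let i : W →ₗ[k] W.dualAnnihilator :=
    LinearMap.codRestrict W.dualAnnihilator (ω ∘ₗ W.subtype) (fun w => by
      rw [Submodule.mem_dualAnnihilator]
      intro y hy
      exact hW w w.2 y hy)
  have hi : Function.Injective i := by
    refine (injective_iff_map_eq_zero i).2 (fun w hw => ?_)
    have h1 : ω (w : P) = 0 := by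
      have := congrArg (Subtype.val) hw
      simpa [i] using this
    have h2 : (w : P) = 0 := hω _ (fun y => by rw [h1]; rfl)
    exact Subtype.ext h2
  have h1 : finrank k W ≤ finrank k W.dualAnnihilator := LinearMap.finrank_le_finrank_of_injective hi
  have h2 := Subspace.finrank_add_finrank_dualAnnihilator_eq W
  omega

/-- The right orthogonal of a subspace `W` (all `x` with `ω w x = 0` for `w ∈ W`) has dimension
`dim P - dim W` when `ω` has trivial left kernel. -/
theorem finrank_add_finrank_rightOrth [FiniteDimensional k P]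
    (ω : P →ₗ[k] P →ₗ[k] k) (hω : ∀ x, (∀ y, ω x y = 0) → x = 0)
    (W R : Submodule k P) (hR : ∀ x, x ∈ R ↔ ∀ w ∈ W, ω w x = 0) :
    finrank k W + finrank k R = finrank k P := by
  have hinj : Function.Injective ω := by
    rw [← LinearMap.ker_eq_bot, LinearMap.ker_eq_bot']
    intro x hx
    exact hω x (fun y => by rw [hx]; rfl)
  have hmap : finrank k (W.map ω) = finrank k W :=
    LinearEquiv.finrank_eq (Submodule.equivMapOfInjective ω hinj W).symm
  have hRe : R = (W.map ω).dualCoannihilator := by
    ext x
    rw [hR, Submodule.mem_dualCoannihilator]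
    constructor
    · rintro h φ ⟨w, hw, rfl⟩
      exact h w hw
    · intro h w hw
      exact h (ω w) ⟨w, hw, rfl⟩
  have h2 := Subspace.finrank_add_finrank_dualCoannihilator_eq (W.map ω)
  rw [hRe, ← hmap]
  exact h2

/-- A subspace `L` on which `x ↦ ω x` lands in the annihilator of `W` has dimension at most
`dim P - dim W` when `ω` has trivial left kernel. -/
theorem finrank_leftOrth_add_le [FiniteDimensional k P]
    (ω : P →ₗ[k] P →ₗ[k] k) (hω : ∀ x, (∀ y, ω x y = 0) → x = 0)
    (W L : Submodule k P) (hL : ∀ x ∈ L, ∀ w ∈ W, ω x w = 0) :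
    finrank k W + finrank k L ≤ finrank k P := by
  let i : L →ₗ[k] W.dualAnnihilator :=
    LinearMap.codRestrict W.dualAnnihilator (ω ∘ₗ L.subtype) (fun x => by
      rw [Submodule.mem_dualAnnihilator]
      intro y hy
      exact hL x x.2 y hy)
  have hi : Function.Injective i := by
    refine (injective_iff_map_eq_zero i).2 (fun w hw => ?_)
    have h1 : ω (w : P) = 0 := by
      have := congrArg (Subtype.val) hw
      simpa [i] using this
    have h2 : (w : P) = 0 := hω _ (fun y => by rw [h1]; rfl)
    exact Subtype.ext h2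
  have h1 : finrank k L ≤ finrank k W.dualAnnihilator := LinearMap.finrank_le_finrank_of_injective hi
  have h2 := Subspace.finrank_add_finrank_dualAnnihilator_eq W
  omega

/-- A pairing `A : V → C → k` with trivial left kernel and `dim C ≤ dim V` (finite) is perfect:
its right kernel is trivial as well, and the dimensions agree. -/
theorem right_nondeg_of_left_nondeg {V : Type*} [AddCommGroup V] [Module k V]
    [FiniteDimensional k V] [FiniteDimensional k C]
    (A : V →ₗ[k] C →ₗ[k] k) (hA : ∀ a, (∀ c, A a c = 0) → a = 0)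
    (hdim : finrank k C ≤ finrank k V) :
    finrank k V = finrank k C ∧ ∀ c, (∀ a, A a c = 0) → c = 0 := by
  have hinj : Function.Injective A := by
    rw [← LinearMap.ker_eq_bot, LinearMap.ker_eq_bot']
    intro x hx
    exact hA x (fun y => by rw [hx]; rfl)
  have h1 : finrank k V ≤ finrank k (Dual k C) := LinearMap.finrank_le_finrank_of_injective hinj
  have h2 : finrank k (Dual k C) = finrank k C := Subspace.dual_finrank_eq
  have heq : finrank k V = finrank k (Dual k C) := by omega
  have hsurj : Function.Surjective A :=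
    (LinearMap.injective_iff_surjective_of_finrank_eq_finrank heq).1 hinj
  refine ⟨by omega, fun c hc => ?_⟩
  rw [← Module.forall_dual_apply_eq_zero_iff k c]
  intro g
  obtain ⟨a, rfl⟩ := hsurj g
  exact hc a

/-- **Lagrangian count** (G5-LA).  `ω` a form on `P` with trivial left kernel, `loc : B → P`
with isotropic image, `dim P ≤ 2 n`, `n + ρ ≤ dim B`, `dim C ≤ ρ`, and a pairing
`A : ker loc → C → k` with trivial left kernel.  Then all inequalities are equalities,
`dim ker loc = ρ`, `A` is perfect and the image of `loc` is its own orthogonal (both sides). -/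
theorem lagrangian_count [FiniteDimensional k P] [FiniteDimensional k B] [FiniteDimensional k C]
    (ω : P →ₗ[k] P →ₗ[k] k) (hω : ∀ x, (∀ y, ω x y = 0) → x = 0)
    (loc : B →ₗ[k] P) (hiso : ∀ a b, ω (loc a) (loc b) = 0)
    (n ρ : ℕ) (hP : finrank k P ≤ 2 * n) (hB : n + ρ ≤ finrank k B) (hC : finrank k C ≤ ρ)
    (A : LinearMap.ker loc →ₗ[k] C →ₗ[k] k) (hA : ∀ a, (∀ c, A a c = 0) → a = 0) :
    finrank k (LinearMap.ker loc) = ρ ∧ finrank k C = ρ ∧ finrank k P = 2 * n ∧
      finrank k B = n + ρ ∧ finrank k (LinearMap.range loc) = n ∧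
      (∀ c, (∀ a, A a c = 0) → c = 0) ∧
      (∀ x, (∀ b, ω (loc b) x = 0) → x ∈ LinearMap.range loc) ∧
      (∀ x, (∀ b, ω x (loc b) = 0) → x ∈ LinearMap.range loc) := by
  have hWiso : ∀ x ∈ LinearMap.range loc, ∀ y ∈ LinearMap.range loc, ω x y = 0 := by
    rintro _ ⟨a, rfl⟩ _ ⟨b, rfl⟩
    exact hiso a b
  have h1 := two_mul_finrank_le_of_isotropic ω hω (LinearMap.range loc) hWiso
  have h2 := LinearMap.finrank_range_add_finrank_ker loc
  have hinjA : Function.Injective A := by
    rw [← LinearMap.ker_eq_bot, LinearMap.ker_eq_bot']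
    intro x hx
    exact hA x (fun y => by rw [hx]; rfl)
  have h3 : finrank k (LinearMap.ker loc) ≤ finrank k (Dual k C) :=
    LinearMap.finrank_le_finrank_of_injective hinjA
  have h4 : finrank k (Dual k C) = finrank k C := Subspace.dual_finrank_eq
  have hker : finrank k (LinearMap.ker loc) = ρ := by omega
  have hCeq : finrank k C = ρ := by omega
  have hW : finrank k (LinearMap.range loc) = n := by omega
  have hPeq : finrank k P = 2 * n := by omega
  have hBeq : finrank k B = n + ρ := by omega
  refine ⟨hker, hCeq, hPeq, hBeq, hW, ?_, ?_, ?_⟩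
  · exact (right_nondeg_of_left_nondeg A hA (by omega)).2
  · -- right orthogonal
    let R : Submodule k P :=
      { carrier := {x | ∀ w ∈ LinearMap.range loc, ω w x = 0}
        add_mem' := fun {x y} hx hy w hw => by rw [map_add, hx w hw, hy w hw, add_zero]
        zero_mem' := fun w _ => by rw [map_zero]
        smul_mem' := fun c x hx w hw => by rw [map_smul, hx w hw, smul_zero] }
    have hR : ∀ x, x ∈ R ↔ ∀ w ∈ LinearMap.range loc, ω w x = 0 := fun x => Iff.rfl
    have h5 := finrank_add_finrank_rightOrth ω hω (LinearMap.range loc) R hR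
    have hle : LinearMap.range loc ≤ R := fun x hx w hw => hWiso w hw x hx
    have heq : LinearMap.range loc = R :=
      Submodule.eq_of_le_of_finrank_le hle (by omega)
    intro x hx
    rw [heq]
    rintro _ ⟨b, rfl⟩
    exact hx b
  · -- left orthogonal
    let L : Submodule k P :=
      { carrier := {x | ∀ w ∈ LinearMap.range loc, ω x w = 0}
        add_mem' := fun {x y} hx hy w hw => by
          rw [map_add, LinearMap.add_apply, hx w hw, hy w hw, add_zero]
        zero_mem' := fun w _ => by rw [map_zero]; rfl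
        smul_mem' := fun c x hx w hw => by
          rw [map_smul, LinearMap.smul_apply, hx w hw, smul_zero] }
    have h5 := finrank_leftOrth_add_le ω hω (LinearMap.range loc) L (fun x hx w hw => hx w hw)
    have hle : LinearMap.range loc ≤ L := fun x hx w hw => hWiso x hx w hw
    have heq : LinearMap.range loc = L :=
      Submodule.eq_of_le_of_finrank_le hle (by omega)
    intro x hx
    rw [heq]
    rintro _ ⟨b, rfl⟩
    exact hx b

end

section Card

/-- A finite `ZMod p`-module has `p ^ finrank` elements. -/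
theorem natCard_eq_pow_finrank_zmod (p : ℕ) [Fact p.Prime] (V : Type*) [AddCommGroup V] [Module (ZMod p) V] [Finite V] :
    Nat.card V = p ^ finrank (ZMod p) V := by
  have : Module.Finite (ZMod p) V := Module.Finite.of_finite
  rw [Module.natCard_eq_pow_finrank (K := ZMod p), Nat.card_zmod]

variable {p : ℕ} [Fact p.Prime] {P B C : Type*} [AddCommGroup P] [Module (ZMod p) P]
  [AddCommGroup B] [Module (ZMod p) B] [AddCommGroup C] [Module (ZMod p) C]

/-- `lagrangian_count` for `k = ZMod p` with the counting hypotheses in `Nat.card` form. -/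
theorem lagrangian_count_card [Finite P] [Finite B] [Finite C]
    (ω : P →ₗ[ZMod p] P →ₗ[ZMod p] ZMod p) (hω : ∀ x, (∀ y, ω x y = 0) → x = 0)
    (loc : B →ₗ[ZMod p] P) (hiso : ∀ a b, ω (loc a) (loc b) = 0)
    (n ρ : ℕ) (hP : Nat.card P ≤ p ^ (2 * n)) (hB : p ^ (n + ρ) ≤ Nat.card B)
    (hC : Nat.card C ≤ p ^ ρ)
    (A : LinearMap.ker loc →ₗ[ZMod p] C →ₗ[ZMod p] ZMod p) (hA : ∀ a, (∀ c, A a c = 0) → a = 0) :
    Nat.card (LinearMap.ker loc) = p ^ ρ ∧ Nat.card C = p ^ ρ ∧ Nat.card P = p ^ (2 * n) ∧
      Nat.card B = p ^ (n + ρ) ∧ Nat.card (LinearMap.range loc) = p ^ n ∧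
      (∀ c, (∀ a, A a c = 0) → c = 0) ∧
      (∀ x, (∀ b, ω (loc b) x = 0) → x ∈ LinearMap.range loc) ∧
      (∀ x, (∀ b, ω x (loc b) = 0) → x ∈ LinearMap.range loc) := by
  have hp1 : 1 < p := (Fact.out : p.Prime).one_lt
  have : Module.Finite (ZMod p) P := Module.Finite.of_finite
  have : Module.Finite (ZMod p) B := Module.Finite.of_finite
  have : Module.Finite (ZMod p) C := Module.Finite.of_finite
  rw [natCard_eq_pow_finrank_zmod p P] at hP
  rw [natCard_eq_pow_finrank_zmod p B] at hB
  rw [natCard_eq_pow_finrank_zmod p C] at hC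
  have hP' := (Nat.pow_le_pow_iff_right hp1).1 hP
  have hB' := (Nat.pow_le_pow_iff_right hp1).1 hB
  have hC' := (Nat.pow_le_pow_iff_right hp1).1 hC
  obtain ⟨h1, h2, h3, h4, h5, h6, h7, h8⟩ := lagrangian_count ω hω loc hiso n ρ hP' hB' hC' A hA
  refine ⟨?_, ?_, ?_, ?_, ?_, h6, h7, h8⟩
  · rw [natCard_eq_pow_finrank_zmod p, h1]
  · rw [natCard_eq_pow_finrank_zmod p, h2]
  · rw [natCard_eq_pow_finrank_zmod p, h3]
  · rw [natCard_eq_pow_finrank_zmod p, h4]
  · rw [natCard_eq_pow_finrank_zmod p, h5]

end Card

end Fermat.Agent.CFT.Global.LagrangianCount
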