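import Fermat.Agent.CFT.Global.LocalFirstIneq
import Fermat.Agent.CFT.Global.HasseNorm.Hyp

/-!
# `LocalFirstIneqRam` for cyclic extensions (adapter to `HasseNorm/Hyp.lean`)
-/

set_option autoImplicit false

open scoped NumberField
open IsDedekindDomain

namespace Fermat.Agent.CFT.Global.LocalFirstIneq

open Fermat.Agent.CFT.Global.HasseNorm

universe u v

variable {K : Type u} {L : Type v} [Field K] [NumberField K] [Field L] [NumberField L]
  [Algebra K L]

/-- The local first inequality hypothesis of the Hasse norm theorem holds for every cyclic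
extension of degree `≥ 2`. -/
theorem localFirstIneqRam_of_isCyclic [IsGalois K L] [IsCyclic (L ≃ₐ[K] L)]
    (hKL : 1 < Module.finrank K L) : LocalFirstIneqRam K L :=
  LocalFirstIneqRam.of_nonsplit (fun v hv => exists_ne_zero_not_approxNorm hKL v hv)

/-- The local first inequality hypothesis of the Hasse norm theorem for a Galois extension of
prime degree. -/
theorem localFirstIneqRam_of_prime [IsGalois K L] {p : ℕ} (hp : p.Prime)
    (hdeg : Module.finrank K L = p) : LocalFirstIneqRam K L := by
  have hcard : Nat.card (L ≃ₐ[K] L) = p := by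
    rw [IsGalois.card_aut_eq_finrank, hdeg]
  have : Fact p.Prime := ⟨hp⟩
  have : IsCyclic (L ≃ₐ[K] L) := isCyclic_of_prime_card hcard
  exact localFirstIneqRam_of_isCyclic (by rw [hdeg]; exact hp.one_lt)

end Fermat.Agent.CFT.Global.LocalFirstIneq
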