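/-
Prime-order corollary of the permutation-module Herbrand quotient: for a group `G` of prime
order `p` acting on a finite set `X`, the product over the orbits of the stabilizer orders is
`p ^ (number of fixed points)`.
-/
import Mathlib
import Fermat.Agent.CFT.Global.PermHerbrand

set_option autoImplicit false

namespace Fermat.Agent.CFT.Global.PermPrime

open Fermat.Agent.CFT.Global.PermHerbrand

variable {G : Type*} [Group G] [Fintype G] {X : Type*} [Fintype X] [MulAction G X]

set_option linter.unusedSectionVars false

/-- For `G` of prime order `p`, the stabilizer order `kap G w` is `p` at a fixed point and `1`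
elsewhere. -/
theorem kap_eq_ite_of_prime {p : ℕ} (hp : p.Prime) (hG : Fintype.card G = p) (w : X) [Decidable (w ∈ MulAction.fixedPoints G X)] :
    kap G w = if w ∈ MulAction.fixedPoints G X then p else 1 := by
  rw [kap_eq_card_stabilizer]
  have hdvd : Nat.card (MulAction.stabilizer G w) ∣ p := by
    rw [← hG, ← Nat.card_eq_fintype_card]
    exact Subgroup.card_subgroup_dvd_card _
  split_ifs with hw
  · have htop : MulAction.stabilizer G w = ⊤ := by
      ext τ
      simp only [MulAction.mem_stabilizer_iff, Subgroup.mem_top, iff_true]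
      exact hw τ
    rw [htop, Subgroup.card_top, Nat.card_eq_fintype_card, hG]
  · rcases (Nat.dvd_prime hp).1 hdvd with h1 | h1
    · exact h1
    · exfalso
      apply hw
      have htop : MulAction.stabilizer G w = ⊤ := by
        apply (Subgroup.card_eq_iff_eq_top _).1
        rw [h1, Nat.card_eq_fintype_card, hG]
      intro τ
      have hτ : τ ∈ MulAction.stabilizer G w := htop ▸ Subgroup.mem_top τ
      exact hτ

/-- A fixed point is the chosen representative of its orbit. -/
theorem out_mk_of_fixed {w : X} (hw : w ∈ MulAction.fixedPoints G X) :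
    (Quotient.mk'' w : MulAction.orbitRel.Quotient G X).out = w := by
  have h := Quotient.mk_out (s := MulAction.orbitRel G X) w
  rw [MulAction.orbitRel_apply] at h
  obtain ⟨τ, hτ⟩ := h
  rw [← hτ]
  exact hw τ

/-- **Prime order**: `∏_O |Stab(O.out)| = p ^ #(fixed points)`. -/
theorem prod_kap_eq_pow_fixedPoints [Fintype (MulAction.orbitRel.Quotient G X)] {p : ℕ}
    (hp : p.Prime) (hG : Fintype.card G = p) :
    ∏ O : MulAction.orbitRel.Quotient G X, kap G O.out =
      p ^ Nat.card (MulAction.fixedPoints G X) := by
  classical
  rw [Finset.prod_congr rfl (fun O _ => kap_eq_ite_of_prime hp hG O.out),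
    Finset.prod_ite, Finset.prod_const, Finset.prod_const_one, mul_one]
  congr 1
  rw [← Nat.card_eq_finsetCard]
  refine Nat.card_congr ?_
  refine Equiv.ofBijective
    (fun O => ⟨(O : MulAction.orbitRel.Quotient G X).out, (Finset.mem_filter.1 O.2).2⟩) ⟨?_, ?_⟩
  · intro O O' hOO'
    have h1 : (O : MulAction.orbitRel.Quotient G X).out = (O' : MulAction.orbitRel.Quotient G X).out :=
      congrArg Subtype.val hOO'
    exact Subtype.ext (Quotient.out_injective h1)
  · rintro ⟨w, hw⟩
    have hout := out_mk_of_fixed hw
    refine ⟨⟨Quotient.mk'' w, ?_⟩, Subtype.ext hout⟩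
    rw [Finset.mem_filter]
    exact ⟨Finset.mem_univ _, by rw [hout]; exact hw⟩

/-- Same, with the fixed points spelled as a subtype. -/
theorem prod_kap_eq_pow_card_fixed [Fintype (MulAction.orbitRel.Quotient G X)] {p : ℕ}
    (hp : p.Prime) (hG : Fintype.card G = p) :
    ∏ O : MulAction.orbitRel.Quotient G X, kap G O.out =
      p ^ Nat.card {w : X // ∀ τ : G, τ • w = w} := by
  rw [prod_kap_eq_pow_fixedPoints hp hG]
  rfl

end Fermat.Agent.CFT.Global.PermPrime
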