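import Mathlib

/-!
# Index of the subgroup of `n`-th powers of a commutative group

`pIdx G n = [G : G^n]` (`0` if infinite), with the index calculus needed for Dirichlet's
`S`-unit theorem modulo `p`:

* `pIdx_congr` : invariance under isomorphisms;
* `pIdx_of_surjective`, `pIdx_of_hom` : multiplicativity in `1 → ker φ → G → C` when `C` has no
  `n`-torsion;
* `pIdx_subgroup_of_finiteIndex` : a subgroup of finite index of an `n`-torsion-free group has the
  same power index;
* `pIdx_of_finite` : for a finite group, `[G : G^n] = #G[n]`;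
* `pIdx_pi_int` : `[ℤ^ι : n ℤ^ι] = n ^ #ι`.

(helper167, program CFT)
-/

set_option autoImplicit false

namespace Fermat.Agent.CFT.Global.PowIndex

open Function

/-- index of the subgroup of `n`-th powers (`0` if infinite) -/
noncomputable def pIdx (G : Type*) [CommGroup G] (n : ℕ) : ℕ :=
  (powMonoidHom n : G →* G).range.index

variable {G : Type*} [CommGroup G]

lemma mem_range_pow {n : ℕ} {x : G} :
    x ∈ (powMonoidHom n : G →* G).range ↔ ∃ y : G, y ^ n = x := by
  simp only [MonoidHom.mem_range, powMonoidHom_apply]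

/-- invariance under isomorphism -/
theorem pIdx_congr {H : Type*} [CommGroup H] (e : G ≃* H) (n : ℕ) : pIdx G n = pIdx H n := by
  unfold pIdx
  have h : (powMonoidHom n : H →* H).range
      = (powMonoidHom n : G →* G).range.map (e : G →* H) := by
    ext x
    rw [mem_range_pow, Subgroup.mem_map]
    constructor
    · rintro ⟨y, rfl⟩
      exact ⟨e.symm y ^ n, mem_range_pow.mpr ⟨e.symm y, rfl⟩, by simp⟩
    · rintro ⟨z, hz, rfl⟩
      obtain ⟨y, rfl⟩ := mem_range_pow.mp hz
      exact ⟨e y, by simp⟩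
  rw [h, Subgroup.index_map_equiv]

/-- multiplicativity of the power index along a surjection onto an `n`-torsion-free group -/
theorem pIdx_of_surjective {C : Type*} [CommGroup C] (φ : G →* C) (hφ : Surjective φ) (n : ℕ)
    (hC : ∀ c : C, c ^ n = 1 → c = 1) :
    pIdx G n = pIdx φ.ker n * pIdx C n := by
  unfold pIdx
  have hsup : ((powMonoidHom n : C →* C).range).comap φ
      = φ.ker ⊔ (powMonoidHom n : G →* G).range := by
    ext g
    rw [Subgroup.mem_comap, mem_range_pow, Subgroup.mem_sup]
    constructor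
    · rintro ⟨c, hc⟩
      obtain ⟨g', rfl⟩ := hφ c
      refine ⟨g * (g' ^ n)⁻¹, ?_, g' ^ n, mem_range_pow.mpr ⟨g', rfl⟩, by group⟩
      rw [MonoidHom.mem_ker, map_mul, map_inv, map_pow, hc, mul_inv_cancel]
    · rintro ⟨k, hk, z, hz, rfl⟩
      obtain ⟨y, rfl⟩ := mem_range_pow.mp hz
      exact ⟨φ y, by rw [map_mul, MonoidHom.mem_ker.mp hk, one_mul, map_pow]⟩
  have h1 : (φ.ker ⊔ (powMonoidHom n : G →* G).range).index
      = (powMonoidHom n : C →* C).range.index := by
    rw [← hsup, Subgroup.index_comap_of_surjective _ hφ]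
  have h2 : (powMonoidHom n : G →* G).range.relIndex (φ.ker ⊔ (powMonoidHom n : G →* G).range)
      = (powMonoidHom n : φ.ker →* φ.ker).range.index := by
    rw [Subgroup.relIndex_sup_right]
    unfold Subgroup.relIndex
    congr 1
    ext ⟨x, hx⟩
    rw [Subgroup.mem_subgroupOf, mem_range_pow, mem_range_pow]
    constructor
    · rintro ⟨y, hy⟩
      have hy' : y ^ n = x := hy
      have hφy : φ y = 1 := hC _ (by rw [← map_pow, hy']; exact hx)
      exact ⟨⟨y, hφy⟩, Subtype.ext hy'⟩
    · rintro ⟨⟨y, hy⟩, h⟩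
      exact ⟨y, congrArg Subtype.val h⟩
  rw [← Subgroup.relIndex_mul_index
    (le_sup_right : (powMonoidHom n : G →* G).range ≤ φ.ker ⊔ (powMonoidHom n : G →* G).range),
    h1, h2]

/-- multiplicativity of the power index along a homomorphism to an `n`-torsion-free group -/
theorem pIdx_of_hom {C : Type*} [CommGroup C] (φ : G →* C) (n : ℕ)
    (hC : ∀ c : C, c ^ n = 1 → c = 1) :
    pIdx G n = pIdx φ.ker n * pIdx φ.range n := by
  have h := pIdx_of_surjective φ.rangeRestrict φ.rangeRestrict_surjective n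
    (fun c hc => Subtype.ext (hC c (by simpa using congrArg Subtype.val hc)))
  rw [h, pIdx_congr (MulEquiv.subgroupCongr φ.ker_rangeRestrict) n]

/-- a subgroup of finite index of an `n`-torsion-free group has the same power index -/
theorem pIdx_subgroup_of_finiteIndex (Λ : Subgroup G) (hΛ : Λ.index ≠ 0) (n : ℕ)
    (hG : ∀ g : G, g ^ n = 1 → g = 1) : pIdx Λ n = pIdx G n := by
  unfold pIdx
  have hf : Injective (powMonoidHom n : G →* G) :=
    (injective_iff_map_eq_one _).mpr (fun g hg => hG g hg)
  have hQP : Λ.map (powMonoidHom n : G →* G) ≤ (powMonoidHom n : G →* G).range := by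
    rintro _ ⟨x, _, rfl⟩
    exact ⟨x, rfl⟩
  have hQΛ : Λ.map (powMonoidHom n : G →* G) ≤ Λ := by
    rintro _ ⟨x, hx, rfl⟩
    exact Λ.pow_mem hx n
  have e1 := Subgroup.relIndex_mul_index hQP
  have e2 := Subgroup.relIndex_mul_index hQΛ
  have e3 : (Λ.map (powMonoidHom n : G →* G)).relIndex (powMonoidHom n : G →* G).range
      = Λ.index := by
    rw [MonoidHom.range_eq_map, Subgroup.relIndex_map_map_of_injective Λ ⊤ hf,
      Subgroup.relIndex_top_right]
  have e4 : (Λ.map (powMonoidHom n : G →* G)).relIndex Λ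
      = (powMonoidHom n : Λ →* Λ).range.index := by
    unfold Subgroup.relIndex
    congr 1
    ext ⟨x, hx⟩
    rw [Subgroup.mem_subgroupOf, mem_range_pow, Subgroup.mem_map]
    constructor
    · rintro ⟨y, hy, hyx⟩
      exact ⟨⟨y, hy⟩, Subtype.ext hyx⟩
    · rintro ⟨⟨y, hy⟩, h⟩
      exact ⟨y, hy, congrArg Subtype.val h⟩
  rw [e3] at e1
  rw [e4] at e2
  have h : (powMonoidHom n : Λ →* Λ).range.index * Λ.index
      = (powMonoidHom n : G →* G).range.index * Λ.index := by
    rw [e2, ← e1, mul_comm]
  exact Nat.eq_of_mul_eq_mul_right (Nat.pos_of_ne_zero hΛ) h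

/-- for a finite group, the power index is the number of `n`-torsion elements -/
theorem pIdx_of_finite [Finite G] (n : ℕ) :
    pIdx G n = Nat.card (powMonoidHom n : G →* G).ker := by
  unfold pIdx
  have h1 := Subgroup.card_mul_index (powMonoidHom n : G →* G).ker
  have h2 := Subgroup.card_mul_index (powMonoidHom n : G →* G).range
  rw [Subgroup.index_ker] at h1
  have hpos : 0 < Nat.card (powMonoidHom n : G →* G).range := Nat.card_pos
  have h : Nat.card (powMonoidHom n : G →* G).range * (powMonoidHom n : G →* G).range.index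
      = Nat.card (powMonoidHom n : G →* G).range * Nat.card (powMonoidHom n : G →* G).ker := by
    rw [h2, ← h1, mul_comm]
  exact Nat.eq_of_mul_eq_mul_left hpos h

/-- the power index of a product -/
theorem pIdx_prod (A B : Type*) [CommGroup A] [CommGroup B] (n : ℕ) :
    pIdx (A × B) n = pIdx A n * pIdx B n := by
  unfold pIdx
  have h : (powMonoidHom n : A × B →* A × B).range
      = (powMonoidHom n : A →* A).range.prod (powMonoidHom n : B →* B).range := by
    ext ⟨a, b⟩
    rw [Subgroup.mem_prod, mem_range_pow, mem_range_pow, mem_range_pow]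
    constructor
    · rintro ⟨⟨y, z⟩, hyz⟩
      rw [Prod.pow_mk, Prod.mk.injEq] at hyz
      exact ⟨⟨y, hyz.1⟩, ⟨z, hyz.2⟩⟩
    · rintro ⟨⟨y, hy⟩, ⟨z, hz⟩⟩
      exact ⟨(y, z), by rw [Prod.pow_mk, hy, hz]⟩
  rw [h, Subgroup.index_prod]

/-- the power subgroup of `Multiplicative M` -/
lemma range_pow_multiplicative (M : Type*) [AddCommGroup M] (n : ℕ) :
    (powMonoidHom n : Multiplicative M →* Multiplicative M).range
      = AddSubgroup.toSubgroup (nsmulAddMonoidHom n : M →+ M).range := by
  ext x
  rw [mem_range_pow]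
  constructor
  · rintro ⟨y, rfl⟩
    exact ⟨Multiplicative.toAdd y, rfl⟩
  · rintro ⟨y, hy⟩
    exact ⟨Multiplicative.ofAdd y, hy⟩

/-- `[ℤ^ι : n ℤ^ι] = n ^ #ι` -/
theorem pIdx_pi_int (ι : Type*) [Finite ι] (n : ℕ) [NeZero n] :
    pIdx (Multiplicative (ι → ℤ)) n = n ^ Nat.card ι := by
  unfold pIdx
  rw [range_pow_multiplicative, AddSubgroup.index_toSubgroup]
  let f : (ι → ℤ) →+ (ι → ZMod n) := (Int.castAddHom (ZMod n)).compLeft ι
  have hf : Surjective f := by
    intro g
    refine ⟨fun i => (ZMod.intCast_surjective (g i)).choose, funext fun i => ?_⟩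
    exact (ZMod.intCast_surjective (g i)).choose_spec
  have hker : f.ker = (nsmulAddMonoidHom n : (ι → ℤ) →+ (ι → ℤ)).range := by
    ext g
    rw [AddMonoidHom.mem_ker, AddMonoidHom.mem_range]
    constructor
    · intro hg
      have hdvd : ∀ i, (n : ℤ) ∣ g i := fun i =>
        (ZMod.intCast_zmod_eq_zero_iff_dvd (g i) n).mp (congrFun hg i)
      refine ⟨fun i => (hdvd i).choose, funext fun i => ?_⟩
      have := (hdvd i).choose_spec
      simp only [nsmulAddMonoidHom_apply, Pi.smul_apply, nsmul_eq_mul]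
      exact this.symm
    · rintro ⟨h, rfl⟩
      funext i
      show ((n • h) i : ZMod n) = 0
      simp
  rw [← hker, AddSubgroup.index_ker, AddMonoidHom.range_eq_top.mpr hf]
  rw [AddSubgroup.card_top, Nat.card_fun, Nat.card_zmod]

end Fermat.Agent.CFT.Global.PowIndex
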