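/-
Dirichlet's S-unit theorem modulo `n`-th powers, and the cardinality of the Selmer group `K⟮S,n⟯`.

Part 1: pure group theory (index of the subgroup of `n`-th powers).
Part 2: Dirichlet's unit theorem modulo `n`-th powers.
Part 3: the valuation sequence `1 → Rˣ → S.unit K → (S → ℤ)` with range of finite index, and
  `[O_S^× : O_S^×ⁿ] = gcd(w_K, n) * n ^ (rank K + |S|)`.
-/
import Mathlib

set_option autoImplicit false
-- Mathlib itself is compiled with this option (lakefile); some instances on
-- `Additive ((𝓞 K)ˣ ⧸ torsion K)` are not found without it.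
set_option maxSynthPendingDepth 3

namespace Fermat.Agent.CFT.Global.SUnit

section PowIndex

/-- The index of the subgroup of `n`-th powers of a commutative group (`0` if infinite). -/
noncomputable def powIndex (G : Type*) [CommGroup G] (n : ℕ) : ℕ :=
  (powMonoidHom n : G →* G).range.index

variable {G H F : Type*} [CommGroup G] [CommGroup H] [CommGroup F]

theorem powIndex_eq_card (G : Type*) [CommGroup G] (n : ℕ) :
    powIndex G n = Nat.card (G ⧸ (powMonoidHom n : G →* G).range) :=
  Subgroup.index_eq_card _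

theorem powIndex_congr (e : G ≃* H) (n : ℕ) : powIndex G n = powIndex H n := by
  unfold powIndex
  have h : (powMonoidHom n : G →* G).range =
      ((powMonoidHom n : H →* H).range).comap e.toMonoidHom := by
    ext x
    simp only [MonoidHom.mem_range, powMonoidHom_apply, Subgroup.mem_comap, MulEquiv.coe_toMonoidHom]
    constructor
    · rintro ⟨y, rfl⟩
      exact ⟨e y, by simp⟩
    · rintro ⟨y, hy⟩
      refine ⟨e.symm y, ?_⟩
      apply e.injective
      simp [hy]
  rw [h, Subgroup.index_comap_of_surjective _ e.surjective]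

/-- The subgroup of `n`-th powers of a subgroup `K`, as a relative index. -/
theorem relIndex_map_pow (K : Subgroup G) (n : ℕ) :
    (K.map (powMonoidHom n)).relIndex K = powIndex K n := by
  unfold powIndex Subgroup.relIndex
  congr 1
  ext ⟨x, hx⟩
  simp only [Subgroup.mem_subgroupOf, Subgroup.mem_map, powMonoidHom_apply, MonoidHom.mem_range]
  constructor
  · rintro ⟨y, hy, hyx⟩
    exact ⟨⟨y, hy⟩, Subtype.ext hyx⟩
  · rintro ⟨⟨y, hy⟩, hyx⟩
    exact ⟨y, hy, congrArg Subtype.val hyx⟩

/-- Multiplicativity of the index of `n`-th powers along a homomorphism with `n`-torsion-free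
target: `[G : Gⁿ] = [ker f : (ker f)ⁿ] * [im f : (im f)ⁿ]`. -/
theorem powIndex_eq_mul (f : G →* F) (n : ℕ) (htf : ∀ x : F, x ^ n = 1 → x = 1) :
    powIndex G n = powIndex f.ker n * powIndex f.range n := by
  set P : Subgroup G := (powMonoidHom n : G →* G).range with hP
  have h1 : P.relIndex (P ⊔ f.ker) * (P ⊔ f.ker).index = P.index :=
    Subgroup.relIndex_mul_index le_sup_left
  have h2 : (P ⊔ f.ker).index = powIndex f.range n := by
    rw [← Subgroup.comap_map_eq, Subgroup.index_comap, ← relIndex_map_pow]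
    congr 1
    ext x
    simp only [hP, Subgroup.mem_map, MonoidHom.mem_range, powMonoidHom_apply]
    constructor
    · rintro ⟨_, ⟨y, rfl⟩, rfl⟩
      exact ⟨f y, ⟨y, rfl⟩, (map_pow f y n).symm⟩
    · rintro ⟨_, ⟨y, rfl⟩, rfl⟩
      exact ⟨y ^ n, ⟨y, rfl⟩, map_pow f y n⟩
  have h3 : P.relIndex (P ⊔ f.ker) = powIndex f.ker n := by
    rw [Subgroup.relIndex_sup_left, ← Subgroup.inf_relIndex_right, ← relIndex_map_pow]
    congr 1
    ext x
    simp only [Subgroup.mem_inf, hP, MonoidHom.mem_range, powMonoidHom_apply, MonoidHom.mem_ker,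
      Subgroup.mem_map]
    constructor
    · rintro ⟨⟨y, rfl⟩, hx⟩
      refine ⟨y, htf _ ?_, rfl⟩
      rw [← map_pow]; exact hx
    · rintro ⟨y, hy, rfl⟩
      exact ⟨⟨y, rfl⟩, by rw [map_pow, hy, one_pow]⟩
  unfold powIndex at *
  rw [← h1, h2, h3]

/-- A finite-index subgroup of a group with injective `n`-th power map has the same index of
`n`-th powers as the whole group. -/
theorem powIndex_subgroup_of_index_ne_zero (K : Subgroup G) (n : ℕ)
    (hinj : Function.Injective (powMonoidHom n : G →* G)) (hK : K.index ≠ 0) :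
    powIndex K n = powIndex G n := by
  have hle : K.map (powMonoidHom n) ≤ K := by
    rintro _ ⟨y, hy, rfl⟩
    exact pow_mem hy n
  have h1 : (K.map (powMonoidHom n)).relIndex K * K.index = (K.map (powMonoidHom n)).index :=
    Subgroup.relIndex_mul_index hle
  have hle2 : K.map (powMonoidHom n) ≤ (powMonoidHom n : G →* G).range := by
    rintro _ ⟨y, _, rfl⟩
    exact ⟨y, rfl⟩
  have h2 : (K.map (powMonoidHom n)).relIndex (powMonoidHom n : G →* G).range *
      (powMonoidHom n : G →* G).range.index = (K.map (powMonoidHom n)).index :=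
    Subgroup.relIndex_mul_index hle2
  have h3 : (K.map (powMonoidHom n)).relIndex (powMonoidHom n : G →* G).range = K.index := by
    rw [MonoidHom.range_eq_map, Subgroup.relIndex_map_map_of_injective _ _ hinj,
      Subgroup.relIndex_top_right]
  rw [relIndex_map_pow] at h1
  rw [h3] at h2
  unfold powIndex at *
  have : (powMonoidHom n : K →* K).range.index * K.index =
      (powMonoidHom n : G →* G).range.index * K.index := by
    rw [h1, mul_comm, h2]
  exact Nat.eq_of_mul_eq_mul_right (Nat.pos_of_ne_zero hK) this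

/-- The index of `n`-th powers in `ι → Multiplicative ℤ` is `n ^ card ι`. -/
theorem powIndex_pi_multiplicative_int (ι : Type*) [Finite ι] (n : ℕ) [NeZero n] :
    powIndex (ι → Multiplicative ℤ) n = n ^ Nat.card ι := by
  let f : (ι → Multiplicative ℤ) →* (ι → Multiplicative (ZMod n)) :=
    (AddMonoidHom.toMultiplicative (Int.castAddHom (ZMod n))).compLeft ι
  have hf : Function.Surjective f := by
    intro y
    choose z hz using fun i => ZMod.intCast_surjective (Multiplicative.toAdd (y i))
    refine ⟨fun i => Multiplicative.ofAdd (z i), ?_⟩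
    funext i
    change Multiplicative.ofAdd ((z i : ℤ) : ZMod n) = y i
    rw [hz i]; rfl
  have hker : f.ker = (powMonoidHom n : (ι → Multiplicative ℤ) →* (ι → Multiplicative ℤ)).range := by
    ext x
    rw [MonoidHom.mem_ker, MonoidHom.mem_range]
    constructor
    · intro hx
      have hx' : ∀ i, ((Multiplicative.toAdd (x i) : ℤ) : ZMod n) = 0 := fun i => by
        have := congrFun hx i
        exact this
      have hdvd : ∀ i, (n : ℤ) ∣ Multiplicative.toAdd (x i) := fun i =>
        (ZMod.intCast_zmod_eq_zero_iff_dvd _ _).1 (hx' i)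
      choose z hz using hdvd
      refine ⟨fun i => Multiplicative.ofAdd (z i), ?_⟩
      funext i
      change (Multiplicative.ofAdd (z i)) ^ n = x i
      rw [← ofAdd_nsmul, nsmul_eq_mul, ← hz i]; rfl
    · rintro ⟨y, rfl⟩
      funext i
      change Multiplicative.ofAdd (((Multiplicative.toAdd ((y i) ^ n) : ℤ)) : ZMod n) = 1
      rw [toAdd_pow, nsmul_eq_mul]
      simp
  unfold powIndex
  rw [← hker, Subgroup.index_ker, MonoidHom.range_eq_top.2 hf, Subgroup.card_top, Nat.card_fun]
  congr 1
  rw [Nat.card_congr Multiplicative.toAdd, Nat.card_zmod]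

theorem pi_multiplicative_int_pow_eq_one {ι : Type*} {n : ℕ} (hn : n ≠ 0)
    {x : ι → Multiplicative ℤ} (hx : x ^ n = 1) : x = 1 := by
  funext i
  have hi : (x i) ^ n = 1 := congrFun hx i
  have h2 : n • Multiplicative.toAdd (x i) = 0 := by
    rw [← toAdd_pow, hi]; rfl
  rw [nsmul_eq_mul] at h2
  rcases mul_eq_zero.1 h2 with h | h
  · exact absurd (by exact_mod_cast h) hn
  · exact Multiplicative.toAdd.injective h

theorem pi_multiplicative_int_pow_injective (ι : Type*) {n : ℕ} (hn : n ≠ 0) :
    Function.Injective (powMonoidHom n : (ι → Multiplicative ℤ) →* (ι → Multiplicative ℤ)) := by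
  rw [injective_iff_map_eq_one]
  intro x hx
  exact pi_multiplicative_int_pow_eq_one hn hx

end PowIndex

section Units

open NumberField NumberField.Units

variable (K : Type*) [Field K] [NumberField K]

/-- `(𝓞 K)ˣ ⧸ torsion K` is isomorphic to `Fin (rank K) → Multiplicative ℤ`. -/
noncomputable def modTorsionEquiv :
    ((𝓞 K)ˣ ⧸ torsion K) ≃* (Fin (rank K) → Multiplicative ℤ) :=
  (AddEquiv.toMultiplicativeRight (basisModTorsion K).equivFun.toAddEquiv).trans
    (MulEquiv.funMultiplicative (Fin (rank K)) ℤ)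

/-- **Dirichlet's unit theorem modulo `n`-th powers**:
`[(𝓞 K)ˣ : (𝓞 K)ˣⁿ] = gcd(w_K, n) * n ^ rank`. -/
theorem powIndex_units (n : ℕ) [NeZero n] :
    powIndex (𝓞 K)ˣ n = (torsionOrder K).gcd n * n ^ rank K := by
  have htf : ∀ x : (𝓞 K)ˣ ⧸ torsion K, x ^ n = 1 → x = 1 := by
    intro x hx
    have h := congrArg (modTorsionEquiv K) hx
    rw [map_pow, map_one] at h
    apply (modTorsionEquiv K).injective
    rw [map_one]
    exact pi_multiplicative_int_pow_eq_one (NeZero.ne n) h
  rw [powIndex_eq_mul (QuotientGroup.mk' (torsion K)) n htf]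
  congr 1
  · rw [powIndex_congr (MulEquiv.subgroupCongr (QuotientGroup.ker_mk' (torsion K)))]
    unfold powIndex
    rw [IsCyclic.index_powMonoidHom_range]
    rfl
  · rw [powIndex_congr ((MulEquiv.subgroupCongr (MonoidHom.range_eq_top.2
        (QuotientGroup.mk'_surjective (torsion K)))).trans Subgroup.topEquiv),
      powIndex_congr (modTorsionEquiv K), powIndex_pi_multiplicative_int, Nat.card_fin]

end Units

section SUnit

open IsDedekindDomain

open scoped nonZeroDivisors

variable {R : Type*} [CommRing R] [IsDedekindDomain R] (K : Type*) [Field K] [Algebra R K]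
  [IsFractionRing R K] (S : Set (HeightOneSpectrum R))

/-- The valuation map on `S`-units: `x ↦ (v(x))_{v ∈ S}`. -/
noncomputable def sVal : S.unit K →* (S → Multiplicative ℤ) :=
  (MonoidHom.pi fun v : S => (v.1.valuationOfNeZero : Kˣ →* Multiplicative ℤ)).comp
    (S.unit K).subtype

theorem sVal_apply (x : S.unit K) (v : S) :
    sVal K S x v = v.1.valuationOfNeZero (x : Kˣ) := rfl

theorem units_map_mem_unit (x : Rˣ) :
    Units.map (algebraMap R K : R →* K) x ∈ S.unit K := by
  intro v _
  rw [← HeightOneSpectrum.valuationOfNeZero_eq, HeightOneSpectrum.valuation_of_unit_eq]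
  rfl

/-- Units of `R` as `S`-units. -/
noncomputable def unitsToSUnit : Rˣ →* S.unit K :=
  (Units.map (algebraMap R K : R →* K)).codRestrict (S.unit K) (units_map_mem_unit K S)

theorem unitsToSUnit_apply (x : Rˣ) :
    ((unitsToSUnit K S x : S.unit K) : Kˣ) = Units.map (algebraMap R K : R →* K) x := rfl

theorem unitsToSUnit_injective : Function.Injective (unitsToSUnit K S) := by
  intro x y h
  have h1 : Units.map (algebraMap R K : R →* K) x = Units.map (algebraMap R K : R →* K) y :=
    congrArg Subtype.val h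
  have h2 : algebraMap R K x = algebraMap R K y := congrArg Units.val h1
  exact Units.ext (IsFractionRing.injective R K h2)

theorem valuation_eq_one_of_mem_ker {x : S.unit K} (hx : x ∈ (sVal K S).ker)
    (v : HeightOneSpectrum R) : v.valuation K ((x : Kˣ) : K) = 1 := by
  by_cases hv : v ∈ S
  · have h1 : v.valuationOfNeZero (x : Kˣ) = 1 := congrFun hx ⟨v, hv⟩
    rw [← HeightOneSpectrum.valuationOfNeZero_eq, h1]; rfl
  · exact x.2 v hv

theorem range_unitsToSUnit : (unitsToSUnit K S).range = (sVal K S).ker := by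
  ext x
  constructor
  · rintro ⟨u, rfl⟩
    rw [MonoidHom.mem_ker]
    funext v
    rw [sVal_apply, unitsToSUnit_apply, HeightOneSpectrum.valuation_of_unit_eq]
    rfl
  · intro hx
    have hx1 := valuation_eq_one_of_mem_ker K S hx
    have hx2 := valuation_eq_one_of_mem_ker K S (inv_mem hx)
    obtain ⟨a, ha⟩ := HeightOneSpectrum.mem_integers_of_valuation_le_one K ((x : Kˣ) : K)
      (fun v => (hx1 v).le)
    obtain ⟨b, hb⟩ := HeightOneSpectrum.mem_integers_of_valuation_le_one K
      (((x⁻¹ : S.unit K) : Kˣ) : K) (fun v => (hx2 v).le)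
    have hab : a * b = 1 := by
      apply IsFractionRing.injective R K
      rw [map_mul, ha, hb, map_one]
      simp
    refine ⟨⟨a, b, hab, by rw [mul_comm]; exact hab⟩, ?_⟩
    apply Subtype.ext
    apply Units.ext
    exact ha

/-- The kernel of the valuation map on `S`-units is the unit group of `R`. -/
noncomputable def unitsEquivKer : Rˣ ≃* (sVal K S).ker :=
  (MonoidHom.ofInjective (unitsToSUnit_injective K S)).trans
    (MulEquiv.subgroupCongr (range_unitsToSUnit K S))

theorem exists_sUnit_mulSingle [Finite (ClassGroup R)] [DecidableEq S] (v : S) :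
    ∃ (x : S.unit K) (m : Multiplicative ℤ), m ≠ 1 ∧ sVal K S x = Pi.mulSingle v m := by
  obtain ⟨v, hvS⟩ := v
  have hI : v.asIdeal ∈ (Ideal R)⁰ := mem_nonZeroDivisors_of_ne_zero v.ne_bot
  set h : ℕ := Nat.card (ClassGroup R) with hh
  have hpos : h ≠ 0 := Nat.card_pos.ne'
  have h1 : ClassGroup.mk0 (⟨v.asIdeal, hI⟩ ^ h) = 1 := by
    rw [map_pow, hh]; exact pow_card_eq_one'
  have h2 : (⟨v.asIdeal, hI⟩ ^ h : (Ideal R)⁰) = ⟨v.asIdeal ^ h, pow_mem hI h⟩ := rfl
  rw [h2, ClassGroup.mk0_eq_one_iff] at h1
  obtain ⟨a, ha⟩ := h1.principal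
  have ha' : v.asIdeal ^ h = Ideal.span {a} := ha
  have ha0 : a ≠ 0 := by
    rintro rfl
    rw [Ideal.span_singleton_zero] at ha'
    exact pow_ne_zero h v.ne_bot ha'
  have hav : a ∈ v.asIdeal :=
    Ideal.pow_le_self hpos (ha' ▸ Ideal.mem_span_singleton_self a)
  have hw : ∀ w : HeightOneSpectrum R, w ≠ v → a ∉ w.asIdeal := by
    intro w hwv haw
    have hle : v.asIdeal ^ h ≤ w.asIdeal := by
      rw [ha', Ideal.span_singleton_le_iff_mem]; exact haw
    have hle' : v.asIdeal ≤ w.asIdeal := Ideal.IsPrime.le_of_pow_le hle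
    exact hwv (HeightOneSpectrum.ext (v.isMaximal.eq_of_le w.isPrime.ne_top hle')).symm
  have hK0 : algebraMap R K a ≠ 0 := by
    rw [Ne, map_eq_zero_iff _ (IsFractionRing.injective R K)]; exact ha0
  have hval : ∀ w : HeightOneSpectrum R,
      ((w.valuationOfNeZero (Units.mk0 (algebraMap R K a) hK0) : Multiplicative ℤ) : WithZero (Multiplicative ℤ)) =
        w.valuation K (algebraMap R K a) := fun w => by
    rw [HeightOneSpectrum.valuationOfNeZero_eq]; rfl
  have hval1 : ∀ w : HeightOneSpectrum R, w ≠ v →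
      w.valuationOfNeZero (Units.mk0 (algebraMap R K a) hK0) = 1 := fun w hwv => by
    rw [← WithZero.coe_inj, hval, (HeightOneSpectrum.valuation_eq_one_iff_notMem w).2 (hw w hwv)]; rfl
  have hmem : Units.mk0 (algebraMap R K a) hK0 ∈ S.unit K := by
    intro w hwS
    have hwv : w ≠ v := fun h => hwS (h ▸ hvS)
    exact (HeightOneSpectrum.valuation_eq_one_iff_notMem w).2 (hw w hwv)
  refine ⟨⟨_, hmem⟩, v.valuationOfNeZero (Units.mk0 (algebraMap R K a) hK0), ?_, ?_⟩
  · intro h1
    have := hval v
    rw [h1] at this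
    have hlt := (HeightOneSpectrum.valuation_lt_one_iff_mem (K := K) v a).2 hav
    rw [← this] at hlt
    exact lt_irrefl _ hlt
  · funext w
    rw [sVal_apply]
    by_cases hwv : w = ⟨v, hvS⟩
    · subst hwv
      rw [Pi.mulSingle_eq_same]
    · rw [Pi.mulSingle_eq_of_ne hwv]
      exact hval1 w.1 (fun h => hwv (Subtype.ext h))

theorem sVal_range_index_ne_zero [Finite S] [Finite (ClassGroup R)] :
    (sVal K S).range.index ≠ 0 := by
  classical
  have := Fintype.ofFinite S
  choose x m hm hx using exists_sUnit_mulSingle K S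
  set M : ℕ := ∏ v, (Multiplicative.toAdd (m v)).natAbs with hM
  have hM0 : M ≠ 0 := by
    rw [hM, Finset.prod_ne_zero_iff]
    intro v _
    rw [Int.natAbs_ne_zero]
    intro h0
    exact hm v (Multiplicative.toAdd.injective h0)
  have : NeZero M := ⟨hM0⟩
  have hle : (powMonoidHom M : (S → Multiplicative ℤ) →* (S → Multiplicative ℤ)).range ≤
      (sVal K S).range := by
    rintro _ ⟨y, rfl⟩
    have hk : ∀ v, ∃ k : ℤ, (y v) ^ M = (m v) ^ k := by
      intro v
      have hdvd : (Multiplicative.toAdd (m v)).natAbs ∣ M :=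
        Finset.dvd_prod_of_mem _ (Finset.mem_univ v)
      have hdvd' : Multiplicative.toAdd (m v) ∣ (M : ℤ) := Int.natAbs_dvd_natAbs.1 (by simpa using hdvd)
      obtain ⟨c, hc⟩ := hdvd'
      refine ⟨c * Multiplicative.toAdd (y v), ?_⟩
      apply Multiplicative.toAdd.injective
      rw [toAdd_pow, toAdd_zpow, nsmul_eq_mul, smul_eq_mul, hc]
      ring
    choose k hk using hk
    refine ⟨∏ v, (x v) ^ (k v), ?_⟩
    rw [map_prod]
    funext w
    rw [Finset.prod_apply, powMonoidHom_apply, Pi.pow_apply, Finset.prod_eq_single w]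
    · rw [map_zpow, hx, Pi.pow_apply, Pi.mulSingle_eq_same, hk]
    · intro v _ hvw
      rw [map_zpow, hx, Pi.pow_apply, Pi.mulSingle_eq_of_ne hvw.symm, one_zpow]
    · intro h; exact absurd (Finset.mem_univ w) h
  have hdvd := Subgroup.index_dvd_of_le hle
  have hidx : (powMonoidHom M : (S → Multiplicative ℤ) →* (S → Multiplicative ℤ)).range.index =
      M ^ Nat.card S := powIndex_pi_multiplicative_int S M
  rw [hidx] at hdvd
  intro h0
  rw [h0] at hdvd
  exact pow_ne_zero _ hM0 (Nat.eq_zero_of_zero_dvd hdvd)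

/-- **S-unit theorem modulo `n`-th powers**, general Dedekind form:
`[O_S^× : O_S^×ⁿ] = [R^× : R^×ⁿ] * n ^ |S|` when the class group of `R` is finite. -/
theorem powIndex_sUnit_eq [Finite S] [Finite (ClassGroup R)] (n : ℕ) [NeZero n] :
    powIndex (S.unit K) n = powIndex Rˣ n * n ^ Nat.card S := by
  rw [powIndex_eq_mul (sVal K S) n
      (fun x hx => pi_multiplicative_int_pow_eq_one (NeZero.ne n) hx),
    ← powIndex_congr (unitsEquivKer K S) n,
    powIndex_subgroup_of_index_ne_zero _ n
      (pi_multiplicative_int_pow_injective S (NeZero.ne n)) (sVal_range_index_ne_zero K S),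
    powIndex_pi_multiplicative_int]

end SUnit

section NumberFieldSUnit

open NumberField NumberField.Units IsDedekindDomain

variable (K : Type*) [Field K] [NumberField K] (S : Set (HeightOneSpectrum (𝓞 K)))

/-- **Dirichlet's S-unit theorem modulo `n`-th powers**:
`[O_S^× : O_S^×ⁿ] = gcd(w_K, n) * n ^ (rank + |S|)`. -/
theorem powIndex_sUnit [Finite S] (n : ℕ) [NeZero n] :
    powIndex (S.unit K) n = (torsionOrder K).gcd n * n ^ (rank K + Nat.card S) := by
  rw [powIndex_sUnit_eq K S n, powIndex_units K n, pow_add, mul_assoc]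

end NumberFieldSUnit


section NumberFieldSUnitCor

open NumberField NumberField.Units IsDedekindDomain

variable (K : Type*) [Field K] [NumberField K] (S : Set (HeightOneSpectrum (𝓞 K)))

/-- When `K` contains a primitive `p`-th root of unity (`p` prime):
`[O_S^× : O_S^×ᵖ] = p ^ (rank + |S| + 1)`. -/
theorem powIndex_sUnit_of_isPrimitiveRoot [Finite S] {p : ℕ} (hp : p.Prime) {ζ : K}
    (hζ : IsPrimitiveRoot ζ p) :
    powIndex (S.unit K) p = p ^ (rank K + Nat.card S + 1) := by
  have : NeZero p := ⟨hp.ne_zero⟩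
  rw [powIndex_sUnit K S p, Nat.gcd_eq_right (dvd_torsionOrder_of_isPrimitiveRoot hζ), pow_succ,
    mul_comm]

/-- When `p` is prime and does not divide the number of roots of unity of `K`:
`[O_S^× : O_S^×ᵖ] = p ^ (rank + |S|)`. -/
theorem powIndex_sUnit_of_not_dvd [Finite S] {p : ℕ} (hp : p.Prime)
    (hndvd : ¬ p ∣ torsionOrder K) :
    powIndex (S.unit K) p = p ^ (rank K + Nat.card S) := by
  have : NeZero p := ⟨hp.ne_zero⟩
  rw [powIndex_sUnit K S p, Nat.Coprime.gcd_eq_one
    ((Nat.Prime.coprime_iff_not_dvd hp).2 hndvd).symm, one_mul]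

/-- Cardinality form of the `S`-unit theorem modulo `n`-th powers. -/
theorem card_sUnit_quotient [Finite S] (n : ℕ) [NeZero n] :
    Nat.card (S.unit K ⧸ (powMonoidHom n : S.unit K →* S.unit K).range) =
      (torsionOrder K).gcd n * n ^ (rank K + Nat.card S) := by
  rw [← powIndex_eq_card, powIndex_sUnit]

theorem powIndex_sUnit_ne_zero [Finite S] (n : ℕ) [NeZero n] : powIndex (S.unit K) n ≠ 0 := by
  rw [powIndex_sUnit]
  exact mul_ne_zero (Nat.gcd_pos_of_pos_right _ (NeZero.pos n)).ne' (pow_ne_zero _ (NeZero.ne n))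

/-- `O_S^× / O_S^×ⁿ` is finite. -/
theorem finite_sUnit_quotient [Finite S] (n : ℕ) [NeZero n] :
    Finite (S.unit K ⧸ (powMonoidHom n : S.unit K →* S.unit K).range) :=
  Nat.finite_of_card_ne_zero (by rw [← powIndex_eq_card]; exact powIndex_sUnit_ne_zero K S n)

end NumberFieldSUnitCor

end Fermat.Agent.CFT.Global.SUnit
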