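import Mathlib
import Fermat.Agent.CFT.Global.PowIndex

/-!
# Dirichlet's `S`-unit theorem modulo `n`-th powers

For a Dedekind domain `R` with fraction field `K`, finite class group, and a finite set `S` of
height-one primes, the valuation sequence `1 → Rˣ → S.unit K → ℤ^S` has image of finite index, hence

`[O_S^× : (O_S^×)^n] = [Rˣ : (Rˣ)^n] * n ^ #S`   (`pIdx_sUnit`).

For a number field `K` (Dirichlet's unit theorem):

`[O_S^× : (O_S^×)^n] = gcd (#μ(K), n) * n ^ (rank K + #S)`   (`pIdx_sUnit_numberField`),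

and `= n ^ (#S + #{infinite places})` if `K` contains a primitive `n`-th root of unity.

Here `pIdx G n = (powMonoidHom n : G →* G).range.index` (see `PowIndex.lean`).
(helper167, program CFT)
-/

set_option autoImplicit false

namespace Fermat.Agent.CFT.Global.SUnits

open IsDedekindDomain Function
open Fermat.Agent.CFT.Global.PowIndex

/-! ### `ℤ^ι` written multiplicatively -/

section Fun

lemma pow_eq_one_mult {M : Type*} [AddCommGroup M] [IsAddTorsionFree M] {n : ℕ} (hn : n ≠ 0)
    (c : Multiplicative M) (hc : c ^ n = 1) : c = 1 := by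
  have h : n • Multiplicative.toAdd c = n • (0 : M) := by
    rw [nsmul_zero]
    exact congrArg Multiplicative.toAdd hc
  have h' : Multiplicative.toAdd c = (0 : M) := nsmul_right_injective hn h
  exact h'

lemma pow_eq_one_fun_int {ι : Type*} {n : ℕ} (hn : n ≠ 0) (c : ι → Multiplicative ℤ)
    (hc : c ^ n = 1) : c = 1 := by
  funext i
  exact pow_eq_one_mult hn (c i) (congrFun hc i)

theorem pIdx_fun_int (ι : Type*) [Finite ι] (n : ℕ) [NeZero n] :
    pIdx (ι → Multiplicative ℤ) n = n ^ Nat.card ι := by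
  rw [← pIdx_congr (MulEquiv.funMultiplicative ι ℤ) n, pIdx_pi_int]

end Fun

/-! ### the valuation sequence of a Dedekind domain -/

section Dedekind

variable {R : Type*} [CommRing R] [IsDedekindDomain R] (K : Type*) [Field K] [Algebra R K]
  [IsFractionRing R K]

/-- the `v`-adic order of a unit of `K`, as a homomorphism to `Multiplicative ℤ`
(the valuation without its zero) -/
noncomputable def ordU (v : HeightOneSpectrum R) : Kˣ →* Multiplicative ℤ :=
  (WithZero.unitsWithZeroEquiv (α := Multiplicative ℤ)).toMonoidHom.comp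
    (Units.map (v.valuation K).toMonoidWithZeroHom.toMonoidHom)

lemma coe_ordU (v : HeightOneSpectrum R) (x : Kˣ) :
    ((ordU K v x : Multiplicative ℤ) : WithZero (Multiplicative ℤ)) = v.valuation K (x : K) := by
  unfold ordU
  simp only [MonoidHom.coe_comp, MulEquiv.toMonoidHom_eq_coe, MonoidHom.coe_coe, comp_apply,
    WithZero.coe_unitsWithZeroEquiv_eq_units_val, Units.coe_map]
  rfl

lemma ordU_eq_one_iff (v : HeightOneSpectrum R) (x : Kˣ) :
    ordU K v x = 1 ↔ v.valuation K (x : K) = 1 := by
  rw [← coe_ordU, ← WithZero.coe_one, WithZero.coe_inj]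

lemma ordU_eq_iff (v : HeightOneSpectrum R) (x : Kˣ) (m : ℤ) :
    ordU K v x = Multiplicative.ofAdd m ↔ v.valuation K (x : K) = WithZero.exp m := by
  rw [← coe_ordU, WithZero.exp, WithZero.coe_inj]

lemma valuation_units_eq_one (v : HeightOneSpectrum R) (u : Rˣ) :
    v.valuation K (algebraMap R K u) = 1 := by
  rw [HeightOneSpectrum.valuation_eq_one_iff_notMem]
  intro hu
  exact v.isPrime.ne_top (Ideal.eq_top_of_isUnit_mem _ hu u.isUnit)

variable (S : Set (HeightOneSpectrum R))

/-- the orders of an `S`-unit at the places of `S` -/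
noncomputable def ordS : S.unit K →* (S → Multiplicative ℤ) :=
  (MonoidHom.pi fun v : S => ordU K v.1).comp (S.unit K).subtype

lemma ordS_apply (x : S.unit K) (v : S) : ordS K S x v = ordU K v.1 (x : Kˣ) := rfl

/-- the units of `R` inside the `S`-units -/
noncomputable def unitsToSUnit : Rˣ →* S.unit K :=
  (Units.map (algebraMap R K).toMonoidHom).codRestrict (S.unit K)
    (fun u v _ => valuation_units_eq_one K v u)

lemma coe_unitsToSUnit (u : Rˣ) : (((unitsToSUnit K S u : S.unit K) : Kˣ) : K) = algebraMap R K u :=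
  rfl

lemma unitsToSUnit_injective : Injective (unitsToSUnit K S) := by
  intro u u' h
  have h' : algebraMap R K u = algebraMap R K u' := by
    rw [← coe_unitsToSUnit K S, ← coe_unitsToSUnit K S, h]
  exact Units.ext (IsFractionRing.injective R K h')

lemma range_unitsToSUnit : (unitsToSUnit K S).range = (ordS K S).ker := by
  ext x
  constructor
  · rintro ⟨u, rfl⟩
    rw [MonoidHom.mem_ker]
    funext v
    rw [ordS_apply, Pi.one_apply, ordU_eq_one_iff, coe_unitsToSUnit]
    exact valuation_units_eq_one K v.1 u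
  · intro hker
    have h1 : ∀ v : HeightOneSpectrum R, v.valuation K ((x : Kˣ) : K) = 1 := by
      intro v
      by_cases hv : v ∈ S
      · have h := congrFun (MonoidHom.mem_ker.mp hker) ⟨v, hv⟩
        rw [ordS_apply, Pi.one_apply] at h
        exact (ordU_eq_one_iff K v x).mp h
      · exact x.2 v hv
    obtain ⟨a, ha⟩ := HeightOneSpectrum.mem_integers_of_valuation_le_one K ((x : Kˣ) : K)
      (fun v => (h1 v).le)
    obtain ⟨b, hb⟩ := HeightOneSpectrum.mem_integers_of_valuation_le_one K (((x : Kˣ)⁻¹ : Kˣ) : K)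
      (fun v => by rw [Units.val_inv_eq_inv_val, map_inv₀, h1 v, inv_one])
    have hab : a * b = 1 := by
      apply IsFractionRing.injective R K
      rw [map_mul, ha, hb, map_one, Units.mul_inv]
    refine ⟨⟨a, b, hab, by rw [mul_comm]; exact hab⟩, ?_⟩
    apply Subtype.ext
    apply Units.ext
    exact ha

/-- the kernel of the valuation map is the unit group of `R` -/
noncomputable def kerEquiv : Rˣ ≃* (ordS K S).ker :=
  (MonoidHom.ofInjective (unitsToSUnit_injective K S)).trans
    (MulEquiv.subgroupCongr (range_unitsToSUnit K S))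

section ClassGroup

variable [Finite (ClassGroup R)]

omit [Finite (ClassGroup R)] in
lemma exists_span_eq_pow (v : HeightOneSpectrum R) {h : ℕ} (hh : ∀ c : ClassGroup R, c ^ h = 1) :
    ∃ a : R, a ≠ 0 ∧ Ideal.span {a} = v.asIdeal ^ h := by
  have hv0 : v.asIdeal ∈ nonZeroDivisors (Ideal R) := mem_nonZeroDivisors_of_ne_zero v.ne_bot
  have hpow : ClassGroup.mk0 ((⟨v.asIdeal, hv0⟩ : nonZeroDivisors (Ideal R)) ^ h) = 1 := by
    rw [map_pow]
    exact hh _
  have hmem : v.asIdeal ^ h ∈ nonZeroDivisors (Ideal R) :=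
    ((⟨v.asIdeal, hv0⟩ : nonZeroDivisors (Ideal R)) ^ h).2
  have hprin : (v.asIdeal ^ h).IsPrincipal := (ClassGroup.mk0_eq_one_iff hmem).mp hpow
  obtain ⟨a, ha⟩ := hprin.principal
  refine ⟨a, ?_, ha.symm⟩
  rintro rfl
  have h0 : v.asIdeal ^ h = ⊥ := by
    rw [ha]
    simp
  exact v.ne_bot (pow_eq_zero_iff (n := h) (by
    rintro rfl
    rw [pow_zero, Ideal.one_eq_top] at h0
    exact top_ne_bot h0) |>.mp h0)

omit [Finite (ClassGroup R)] in
lemma valuation_of_span_eq_pow_of_ne {v w : HeightOneSpectrum R} {a : R} {h : ℕ}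
    (ha : Ideal.span {a} = v.asIdeal ^ h) (hw : w ≠ v) :
    w.valuation K (algebraMap R K a) = 1 := by
  rw [HeightOneSpectrum.valuation_eq_one_iff_notMem]
  intro hmem
  have h1 : v.asIdeal ^ h ≤ w.asIdeal := by
    rw [← ha, Ideal.span_singleton_le_iff_mem]
    exact hmem
  have h2 : v.asIdeal ≤ w.asIdeal := w.isPrime.le_of_pow_le h1
  have h3 : v.asIdeal = w.asIdeal := v.isMaximal.eq_of_le w.isPrime.ne_top h2
  exact hw (HeightOneSpectrum.ext h3.symm)

omit [Finite (ClassGroup R)] in
lemma valuation_of_span_eq_pow_self {v : HeightOneSpectrum R} {a : R} {h : ℕ} (ha0 : a ≠ 0)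
    (ha : Ideal.span {a} = v.asIdeal ^ h) :
    v.valuation K (algebraMap R K a) = WithZero.exp (-(h : ℤ)) := by
  rw [HeightOneSpectrum.valuation_of_algebraMap, v.intValuation_eq_exp_neg_multiplicity ha0, ha,
    multiplicity_pow_self v.ne_bot (fun hu => v.isPrime.ne_top (Ideal.isUnit_iff.mp hu))]

omit [Finite (ClassGroup R)] in
/-- the `h`-th power of every vector of orders is the order vector of an `S`-unit, if `h` kills the
class group -/
lemma pow_mem_range_ordS [Finite S] {h : ℕ} (hh : ∀ c : ClassGroup R, c ^ h = 1)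
    (c : S → Multiplicative ℤ) : c ^ h ∈ (ordS K S).range := by
  classical
  have key : ∀ (v : S) (g : Multiplicative ℤ),
      Pi.mulSingle v g ∈ ((ordS K S).range).comap (powMonoidHom h) := by
    intro v g
    obtain ⟨a, ha0, ha⟩ := exists_span_eq_pow v.1 hh
    have hane : algebraMap R K a ≠ 0 := by
      rw [Ne, map_eq_zero_iff _ (IsFractionRing.injective R K)]
      exact ha0
    let x : S.unit K := ⟨Units.mk0 (algebraMap R K a) hane, fun w hw => by
      have hwv : w ≠ v.1 := fun e => hw (e ▸ v.2)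
      exact valuation_of_span_eq_pow_of_ne K ha hwv⟩
    have hx : ordS K S x = Pi.mulSingle v (Multiplicative.ofAdd (-(h : ℤ))) := by
      funext w
      rw [ordS_apply]
      by_cases hwv : w = v
      · subst hwv
        rw [Pi.mulSingle_eq_same, ordU_eq_iff]
        exact valuation_of_span_eq_pow_self K ha0 ha
      · rw [Pi.mulSingle_eq_of_ne hwv, ordU_eq_one_iff]
        exact valuation_of_span_eq_pow_of_ne K ha (fun e => hwv (Subtype.ext e))
    rw [Subgroup.mem_comap, powMonoidHom_apply]
    have e : Pi.mulSingle v g ^ h = (ordS K S x) ^ (-(Multiplicative.toAdd g) : ℤ) := by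
      rw [hx, ← Pi.mulSingle_zpow, ← Pi.mulSingle_pow]
      congr 1
      apply Multiplicative.toAdd.injective
      rw [toAdd_pow, toAdd_zpow, toAdd_ofAdd]
      simp only [smul_eq_mul, nsmul_eq_mul, mul_neg, neg_mul, neg_neg]
      ring
    rw [e]
    exact Subgroup.zpow_mem _ (MonoidHom.mem_range.mpr ⟨x, rfl⟩) _
  have hc := Subgroup.pi_mem_of_mulSingle_mem (H := ((ordS K S).range).comap (powMonoidHom h)) c
    (fun v => key v (c v))
  exact hc

/-- the order vectors of `S`-units form a subgroup of finite index of `ℤ^S` -/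
lemma index_range_ordS_ne_zero [Finite S] : (ordS K S).range.index ≠ 0 := by
  have hh : ∀ c : ClassGroup R, c ^ Nat.card (ClassGroup R) = 1 := fun c => pow_card_eq_one'
  have : NeZero (Nat.card (ClassGroup R)) := ⟨Nat.card_pos.ne'⟩
  have hle : (powMonoidHom (Nat.card (ClassGroup R)) :
      (S → Multiplicative ℤ) →* (S → Multiplicative ℤ)).range ≤ (ordS K S).range := by
    rintro _ ⟨c, rfl⟩
    exact pow_mem_range_ordS K S hh c
  have hdvd := Subgroup.index_dvd_of_le hle
  have hidx : (powMonoidHom (Nat.card (ClassGroup R)) :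
      (S → Multiplicative ℤ) →* (S → Multiplicative ℤ)).range.index
        = Nat.card (ClassGroup R) ^ Nat.card S := pIdx_fun_int S (Nat.card (ClassGroup R))
  intro h0
  rw [h0, hidx, zero_dvd_iff] at hdvd
  exact (pow_ne_zero _ (NeZero.ne _)) hdvd

/-- **`S`-unit theorem modulo `n`-th powers**, Dedekind form -/
theorem pIdx_sUnit [Finite S] (n : ℕ) [NeZero n] :
    pIdx (S.unit K) n = pIdx Rˣ n * n ^ Nat.card S := by
  rw [pIdx_of_hom (ordS K S) n (pow_eq_one_fun_int (NeZero.ne n)),
    ← pIdx_congr (kerEquiv K S) n,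
    pIdx_subgroup_of_finiteIndex _ (index_range_ordS_ne_zero K S) n
      (pow_eq_one_fun_int (NeZero.ne n)),
    pIdx_fun_int]

end ClassGroup

end Dedekind

/-! ### number fields -/

section NumberField

open NumberField NumberField.Units

variable (K : Type*) [Field K] [NumberField K]

/-- the free part of the unit group, via a fundamental system of units -/
noncomputable def fundHom : Multiplicative (Fin (rank K) → ℤ) →* (𝓞 K)ˣ where
  toFun f := ∏ i, fundSystem K i ^ (Multiplicative.toAdd f i)
  map_one' := by simp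
  map_mul' f g := by
    rw [← Finset.prod_mul_distrib]
    refine Finset.prod_congr rfl fun i _ => ?_
    rw [toAdd_mul, Pi.add_apply, zpow_add]

lemma unitsHom_bijective :
    Bijective (MonoidHom.coprod (torsion K).subtype (fundHom K)) := by
  constructor
  · rintro ⟨ζ, f⟩ ⟨ζ', f'⟩ h
    obtain ⟨c, _, huniq⟩ := exist_unique_eq_mul_prod K ((ζ : (𝓞 K)ˣ) * fundHom K f)
    have h1 := huniq (ζ, Multiplicative.toAdd f) rfl
    have h2 := huniq (ζ', Multiplicative.toAdd f') h
    have h3 : (ζ, Multiplicative.toAdd f) = (ζ', Multiplicative.toAdd f') := h1.trans h2.symm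
    rw [Prod.mk.injEq] at h3
    exact Prod.ext h3.1 (Multiplicative.toAdd.injective h3.2)
  · intro x
    obtain ⟨⟨ζ, e⟩, hx, _⟩ := exist_unique_eq_mul_prod K x
    exact ⟨(ζ, Multiplicative.ofAdd e), hx.symm⟩

/-- Dirichlet's unit theorem as an isomorphism `μ(K) × ℤ^rank ≃ (𝓞 K)ˣ` -/
noncomputable def unitsEquiv : (torsion K × Multiplicative (Fin (rank K) → ℤ)) ≃* (𝓞 K)ˣ :=
  MulEquiv.ofBijective _ (unitsHom_bijective K)

/-- Dirichlet's unit theorem modulo `n`-th powers -/
theorem pIdx_units (n : ℕ) [NeZero n] :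
    pIdx (𝓞 K)ˣ n = (torsionOrder K).gcd n * n ^ rank K := by
  rw [← pIdx_congr (unitsEquiv K) n, pIdx_prod, pIdx_pi_int, Nat.card_fin]
  congr 1
  exact IsCyclic.index_powMonoidHom_range (torsion K) n

/-- **Dirichlet's `S`-unit theorem modulo `n`-th powers** -/
theorem pIdx_sUnit_numberField (S : Set (HeightOneSpectrum (𝓞 K))) [Finite S] (n : ℕ) [NeZero n] :
    pIdx (S.unit K) n = (torsionOrder K).gcd n * n ^ (rank K + Nat.card S) := by
  rw [pIdx_sUnit K S n, pIdx_units K n, mul_assoc, ← pow_add]

/-- if `K` contains a primitive `n`-th root of unity: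
`[O_S^× : (O_S^×)^n] = n ^ (#S + #{infinite places})` -/
theorem pIdx_sUnit_of_isPrimitiveRoot (S : Set (HeightOneSpectrum (𝓞 K))) [Finite S] (n : ℕ)
    [NeZero n] {ζ : K} (hζ : IsPrimitiveRoot ζ n) :
    pIdx (S.unit K) n = n ^ (Nat.card S + Fintype.card (InfinitePlace K)) := by
  have hgcd : (torsionOrder K).gcd n = n :=
    Nat.gcd_eq_right (dvd_torsionOrder_of_isPrimitiveRoot hζ)
  have hpos : 0 < Fintype.card (InfinitePlace K) := Fintype.card_pos
  rw [pIdx_sUnit_numberField, hgcd, ← pow_succ']
  congr 1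
  unfold NumberField.Units.rank
  omega

end NumberField

end Fermat.Agent.CFT.Global.SUnits
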