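/-
PROGRAM CFT (helper187).  Prime-degree form of the Herbrand quotient of `T`-units:
for `L/K` cyclic of prime degree `p` (no ramified infinite place) and `TL` a finite Galois-stable
set of primes of `L`,
`hq(σ-1, N) * p = p ^ #{w ∈ TL fixed by Gal} * hq(N, σ-1)`.
-/
import Mathlib
import Fermat.Agent.CFT.Global.TUnitsHerbrand
import Fermat.Agent.CFT.Global.PermPrime

set_option autoImplicit false

namespace Fermat.Agent.CFT.Global.TUnitsPrime

open NumberField IsDedekindDomain Fermat.Agent.Lib.Herbrand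
  Fermat.Agent.CFT.Global.PermHerbrand Fermat.Agent.CFT.Global.PermPrime
  Fermat.Agent.CFT.Global.GalPrime Fermat.Agent.CFT.Global.TUnitsHerbrand

set_option linter.unusedSectionVars false
set_option linter.style.haveILetI false

variable {K L : Type*} [Field K] [Field L] [NumberField L] [Algebra K L]
  {TL : Set (HeightOneSpectrum (𝓞 L))}

/-- Prime degree: the product of the stabilizer orders over the orbits of `TL` is
`p ^ #{w ∈ TL | τ(w) = w for all τ}`. -/
theorem prod_kap_primes [FiniteDimensional K L] [Fintype TL] (h : GalStable K L TL)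
    [Fintype (@MulAction.orbitRel.Quotient (L ≃ₐ[K] L) TL _ (primeAct h))] {p : ℕ}
    (hp : p.Prime) (hG : Fintype.card (L ≃ₐ[K] L) = p) :
    letI := primeAct h
    ∏ O : MulAction.orbitRel.Quotient (L ≃ₐ[K] L) TL, kap (L ≃ₐ[K] L) O.out =
      p ^ Nat.card {w : TL // ∀ τ : L ≃ₐ[K] L, galPrime τ (w : HeightOneSpectrum (𝓞 L)) = w} := by
  letI := primeAct h
  rw [prod_kap_eq_pow_card_fixed hp hG]
  congr 1
  refine Nat.card_congr (Equiv.subtypeEquivRight (fun w => ?_))
  refine forall_congr' (fun τ => ?_)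
  exact ⟨fun e => congrArg Subtype.val e, fun e => Subtype.ext e⟩

/-- **Herbrand quotient of `T`-units, prime degree, raw index form.** -/
theorem hq_tunits_prime [IsGalois K L] [FiniteDimensional K L] [Fintype TL] (h : GalStable K L TL)
    {s : L ≃ₐ[K] L} (hs : ∀ τ : L ≃ₐ[K] L, τ ∈ Subgroup.zpowers s)
    (hunr : ∀ w : InfinitePlace L, w.IsUnramified K) {p : ℕ}
    (hp : p.Prime) (hG : Fintype.card (L ≃ₐ[K] L) = p) :
    letI := tAct h
    hq (subOneHom (Additive (TL.unit L)) s) (normHom (L ≃ₐ[K] L) (Additive (TL.unit L))) ≠ 0 ∧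
    hq (normHom (L ≃ₐ[K] L) (Additive (TL.unit L))) (subOneHom (Additive (TL.unit L)) s) ≠ 0 ∧
    hq (subOneHom (Additive (TL.unit L)) s) (normHom (L ≃ₐ[K] L) (Additive (TL.unit L))) * p =
      p ^ Nat.card {w : TL // ∀ τ : L ≃ₐ[K] L, galPrime τ (w : HeightOneSpectrum (𝓞 L)) = w} *
        hq (normHom (L ≃ₐ[K] L) (Additive (TL.unit L))) (subOneHom (Additive (TL.unit L)) s) := by
  classical
  letI := tAct h
  letI := primeAct h
  haveI : Fintype (MulAction.orbitRel.Quotient (L ≃ₐ[K] L) TL) := Fintype.ofFinite _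
  obtain ⟨h1, h2, h3⟩ := hq_tunits h hs hunr
  refine ⟨h1, h2, ?_⟩
  rw [← prod_kap_primes h hp hG, ← hG]
  exact h3

end Fermat.Agent.CFT.Global.TUnitsPrime
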